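import Fermat.Agent.Forms3.ThreeSquaresRelation
import Fermat.Agent.Tau.FieldClassEquality
import Mathlib.NumberTheory.Harmonic.Bounds

/-!
# The size of `r₃(m)`

`r₃(m)` is at least a third of twelve times a class number, so by Siegel at least
`c(ε) m^(1/2-ε)` if `4 ∤ m` and `m ≢ 7 (mod 8)`; it is `O(√m (1 + log m)²)` for all `m`.
-/

set_option autoImplicit false

noncomputable section

namespace FA.HurwitzQ

open FA.Singular FA.ClassRelation

theorem weight_bounds (f : ℤ × ℤ × ℤ) : 1 / 3 ≤ weight f ∧ weight f ≤ 1 := by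
  unfold weight
  split_ifs <;> norm_num

theorem coe_primForms (N : ℕ) : (primForms N : Set (ℤ × ℤ × ℤ)) = Red (-(N : ℤ)) :=
  Set.ext fun _ => mem_primForms

theorem primClassNumber_bounds (N : ℕ) :
    ((Red (-(N : ℤ))).ncard : ℝ) / 3 ≤ (primClassNumber N : ℝ) ∧
      (primClassNumber N : ℝ) ≤ ((Red (-(N : ℤ))).ncard : ℝ) := by
  rw [← coe_primForms, Set.ncard_coe_finset, primClassNumber, Rat.cast_sum]
  have hb := fun f => (weight_bounds f)
  constructor
  · rw [div_eq_mul_one_div, ← nsmul_eq_mul]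
    refine Finset.card_nsmul_le_sum _ _ _ fun f _ => ?_
    have := (Rat.cast_le (K := ℝ)).2 (hb f).1
    simpa using this
  · rw [← nsmul_one]
    refine Finset.sum_le_card_nsmul _ _ _ fun f _ => ?_
    have := (Rat.cast_le (K := ℝ)).2 (hb f).2
    simpa using this

theorem primReps_subset (m : ℕ) : (primReps m).card ≤ (reps m).card :=
  Finset.card_filter_le _ _

/-- **The lower bound** (Siegel; ineffective). -/
theorem card_reps_lower (ε : ℝ) (hε : 0 < ε) :
    ∃ c : ℝ, 0 < c ∧ ∀ m : ℕ, m % 4 ≠ 0 → m % 8 ≠ 7 →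
      c * (m : ℝ) ^ (1 / 2 - ε) ≤ (reps m).card := by
  obtain ⟨C, hC, h⟩ := FA.SiegelDiscriminant.ncard_red_lower_bound ε hε
  refine ⟨4 * C * min ((4 : ℝ) ^ (1 / 2 - ε)) 1, by positivity, fun m h4 h8 => ?_⟩
  have hm : (0 : ℝ) < m := Nat.cast_pos.2 (by omega)
  have hpow : 0 ≤ (m : ℝ) ^ (1 / 2 - ε) := Real.rpow_nonneg hm.le _
  refine le_trans ?_ (Nat.cast_le.2 (primReps_subset m))
  rcases (show (m % 4 = 1 ∨ m % 4 = 2) ∨ m % 8 = 3 by omega) with hA | hB
  · have e := congrArg (fun q : ℚ => (q : ℝ)) (card_primReps_two hA)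
    push_cast at e
    have hb := (primClassNumber_bounds (4 * m)).1
    have hl := h (-((4 * m : ℕ) : ℤ)) (by omega) (by omega)
    rw [show |(((-((4 * m : ℕ) : ℤ)) : ℤ) : ℝ)| = 4 * (m : ℝ) by push_cast; simp,
      Real.mul_rpow (by norm_num) hm.le] at hl
    have hmin := mul_le_mul_of_nonneg_right (mul_le_mul_of_nonneg_left
      (min_le_left ((4 : ℝ) ^ (1 / 2 - ε)) 1) (by positivity : 0 ≤ 4 * C)) hpow
    rw [mul_assoc (4 * C)] at hmin
    nlinarith
  · have e := congrArg (fun q : ℚ => (q : ℝ)) (card_primReps_one hB)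
    push_cast at e
    have hb := (primClassNumber_bounds m).1
    have hl := h (-(m : ℤ)) (by omega) (by omega)
    rw [show |(((-(m : ℤ)) : ℤ) : ℝ)| = (m : ℝ) by simp] at hl
    have hmin := mul_le_mul_of_nonneg_right (mul_le_mul_of_nonneg_left
      (min_le_right ((4 : ℝ) ^ (1 / 2 - ε)) 1) (by positivity : 0 ≤ 4 * C)) hpow
    nlinarith

theorem sum_inv_sqDiv (m : ℕ) (hm : m ≠ 0) : ∑ f ∈ sqDiv m, (f : ℝ)⁻¹ ≤ 1 + Real.log m := by
  refine le_trans ?_ (harmonic_le_one_add_log m)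
  rw [harmonic_eq_sum_Icc]
  push_cast
  refine Finset.sum_le_sum_of_subset_of_nonneg (fun f hf => ?_) (fun f _ _ => by positivity)
  have h := (mem_sqDiv hm).1 hf
  have h0 : 0 < f := Nat.pos_of_ne_zero fun e => hm (by rw [e] at h; simpa using h)
  exact Finset.mem_Icc.2
    ⟨h0, (Nat.le_mul_self f).trans (Nat.le_of_dvd (Nat.pos_of_ne_zero hm) h)⟩

theorem primClassNumber_upper {N : ℕ} (hN : 0 < N) (h4 : N % 4 = 0 ∨ N % 4 = 3) {B : ℝ}
    (hB : (N : ℝ) ≤ B) :
    (primClassNumber N : ℝ) ≤ 6 * (√(N : ℝ) * (1 + Real.log (4 * B))) := by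
  have h := FA.FieldClassBound.ncard_red_upper_bound (D := -(N : ℤ)) (by omega) (by omega)
  rw [show |(((-(N : ℤ)) : ℤ) : ℝ)| = (N : ℝ) by simp] at h
  refine (primClassNumber_bounds N).2.trans (h.trans ?_)
  have hN' : (0 : ℝ) < N := Nat.cast_pos.2 hN
  have := Real.log_le_log (by positivity) (mul_le_mul_of_nonneg_left hB (by norm_num : (0:ℝ) ≤ 4))
  gcongr

/-- **The upper bound**, for every `m`. -/
theorem card_reps_upper : ∀ m : ℕ, 0 < m →
    ((reps m).card : ℝ) ≤ 576 * √(m : ℝ) * (1 + Real.log m) ^ 2 := by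
  intro m
  induction m using Nat.strong_induction_on with
  | _ m ih =>
  intro hm
  have hm1 : (1 : ℝ) ≤ m := by exact_mod_cast hm
  have hlog := Real.log_nonneg hm1
  by_cases h4 : m % 4 = 0
  · obtain ⟨k, rfl⟩ : 4 ∣ m := Nat.dvd_of_mod_eq_zero h4
    rw [card_reps_four]
    refine (ih k (by omega) (by omega)).trans ?_
    have hk : (1 : ℝ) ≤ k := by exact_mod_cast (show 1 ≤ k by omega)
    have := Real.log_nonneg hk
    have hle : (k : ℝ) ≤ ((4 * k : ℕ) : ℝ) := by exact_mod_cast (show k ≤ 4 * k by omega)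
    gcongr
  by_cases h7 : m % 8 = 7
  · rw [card_reps_seven h7, Nat.cast_zero]
    positivity
  have hl16 : 1 + Real.log (4 * (4 * (m : ℝ))) ≤ 4 * (1 + Real.log m) := by
    rw [← mul_assoc, Real.log_mul (by norm_num) (by positivity)]
    have h16 : Real.log (4 * 4) ≤ 3 := by
      rw [show (4 : ℝ) * 4 = 2 ^ 4 by norm_num, Real.log_pow]
      have := Real.log_two_lt_d9
      push_cast
      linarith
    linarith
  have hterm : ∀ f ∈ sqDiv m, ((primReps (m / (f * f))).card : ℝ) ≤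
      576 * √(m : ℝ) * (1 + Real.log m) * (f : ℝ)⁻¹ := fun f hf => by
    have hdvd := (mem_sqDiv hm.ne').1 hf
    have h8 := cofactor_mod_eight h4 hdvd
    have hmul := Nat.mul_div_cancel' hdvd
    set n := m / (f * f)
    have hf0 : (0 : ℝ) < f := Nat.cast_pos.2 (Nat.pos_of_ne_zero fun e => by
      rw [e, zero_mul, zero_mul] at hmul
      omega)
    have hnm : (n : ℝ) ≤ m := by
      exact_mod_cast Nat.le_of_dvd hm (Dvd.intro_left _ hmul)
    have hsqrt : √(n : ℝ) = √(m : ℝ) * (f : ℝ)⁻¹ := by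
      rw [← hmul]
      push_cast
      rw [Real.sqrt_mul (by positivity), Real.sqrt_mul_self hf0.le]
      field_simp
    have hnpos : 0 < n := Nat.pos_of_ne_zero fun e => by
      rw [e, mul_zero] at hmul
      omega
    rcases (show (n % 4 = 1 ∨ n % 4 = 2) ∨ n % 8 = 3 by omega) with hA | hB
    · have e := congrArg (fun q : ℚ => (q : ℝ)) (card_primReps_two hA)
      push_cast at e
      have h := primClassNumber_upper (N := 4 * n) (by omega) (by omega) (B := 4 * (m : ℝ))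
        (by push_cast; linarith)
      rw [Nat.cast_mul, Real.sqrt_mul (by norm_num), show √((4 : ℕ) : ℝ) = 2 by
        rw [show ((4 : ℕ) : ℝ) = 2 ^ 2 by norm_num, Real.sqrt_sq zero_le_two], hsqrt] at h
      rw [e]
      have hs : 0 ≤ √(m : ℝ) * (f : ℝ)⁻¹ := by positivity
      nlinarith [mul_le_mul_of_nonneg_left hl16 hs]
    · have e := congrArg (fun q : ℚ => (q : ℝ)) (card_primReps_one hB)
      push_cast at e
      have h := primClassNumber_upper (N := n) hnpos (by omega) (B := 4 * (m : ℝ)) (by linarith)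
      rw [hsqrt] at h
      rw [e]
      have hs : 0 ≤ √(m : ℝ) * (f : ℝ)⁻¹ := by positivity
      nlinarith [mul_le_mul_of_nonneg_left hl16 hs]
  rw [card_reps hm.ne', Nat.cast_sum]
  refine (Finset.sum_le_sum hterm).trans ?_
  rw [← Finset.mul_sum, pow_two, ← mul_assoc]
  exact mul_le_mul_of_nonneg_left (sum_inv_sqDiv m hm.ne') (by positivity)

/-- A power bound. -/
theorem card_reps_upper_rpow (ε : ℝ) (hε : 0 < ε) :
    ∃ C : ℝ, 0 < C ∧ ∀ m : ℕ, 0 < m → ((reps m).card : ℝ) ≤ C * (m : ℝ) ^ (1 / 2 + ε) := by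
  refine ⟨576 * (1 + 1 / (ε / 2)) ^ 2, by positivity, fun m hm => ?_⟩
  have hm0 : (0 : ℝ) < m := Nat.cast_pos.2 hm
  have hm1 : (1 : ℝ) ≤ m := by exact_mod_cast hm
  have hlog := Real.log_nonneg hm1
  have hδ : 0 < ε / 2 := by linarith
  have h1 : 1 + Real.log m ≤ (1 + 1 / (ε / 2)) * (m : ℝ) ^ (ε / 2) := by
    have h := Real.log_le_rpow_div hm0.le hδ
    have := Real.one_le_rpow hm1 hδ.le
    rw [add_mul, one_mul, div_mul_eq_mul_div, one_mul]
    linarith
  refine (card_reps_upper m hm).trans ?_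
  have h2 := pow_le_pow_left₀ (by linarith) h1 2
  rw [mul_pow, ← Real.rpow_natCast ((m : ℝ) ^ (ε / 2)) 2, ← Real.rpow_mul hm0.le,
    show ε / 2 * ((2 : ℕ) : ℝ) = ε by push_cast; ring] at h2
  rw [Real.rpow_add hm0, ← Real.sqrt_eq_rpow]
  have hs : 0 ≤ 576 * √(m : ℝ) := by positivity
  nlinarith [mul_le_mul_of_nonneg_left h2 hs]

end FA.HurwitzQ

end
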