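import Mathlib.NumberTheory.ArithmeticFunction.Misc
import Mathlib.Analysis.SpecialFunctions.Pow.NNReal
import Mathlib.Analysis.Complex.ExponentialBounds
import Mathlib.Tactic.LinearCombination

/-!
# Representations by `x² + D y²`

The divisors of `n` are `O(n^ε)` in number and there are at most `(16 D + 2) d(n)²` representations
of `n` by `x² + D y²`: two coprime ones with the same `gcd(x y₀ - x₀ y, n)` differ by one of
few units of `ℤ[√-D]`.
-/

set_option autoImplicit false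

noncomputable section

namespace FA.RepresentationBound

/-- **The divisor bound.** -/
theorem card_divisors_isBigO (ε : ℝ) (hε : 0 < ε) :
    ∃ C : ℝ, 1 ≤ C ∧ ∀ n : ℕ, n ≠ 0 → (n.divisors.card : ℝ) ≤ C * (n : ℝ) ^ ε := by
  have hl2 := Real.log_pos (one_lt_two (α := ℝ))
  set K : ℝ := max 1 (1 / (ε * Real.log 2))
  set B : ℕ := ⌈(2 : ℝ) ^ ε⁻¹⌉₊
  have hK : 1 ≤ K := le_max_left _ _
  refine ⟨K ^ B, one_le_pow₀ hK, fun n hn => ?_⟩
  have hterm : ∀ p ∈ n.primeFactors, ((n.factorization p + 1 : ℕ) : ℝ) ≤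
      (if p < B then K else 1) * ((p ^ n.factorization p : ℕ) : ℝ) ^ ε := fun p hp => by
    have hp2 : (2 : ℝ) ≤ p := by exact_mod_cast (Nat.prime_of_mem_primeFactors hp).two_le
    set e := n.factorization p
    rw [Nat.cast_pow, ← Real.rpow_natCast_mul (by positivity)]
    split_ifs with h
    · have h1 : 1 + (e : ℝ) * ε * Real.log 2 ≤ (p : ℝ) ^ ((e : ℝ) * ε) := by
        refine le_trans ?_ (Real.rpow_le_rpow (by norm_num) hp2 (by positivity))
        rw [Real.rpow_def_of_pos two_pos]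
        linarith [Real.add_one_le_exp (Real.log 2 * ((e : ℝ) * ε))]
      refine le_trans ?_ (mul_le_mul_of_nonneg_left h1 (by positivity))
      have hK2 : 1 ≤ K * (ε * Real.log 2) := by
        refine le_trans (le_of_eq ?_) (mul_le_mul_of_nonneg_right (le_max_right _ _)
          (by positivity))
        field_simp
      push_cast
      nlinarith [mul_le_mul_of_nonneg_left hK2 (Nat.cast_nonneg (α := ℝ) e)]
    · have hB : (2 : ℝ) ^ ε⁻¹ ≤ p := (Nat.le_ceil _).trans (Nat.cast_le.2 (not_lt.1 h))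
      have h2 := Real.rpow_le_rpow (by positivity) hB hε.le
      rw [Real.rpow_inv_rpow zero_le_two hε.ne'] at h2
      rw [one_mul, mul_comm (e : ℝ) ε, Real.rpow_mul_natCast (by positivity)]
      refine le_trans ?_ (pow_le_pow_left₀ zero_le_two h2 e)
      exact_mod_cast Nat.lt_two_pow_self
  rw [Nat.card_divisors hn, Nat.cast_prod]
  refine (Finset.prod_le_prod (fun p _ => by positivity) hterm).trans ?_
  rw [Finset.prod_mul_distrib, Finset.prod_ite, Finset.prod_const, Finset.prod_const, one_pow,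
    mul_one, Real.finsetProd_rpow _ _ (fun p _ => by positivity), ← Nat.cast_prod,
    show (∏ p ∈ n.primeFactors, p ^ n.factorization p) = n from
      Nat.prod_factorization_pow_eq_self hn]
  refine mul_le_mul_of_nonneg_right (pow_le_pow_right₀ hK ?_) (by positivity)
  refine (Finset.card_le_card (t := Finset.range B) fun p hp => ?_).trans_eq (Finset.card_range B)
  simp only [Finset.mem_filter] at hp
  exact Finset.mem_range.2 hp.2

/-- The representations of `n` by `x² + D y²`. -/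
def repsTwo (D n : ℕ) : Finset (ℤ × ℤ) :=
  (Finset.Icc (-(n : ℤ)) n ×ˢ Finset.Icc (-(n : ℤ)) n).filter
    fun v => v.1 ^ 2 + (D : ℤ) * v.2 ^ 2 = (n : ℤ)

theorem mem_repsTwo {D n : ℕ} (hD : 0 < D) {v : ℤ × ℤ} :
    v ∈ repsTwo D n ↔ v.1 ^ 2 + (D : ℤ) * v.2 ^ 2 = (n : ℤ) := by
  simp only [repsTwo, Finset.mem_filter, Finset.mem_product, Finset.mem_Icc, and_iff_right_iff_imp]
  intro h
  have hD' : (1 : ℤ) ≤ D := by exact_mod_cast hD
  have := Int.le_self_sq v.1; have := Int.le_self_sq v.2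
  have h1 := Int.le_self_sq (-v.1); have h2 := Int.le_self_sq (-v.2)
  rw [neg_sq] at h1 h2
  have : v.2 ^ 2 ≤ (D : ℤ) * v.2 ^ 2 := le_mul_of_one_le_left (sq_nonneg _) hD'
  have := sq_nonneg v.1; have := sq_nonneg v.2
  omega

variable {D n : ℕ}

/-- The coprime representations. -/
def primRepsTwo (D n : ℕ) : Finset (ℤ × ℤ) :=
  (repsTwo D n).filter fun v => Int.gcd v.1 v.2 = 1

theorem coprime_snd (hD : 0 < D) {v : ℤ × ℤ} (hv : v ∈ primRepsTwo D n) :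
    IsCoprime v.2 (n : ℤ) := by
  obtain ⟨hv, hg⟩ := Finset.mem_filter.1 hv
  rw [← (mem_repsTwo hD).1 hv]
  have h := (Int.isCoprime_iff_gcd_eq_one.2 hg).symm.pow_right (n := 2)
  simpa [pow_two, mul_comm, mul_assoc] using h.add_mul_left_right ((D : ℤ) * v.2)

theorem dvd_cross (hD : 0 < D) {o v w : ℤ × ℤ} (ho : o ∈ primRepsTwo D n)
    (hv : v ∈ primRepsTwo D n) (hw : w ∈ primRepsTwo D n)
    (hg : Int.gcd (v.1 * o.2 - o.1 * v.2) n = Int.gcd (w.1 * o.2 - o.1 * w.2) n) :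
    (n : ℤ) ∣ 2 * (D : ℤ) * (v.1 * w.2 - w.1 * v.2) := by
  set g := Int.gcd (v.1 * o.2 - o.1 * v.2) n with hgdef
  obtain ⟨m, hm⟩ : (g : ℤ) ∣ (n : ℤ) := Int.gcd_dvd_right _ _
  set a := v.1 * w.2 - w.1 * v.2
  have eo := (mem_repsTwo hD).1 (Finset.mem_filter.1 ho).1
  rcases eq_or_ne (g : ℤ) 0 with h0 | h0
  · rw [h0, zero_mul] at hm
    have hz : ∀ u : ℤ × ℤ, u ∈ primRepsTwo D n → False := fun u hu => by
      obtain ⟨hu, hgu⟩ := Finset.mem_filter.1 hu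
      have e := (mem_repsTwo hD).1 hu
      have hD' : (1 : ℤ) ≤ D := by exact_mod_cast hD
      have h1 : u.1 = 0 := by nlinarith [mul_nonneg (by omega : (0 : ℤ) ≤ D) (sq_nonneg u.2)]
      have h2 : u.2 = 0 := by nlinarith [sq_nonneg u.1]
      simp [h1, h2] at hgu
    exact (hz o ho).elim
  have side : ∀ u : ℤ × ℤ, u ∈ primRepsTwo D n →
      (g : ℤ) = (Int.gcd (u.1 * o.2 - o.1 * u.2) n : ℤ) →
        (g : ℤ) ∣ u.1 * o.2 - o.1 * u.2 ∧ m ∣ u.1 * o.2 + o.1 * u.2 := fun u hu e => by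
    refine ⟨e ▸ Int.gcd_dvd_left _ _, ?_⟩
    obtain ⟨s, hs⟩ : (g : ℤ) ∣ u.1 * o.2 - o.1 * u.2 := e ▸ Int.gcd_dvd_left _ _
    have hcop : IsCoprime s m := by
      obtain ⟨x, y, hb⟩ : ∃ x y : ℤ, (g : ℤ) = (u.1 * o.2 - o.1 * u.2) * x + (n : ℤ) * y :=
        ⟨_, _, e.trans (Int.gcd_eq_gcd_ab _ _)⟩
      rw [hs, hm] at hb
      exact ⟨x, y, mul_left_cancel₀ h0 (by linear_combination -hb)⟩
    have eu := (mem_repsTwo hD).1 (Finset.mem_filter.1 hu).1
    refine hcop.symm.dvd_of_dvd_mul_left ⟨o.2 ^ 2 - u.2 ^ 2, mul_left_cancel₀ h0 ?_⟩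
    linear_combination (-(u.1 * o.2 + o.1 * u.2)) * hs + o.2 ^ 2 * eu - u.2 ^ 2 * eo
      + (o.2 ^ 2 - u.2 ^ 2) * hm
  obtain ⟨hgv, hmv⟩ := side v hv rfl
  obtain ⟨hgw, hmw⟩ := side w hw (by rw [hg])
  have cancel : ∀ k : ℤ, k ∣ (n : ℤ) → k ∣ a * o.2 → k ∣ a := fun k hk h =>
    ((coprime_snd hD ho).of_isCoprime_of_dvd_right hk).symm.dvd_of_dvd_mul_right h
  obtain ⟨r, hr⟩ : (g : ℤ) ∣ a := by
    refine cancel _ ⟨m, hm⟩ ?_
    rw [show a * o.2 = (v.1 * o.2 - o.1 * v.2) * w.2 - (w.1 * o.2 - o.1 * w.2) * v.2 by ring]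
    exact (hgv.mul_right _).sub (hgw.mul_right _)
  obtain ⟨s, hs⟩ : m ∣ a := by
    refine cancel _ ⟨g, by rw [hm, mul_comm]⟩ ?_
    rw [show a * o.2 = (v.1 * o.2 + o.1 * v.2) * w.2 - (w.1 * o.2 + o.1 * w.2) * v.2 by ring]
    exact (hmv.mul_right _).sub (hmw.mul_right _)
  have hh : (Int.gcd g m : ℤ) ∣ 2 * (D : ℤ) := by
    set h : ℤ := (Int.gcd g m : ℤ)
    have hg' : h ∣ (g : ℤ) := Int.gcd_dvd_left _ _
    have hn : h ∣ (n : ℤ) := hm ▸ hg'.mul_right m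
    have hx : h ∣ 2 * o.1 := by
      refine ((coprime_snd hD hv).of_isCoprime_of_dvd_right hn).symm.dvd_of_dvd_mul_right ?_
      rw [show 2 * o.1 * v.2 = (v.1 * o.2 + o.1 * v.2) - (v.1 * o.2 - o.1 * v.2) by ring]
      exact ((Int.gcd_dvd_right _ _).trans hmv).sub (hg'.trans hgv)
    have hy : h ∣ 2 * (D : ℤ) * o.2 ^ 2 := by
      rw [show 2 * (D : ℤ) * o.2 ^ 2 = 2 * (n : ℤ) - 2 * o.1 * o.1 by linear_combination 2 * eo]
      exact (hn.mul_left 2).sub (hx.mul_right _)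
    exact ((coprime_snd hD ho).of_isCoprime_of_dvd_right hn).symm.pow_right.dvd_of_dvd_mul_right hy
  obtain ⟨t, ht⟩ := hh
  obtain ⟨x, y, hb⟩ : ∃ x y : ℤ, (Int.gcd g m : ℤ) = (g : ℤ) * x + m * y :=
    ⟨_, _, Int.gcd_eq_gcd_ab _ _⟩
  refine ⟨t * (x * s + y * r), ?_⟩
  rw [ht, hm]
  linear_combination t * a * hb + t * (g : ℤ) * x * hs + t * m * y * hr

/-- Few coprime representations share a `gcd`. -/
theorem card_primRepsTwo (hD : 0 < D) :
    (primRepsTwo D n).card ≤ (8 * D + 2) * n.divisors.card := by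
  rcases (primRepsTwo D n).eq_empty_or_nonempty with h | ⟨o, ho⟩
  · rw [h]; simp
  have hn : n ≠ 0 := fun e => by
    subst e
    obtain ⟨hu, hgu⟩ := Finset.mem_filter.1 ho
    simp only [repsTwo, Finset.mem_filter, Finset.mem_product, Finset.mem_Icc] at hu
    obtain ⟨⟨⟨h1, h2⟩, h3, h4⟩, -⟩ := hu
    rw [show o.1 = 0 by omega, show o.2 = 0 by omega] at hgu
    simp at hgu
  refine Finset.card_le_mul_card_image_of_maps_to
    (f := fun v : ℤ × ℤ => Int.gcd (v.1 * o.2 - o.1 * v.2) n) (fun v _ => ?_) _ fun g _ => ?_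
  · exact Nat.mem_divisors.2 ⟨Int.natCast_dvd_natCast.1 (Int.gcd_dvd_right _ _), hn⟩
  rcases ((primRepsTwo D n).filter
    fun v : ℤ × ℤ => Int.gcd (v.1 * o.2 - o.1 * v.2) n = g).eq_empty_or_nonempty with h | ⟨v, hv⟩
  · rw [h]; simp
  obtain ⟨hv, hgv⟩ := Finset.mem_filter.1 hv
  have ev := (mem_repsTwo hD).1 (Finset.mem_filter.1 hv).1
  have hn' : (0 : ℤ) < n := by omega
  let T : ℤ × ℤ → ℤ × Bool := fun w =>
    (2 * (D : ℤ) * (v.1 * w.2 - w.1 * v.2) / n,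
      decide (0 ≤ v.1 * w.1 + (D : ℤ) * (v.2 * w.2)))
  refine (Finset.card_le_card_of_injOn T
    (t := Finset.Icc (-2 * (D : ℤ)) (2 * D) ×ˢ (Finset.univ : Finset Bool))
    (fun w hw => ?_) fun w₁ h₁ w₂ h₂ he => ?_).trans_eq (by simp; omega)
  all_goals
    have comp : ∀ w : ℤ × ℤ, w.1 ^ 2 + (D : ℤ) * w.2 ^ 2 = (n : ℤ) →
        (v.1 * w.1 + (D : ℤ) * (v.2 * w.2)) ^ 2 + (D : ℤ) * (v.1 * w.2 - w.1 * v.2) ^ 2 =
          (n : ℤ) ^ 2 := fun w e => by
      linear_combination (w.1 ^ 2 + (D : ℤ) * w.2 ^ 2) * ev + (n : ℤ) * e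
  · obtain ⟨hw, hgw⟩ := Finset.mem_filter.1 (Finset.mem_coe.1 hw)
    obtain ⟨k, hk⟩ := dvd_cross hD ho hv hw (hgv.trans hgw.symm)
    have e := comp w ((mem_repsTwo hD).1 (Finset.mem_filter.1 hw).1)
    simp only [T, Finset.mem_coe, Finset.mem_product, Finset.mem_univ, and_true, Finset.mem_Icc]
    rw [hk, Int.mul_ediv_cancel_left _ hn'.ne']
    have hD' : (1 : ℤ) ≤ D := by exact_mod_cast hD
    have hb : k ^ 2 ≤ 4 * (D : ℤ) := by
      refine le_of_mul_le_mul_left ?_ (pow_pos hn' 2)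
      rw [← mul_pow, ← hk]
      nlinarith [sq_nonneg (v.1 * w.1 + (D : ℤ) * (v.2 * w.2))]
    constructor <;> nlinarith
  · obtain ⟨hw₁, hg₁⟩ := Finset.mem_filter.1 (Finset.mem_coe.1 h₁)
    obtain ⟨hw₂, hg₂⟩ := Finset.mem_filter.1 (Finset.mem_coe.1 h₂)
    obtain ⟨k₁, hk₁⟩ := dvd_cross hD ho hv hw₁ (hgv.trans hg₁.symm)
    obtain ⟨k₂, hk₂⟩ := dvd_cross hD ho hv hw₂ (hgv.trans hg₂.symm)
    have e₁ := comp w₁ ((mem_repsTwo hD).1 (Finset.mem_filter.1 hw₁).1)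
    have e₂ := comp w₂ ((mem_repsTwo hD).1 (Finset.mem_filter.1 hw₂).1)
    simp only [T, Prod.mk.injEq, decide_eq_decide] at he
    obtain ⟨hk, hs⟩ := he
    rw [hk₁, hk₂, Int.mul_ediv_cancel_left _ hn'.ne', Int.mul_ediv_cancel_left _ hn'.ne'] at hk
    have ew : v.1 * w₁.2 - w₁.1 * v.2 = v.1 * w₂.2 - w₂.1 * v.2 :=
      mul_left_cancel₀ (mul_ne_zero two_ne_zero (Int.natCast_ne_zero.2 hD.ne'))
        (by rw [hk₁, hk₂, hk])
    have eu : v.1 * w₁.1 + (D : ℤ) * (v.2 * w₁.2) = v.1 * w₂.1 + (D : ℤ) * (v.2 * w₂.2) := by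
      rw [ew] at e₁
      rcases sq_eq_sq_iff_eq_or_eq_neg.1 (add_right_cancel (e₁.trans e₂.symm)) with h | h
      · exact h
      · rw [h] at hs ⊢
        omega
    refine Prod.ext (mul_left_cancel₀ hn'.ne' ?_) (mul_left_cancel₀ hn'.ne' ?_)
    · linear_combination v.1 * eu - (D : ℤ) * v.2 * ew - (w₁.1 - w₂.1) * ev
    · linear_combination v.2 * eu + v.1 * ew - (w₁.2 - w₂.2) * ev

/-- **Few representations by `x² + D y²`.** -/
theorem card_repsTwo (hD : 0 < D) (hn : n ≠ 0) :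
    (repsTwo D n).card ≤ (8 * D + 2) * n.divisors.card ^ 2 := by
  rw [pow_two, ← mul_assoc]
  refine Finset.card_le_mul_card_image_of_maps_to
    (f := fun v : ℤ × ℤ => Int.gcd v.1 v.2) (fun v hv => ?_) _ fun d hd => ?_
  · have e := (mem_repsTwo hD).1 hv
    refine Nat.mem_divisors.2 ⟨Int.natCast_dvd_natCast.1 ?_, hn⟩
    rw [← e]
    exact dvd_add (dvd_pow (Int.gcd_dvd_left _ _) two_ne_zero)
      (dvd_mul_of_dvd_right (dvd_pow (Int.gcd_dvd_right _ _) two_ne_zero) _)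
  rcases ((repsTwo D n).filter fun v : ℤ × ℤ => Int.gcd v.1 v.2 = d).eq_empty_or_nonempty with
    h | ⟨v₀, hv₀⟩
  · rw [h]; simp
  have hdd : d * d ∣ n := by
    obtain ⟨hv₀, hg⟩ := Finset.mem_filter.1 hv₀
    rw [← Int.natCast_dvd_natCast, ← (mem_repsTwo hD).1 hv₀, Nat.cast_mul, ← pow_two, ← hg]
    exact dvd_add (pow_dvd_pow_of_dvd (Int.gcd_dvd_left _ _) 2)
      (dvd_mul_of_dvd_right (pow_dvd_pow_of_dvd (Int.gcd_dvd_right _ _) 2) _)
  refine le_trans ?_ ((card_primRepsTwo (n := n / (d * d)) hD).trans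
    (Nat.mul_le_mul_left _ (Finset.card_le_card ?_)))
  · have hd0 : (d : ℤ) ≠ 0 := Int.natCast_ne_zero.2
      (Nat.pos_of_mem_divisors hd).ne'
    refine Finset.card_le_card_of_injOn (fun v : ℤ × ℤ => (v.1 / d, v.2 / d)) (fun v hv => ?_)
      fun v hv w hw h => ?_
    · obtain ⟨hv, hg⟩ := Finset.mem_filter.1 (Finset.mem_coe.1 hv)
      have e := (mem_repsTwo hD).1 hv
      have h1 : (d : ℤ) ∣ v.1 := hg ▸ Int.gcd_dvd_left _ _
      have h2 : (d : ℤ) ∣ v.2 := hg ▸ Int.gcd_dvd_right _ _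
      obtain ⟨a, ha⟩ := h1
      obtain ⟨b, hb⟩ := h2
      simp only [ha, hb, Int.mul_ediv_cancel_left _ hd0]
      have en : (n : ℤ) = ((d * d : ℕ) : ℤ) * (a ^ 2 + (D : ℤ) * b ^ 2) := by
        rw [← e, ha, hb]; push_cast; ring
      refine Finset.mem_coe.2 (Finset.mem_filter.2 ⟨(mem_repsTwo hD).2 ?_, ?_⟩)
      · have hdd0 : ((d * d : ℕ) : ℤ) ≠ 0 := by
          rw [Nat.cast_mul]
          exact mul_ne_zero hd0 hd0
        rw [Int.natCast_div, en, Int.mul_ediv_cancel_left _ hdd0]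
      · rw [ha, hb, Int.gcd_mul_left, Int.natAbs_natCast] at hg
        exact mul_left_cancel₀ (Int.natCast_ne_zero.1 hd0) (hg.trans (mul_one d).symm)
    · have hv' := (Finset.mem_filter.1 (Finset.mem_coe.1 hv)).2
      have hw' := (Finset.mem_filter.1 (Finset.mem_coe.1 hw)).2
      simp only [Prod.mk.injEq] at h
      exact Prod.ext
        (Int.ediv_left_inj (hv' ▸ Int.gcd_dvd_left _ _) (hw' ▸ Int.gcd_dvd_left _ _) |>.1 h.1)
        (Int.ediv_left_inj (hv' ▸ Int.gcd_dvd_right _ _) (hw' ▸ Int.gcd_dvd_right _ _) |>.1 h.2)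
  · exact Nat.divisors_subset_of_dvd hn (Nat.div_dvd_of_dvd hdd)

end FA.RepresentationBound

end
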