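import Fermat.Agent.Forms3.QuarticTheta
import Fermat.Agent.Tau.Mordell

/-!
# Twelve and twenty-four squares

Glaisher's formula for twelve squares by Sturm's bound in weight eight after multiplying by `θ⁴`,
Ramanujan's for twenty-four in weight twelve: the cusp forms are `η(2z)¹²` and `Δ`.
-/

set_option autoImplicit false
set_option linter.style.haveILetI false

noncomputable section

namespace FA.ManySquares

open UpperHalfPlane hiding I
open CongruenceSubgroup FA.Eis FA.FourSquares FA.Tau FA.QuarticTheta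
open FA.EightSquares (thetaSer E4 isLv_thetaFour)
open PowerSeries (coeff)
open scoped MatrixGroups ModularForm ArithmeticFunction.sigma

/-! ### Representations by `k` squares -/

/-- The vectors of `ℤᵏ` of norm `n`. -/
def tuples (k n : ℕ) : Finset (Fin k → ℤ) :=
  (Fintype.piFinset fun _ => Finset.Icc (-(n : ℤ)) n).filter fun v => ∑ i, (v i).natAbs ^ 2 = n

theorem mem_tuples {k : ℕ} (n : ℕ) (v : Fin k → ℤ) :
    v ∈ tuples k n ↔ ∑ i, (v i).natAbs ^ 2 = n := by
  simp only [tuples, Finset.mem_filter, Fintype.mem_piFinset, Finset.mem_Icc,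
    and_iff_right_iff_imp]
  intro h i
  have h1 : (v i).natAbs ^ 2 ≤ n :=
    h ▸ Finset.single_le_sum (f := fun i => (v i).natAbs ^ 2) (fun _ _ => Nat.zero_le _)
      (Finset.mem_univ i)
  have := Nat.le_self_pow two_ne_zero (v i).natAbs
  omega

theorem powSer_zero_pow (k : ℕ) : powSer 0 ^ k = fibreSer (tuples k) fun _ => 1 := by
  induction k with
  | zero =>
    refine PowerSeries.ext fun n => ?_
    rw [pow_zero, fibreSer, PowerSeries.coeff_mk, PowerSeries.coeff_one]
    rcases eq_or_ne n 0 with rfl | hn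
    · rfl
    · rw [if_neg hn, Finset.sum_eq_zero fun v hv => ?_]
      exact absurd ((mem_tuples n v).1 hv) (by simpa using hn.symm)
  | succ k ih =>
    rw [pow_succ', ih, powSer, fibreSer_mul (fun s : ℤ => s.natAbs ^ 2) mem_ones
      (fun v : Fin k → ℤ => ∑ i, (v i).natAbs ^ 2) mem_tuples
      (U := tuples (k + 1)) (Fin.consEquiv fun _ => ℤ).symm fun n c => ?_]
    · simp
    · rw [mem_tuples, Fin.sum_univ_succ]
      rfl

theorem natCard_tuples (k n : ℕ) :
    Nat.card {v : Fin k → ℤ // ∑ i, v i ^ 2 = (n : ℤ)} = (tuples k n).card := by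
  rw [← Nat.card_eq_finsetCard]
  refine Nat.card_congr (Equiv.subtypeEquivRight fun v => ?_)
  rw [mem_tuples]
  zify
  simp only [sq_abs]

theorem coeff_thetaSer_pow (j n : ℕ) :
    coeff n (thetaSer ^ j) =
      (Nat.card {v : Fin (4 * j) → ℤ // ∑ i, v i ^ 2 = (n : ℤ)} : ℤ) := by
  rw [natCard_tuples, thetaSer_eq, show powSer 0 * powSer 0 * (powSer 0 * powSer 0) = powSer 0 ^ 4
    by ring, ← pow_mul, powSer_zero_pow, fibreSer, PowerSeries.coeff_mk, Finset.sum_const,
    nsmul_eq_mul, mul_one]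

/-! ### Forms and series -/

theorem nine_Vp {A : PowerSeries ℤ} {a c : List ℤ} (q : ℕ) [NeZero q] (ha : Nine A a)
    (hc : ((List.range 9).map fun n => if q ∣ n then a.getD (n / q) 0 else 0) = c) :
    Nine (Vp q A) c := fun n hn => by
  subst hc
  rw [getD_nine _ hn, coeff_Vp]
  split_ifs
  · exact ha _ (lt_of_le_of_lt (Nat.div_le_self n q) hn)
  · rfl

theorem _root_.FA.QuarticTheta.Nine.add {A B : PowerSeries ℤ} {a b c : List ℤ} (ha : Nine A a)
    (hb : Nine B b)
    (hc : ((List.range 9).map fun n => a.getD n 0 + b.getD n 0) = c) : Nine (A + B) c :=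
  fun n hn => by
  subst hc
  rw [getD_nine _ hn, map_add, ha n hn, hb n hn]

theorem isLv_four_of_two {k : ℤ} {f : ℍ → ℂ} (h : IsLv 1 k f) : IsLv 4 k (dil 2 f) where
  inv γ hγ := (h.dil 2).inv γ (mem_Gamma0_iff_dvd.mpr
    (dvd_trans (by norm_num) (mem_Gamma0_iff_dvd.mp hγ)))
  hol := (h.dil 2).hol
  bdd := (h.dil 2).bdd

/-- A form of level four with vanishing first coefficients has vanishing series. -/
theorem series_eq_zero_four {k : ℤ} {f : ℍ → ℂ} {A : PowerSeries ℤ} (hlv : IsLv 4 k f)
    (hA : HasQ 1 f (toC A)) {l : List ℤ} (hl : Nine A l) (hk : k.toNat * 6 / 12 < 9)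
    (hz : ∀ i ≤ k.toNat * 6 / 12, l.getD i 0 = 0) : A = 0 := by
  let F : ModularForm (Gamma0 4) k :=
    { toFun := f
      slash_action_eq' := by rintro _ ⟨M, hM, rfl⟩; exact hlv.inv M hM
      holo' := hlv.hol
      bdd_at_cusps' := fun hc => by
        rw [Subgroup.IsArithmetic.isCusp_iff_isCusp_SL2Z] at hc
        exact hlv.bdd.isBoundedAt hc }
  have hF : F = 0 := ModularForm.sturm_bound_Gamma0 4 F fun m hm => by
    rw [index_four] at hm
    have hm' : m ≤ k.toNat * 6 / 12 := by omega
    show coeff m (qExpansion 1 f) = 0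
    rw [hA.qExpansion_eq one_pos, coeff_toC, Int.cast_eq_zero, hl m (by omega)]
    exact hz m hm'
  have h0 : toC A = 0 := HasQ.eq_zero_of_fun (h := 1) (by
    have e : (0 : ℍ → ℂ) = f := (congrArg DFunLike.coe hF).symm
    rw [e]; exact hA) one_pos
  refine PowerSeries.ext fun n => ?_
  have h := congrArg (coeff n) h0
  rwa [coeff_toC, map_zero, Int.cast_eq_zero] at h

/-! ### Twelve squares -/

/-- The function `E₆(z) - 64 E₆(4z)`. -/
def sixFun : ℍ → ℂ := ⇑ModularForm.E₆ + (-64 : ℂ) • dil 4 ⇑ModularForm.E₆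

/-- Its series. -/
def sixSer : PowerSeries ℤ := eSixInt - 64 * Vp 4 eSixInt

theorem nine_eSixInt : Nine eSixInt
    [1, -504, -16632, -122976, -532728, -1575504, -4058208, -8471232, -17047800] := fun i hi => by
  rw [eSixInt, PowerSeries.coeff_mk]
  interval_cases i <;> decide +kernel

theorem glaisher_series : 63 * thetaSer ^ 3 + sixSer = 1008 * etaTwelveSer := by
  have hlv : IsLv 4 8 ((252 : ℂ) • (thetaFour * thetaFour * (thetaFour * thetaFour)) +
      (4 : ℂ) • (thetaFour * sixFun) + (-7 : ℂ) • bracketFun) := by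
    have h6 : IsLv 1 6 ⇑ModularForm.E₆ := IsLv.of_modularForm ModularForm.E₆
    have hW : IsLv 4 6 sixFun := (h6.of_levelOne 4).add ((h6.dil 4).smul (-64 : ℂ))
    exact ((((isLv_thetaFour.mul isLv_thetaFour).mul (isLv_thetaFour.mul isLv_thetaFour)).smul
      (252 : ℂ)).add ((isLv_thetaFour.mul hW).smul (4 : ℂ))).add (isLv_bracketFun.smul (-7 : ℂ))
  have hQ : HasQ 1 ((252 : ℂ) • (thetaFour * thetaFour * (thetaFour * thetaFour)) +
      (4 : ℂ) • (thetaFour * sixFun) + (-7 : ℂ) • bracketFun)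
      (toC (252 * (thetaSer * thetaSer * (thetaSer * thetaSer)) + 4 * (thetaSer * sixSer) -
        252 * bracketSer)) := by
    have hT := hasQ_thetaFour
    have h6 : HasQ 1 ⇑ModularForm.E₆ (toC eSixInt) := hasQ_eSix
    have h := (((hT.mul one_pos hT).mul one_pos (hT.mul one_pos hT)).smul (252 : ℂ)).add
      ((hT.mul one_pos (h6.add ((h6.dil 4).smul (-64 : ℂ)))).smul (4 : ℂ)) |>.add
        (hasQ_bracketFun.smul (-7 : ℂ))
    rw [sixFun]
    convert h using 1
    simp only [sixSer, map_sub, map_add, map_mul, FA.EightSquares.toC_Vp,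
      PowerSeries.smul_eq_C_mul, map_ofNat, map_neg]
    ring
  have hT := nine_thetaSer
  have hW : Nine sixSer (((List.range 9).map fun n => ([1, -504, -16632, -122976, -532728,
      -1575504, -4058208, -8471232, -17047800] : List ℤ).getD n 0 -
        (mulNine [64] [1, 0, 0, 0, -504, 0, 0, 0, -16632]).getD n 0)) := by
    rw [sixSer, ← map_ofNat (PowerSeries.C (R := ℤ)) 64]
    exact nine_eSixInt.sub ((nine_C 64).mul (nine_Vp 4 nine_eSixInt (by decide)) rfl) rfl
  have hz := series_eq_zero_four hlv hQ (by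
    rw [← map_ofNat (PowerSeries.C (R := ℤ)) 252, ← map_ofNat (PowerSeries.C (R := ℤ)) 4]
    exact (((nine_C 252).mul ((hT.mul hT rfl).mul (hT.mul hT rfl) rfl) rfl).add
      ((nine_C 4).mul (hT.mul hW rfl) rfl) rfl).sub
        ((nine_C 252).mul nine_bracketSer rfl) rfl) (by decide +kernel) (by decide +kernel)
  rw [bracketSer_eq] at hz
  have hne : (4 : PowerSeries ℤ) * thetaSer ≠ 0 := fun h => by
    have h0 := congrArg (coeff 0) h
    rw [← map_ofNat (PowerSeries.C (R := ℤ)) 4, PowerSeries.coeff_C_mul,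
      nine_thetaSer 0 (by norm_num)] at h0
    norm_num at h0
  refine sub_eq_zero.1 ((mul_eq_zero.1 ?_).resolve_left hne)
  linear_combination hz

/-- **Glaisher's twelve squares**, on coefficients. -/
theorem glaisher_coeff {n : ℕ} (hn : n ≠ 0) :
    coeff n (thetaSer ^ 3) = 8 * (σ 5 n : ℤ) -
      512 * (if 4 ∣ n then (σ 5 (n / 4) : ℤ) else 0) + 16 * etaTwelve n := by
  have h := congrArg (coeff n) glaisher_series
  rw [sixSer, ← map_ofNat (PowerSeries.C (R := ℤ)) 63, ← map_ofNat (PowerSeries.C (R := ℤ)) 64,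
    ← map_ofNat (PowerSeries.C (R := ℤ)) 1008, map_add, map_sub, PowerSeries.coeff_C_mul,
    PowerSeries.coeff_C_mul, PowerSeries.coeff_C_mul, coeff_Vp, eSixInt, PowerSeries.coeff_mk,
    if_neg hn] at h
  rw [etaTwelve]
  by_cases h4 : 4 ∣ n
  · rw [if_pos h4, PowerSeries.coeff_mk, if_neg (Nat.div_pos (Nat.le_of_dvd
      (Nat.pos_of_ne_zero hn) h4) (by norm_num)).ne'] at h
    rw [if_pos h4]
    linarith
  · rw [if_neg h4] at h ⊢
    linarith

/-! ### Twenty-four squares -/

/-- `691 E₁₂`. -/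
def twelveFun : ℍ → ℂ :=
  (691 : ℂ) • (⇑ModularForm.E₄ * ⇑ModularForm.E₄ * ⇑ModularForm.E₄) +
    (-432000 : ℂ) • ModularForm.discriminant

/-- Its series. -/
def twelveSer : PowerSeries ℤ :=
  691 * (eFourInt * eFourInt * eFourInt) - 432000 * deltaInt

theorem coeff_twelveSer {n : ℕ} (hn : n ≠ 0) : coeff n twelveSer = 65520 * (σ 11 n : ℤ) := by
  have h := discriminant_eq_cuspTwelve n
  rw [qExpansion_discriminant, coeff_cuspTwelve, if_neg hn] at h
  rw [twelveSer, ← map_ofNat (PowerSeries.C (R := ℤ)) 691,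
    ← map_ofNat (PowerSeries.C (R := ℤ)) 432000, map_sub, PowerSeries.coeff_C_mul,
    PowerSeries.coeff_C_mul, show eFourInt * eFourInt * eFourInt = eFourInt ^ 3 by ring]
  apply Int.cast_injective (α := ℂ)
  push_cast
  linear_combination -691 * h

theorem nine_eFourInt : Nine eFourInt
    [1, 240, 2160, 6720, 17520, 30240, 60480, 82560, 140400] := fun i hi => by
  rw [eFourInt, PowerSeries.coeff_mk]
  interval_cases i <;> decide +kernel

theorem nine_deltaInt :
    Nine deltaInt [0, 1, -24, 252, -1472, 4830, -6048, -16744, 84480] := fun n hn => by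
  have h4 := nine_eFourInt
  have h6 := nine_eSixInt
  have h : coeff n (1728 * deltaInt) = (mulNine [1728]
      [0, 1, -24, 252, -1472, 4830, -6048, -16744, 84480]).getD n 0 := by
    rw [delta_eq, show eFourInt ^ 3 - eSixInt ^ 2 =
      eFourInt * eFourInt * eFourInt - eSixInt * eSixInt by ring]
    exact (((h4.mul h4 rfl).mul h4 rfl).sub (h6.mul h6 rfl) (by decide +kernel)) n hn
  rw [← map_ofNat (PowerSeries.C (R := ℤ)) 1728, PowerSeries.coeff_C_mul] at h
  refine mul_left_cancel₀ (show (1728 : ℤ) ≠ 0 by norm_num) (h.trans ?_)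
  interval_cases n <;> decide +kernel

theorem ramanujan_series :
    2829645 * thetaSer ^ 6 = twelveSer - 2 * Vp 2 twelveSer + 4096 * Vp 4 twelveSer +
      524160 * (259 * deltaInt + 11920 * Vp 2 deltaInt + 1060864 * Vp 4 deltaInt) := by
  have hL : IsLv 1 12 twelveFun := by
    have h4 : IsLv 1 4 ⇑ModularForm.E₄ := IsLv.of_modularForm ModularForm.E₄
    have hD : IsLv 1 12 ModularForm.discriminant :=
      IsLv.of_modularForm (CuspForm.discriminant : ModularForm 𝒮ℒ 12)
    exact (((h4.mul h4).mul h4).smul (691 : ℂ)).add (hD.smul (-432000 : ℂ))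
  have hD : IsLv 1 12 ModularForm.discriminant :=
    IsLv.of_modularForm (CuspForm.discriminant : ModularForm 𝒮ℒ 12)
  have hlv : IsLv 4 12
      ((2829645 : ℂ) • (thetaFour * thetaFour * (thetaFour * thetaFour) * (thetaFour * thetaFour)) +
        (-1 : ℂ) • (twelveFun + (-2 : ℂ) • dil 2 twelveFun + (4096 : ℂ) • dil 4 twelveFun) +
        (-524160 : ℂ) • ((259 : ℂ) • ModularForm.discriminant +
          (11920 : ℂ) • dil 2 ModularForm.discriminant +
          (1060864 : ℂ) • dil 4 ModularForm.discriminant)) := by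
    refine (((((isLv_thetaFour.mul isLv_thetaFour).mul (isLv_thetaFour.mul isLv_thetaFour)).mul
      (isLv_thetaFour.mul isLv_thetaFour)).smul (2829645 : ℂ)).add
      ((((hL.of_levelOne 4).add ((isLv_four_of_two hL).smul _)).add ((hL.dil 4).smul _)).smul
        _)).add ?_
    exact ((((hD.of_levelOne 4).smul _).add ((isLv_four_of_two hD).smul _)).add
      ((hD.dil 4).smul _)).smul _
  have hQ : HasQ 1
      ((2829645 : ℂ) • (thetaFour * thetaFour * (thetaFour * thetaFour) * (thetaFour * thetaFour)) +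
        (-1 : ℂ) • (twelveFun + (-2 : ℂ) • dil 2 twelveFun + (4096 : ℂ) • dil 4 twelveFun) +
        (-524160 : ℂ) • ((259 : ℂ) • ModularForm.discriminant +
          (11920 : ℂ) • dil 2 ModularForm.discriminant +
          (1060864 : ℂ) • dil 4 ModularForm.discriminant))
      (toC (2829645 * (thetaSer * thetaSer * (thetaSer * thetaSer) * (thetaSer * thetaSer)) -
        (twelveSer - 2 * Vp 2 twelveSer + 4096 * Vp 4 twelveSer) -
        524160 * (259 * deltaInt + 11920 * Vp 2 deltaInt + 1060864 * Vp 4 deltaInt))) := by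
    have hT := hasQ_thetaFour
    have h4 : HasQ 1 ⇑ModularForm.E₄ (toC eFourInt) := hasQ_eFour
    have hd : HasQ 1 ModularForm.discriminant (toC deltaInt) := FA.Tau.hasQ_discriminant
    have hl : HasQ 1 twelveFun (toC twelveSer) := by
      have h := (((h4.mul one_pos h4).mul one_pos h4).smul (691 : ℂ)).add
        (hd.smul (-432000 : ℂ))
      rw [twelveFun]
      convert h using 1
      simp only [twelveSer, map_sub, map_mul, PowerSeries.smul_eq_C_mul, map_ofNat, map_neg]
      ring
    have h := (((((hT.mul one_pos hT).mul one_pos (hT.mul one_pos hT)).mul one_pos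
      (hT.mul one_pos hT)).smul (2829645 : ℂ)).add
        (((hl.add ((hl.dil 2).smul (-2 : ℂ))).add ((hl.dil 4).smul (4096 : ℂ))).smul
          (-1 : ℂ))).add
        ((((hd.smul (259 : ℂ)).add ((hd.dil 2).smul (11920 : ℂ))).add
          ((hd.dil 4).smul (1060864 : ℂ))).smul (-524160 : ℂ))
    convert h using 1
    simp only [map_sub, map_add, map_mul, FA.EightSquares.toC_Vp, PowerSeries.smul_eq_C_mul,
      map_ofNat, map_neg, map_one]
    ring
  have hT := nine_thetaSer
  have h4 := nine_eFourInt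
  have hd := nine_deltaInt
  have hl : Nine twelveSer [691, 65520, 134250480, 11606736960, 274945048560, 3199218815520,
      23782204031040, 129554448266880, 563087459516400] := fun i hi => by
    rw [twelveSer, ← map_ofNat (PowerSeries.C (R := ℤ)) 691,
      ← map_ofNat (PowerSeries.C (R := ℤ)) 432000]
    exact ((nine_C 691).mul ((h4.mul h4 rfl).mul h4 rfl) rfl).sub
      ((nine_C 432000).mul hd rfl) (by decide +kernel) i hi
  have hz := series_eq_zero_four hlv hQ (by
    simp only [← map_ofNat (PowerSeries.C (R := ℤ))]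
    exact (((nine_C 2829645).mul
      (((hT.mul hT rfl).mul (hT.mul hT rfl) rfl).mul (hT.mul hT rfl) rfl) rfl).sub
        ((hl.sub ((nine_C 2).mul (nine_Vp 2 hl rfl) rfl) rfl).add
          ((nine_C 4096).mul (nine_Vp 4 hl rfl) rfl) rfl) rfl).sub
      ((nine_C 524160).mul ((((nine_C 259).mul hd rfl).add
        ((nine_C 11920).mul (nine_Vp 2 hd rfl) rfl) rfl).add
          ((nine_C 1060864).mul (nine_Vp 4 hd rfl) rfl) rfl) rfl) rfl) (by decide +kernel)
    (by decide +kernel)
  linear_combination hz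

/-- `τ(2m) = -24 τ(m) - 2048 τ(m/2)`. -/
theorem coeff_deltaInt_two_mul {m : ℕ} (hm : m ≠ 0) :
    coeff (2 * m) deltaInt =
      -24 * coeff m deltaInt - 2048 * (if 2 ∣ m then coeff (m / 2) deltaInt else 0) := by
  obtain ⟨r, j, hj, rfl⟩ := Nat.exists_eq_two_pow_mul_odd hm
  have hc : ∀ e : ℕ, coeff (2 ^ e * j) deltaInt = coeff (2 ^ e) deltaInt * coeff j deltaInt :=
    fun e => coeff_deltaInt_mul ((Nat.coprime_two_left.2 hj).pow_left e)
  have h2 : coeff 2 deltaInt = -24 := nine_deltaInt 2 (by norm_num)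
  rw [← mul_assoc, ← pow_succ', hc, hc]
  rcases r with _ | r
  · rw [if_neg (by
      rw [pow_zero, one_mul, ← even_iff_two_dvd, Nat.not_even_iff_odd]; exact hj),
      zero_add, pow_one, h2, pow_zero, show coeff 1 deltaInt = 1 from nine_deltaInt 1 (by norm_num)]
    ring
  · rw [if_pos (Dvd.intro (2 ^ r * j) (by ring)),
      show 2 ^ (r + 1) * j / 2 = 2 ^ r * j by rw [pow_succ', mul_assoc]; omega, hc,
      coeff_deltaInt_prime_pow Nat.prime_two r, h2]
    push_cast
    ring

/-- **Ramanujan's twenty-four squares**, on coefficients. -/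
theorem ramanujan_coeff {n : ℕ} (hn : n ≠ 0) :
    691 * coeff n (thetaSer ^ 6) = 16 * ((σ 11 n : ℤ) -
      2 * (if 2 ∣ n then (σ 11 (n / 2) : ℤ) else 0) +
      4096 * (if 4 ∣ n then (σ 11 (n / 4) : ℤ) else 0)) +
      128 * ((-1) ^ (n + 1) * 259 * coeff n deltaInt -
        512 * (if 2 ∣ n then coeff (n / 2) deltaInt else 0)) := by
  have h := congrArg (coeff n) ramanujan_series
  simp only [← map_ofNat (PowerSeries.C (R := ℤ)), map_add, map_sub, PowerSeries.coeff_C_mul,
    coeff_Vp] at h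
  rw [coeff_twelveSer hn] at h
  have hpos : ∀ q, 0 < q → q ∣ n → n / q ≠ 0 := fun q hq hd =>
    (Nat.div_pos (Nat.le_of_dvd (Nat.pos_of_ne_zero hn) hd) hq).ne'
  by_cases h2 : 2 ∣ n
  · obtain ⟨m, rfl⟩ := h2
    simp only [if_pos (dvd_mul_right 2 m),
      coeff_twelveSer (hpos 2 two_pos (dvd_mul_right 2 m))] at h ⊢
    rw [(odd_two_mul_add_one m).neg_one_pow]
    have ht := coeff_deltaInt_two_mul (m := m) (by omega)
    rw [Nat.mul_div_cancel_left m two_pos] at h ⊢
    by_cases h4 : 4 ∣ 2 * m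
    · simp only [if_pos h4, coeff_twelveSer (hpos 4 (by norm_num) h4)] at h ⊢
      rw [if_pos (show 2 ∣ m by omega), show m / 2 = 2 * m / 4 by omega] at ht
      linarith
    · simp only [if_neg h4] at h ⊢
      rw [if_neg (show ¬ 2 ∣ m by omega)] at ht
      linarith
  · simp only [if_neg h2, if_neg (show ¬ 4 ∣ n by omega)] at h ⊢
    rw [(show Even (n + 1) from even_iff_two_dvd.2 (by omega)).neg_one_pow]
    linarith

end FA.ManySquares

end
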