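import Fermat.Agent.Forms3.ManySquares

/-!
# The theta series of the lattice `E₈`

`E₈` by Construction A from the extended Hamming code: the vectors of `ℤ⁸` whose parities form a
code word, scaled by `1/√2`. The parities split the powers of Jacobi's series, so its theta series
is a form of weight four and level four, equal to `E₄` by Sturm's bound.
-/

set_option autoImplicit false
set_option linter.style.haveILetI false

noncomputable section

namespace FA.EightLattice

open UpperHalfPlane hiding I
open CongruenceSubgroup FA.Eis FA.FourSquares FA.Tau FA.QuarticTheta FA.ManySquares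
open FA.EightSquares (thetaSer E4 isLv_thetaFour)
open PowerSeries (coeff)
open scoped MatrixGroups ModularForm ArithmeticFunction.sigma

/-! ### Parities -/

/-- The roots of `n` of a given parity. -/
def onesPar (b : Bool) (n : ℕ) : Finset ℤ := (ones n).filter fun s => decide (Odd s) = b

/-- The series of the squares of a given parity. -/
def parSer (b : Bool) : PowerSeries ℤ := fibreSer (onesPar b) fun _ => 1

theorem powSer_zero_eq : powSer 0 = parSer false + parSer true := by
  refine PowerSeries.ext fun n => ?_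
  simp only [powSer, parSer, fibreSer, onesPar, map_add, PowerSeries.coeff_mk, pow_zero,
    decide_eq_true_eq, decide_eq_false_iff_not]
  rw [← Finset.sum_filter_add_sum_filter_not (ones n) fun s => ¬ Odd s]
  simp only [not_not]

theorem parSer_false : parSer false = Vp 4 (powSer 0) := by
  refine PowerSeries.ext fun n => ?_
  simp only [coeff_Vp, powSer, parSer, fibreSer, PowerSeries.coeff_mk, pow_zero]
  split_ifs with h
  · obtain ⟨m, rfl⟩ := h
    rw [Nat.mul_div_cancel_left m (by norm_num)]
    refine Finset.sum_nbij' (fun s => s / 2) (fun s => 2 * s) (fun s hs => ?_) (fun s hs => ?_)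
      (fun s hs => ?_) (fun s _ => by simp) fun _ _ => rfl
    · simp only [onesPar, Finset.mem_filter, mem_ones, decide_eq_false_iff_not,
        Int.not_odd_iff_even] at hs
      obtain ⟨he, w, rfl⟩ := hs
      rw [mem_ones, show (w + w) / 2 = w by omega]
      rw [show (w + w).natAbs = 2 * w.natAbs by omega, mul_pow] at he
      omega
    · rw [mem_ones] at hs
      simp only [onesPar, Finset.mem_filter, mem_ones, decide_eq_false_iff_not]
      exact ⟨by rw [Int.natAbs_mul, mul_pow, hs]; rfl, by simp⟩
    · simp only [onesPar, Finset.mem_filter, decide_eq_false_iff_not, Int.not_odd_iff_even] at hs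
      exact Int.mul_ediv_cancel' hs.2.two_dvd
  · refine Finset.sum_eq_zero fun s hs => absurd ?_ h
    simp only [onesPar, Finset.mem_filter, mem_ones, decide_eq_false_iff_not,
      Int.not_odd_iff_even] at hs
    obtain ⟨he, w, rfl⟩ := hs
    exact ⟨w.natAbs ^ 2, by rw [← he, show (w + w).natAbs = 2 * w.natAbs by omega]; ring⟩

/-- A series supported on one class modulo four. -/
def Sup (j : ℕ) (A : PowerSeries ℤ) : Prop := ∀ N, N % 4 ≠ j % 4 → coeff N A = 0

theorem Sup.mul {i j : ℕ} {A B : PowerSeries ℤ} (ha : Sup i A) (hb : Sup j B) :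
    Sup (i + j) (A * B) := fun N hN => by
  rw [PowerSeries.coeff_mul]
  refine Finset.sum_eq_zero fun x hx => ?_
  have hx := Finset.HasAntidiagonal.mem_antidiagonal.1 hx
  by_cases h : x.1 % 4 = i % 4
  · rw [hb x.2 (by omega), mul_zero]
  · rw [ha x.1 h, zero_mul]

theorem sup_false : Sup 0 (parSer false) := fun N hN => by
  rw [parSer_false, coeff_Vp, if_neg (by omega)]

theorem sup_true : Sup 1 (parSer true) := fun N hN => by
  simp only [parSer, fibreSer, PowerSeries.coeff_mk]
  refine Finset.sum_eq_zero fun s hs => absurd ?_ hN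
  simp only [onesPar, Finset.mem_filter, mem_ones, decide_eq_true_eq] at hs
  obtain ⟨he, ho⟩ := hs
  obtain ⟨u, hu⟩ := Int.natAbs_odd.2 ho
  rw [hu] at he
  rw [← he, show (2 * u + 1) ^ 2 = 4 * (u * u + u) + 1 by ring]
  omega

/-- The four odd squares summing to `4 a`, as a series in `a`. -/
def oddSer : PowerSeries ℤ := Up 4 thetaSer - thetaSer

theorem parSer_false_four : parSer false ^ 4 = Vp 4 thetaSer := by
  rw [parSer_false, thetaSer_eq, map_mul, map_mul]
  ring

theorem parSer_true_four : parSer true ^ 4 = Vp 4 oddSer := by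
  have h4 : Sup 4 (parSer true ^ 4) := by
    have h := (sup_true.mul sup_true).mul (sup_true.mul sup_true)
    rwa [show parSer true * parSer true * (parSer true * parSer true) = parSer true ^ 4 by ring]
      at h
  refine PowerSeries.ext fun n => ?_
  rw [coeff_Vp]
  split_ifs with h
  · obtain ⟨m, rfl⟩ := h
    rw [Nat.mul_div_cancel_left m (by norm_num), oddSer, map_sub, coeff_Up]
    set E := parSer false
    set O := parSer true
    have h1 : coeff (4 * m) (E ^ 3 * O) = 0 := by
      have h := (((sup_false.mul sup_false).mul sup_false).mul sup_true) (4 * m) (by omega)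
      rwa [show E * E * E * O = E ^ 3 * O by ring] at h
    have h2 : coeff (4 * m) (E ^ 2 * O ^ 2) = 0 := by
      have h := ((sup_false.mul sup_false).mul (sup_true.mul sup_true)) (4 * m) (by omega)
      rwa [show E * E * (O * O) = E ^ 2 * O ^ 2 by ring] at h
    have h3 : coeff (4 * m) (E * O ^ 3) = 0 := by
      have h := (sup_false.mul ((sup_true.mul sup_true).mul sup_true)) (4 * m) (by omega)
      rwa [show E * (O * O * O) = E * O ^ 3 by ring] at h
    have e : thetaSer = E ^ 4 + PowerSeries.C 4 * (E ^ 3 * O) +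
        PowerSeries.C 6 * (E ^ 2 * O ^ 2) + PowerSeries.C 4 * (E * O ^ 3) + O ^ 4 := by
      rw [thetaSer_eq, powSer_zero_eq, map_ofNat, map_ofNat]
      ring
    have hm := congrArg (coeff (4 * m)) e
    rw [map_add, map_add, map_add, map_add, PowerSeries.coeff_C_mul, PowerSeries.coeff_C_mul,
      PowerSeries.coeff_C_mul, h1, h2, h3, parSer_false_four, coeff_Vp,
      if_pos (dvd_mul_right 4 m), Nat.mul_div_cancel_left m (by norm_num)] at hm
    rw [mul_comm m 4, hm]
    ring
  · exact h4 n (by omega)

/-- The Eisenstein series of the odd quadruples. -/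
theorem three_mul_oddSer : 3 * oddSer = 2 * (EZ 2 - Vp 2 (EZ 2)) := by
  refine PowerSeries.ext fun n => ?_
  rw [← map_ofNat (PowerSeries.C (R := ℤ)) 3, ← map_ofNat (PowerSeries.C (R := ℤ)) 2,
    PowerSeries.coeff_C_mul, PowerSeries.coeff_C_mul, oddSer, map_sub, map_sub, coeff_Up, coeff_Vp]
  simp only [thetaSer, PowerSeries.coeff_mk]
  rcases Nat.eq_zero_or_pos n with rfl | hn
  · simp
  have h := three_mul_rep4 n
  rw [eisSer, map_add, map_add, coeff_Vp] at h
  have h4 : (rep4 (4 * n) : ℤ) = coeff n (EZ 2) := by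
    rw [coeff_EZ, if_neg hn.ne', rep4, ← FA.HurwitzQ.natCard_fours,
      FA.HurwitzQ.card_fours_four hn.ne', sigP]
    push_cast
    congr 1
    exact Finset.sum_congr (Finset.filter_congr fun d _ => by rw [Nat.odd_iff]; omega)
      fun _ _ => rfl
  rw [mul_comm n 4]
  linear_combination 3 * h4 - h

/-! ### The code and its vectors -/

/-- The extended Hamming code: each of the last four bits is the sum of three of the first. -/
def code : Finset (Fin 8 → Bool) :=
  Finset.univ.filter fun c => c 4 = xor (c 1) (xor (c 2) (c 3)) ∧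
    c 5 = xor (c 0) (xor (c 2) (c 3)) ∧ c 6 = xor (c 0) (xor (c 1) (c 3)) ∧
      c 7 = xor (c 0) (xor (c 1) (c 2))

/-- The parities of a vector. -/
def pattern {k : ℕ} (v : Fin k → ℤ) : Fin k → Bool := fun i => decide (Odd (v i))

/-- The vectors of a norm with given parities. -/
def parTuples {k : ℕ} (c : Fin k → Bool) (n : ℕ) : Finset (Fin k → ℤ) :=
  (tuples k n).filter fun v => pattern v = c

theorem prod_parSer {k : ℕ} (c : Fin k → Bool) :
    ∏ i, parSer (c i) = fibreSer (parTuples c) fun _ => 1 := by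
  induction k with
  | zero =>
    refine PowerSeries.ext fun n => ?_
    simp only [Finset.univ_eq_empty, Finset.prod_empty, fibreSer, PowerSeries.coeff_mk,
      PowerSeries.coeff_one, parTuples]
    rw [Finset.filter_true_of_mem fun v _ => Subsingleton.elim _ _]
    have h := congrArg (coeff n) (powSer_zero_pow 0)
    simpa [fibreSer, PowerSeries.coeff_one] using h
  | succ k ih =>
    have hT : ∀ n (w : Fin k → ℤ), w ∈ parTuples (fun i => c i.succ) n ↔
        ∑ i, (w i).natAbs ^ 2 = n ∧ pattern w = fun i => c i.succ := fun n w => by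
      rw [parTuples, Finset.mem_filter, mem_tuples]
    refine PowerSeries.ext fun n => ?_
    rw [Fin.prod_univ_succ, ih (fun i => c i.succ), PowerSeries.coeff_mul]
    simp only [parSer, fibreSer, PowerSeries.coeff_mk, Finset.sum_const, nsmul_eq_mul, mul_one,
      ← Nat.cast_mul, ← Nat.cast_sum, Nat.cast_inj]
    rw [Finset.card_eq_sum_card_fiberwise (f := fun v : Fin (k + 1) → ℤ =>
      ((v 0).natAbs ^ 2, ∑ i : Fin k, (v i.succ).natAbs ^ 2))
      (t := Finset.HasAntidiagonal.antidiagonal n) fun v hv => ?_]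
    · refine Finset.sum_congr rfl fun x hx => ?_
      rw [← Finset.card_product]
      refine Finset.card_nbij' (fun p => Fin.cons p.1 p.2) (fun v => (v 0, fun i => v i.succ))
        (fun p hp => ?_) (fun v hv => ?_) (fun p _ => by simp) fun v _ => Fin.cons_self_tail v
      · obtain ⟨h1, h2⟩ := Finset.mem_product.1 (Finset.mem_coe.1 hp)
        rw [onesPar, Finset.mem_filter, mem_ones] at h1
        rw [hT] at h2
        rw [Finset.mem_coe, Finset.mem_filter, parTuples, Finset.mem_filter, mem_tuples,
          Fin.sum_univ_succ]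
        simp only [Fin.cons_zero, Fin.cons_succ, h1.1, h2.1, Prod.mk.eta, and_true]
        refine ⟨Finset.HasAntidiagonal.mem_antidiagonal.1 hx, funext fun i => ?_⟩
        cases i using Fin.cases with
        | zero => simpa [pattern] using h1.2
        | succ i => simpa [pattern] using congrFun h2.2 i
      · rw [Finset.mem_coe, Finset.mem_filter, parTuples, Finset.mem_filter] at hv
        obtain ⟨⟨-, hp⟩, hv⟩ := hv
        rw [Finset.mem_coe, Finset.mem_product, onesPar, Finset.mem_filter, mem_ones, hT, ← hv]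
        exact ⟨⟨rfl, congrFun hp 0⟩, rfl, funext fun i => congrFun hp i.succ⟩
    · rw [Finset.mem_coe, parTuples, Finset.mem_filter, mem_tuples, Fin.sum_univ_succ] at hv
      exact Finset.mem_coe.2 (Finset.HasAntidiagonal.mem_antidiagonal.2 hv.1)

/-- The vectors of the code lattice of norm `n`. -/
def codeTuples (n : ℕ) : Finset (Fin 8 → ℤ) := (tuples 8 n).filter fun v => pattern v ∈ code

theorem codeTuples_series :
    fibreSer codeTuples (fun _ => 1) = Vp 4 (thetaSer * thetaSer + 14 * (thetaSer * oddSer) +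
      oddSer * oddSer) := by
  have h1 : fibreSer codeTuples (fun _ => 1) = ∑ c ∈ code, ∏ i, parSer (c i) := by
    refine PowerSeries.ext fun n => ?_
    simp only [prod_parSer, map_sum, fibreSer, PowerSeries.coeff_mk, Finset.sum_const,
      nsmul_eq_mul, mul_one, ← Nat.cast_sum, Nat.cast_inj]
    rw [Finset.card_eq_sum_card_fiberwise (s := codeTuples n) (f := pattern) (t := code)
      fun v hv => Finset.mem_coe.2 (Finset.mem_filter.1 hv).2]
    refine Finset.sum_congr rfl fun c hc => congrArg Finset.card ?_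
    rw [codeTuples, parTuples, Finset.filter_filter]
    exact Finset.filter_congr fun v _ => ⟨fun h => h.2, fun h => ⟨h ▸ hc, h⟩⟩
  have hprod : ∀ c : Fin 8 → Bool, ∏ i, parSer (c i) =
      parSer true ^ (Finset.univ.filter fun i => c i = true).card *
        parSer false ^ (8 - (Finset.univ.filter fun i => c i = true).card) := fun c => by
    rw [Finset.prod_congr rfl (fun i _ => show parSer (c i) =
      if c i = true then parSer true else parSer false by cases c i <;> rfl), Finset.prod_ite,
      Finset.prod_const, Finset.prod_const, Finset.filter_not,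
      Finset.card_sdiff_of_subset (Finset.filter_subset _ _), Finset.card_univ, Fintype.card_fin]
  rw [h1, Finset.sum_congr rfl fun c _ => hprod c,
    ← Finset.sum_fiberwise_of_maps_to (g := fun c : Fin 8 → Bool =>
      (Finset.univ.filter fun i => c i = true).card) (t := ({0, 4, 8} : Finset ℕ))
      (show ∀ c ∈ code, _ from by decide +kernel)]
  simp only [Finset.sum_insert, Finset.mem_insert, Finset.mem_singleton, Finset.sum_singleton,
    show ¬ ((0 : ℕ) = 4 ∨ (0 : ℕ) = 8) by norm_num, show ¬ ((4 : ℕ) = 8) by norm_num,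
    not_false_eq_true]
  have hconst : ∀ w : ℕ,
      ∑ c ∈ code with (Finset.univ.filter fun i => c i = true).card = w,
        parSer true ^ (Finset.univ.filter fun i => c i = true).card *
          parSer false ^ (8 - (Finset.univ.filter fun i => c i = true).card) =
      (code.filter fun c => (Finset.univ.filter fun i => c i = true).card = w).card •
        (parSer true ^ w * parSer false ^ (8 - w)) := fun w => by
    rw [← Finset.sum_const]
    exact Finset.sum_congr rfl fun c hc => by rw [(Finset.mem_filter.1 hc).2]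
  rw [hconst, hconst, hconst,
    show (code.filter fun c => (Finset.univ.filter fun i => c i = true).card = 0).card = 1
      by decide +kernel,
    show (code.filter fun c => (Finset.univ.filter fun i => c i = true).card = 4).card = 14
      by decide +kernel,
    show (code.filter fun c => (Finset.univ.filter fun i => c i = true).card = 8).card = 1
      by decide +kernel]
  simp only [show (8 : ℕ) - 0 = 4 + 4 from rfl, show (8 : ℕ) - 4 = 4 from rfl, pow_zero, one_mul,
    show (8 : ℕ) - 8 = 0 from rfl, mul_one, pow_add, parSer_false_four, nsmul_eq_mul]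
  rw [show parSer true ^ 8 = parSer true ^ 4 * parSer true ^ 4 by ring, parSer_true_four]
  simp only [map_add, map_mul, map_ofNat, Nat.cast_one, Nat.cast_ofNat, one_mul]
  ring

/-- The function `E₂` combination of the odd quadruples, times `3/2`. -/
def oddFun : ℍ → ℂ := Efun 2 + (-1 : ℂ) • dil 2 (Efun 2)

theorem isLv_oddFun : IsLv 4 2 oddFun where
  inv γ hγ := by
    obtain ⟨c, hc⟩ := mem_Gamma0_iff_dvd.mp hγ
    have h2 : (2 : ℤ) ∣ γ 1 0 := ⟨2 * c, by rw [hc]; push_cast; ring⟩
    obtain ⟨B, -, -, hB, -, hdil⟩ := dil_slash (p := 2) (Efun 2) 2 γ (c' := 2 * c)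
      (by rw [hc]; push_cast; ring)
    rw [oddFun, SlashAction.add_slash, ModularForm.SL_smul_slash, hdil,
      (isLv_Efun 2).inv γ (mem_Gamma0_iff_dvd.mpr (by exact_mod_cast h2)),
      (isLv_Efun 2).inv B (mem_Gamma0_iff_dvd.mpr ⟨c, by rw [hB]; rfl⟩)]
  hol := ((hasQ_Efun 2).add (((hasQ_Efun 2).dil 2).smul (-1 : ℂ))).mdiff one_pos
  bdd := (isLv_Efun 2).bdd.add (((isLv_Efun 2).bdd.dil 2).smul _)

theorem codeSeries_eq :
    thetaSer * thetaSer + 14 * (thetaSer * oddSer) + oddSer * oddSer = eFourInt := by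
  have hlv : IsLv 4 4 ((9 : ℂ) • (thetaFour * thetaFour) + (84 : ℂ) • (thetaFour * oddFun) +
      (4 : ℂ) • (oddFun * oddFun) + (-9 : ℂ) • E4) :=
    ((((isLv_thetaFour.mul isLv_thetaFour).smul (9 : ℂ)).add
      ((isLv_thetaFour.mul isLv_oddFun).smul (84 : ℂ))).add
        ((isLv_oddFun.mul isLv_oddFun).smul (4 : ℂ))).add
          (((IsLv.of_modularForm ModularForm.E₄).of_levelOne 4).smul (-9 : ℂ))
  have hQ : HasQ 1 ((9 : ℂ) • (thetaFour * thetaFour) + (84 : ℂ) • (thetaFour * oddFun) +
      (4 : ℂ) • (oddFun * oddFun) + (-9 : ℂ) • E4)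
      (toC (9 * (thetaSer * thetaSer) + 84 * (thetaSer * (EZ 2 - Vp 2 (EZ 2))) +
        4 * ((EZ 2 - Vp 2 (EZ 2)) * (EZ 2 - Vp 2 (EZ 2))) - 9 * eFourInt)) := by
    have hT := hasQ_thetaFour
    have he : HasQ 1 (Efun 2) (toC (EZ 2)) := hasQ_Efun 2
    have hU := he.add ((he.dil 2).smul (-1 : ℂ))
    have h4 : HasQ 1 E4 (toC eFourInt) := hasQ_eFour
    have h := ((((hT.mul one_pos hT).smul (9 : ℂ)).add ((hT.mul one_pos hU).smul (84 : ℂ))).add
      ((hU.mul one_pos hU).smul (4 : ℂ))).add (h4.smul (-9 : ℂ))
    rw [oddFun]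
    convert h using 1
    simp only [map_sub, map_add, map_mul, FA.EightSquares.toC_Vp, PowerSeries.smul_eq_C_mul,
      map_ofNat, map_neg, map_one]
    ring
  have hE : Nine (EZ 2) [1, 24, 24, 96, 24, 144, 96, 192, 24] := fun i hi => by
    rw [coeff_EZ]
    interval_cases i <;> decide +kernel
  have hU := hE.sub (nine_Vp 2 hE rfl) rfl
  have hT := nine_thetaSer
  have hz := series_eq_zero_four hlv hQ (by
    simp only [← map_ofNat (PowerSeries.C (R := ℤ))]
    exact ((((nine_C 9).mul (hT.mul hT rfl) rfl).add ((nine_C 84).mul (hT.mul hU rfl) rfl) rfl).add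
      ((nine_C 4).mul (hU.mul hU rfl) rfl) rfl).sub ((nine_C 9).mul nine_eFourInt rfl) rfl)
    (by decide +kernel) (by decide +kernel)
  have hne : (9 : PowerSeries ℤ) ≠ 0 := fun h => by
    have h0 := congrArg (coeff 0) h
    rw [← map_ofNat (PowerSeries.C (R := ℤ)) 9, PowerSeries.coeff_C, map_zero] at h0
    simp at h0
  refine sub_eq_zero.1 ((mul_eq_zero.1 ?_).resolve_left hne)
  linear_combination hz + (42 * thetaSer + 3 * oddSer + 2 * (EZ 2 - Vp 2 (EZ 2))) *
    three_mul_oddSer

/-- **The code lattice**: `240 σ₃(n)` vectors of norm `4 n`. -/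
theorem card_codeTuples {n : ℕ} (hn : n ≠ 0) :
    ((codeTuples (4 * n)).card : ℤ) = 240 * (σ 3 n : ℤ) := by
  have h := congrArg (coeff (4 * n)) (codeTuples_series.trans (congrArg (Vp 4) codeSeries_eq))
  rw [coeff_Vp, if_pos (dvd_mul_right 4 n), Nat.mul_div_cancel_left n (by norm_num),
    eFourInt, PowerSeries.coeff_mk, if_neg hn, fibreSer, PowerSeries.coeff_mk] at h
  simpa using h

/-! ### The Gram matrix -/

/-- A Gram matrix of `E₈`. -/
def gram : Matrix (Fin 8) (Fin 8) ℤ :=
  !![2, 1, 1, 1, 0, 1, 1, 1;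
    1, 2, 1, 1, 1, 0, 1, 1;
    1, 1, 2, 1, 1, 1, 0, 1;
    1, 1, 1, 2, 1, 1, 1, 0;
    0, 1, 1, 1, 2, 0, 0, 0;
    1, 0, 1, 1, 0, 2, 0, 0;
    1, 1, 0, 1, 0, 0, 2, 0;
    1, 1, 1, 0, 0, 0, 0, 2]

/-- The vector of the code lattice with given coordinates. -/
def embed (y : Fin 8 → ℤ) : Fin 8 → ℤ :=
  ![y 0, y 1, y 2, y 3, y 1 + y 2 + y 3 + 2 * y 4, y 0 + y 2 + y 3 + 2 * y 5,
    y 0 + y 1 + y 3 + 2 * y 6, y 0 + y 1 + y 2 + 2 * y 7]

theorem sum_sq_embed (y : Fin 8 → ℤ) :
    ∑ i, embed y i ^ 2 = 2 * ∑ i, ∑ j, y i * gram i j * y j := by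
  simp [Fin.sum_univ_eight, embed, gram]
  ring

theorem odd_xor3 (a b c d : ℤ) :
    decide (Odd (a + b + c + 2 * d)) =
      xor (decide (Odd a)) (xor (decide (Odd b)) (decide (Odd c))) := by
  rcases Int.emod_two_eq_zero_or_one a with ha | ha <;>
    rcases Int.emod_two_eq_zero_or_one b with hb | hb <;>
    rcases Int.emod_two_eq_zero_or_one c with hc | hc <;>
    simp [Int.odd_iff, ha, hb, hc, Int.add_emod]

theorem pattern_embed (y : Fin 8 → ℤ) : pattern (embed y) ∈ code := by
  simp only [code, Finset.mem_filter, Finset.mem_univ, true_and]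
  exact ⟨odd_xor3 _ _ _ _, odd_xor3 _ _ _ _, odd_xor3 _ _ _ _, odd_xor3 _ _ _ _⟩

theorem exists_embed {v : Fin 8 → ℤ} (h : pattern v ∈ code) : ∃ y, embed y = v := by
  simp only [code, pattern, Finset.mem_filter, Finset.mem_univ, true_and] at h
  obtain ⟨h4, h5, h6, h7⟩ := h
  have key : ∀ a b c x : ℤ, decide (Odd x) =
      xor (decide (Odd a)) (xor (decide (Odd b)) (decide (Odd c))) →
      ∃ d, a + b + c + 2 * d = x := fun a b c x e => by
    refine ⟨(x - a - b - c) / 2, ?_⟩
    rw [← odd_xor3 a b c 0, decide_eq_decide, Int.odd_iff, Int.odd_iff] at e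
    omega
  obtain ⟨d4, e4⟩ := key _ _ _ _ h4
  obtain ⟨d5, e5⟩ := key _ _ _ _ h5
  obtain ⟨d6, e6⟩ := key _ _ _ _ h6
  obtain ⟨d7, e7⟩ := key _ _ _ _ h7
  exact ⟨![v 0, v 1, v 2, v 3, d4, d5, d6, d7],
    funext fun i => by fin_cases i <;> simp [embed] <;> assumption⟩

theorem embed_injective : Function.Injective embed := fun y z h => by
  have e : ∀ i, embed y i = embed z i := congrFun h
  have h0 := e 0; have h1 := e 1; have h2 := e 2; have h3 := e 3
  have h4 := e 4; have h5 := e 5; have h6 := e 6; have h7 := e 7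
  simp [embed] at h0 h1 h2 h3 h4 h5 h6 h7
  funext i
  fin_cases i <;> simp <;> omega

theorem gram_pos {y : Fin 8 → ℤ} (hy : y ≠ 0) : 0 < ∑ i, ∑ j, y i * gram i j * y j := by
  have h := sum_sq_embed y
  have hne : embed y ≠ 0 := fun e => hy (embed_injective (e.trans (by
    funext i; fin_cases i <;> simp [embed])))
  obtain ⟨i, hi⟩ := Function.ne_iff.1 hne
  have h1 : 0 < embed y i ^ 2 := by
    simp only [Pi.zero_apply] at hi
    positivity
  have h2 := Finset.single_le_sum (f := fun i => embed y i ^ 2) (fun i _ => sq_nonneg _)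
    (Finset.mem_univ i)
  linarith

/-- The vectors of `E₈` of norm `2 n`. -/
def latVecs (n : ℕ) : Finset (Fin 8 → ℤ) :=
  (codeTuples (4 * n)).preimage embed embed_injective.injOn

theorem mem_latVecs {n : ℕ} {y : Fin 8 → ℤ} :
    y ∈ latVecs n ↔ ∑ i, ∑ j, y i * gram i j * y j = 2 * (n : ℤ) := by
  rw [latVecs, Finset.mem_preimage, codeTuples, Finset.mem_filter, mem_tuples,
    and_iff_left (pattern_embed y)]
  have h := sum_sq_embed y
  zify
  simp only [sq_abs]
  constructor <;> intro e <;> linarith

theorem card_latVecs (n : ℕ) : (latVecs n).card = (codeTuples (4 * n)).card := by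
  refine Finset.card_bij (fun y _ => embed y) (fun y hy => Finset.mem_preimage.1 hy)
    (fun y _ z _ h => embed_injective h) fun v hv => ?_
  obtain ⟨y, rfl⟩ := exists_embed (Finset.mem_filter.1 hv).2
  exact ⟨y, Finset.mem_preimage.2 hv, rfl⟩

theorem latSer_eq : fibreSer latVecs (fun _ => 1) = eFourInt := by
  refine PowerSeries.ext fun n => ?_
  have h := congrArg (coeff (4 * n)) (codeTuples_series.trans (congrArg (Vp 4) codeSeries_eq))
  rw [coeff_Vp, if_pos (dvd_mul_right 4 n), Nat.mul_div_cancel_left n (by norm_num)] at h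
  rw [← h]
  simp [fibreSer, card_latVecs]

/-! ### Weight eight -/

/-- The series of `E₈`. -/
def eEightInt : PowerSeries ℤ := PowerSeries.mk fun m => if m = 0 then 1 else 480 * (σ 7 m : ℤ)

theorem eFourInt_sq : eFourInt * eFourInt = eEightInt := by
  have h8 : HasQ 1 ⇑(ModularForm.E (k := 8) (by norm_num)) (toC eEightInt) := by
    have e : qExpansion 1 ⇑(ModularForm.E (k := 8) (by norm_num)) = toC eEightInt := by
      ext m
      rw [coeff_toC, eEightInt, PowerSeries.coeff_mk,
        EisensteinSeries.E_qExpansion_coeff _ (by decide),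
        show bernoulli 8 = -1 / 30 by decide +kernel]
      split_ifs <;> simp
      ring
    rw [← e]
    exact hasQ_form _
  have h4 : HasQ 1 E4 (toC eFourInt) := hasQ_eFour
  have hlv : IsLv 1 8 (E4 * E4 + (-1 : ℂ) • ⇑(ModularForm.E (k := 8) (by norm_num))) :=
    IsLv.add ((IsLv.of_modularForm ModularForm.E₄).mul (IsLv.of_modularForm ModularForm.E₄))
      ((IsLv.of_modularForm (ModularForm.E (k := 8) (by norm_num))).smul (-1 : ℂ))
  have hz := FA.Tau.series_eq_zero (k := 8) (by norm_num)
    (f := E4 * E4 + (-1 : ℂ) • ⇑(ModularForm.E (k := 8) (by norm_num)))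
    (fun γ => hlv.inv' γ) ((h4.mul one_pos h4).add (h8.smul (-1 : ℂ))) (by
      rw [map_add, PowerSeries.coeff_smul, PowerSeries.coeff_mul, Finset.Nat.antidiagonal_zero,
        Finset.sum_singleton, coeff_toC, coeff_toC, eFourInt, eEightInt, PowerSeries.coeff_mk,
        PowerSeries.coeff_mk]
      simp)
  refine PowerSeries.ext fun n => Int.cast_injective (α := ℂ) ?_
  have h := congrArg (coeff n) hz
  rw [← map_mul] at h
  simp only [map_add, PowerSeries.coeff_smul, coeff_toC, map_zero, smul_eq_mul] at h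
  linear_combination h

end FA.EightLattice

end
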