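import Fermat.Agent.Forms3.Reduction
import Mathlib.NumberTheory.LSeries.PrimesInAP
import Mathlib.NumberTheory.LegendreSymbol.JacobiSymbol

/-!
# Integers that are sums of three squares

An `n ≡ 1, 2, 3, 5, 6 (mod 8)` is the value at `(0, 0, 1)` of a positive ternary form of determinant
one, made from a prime in an arithmetic progression.
-/

set_option autoImplicit false

namespace FA.Forms3

/-- The form of `n` from a square root of `-d` modulo `q = d n - 1`. -/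
theorem exists_of_sqrt {n d : ℕ} {q a r : ℤ} (hd : 0 < d) (hq : 0 < q)
    (hqn : q = (d : ℤ) * n - 1) (h : r ^ 2 + d = a * q) :
    ∃ u v w : ℤ, (n : ℤ) = u ^ 2 + v ^ 2 + w ^ 2 ∧ Int.gcd (Int.gcd u v) w = 1 := by
  have hd' : (0 : ℤ) < d := by exact_mod_cast hd
  have ha : 0 < a := by
    by_contra hc
    push Not at hc
    nlinarith [mul_nonpos_of_nonpos_of_nonneg hc hq.le, sq_nonneg r]
  obtain ⟨u, v, w, e, hdvd⟩ := exists_squares_val a q n 0 1 r ha (by linarith)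
    (by unfold det3; linear_combination (-(n : ℤ)) * h - hqn) 0 0 1
  refine ⟨u, v, w, by rw [← e]; simp [val], ?_⟩
  set D := Int.gcd (Int.gcd u v) w
  have h12 : (D : ℤ) ∣ (Int.gcd u v : ℤ) := Int.gcd_dvd_left _ _
  have h1 := (hdvd D (h12.trans (Int.gcd_dvd_left _ _)) (h12.trans (Int.gcd_dvd_right _ _))
    (Int.gcd_dvd_right _ _)).2.2
  exact Nat.dvd_one.1 (Int.natCast_dvd_natCast.1 h1)

theorem exists_root_neg {p d : ℕ} (hp : p.Prime) (h : jacobiSym (-(d : ℤ)) p = 1) :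
    ∃ r : ℤ, (p : ℤ) ∣ r ^ 2 + d := by
  have : Fact p.Prime := ⟨hp⟩
  obtain ⟨s, hs⟩ := ZMod.isSquare_of_jacobiSym_eq_one h
  refine ⟨(s.val : ℤ), ?_⟩
  rw [← ZMod.intCast_zmod_eq_zero_iff_dvd]
  push_cast at hs ⊢
  rw [ZMod.natCast_zmod_val]
  linear_combination -hs

/-- The case `n ≡ 2 (mod 4)`, with coprime `u, v, w`. -/
theorem exists_prim_of_two_mod_four {n : ℕ} (h : n % 4 = 2) :
    ∃ u v w : ℤ, (n : ℤ) = u ^ 2 + v ^ 2 + w ^ 2 ∧ Int.gcd (Int.gcd u v) w = 1 := by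
  have hcop : (n - 1).Coprime (4 * n) := by
    refine Nat.Coprime.mul_right ?_ ?_
    · exact Nat.Coprime.pow_right 2 (Nat.coprime_two_right.mpr (Nat.odd_iff.mpr (by omega)))
    · rw [show n = n - 1 + 1 by omega, Nat.add_sub_cancel]
      simp
  obtain ⟨p, hpgt, hp, hmod⟩ :=
    Nat.forall_exists_prime_gt_and_modEq (4 * n) (q := 4 * n) (by omega) hcop
  obtain ⟨k, hk⟩ : ∃ k, p = n - 1 + 4 * n * k := by
    have h' : p % (4 * n) = n - 1 := Eq.trans hmod (Nat.mod_eq_of_lt (by omega))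
    exact ⟨p / (4 * n), by rw [← h', Nat.mod_add_div]⟩
  set d := 4 * k + 1 with hd
  have hdn : d * n = p + 1 := by rw [hk, hd]; ring_nf; omega
  have hJ : jacobiSym (-(d : ℤ)) p = 1 := by
    have hp4 : p % 4 = 1 := by
      rw [hk, mul_assoc, Nat.add_mul_mod_self_left]; omega
    have hd4 : d % 4 = 1 := by omega
    have hpodd : Odd p := Nat.odd_iff.mpr (by omega)
    have hdodd : Odd d := Nat.odd_iff.mpr (by omega)
    rw [neg_eq_neg_one_mul, jacobiSym.mul_left, jacobiSym.at_neg_one hpodd,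
      ZMod.χ₄_nat_one_mod_four hp4, one_mul, jacobiSym.quadratic_reciprocity_one_mod_four hd4 hpodd,
      jacobiSym.mod_left' (a₂ := -1), jacobiSym.at_neg_one hdodd, ZMod.χ₄_nat_one_mod_four hd4]
    refine Int.emod_eq_emod_iff_emod_sub_eq_zero.mpr (Int.emod_eq_zero_of_dvd ⟨n, ?_⟩)
    rw [sub_neg_eq_add]
    exact_mod_cast hdn.symm
  obtain ⟨r, a, hr⟩ := exists_root_neg hp hJ
  exact exists_of_sqrt (d := d) (q := p) (a := a) (r := r) (by omega) (by exact_mod_cast hp.pos)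
    (by rw [show (d : ℤ) * n = ((d * n : ℕ) : ℤ) by push_cast; rfl, hdn]; push_cast; ring)
    (by rw [hr]; ring)

/-- The case `n ≡ 1, 3, 5 (mod 8)`, with coprime `u, v, w`. -/
theorem exists_prim_of_odd {n : ℕ} (h : n % 8 = 1 ∨ n % 8 = 3 ∨ n % 8 = 5) :
    ∃ u v w : ℤ, (n : ℤ) = u ^ 2 + v ^ 2 + w ^ 2 ∧ Int.gcd (Int.gcd u v) w = 1 := by
  set e := if n % 8 = 3 then 1 else 3 with he
  have he' : (n % 8 = 3 ∧ e = 1) ∨ ((n % 8 = 1 ∨ n % 8 = 5) ∧ e = 3) := by
    rw [he]; split_ifs with h3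
    · exact Or.inl ⟨h3, rfl⟩
    · exact Or.inr ⟨by omega, rfl⟩
  set c := (e * n - 1) / 2 with hcdef
  have hc : 2 * c + 1 = e * n := by rcases he' with ⟨h3, e1⟩ | ⟨h3, e1⟩ <;> rw [hcdef, e1] <;> omega
  have hcodd : c % 2 = 1 := by rcases he' with ⟨h3, e1⟩ | ⟨h3, e1⟩ <;> rw [e1] at hc <;> omega
  have hcop : c.Coprime (4 * n) := by
    refine Nat.Coprime.mul_right ?_ ?_
    · exact Nat.Coprime.pow_right 2 (Nat.coprime_two_right.mpr (Nat.odd_iff.mpr hcodd))
    · refine Nat.coprime_of_dvd fun l hl h1 h2 => ?_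
      have h3 : l ∣ 2 * c + 1 := hc ▸ h2.mul_left e
      have := (Nat.dvd_add_right (h1.mul_left 2)).mp h3
      exact hl.ne_one (Nat.dvd_one.mp this)
  obtain ⟨p, hpgt, hp, hmod⟩ :=
    Nat.forall_exists_prime_gt_and_modEq (4 * n) (q := 4 * n) (by omega) hcop
  obtain ⟨k, hk⟩ : ∃ k, p = c + 4 * n * k := by
    have hlt : c < 4 * n := by rcases he' with ⟨h3, e1⟩ | ⟨h3, e1⟩ <;> rw [e1] at hc <;> omega
    have h' : p % (4 * n) = c := Eq.trans hmod (Nat.mod_eq_of_lt hlt)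
    exact ⟨p / (4 * n), by rw [← h', Nat.mod_add_div]⟩
  set d := 8 * k + e with hd
  have hdn : d * n = 2 * p + 1 := by rw [hk, hd]; linarith
  have hJ : jacobiSym (-(d : ℤ)) p = 1 := by
    have hpodd : Odd p := by
      rw [Nat.odd_iff, hk, show c + 4 * n * k = c + 2 * (2 * n * k) by ring,
        Nat.add_mul_mod_self_left, hcodd]
    have hdodd : Odd d := by rw [Nat.odd_iff]; omega
    have hp4 : p % 4 = c % 4 := by rw [hk, mul_assoc, Nat.add_mul_mod_self_left]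
    have hmul : jacobiSym 2 d * jacobiSym p d = ZMod.χ₄ d := by
      rw [← jacobiSym.mul_left, ← jacobiSym.at_neg_one hdodd]
      refine jacobiSym.mod_left' (Int.emod_eq_emod_iff_emod_sub_eq_zero.mpr
        (Int.emod_eq_zero_of_dvd ⟨n, ?_⟩))
      rw [sub_neg_eq_add]
      exact_mod_cast hdn.symm
    rw [jacobiSym.at_two hdodd] at hmul
    rw [neg_eq_neg_one_mul, jacobiSym.mul_left, jacobiSym.at_neg_one hpodd]
    rcases he' with ⟨h3, e1⟩ | ⟨h3, e1⟩ <;> rw [e1] at hc hd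
    · have hd8 : d % 8 = 1 := by omega
      have hq : p % 4 = 1 := by omega
      rw [ZMod.χ₄_nat_one_mod_four hq, one_mul,
        jacobiSym.quadratic_reciprocity_one_mod_four (by omega) hpodd]
      rw [ZMod.χ₄_nat_one_mod_four (by omega), ZMod.χ₈_nat_eq_if_mod_eight,
        if_neg (by omega), if_pos (Or.inl hd8), one_mul] at hmul
      exact hmul
    · have hd8 : d % 8 = 3 := by omega
      have hJd : jacobiSym p d = 1 := by
        rw [ZMod.χ₄_nat_three_mod_four (by omega), ZMod.χ₈_nat_eq_if_mod_eight,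
          if_neg (by omega), if_neg (by omega)] at hmul
        linarith
      rcases h3 with h3 | h3
      · have hq : p % 4 = 1 := by omega
        rw [ZMod.χ₄_nat_one_mod_four hq, one_mul,
          jacobiSym.quadratic_reciprocity_one_mod_four' hdodd hq, hJd]
      · have hq : p % 4 = 3 := by omega
        rw [ZMod.χ₄_nat_three_mod_four hq,
          jacobiSym.quadratic_reciprocity_three_mod_four (by omega) hq, hJd]
        norm_num
  obtain ⟨r, a, hr⟩ := exists_root_neg hp hJ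
  have h2 : ¬ (2 : ℤ) ∣ p := by
    have : p % 2 = 1 := by
      rw [hk, show c + 4 * n * k = c + 2 * (2 * n * k) by ring, Nat.add_mul_mod_self_left, hcodd]
    omega
  obtain ⟨r', a', hr'⟩ : ∃ r' a' : ℤ, r' ^ 2 + d = a' * (2 * p) := by
    rcases Int.emod_two_eq_zero_or_one a with ha | ha
    · exact ⟨r, a / 2, by rw [hr]; nth_rw 1 [show a = 2 * (a / 2) by omega]; ring⟩
    · have hodd : (a + 2 * r + p) % 2 = 0 := by omega
      refine ⟨r + p, (a + 2 * r + p) / 2, ?_⟩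
      rw [show (r + p) ^ 2 + d = (r ^ 2 + d) + (2 * r * p + p * p) by ring, hr]
      have : a + 2 * r + p = 2 * ((a + 2 * r + p) / 2) := by omega
      linear_combination (p : ℤ) * this
  exact exists_of_sqrt (d := d) (q := 2 * p) (by omega) (by have := hp.pos; omega)
    (by rw [show (d : ℤ) * n = ((d * n : ℕ) : ℤ) by push_cast; rfl, hdn]; push_cast; ring) hr'

/-- The case `n ≡ 2 (mod 4)`. -/
theorem exists_of_two_mod_four {n : ℕ} (h : n % 4 = 2) :
    ∃ u v w : ℤ, (n : ℤ) = u ^ 2 + v ^ 2 + w ^ 2 :=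
  let ⟨u, v, w, e, _⟩ := exists_prim_of_two_mod_four h
  ⟨u, v, w, e⟩

/-- The case `n ≡ 1, 3, 5 (mod 8)`. -/
theorem exists_of_odd {n : ℕ} (h : n % 8 = 1 ∨ n % 8 = 3 ∨ n % 8 = 5) :
    ∃ u v w : ℤ, (n : ℤ) = u ^ 2 + v ^ 2 + w ^ 2 :=
  let ⟨u, v, w, e, _⟩ := exists_prim_of_odd h
  ⟨u, v, w, e⟩

end FA.Forms3
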