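import Mathlib

/-!
# The binary Golay code

The code of length `24` spanned by the rows of `(1 | A)`, `A` the complement of the adjacency
matrix of the icosahedron, words being coded by natural numbers. Its weights are counted by the
kernel over the `4096` words.
-/

set_option autoImplicit false

noncomputable section

namespace FA.Golay

/-- The rows of `(1 | A)`, bit `i` standing for coordinate `i`, the last row first. -/
def rows : List ℕ :=
  [8648704, 5829632, 3043840, 5714176, 7049344, 3526720,
    12238880, 10313744, 13541384, 15155204, 15835138, 16519169]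

/-- All sums of some of the given words. -/
def words : List ℕ → List ℕ
  | [] => [0]
  | r :: rs => words rs ++ (words rs).map (r ^^^ ·)

/-- The number of ones among the first `k` bits. -/
def popB : ℕ → ℕ → ℕ
  | 0, _ => 0
  | k + 1, m => m % 2 + popB k (m / 2)

/-- The coordinates of a word. -/
def bits (w : ℕ) : Fin 24 → Bool := fun i => w.testBit i

/-- The Golay code. -/
def code : Finset (Fin 24 → Bool) := (words rows).toFinset.image bits

/-- The weight. -/
def wt (c : Fin 24 → Bool) : ℕ := (Finset.univ.filter fun i => c i = true).card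

theorem xor_mem {rs : List ℕ} :
    ∀ {a b : ℕ}, a ∈ words rs → b ∈ words rs → a ^^^ b ∈ words rs := by
  induction rs with
  | nil => simp [words]
  | cons r rs ih =>
    intro a b ha hb
    simp only [words, List.mem_append, List.mem_map] at ha hb ⊢
    rcases ha with ha | ⟨x, hx, rfl⟩ <;> rcases hb with hb | ⟨y, hy, rfl⟩
    · exact Or.inl (ih ha hb)
    · exact Or.inr ⟨a ^^^ y, ih ha hy, by rw [Nat.xor_left_comm]⟩
    · exact Or.inr ⟨x ^^^ b, ih hx hb, by rw [Nat.xor_assoc]⟩
    · refine Or.inl ?_
      have e : r ^^^ x ^^^ (r ^^^ y) = x ^^^ y := by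
        rw [Nat.xor_comm r x, Nat.xor_assoc, ← Nat.xor_assoc r r y, Nat.xor_self, Nat.zero_xor]
      rw [e]
      exact ih hx hy

theorem card_testBit (k m : ℕ) :
    (Finset.univ.filter fun i : Fin k => m.testBit i = true).card = popB k m := by
  rw [Finset.card_filter]
  induction k generalizing m with
  | zero => simp [popB]
  | succ k ih =>
    rw [Fin.sum_univ_succ, popB, ← ih (m / 2)]
    simp only [Fin.val_zero, Fin.val_succ, Nat.testBit_add_one, Nat.testBit_zero,
      decide_eq_true_eq]
    rcases Nat.mod_two_eq_zero_or_one m with h | h <;> simp [h]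

theorem wt_bits (w : ℕ) : wt (bits w) = popB 24 w := card_testBit 24 w

set_option maxRecDepth 100000 in
theorem low_bits : (words rows).map (fun w => w % 4096) = List.range 4096 := by decide +kernel

theorem nodup_words : (words rows).Nodup :=
  List.Nodup.of_map _ (by rw [low_bits]; exact List.nodup_range)

theorem low_eq {a b : ℕ} (h : ∀ i : Fin 24, i.val < 12 → a.testBit i = b.testBit i) :
    a % 4096 = b % 4096 := by
  rw [show (4096 : ℕ) = 2 ^ 12 from rfl]
  refine Nat.eq_of_testBit_eq fun i => ?_
  rw [Nat.testBit_mod_two_pow, Nat.testBit_mod_two_pow]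
  by_cases hi : i < 12
  · rw [show a.testBit i = b.testBit i from h ⟨i, by omega⟩ hi]
  · simp [hi]

theorem bits_injOn {a b : ℕ} (ha : a ∈ words rows) (hb : b ∈ words rows) (h : bits a = bits b) :
    a = b :=
  List.inj_on_of_nodup_map (l := words rows) (f := fun w => w % 4096)
    (by rw [low_bits]; exact List.nodup_range) ha hb (low_eq fun i _ => congrFun h i)

theorem sum_code {M : Type*} [AddCommMonoid M] (g : ℕ → M) :
    ∑ c ∈ code, g (wt c) = (((words rows).map (popB 24)).map g).sum := by
  rw [code, Finset.sum_image fun a ha b hb h =>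
      bits_injOn (List.mem_toFinset.1 ha) (List.mem_toFinset.1 hb) h,
    List.sum_toFinset _ nodup_words, List.map_map]
  exact congrArg List.sum (List.map_congr_left fun w _ => congrArg g (wt_bits w))

theorem weight_tally :
    ((words rows).map (popB 24)).all
        (fun w => w == 0 || w == 8 || w == 12 || w == 16 || w == 24) = true ∧
      [0, 8, 12, 16, 24].map (fun k => ((words rows).map (popB 24)).count k) =
        [1, 759, 2576, 759, 1] := by
  decide +kernel

theorem weights :
    ∀ w ∈ (words rows).map (popB 24), w ∈ ({0, 8, 12, 16, 24} : Finset ℕ) := by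
  intro w hw
  have := List.all_eq_true.1 weight_tally.1 w hw
  simpa [or_assoc] using this

theorem wt_mem {c : Fin 24 → Bool} (hc : c ∈ code) : wt c ∈ ({0, 8, 12, 16, 24} : Finset ℕ) := by
  obtain ⟨w, hw, rfl⟩ := Finset.mem_image.1 hc
  rw [wt_bits]
  exact weights _ (List.mem_map.2 ⟨w, List.mem_toFinset.1 hw, rfl⟩)

theorem four_dvd_wt {c : Fin 24 → Bool} (hc : c ∈ code) : 4 ∣ wt c := by
  have := wt_mem hc
  simp only [Finset.mem_insert, Finset.mem_singleton] at this
  omega

theorem card_wt (k : ℕ) :
    (code.filter fun c => wt c = k).card = ((words rows).map (popB 24)).count k := by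
  rw [Finset.card_filter, sum_code (fun w => if w = k then 1 else 0)]
  induction (words rows).map (popB 24) with
  | nil => simp
  | cons a l ih => simp [List.count_cons, ih, add_comm]

theorem card_wt_values :
    (code.filter fun c => wt c = 0).card = 1 ∧ (code.filter fun c => wt c = 8).card = 759 ∧
      (code.filter fun c => wt c = 12).card = 2576 ∧
      (code.filter fun c => wt c = 16).card = 759 ∧
      (code.filter fun c => wt c = 24).card = 1 := by
  simp only [card_wt]
  simpa using weight_tally.2

theorem card_code : code.card = 4096 := by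
  rw [code, Finset.card_image_of_injOn fun a ha b hb h =>
      bits_injOn (List.mem_toFinset.1 ha) (List.mem_toFinset.1 hb) h,
    List.toFinset_card_of_nodup nodup_words,
    ← List.length_map (f := fun w => w % 4096), low_bits, List.length_range]

theorem bxor_mem {c d : Fin 24 → Bool} (hc : c ∈ code) (hd : d ∈ code) :
    (fun i => xor (c i) (d i)) ∈ code := by
  obtain ⟨a, ha, rfl⟩ := Finset.mem_image.1 hc
  obtain ⟨b, hb, rfl⟩ := Finset.mem_image.1 hd
  exact Finset.mem_image.2 ⟨a ^^^ b,
    List.mem_toFinset.2 (xor_mem (List.mem_toFinset.1 ha) (List.mem_toFinset.1 hb)),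
    funext fun i => Nat.testBit_xor a b i⟩

theorem zero_mem : (fun _ => false) ∈ code :=
  Finset.mem_image.2 ⟨0, List.mem_toFinset.2 (by decide +kernel), funext fun i => by simp [bits]⟩

theorem ones_mem : (fun _ => true) ∈ code :=
  Finset.mem_image.2 ⟨16777215, List.mem_toFinset.2 (by decide +kernel), by decide +kernel⟩

/-- The number of common ones. -/
def common (c d : Fin 24 → Bool) : ℕ := (Finset.univ.filter fun i => (c i && d i) = true).card

theorem common_xor (d x y : Fin 24 → Bool) :
    ∃ k, common d (fun i => xor (x i) (y i)) + 2 * k = common d x + common d y := by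
  refine ⟨(Finset.univ.filter fun i => (d i && x i && y i) = true).card, ?_⟩
  simp only [common, Finset.card_filter, Finset.mul_sum, ← Finset.sum_add_distrib]
  refine Finset.sum_congr rfl fun i _ => ?_
  cases d i <;> cases x i <;> cases y i <;> rfl

/-- **Self-orthogonality.** -/
theorem two_dvd_common {c d : Fin 24 → Bool} (hc : c ∈ code) (hd : d ∈ code) :
    2 ∣ common c d := by
  have h : wt (fun i => xor (c i) (d i)) + 2 * common c d = wt c + wt d := by
    simp only [wt, common, Finset.card_filter, Finset.mul_sum, ← Finset.sum_add_distrib]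
    refine Finset.sum_congr rfl fun i _ => ?_
    cases c i <;> cases d i <;> rfl
  have h1 := four_dvd_wt (bxor_mem hc hd)
  have h2 := four_dvd_wt hc
  have h3 := four_dvd_wt hd
  omega

/-- Code words with one given bit among the last twelve. -/
def single : List ℕ :=
  [8129, 12058, 20084, 36074, 68054, 134060, 263005, 526009, 1049971, 2097895, 4195727, 8390719]

theorem single_spec (j : Fin 12) : single.getD j 0 ∈ words rows ∧
    ∀ i : Fin 24, 12 ≤ i.val → ((single.getD j 0).testBit i = true ↔ i.val = 12 + j.val) := by
  revert j
  decide +kernel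

/-- **Self-duality.** -/
theorem mem_of_two_dvd_common {c : Fin 24 → Bool} (h : ∀ d ∈ code, 2 ∣ common c d) : c ∈ code := by
  let m := Nat.ofBits fun i : Fin 12 => c ⟨i, by omega⟩
  have hm : m < 4096 := Nat.ofBits_lt_two_pow _
  obtain ⟨w, hw, hwm⟩ := List.mem_map.1
    (show m ∈ (words rows).map (fun w => w % 4096) by rw [low_bits]; exact List.mem_range.2 hm)
  have hwc : bits w ∈ code := Finset.mem_image.2 ⟨w, List.mem_toFinset.2 hw, rfl⟩
  suffices e : c = bits w from e ▸ hwc
  let d : Fin 24 → Bool := fun i => xor (c i) (bits w i)
  have hlow : ∀ i : Fin 24, i.val < 12 → d i = false := fun i hi => by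
    have e : w.testBit i = m.testBit i := by
      rw [← hwm, show (4096 : ℕ) = 2 ^ 12 from rfl, Nat.testBit_mod_two_pow]
      simp [hi]
    simp only [d, bits, e, m, Nat.testBit_ofBits_lt _ _ hi]
    simp
  have hd : ∀ u ∈ code, 2 ∣ common d u := fun u hu => by
    obtain ⟨k, hk⟩ := common_xor u c (bits w)
    have e : ∀ a b, common a b = common b a := fun a b => by simp [common, Bool.and_comm]
    have h1 := h u hu
    have h2 := two_dvd_common hwc hu
    rw [e d u]
    rw [e c u] at h1
    rw [e (bits w) u] at h2
    show 2 ∣ common u fun i => xor (c i) (bits w i)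
    omega
  funext i
  by_cases hi : i.val < 12
  · simpa [d] using hlow i hi
  · obtain ⟨hmem, hb⟩ := single_spec ⟨i.val - 12, by omega⟩
    set u := single.getD (i.val - 12) 0
    have h2 := hd (bits u) (Finset.mem_image.2 ⟨u, List.mem_toFinset.2 hmem, rfl⟩)
    by_contra hne
    have hdi : d i = true := by simp only [d]; revert hne; cases c i <;> cases bits w i <;> simp
    have : (Finset.univ.filter fun k => (d k && bits u k) = true) = {i} := by
      ext k
      simp only [Finset.mem_filter, Finset.mem_univ, true_and, Finset.mem_singleton,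
        Bool.and_eq_true]
      constructor
      · rintro ⟨hk1, hk2⟩
        by_cases hk : k.val < 12
        · rw [hlow k hk] at hk1
          exact absurd hk1 Bool.false_ne_true
        · have := (hb k (by omega)).1 hk2
          exact Fin.ext (by simp only at this; omega)
      · rintro rfl
        exact ⟨hdi, (hb k (by omega)).2 (by simp only; omega)⟩
    rw [common, this, Finset.card_singleton] at h2
    omega

end FA.Golay

end
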