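import Fermat.Agent.Forms3.HurwitzOrder

/-!
# Forms and optimal embeddings in Hurwitz's order

An optimal embedding of the order of discriminant `-N` is a pure quaternion `u` of norm `N`. A
primitive form `(a, B, c)` of this discriminant gives the right ideal `a Hz + (B + u)/2 Hz = α Hz`
with `N(α) = a`, and `α⁻¹ u α` is again an optimal embedding; `α Hz` meets `ℚ(u)` in the lattice of
the form.
-/

set_option autoImplicit false

noncomputable section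

namespace FA.HurwitzQ

open Quaternion
open scoped Quaternion

/-- The element `p + q u`. -/
def el (u : ℍ[ℚ]) (p q : ℚ) : ℍ[ℚ] := p • 1 + q • u

/-- An optimal embedding of the order of discriminant `-N`. -/
structure Emb (N : ℕ) (u : ℍ[ℚ]) : Prop where
  re : u.re = 0
  norm : normSq u = N
  half : el u ((N : ℚ) / 2) (1 / 2) ∈ Hz
  opt : ∀ p q : ℚ, el u p q ∈ Hz → ∃ m k : ℤ, p = m / 2 ∧ q = k / 2 ∧ (2 : ℤ) ∣ m - k * N

variable {N : ℕ} {u : ℍ[ℚ]}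

theorem el_conj {π u₁ : ℍ[ℚ]} (h : u * π = π * u₁) (p q : ℚ) :
    el u p q * π = π * el u₁ p q := by
  simp only [el, add_mul, mul_add, smul_mul_assoc, mul_smul_comm, one_mul, mul_one, h]

theorem el_comm (u : ℍ[ℚ]) (p q : ℚ) : u * el u p q = el u p q * u :=
  (el_conj (π := u) rfl p q).symm

theorem el_scalar (u : ℍ[ℚ]) (r : ℚ) : el u r 0 = r • 1 := by simp [el]

theorem el_smul (u : ℍ[ℚ]) (r p q : ℚ) : r • el u p q = el u (r * p) (r * q) := by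
  ext <;> simp [el] <;> ring

theorem el_add (u : ℍ[ℚ]) (p q p' q' : ℚ) : el u p q + el u p' q' = el u (p + p') (q + q') := by
  ext <;> simp [el] <;> ring

theorem Emb.normSq_eq (hu : Emb N u) :
    u.imI ^ 2 + u.imJ ^ 2 + u.imK ^ 2 = (N : ℚ) := by
  have h := hu.norm
  rw [normSq_def', hu.re] at h
  linarith

theorem Emb.el_mul (hu : Emb N u) (p q p' q' : ℚ) :
    el u p q * el u p' q' = el u (p * p' - N * (q * q')) (p * q' + q * p') := by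
  have h := hu.normSq_eq
  ext <;> simp [el, hu.re] <;> first | linear_combination -(q * q') * h | ring

theorem Emb.el_star (hu : Emb N u) (p q : ℚ) : star (el u p q) = el u p (-q) := by
  ext <;> simp [el, hu.re]

theorem Emb.normSq_el (hu : Emb N u) (p q : ℚ) : normSq (el u p q) = p ^ 2 + N * q ^ 2 := by
  rw [normSq_def']
  simp [el, hu.re]
  linear_combination q ^ 2 * hu.normSq_eq

theorem Emb.el_injective (hu : Emb N u) (hN : N ≠ 0) {p q p' q' : ℚ} (h : el u p q = el u p' q') :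
    p = p' ∧ q = q' := by
  have h0 : el u (p - p') (q - q') = 0 := by
    rw [show el u (p - p') (q - q') = el u p q - el u p' q' by ext <;> simp [el] <;> ring, h,
      sub_self]
  have e := congrArg normSq h0
  rw [hu.normSq_el, map_zero] at e
  have hN' : (0 : ℚ) < N := Nat.cast_pos.2 (Nat.pos_of_ne_zero hN)
  have h1 : (p - p') ^ 2 = 0 := le_antisymm (by nlinarith [sq_nonneg (q - q')]) (sq_nonneg _)
  have h2 : (q - q') ^ 2 = 0 := by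
    rw [h1, zero_add] at e
    exact (mul_eq_zero.1 e).resolve_left hN'.ne'
  exact ⟨sub_eq_zero.1 (pow_eq_zero_iff two_ne_zero |>.1 h1),
    sub_eq_zero.1 (pow_eq_zero_iff two_ne_zero |>.1 h2)⟩

/-- The elements of the order. -/
theorem Emb.el_mem (hu : Emb N u) {m k : ℤ} (h : (2 : ℤ) ∣ m - k * N) :
    el u ((m : ℚ) / 2) ((k : ℚ) / 2) ∈ Hz := by
  obtain ⟨w, hw⟩ := h
  rw [show el u ((m : ℚ) / 2) ((k : ℚ) / 2) =
    (k : ℍ[ℚ]) * el u ((N : ℚ) / 2) (1 / 2) + (w : ℍ[ℚ]) by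
      have hw' : (m : ℚ) - k * N = 2 * w := by exact_mod_cast hw
      ext <;> simp [el] <;> first | linear_combination (1 / 2 : ℚ) * hw' | ring]
  exact add_mem (mul_mem (intCast_mem Hz k) hu.half) (intCast_mem Hz w)

/-- An element that commutes with `u`. -/
theorem Emb.exists_el (hu : Emb N u) (hN : N ≠ 0) {x : ℍ[ℚ]} (h : u * x = x * u) :
    ∃ p q : ℚ, x = el u p q := by
  have hN' : (N : ℚ) ≠ 0 := Nat.cast_ne_zero.2 hN
  have e := hu.normSq_eq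
  have h1 := congrArg QuaternionAlgebra.imI h
  have h2 := congrArg QuaternionAlgebra.imJ h
  have h3 := congrArg QuaternionAlgebra.imK h
  simp [hu.re] at h1 h2 h3
  refine ⟨x.re, (x.imI * u.imI + x.imJ * u.imJ + x.imK * u.imK) / N, ?_⟩
  ext <;> simp [el, hu.re] <;> field_simp
  · linear_combination -(x.imI) * e - (1 / 2 : ℚ) * u.imJ * h3 + (1 / 2 : ℚ) * u.imK * h2
  · linear_combination -(x.imJ) * e - (1 / 2 : ℚ) * u.imK * h1 + (1 / 2 : ℚ) * u.imI * h3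
  · linear_combination -(x.imK) * e - (1 / 2 : ℚ) * u.imI * h2 + (1 / 2 : ℚ) * u.imJ * h1

/-- A primitive positive form of discriminant `-N`. -/
def PrimForm (N : ℕ) (f : ℤ × ℤ × ℤ) : Prop :=
  0 < f.1 ∧ f.2.1 ^ 2 - 4 * f.1 * f.2.2 = -(N : ℤ) ∧ Int.gcd (Int.gcd f.1 f.2.1) f.2.2 = 1

/-- The element `(B + u) / 2` of a form. -/
def gen (u : ℍ[ℚ]) (f : ℤ × ℤ × ℤ) : ℍ[ℚ] := el u ((f.2.1 : ℚ) / 2) (1 / 2)

/-- The right ideal of a form. -/
def RIf (u : ℍ[ℚ]) (f : ℤ × ℤ × ℤ) : Set ℍ[ℚ] :=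
  {x | ∃ h₁ ∈ Hz, ∃ h₂ ∈ Hz, x = el u f.1 0 * h₁ + gen u f * h₂}

/-- A generator of the right ideal of a form. -/
def IsGen (u : ℍ[ℚ]) (f : ℤ × ℤ × ℤ) (α : ℍ[ℚ]) : Prop := α ≠ 0 ∧ RI α = RIf u f

variable {f : ℤ × ℤ × ℤ} {α : ℍ[ℚ]}

theorem PrimForm.parity (hf : PrimForm N f) : (2 : ℤ) ∣ f.2.1 - N := by
  have h : (2 : ℤ) ∣ f.2.1 ^ 2 + (N : ℤ) := ⟨2 * f.1 * f.2.2, by linarith [hf.2.1]⟩
  have h2 : (2 : ℤ) ∣ f.2.1 ^ 2 - f.2.1 := by
    rw [show f.2.1 ^ 2 - f.2.1 = f.2.1 * (f.2.1 - 1) by ring]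
    exact even_iff_two_dvd.1 (Int.even_mul_pred_self _)
  omega

theorem gen_mem (hu : Emb N u) (hf : PrimForm N f) : gen u f ∈ Hz := by
  have := hu.el_mem (m := f.2.1) (k := 1) (by simpa using hf.parity)
  simpa [gen] using this

theorem scalar_mem (u : ℍ[ℚ]) (z : ℤ) : el u z 0 ∈ Hz := by
  rw [el_scalar, show (z : ℚ) • (1 : ℍ[ℚ]) = (z : ℍ[ℚ]) by ext <;> simp]
  exact intCast_mem Hz z

theorem mem_RI_self (α : ℍ[ℚ]) : α ∈ RI α := ⟨1, one_mem Hz, (mul_one α).symm⟩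

theorem exists_isGen (hu : Emb N u) (hf : PrimForm N f) : ∃ α, IsGen u f α := by
  obtain ⟨β, -, h0, h⟩ := exists_generator (S := RIf u f)
    (by
      rintro _ ⟨h₁, hh₁, h₂, hh₂, rfl⟩
      exact add_mem (mul_mem (scalar_mem u _) hh₁) (mul_mem (gen_mem hu hf) hh₂))
    (by
      rintro _ ⟨h₁, hh₁, h₂, hh₂, rfl⟩ _ ⟨h₃, hh₃, h₄, hh₄, rfl⟩
      exact ⟨h₁ - h₃, sub_mem hh₁ hh₃, h₂ - h₄, sub_mem hh₂ hh₄, by noncomm_ring⟩)
    (by
      rintro _ ⟨h₁, hh₁, h₂, hh₂, rfl⟩ h hh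
      exact ⟨h₁ * h, mul_mem hh₁ hh, h₂ * h, mul_mem hh₂ hh, by noncomm_ring⟩)
    ⟨el u f.1 0, ⟨1, one_mem Hz, 0, zero_mem Hz, by simp⟩, by
      rw [el_scalar]
      exact fun e => hf.1.ne' (by simpa [Quaternion.ext_iff] using e)⟩
  exact ⟨β, h0, h.symm⟩

theorem IsGen.scalar_mem_RI (hα : IsGen u f α) : el u f.1 0 ∈ RI α :=
  hα.2 ▸ ⟨1, one_mem Hz, 0, zero_mem Hz, by simp⟩

theorem IsGen.gen_mem_RI (hα : IsGen u f α) : gen u f ∈ RI α :=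
  hα.2 ▸ ⟨0, zero_mem Hz, 1, one_mem Hz, by simp⟩

theorem IsGen.mem_Hz (hu : Emb N u) (hf : PrimForm N f) (hα : IsGen u f α) : α ∈ Hz := by
  obtain ⟨h₁, hh₁, h₂, hh₂, e⟩ := (hα.2 ▸ mem_RI_self α : α ∈ RIf u f)
  rw [e]
  exact add_mem (mul_mem (scalar_mem u _) hh₁) (mul_mem (gen_mem hu hf) hh₂)

theorem normSq_add_eq (x y : ℍ[ℚ]) :
    normSq (x + y) = normSq x + normSq y + 2 * (x * star y).re := by
  rw [normSq_def', normSq_def', normSq_def']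
  simp
  ring

theorem normSq_gen (hu : Emb N u) (hf : PrimForm N f) :
    normSq (gen u f) = (f.1 : ℚ) * f.2.2 := by
  rw [gen, hu.normSq_el]
  have h : (f.2.1 : ℚ) ^ 2 - 4 * f.1 * f.2.2 = -(N : ℚ) := by exact_mod_cast hf.2.1
  linear_combination (1 / 4 : ℚ) * h

/-- **The norm of the generator is `a`.** -/
theorem IsGen.normSq_eq (hu : Emb N u) (hf : PrimForm N f) (hα : IsGen u f α) :
    normSq α = (f.1 : ℚ) := by
  obtain ⟨M, hM⟩ := exists_norm (hα.mem_Hz hu hf)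
  have hdvd : ∀ x ∈ RI α, ∀ z : ℤ, normSq x = z → (M : ℤ) ∣ z := by
    rintro _ ⟨h, hh, rfl⟩ z hz
    obtain ⟨n, hn⟩ := exists_norm hh
    rw [map_mul, hM, hn] at hz
    exact ⟨n, by exact_mod_cast hz.symm⟩
  obtain ⟨k, hk⟩ : f.1 ∣ (M : ℤ) := by
    obtain ⟨h₁, hh₁, h₂, hh₂, e⟩ := (hα.2 ▸ mem_RI_self α : α ∈ RIf u f)
    obtain ⟨n₁, hn₁⟩ := exists_norm hh₁
    obtain ⟨n₂, hn₂⟩ := exists_norm hh₂
    obtain ⟨z, hz⟩ := exists_two_re (mul_mem hh₁ (star_mem (mul_mem (gen_mem hu hf) hh₂)))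
    refine ⟨f.1 * n₁ + f.2.2 * n₂ + z, ?_⟩
    have e' := congrArg normSq e
    rw [hM, normSq_add_eq, map_mul, map_mul, normSq_gen hu hf, hn₁, hn₂, hu.normSq_el,
      el_scalar, smul_mul_assoc, smul_mul_assoc, one_mul, Quaternion.re_smul, smul_eq_mul,
      mul_left_comm 2, hz] at e'
    have : ((M : ℤ) : ℚ) = ((f.1 * (f.1 * n₁ + f.2.2 * n₂ + z) : ℤ) : ℚ) := by
      push_cast
      linear_combination e'
    exact_mod_cast this
  have hk0 : 0 ≤ k := nonneg_of_mul_nonneg_right (hk ▸ Int.natCast_nonneg M) hf.1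
  obtain ⟨x₁, hx₁⟩ := hdvd _ hα.scalar_mem_RI (f.1 * f.1) (by
    rw [hu.normSq_el]; push_cast; ring)
  obtain ⟨x₂, hx₂⟩ := hdvd _ hα.gen_mem_RI (f.1 * f.2.2) (by
    rw [normSq_gen hu hf]; push_cast; rfl)
  obtain ⟨x₃, hx₃⟩ := hdvd (el u f.1 0 + gen u f)
    (hα.2 ▸ ⟨1, one_mem Hz, 1, one_mem Hz, by simp⟩) (f.1 * (f.1 + f.2.1 + f.2.2)) (by
    rw [normSq_add_eq, normSq_gen hu hf, hu.normSq_el, gen, hu.el_star, hu.el_mul]
    simp [el, hu.re]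
    ring)
  rw [hk, mul_assoc] at hx₁ hx₂ hx₃
  have e1 := mul_left_cancel₀ hf.1.ne' hx₁
  have e2 := mul_left_cancel₀ hf.1.ne' hx₂
  have e3 := mul_left_cancel₀ hf.1.ne' hx₃
  have hk1 : k ∣ (Int.gcd (Int.gcd f.1 f.2.1) f.2.2 : ℤ) :=
    Int.dvd_coe_gcd (Int.dvd_coe_gcd ⟨x₁, e1⟩ ⟨x₃ - x₁ - x₂, by linear_combination e3 - e1 - e2⟩)
      ⟨x₂, e2⟩
  rw [hf.2.2, Nat.cast_one] at hk1
  rw [Int.eq_one_of_dvd_one hk0 hk1, mul_one] at hk
  rw [hM, ← hk]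
  norm_cast

/-- The lattice of the form is where the ideal meets `ℚ(u)`. -/
theorem IsGen.lattice (hu : Emb N u) (hf : PrimForm N f) (hα : IsGen u f α)
    {p q : ℚ} (h : el u p q ∈ RI α) :
    ∃ m k : ℤ, p = m * f.1 + k * ((f.2.1 : ℚ) / 2) ∧ q = k / 2 := by
  have ha : (f.1 : ℚ) ≠ 0 := Int.cast_ne_zero.2 hf.1.ne'
  obtain ⟨x, hx, hpq⟩ := h
  obtain ⟨-, k, -, hq, -⟩ := hu.opt p q (hpq ▸ mul_mem (hα.mem_Hz hu hf) hx)
  obtain ⟨y, hy, hg⟩ := hα.gen_mem_RI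
  have e : star (gen u f) * el u p q = (f.1 : ℚ) • (star y * x) := by
    rw [hg, hpq, star_mul, mul_assoc, ← mul_assoc (star α), star_mul_self, hα.normSq_eq hu hf,
      Quaternion.coe_mul_eq_smul, mul_smul_comm]
  have e' : star y * x =
      (f.1 : ℚ)⁻¹ • (star (gen u f) * el u p q) := by rw [e, inv_smul_smul₀ ha]
  rw [gen, hu.el_star, hu.el_mul, el_smul] at e'
  obtain ⟨-, j, -, hj, -⟩ := hu.opt _ _ (e' ▸ mul_mem (star_mem hy) hx)
  refine ⟨-j, k, ?_, hq⟩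
  rw [hq] at hj
  field_simp at hj ⊢
  push_cast
  linear_combination -hj

theorem Emb.el_comm_el (hu : Emb N u) (p q r t : ℚ) :
    el u p q * el u r t = el u r t * el u p q := by
  rw [hu.el_mul, hu.el_mul]
  congr 1 <;> ring

/-- The order of `u` maps the ideal to itself. -/
theorem IsGen.order_mul_mem (hu : Emb N u) (hα : IsGen u f α) {p q : ℚ} (h : el u p q ∈ Hz)
    {x : ℍ[ℚ]} (hx : x ∈ RI α) : el u p q * x ∈ RI α := by
  rw [hα.2] at hx ⊢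
  obtain ⟨h₁, hh₁, h₂, hh₂, rfl⟩ := hx
  exact ⟨el u p q * h₁, mul_mem h hh₁, el u p q * h₂, mul_mem h hh₂, by
    rw [mul_add, gen, ← mul_assoc, ← mul_assoc, hu.el_comm_el p q, hu.el_comm_el p q, mul_assoc,
      mul_assoc]⟩

/-- An element of the order of `u` goes to one of `α⁻¹ u α`. -/
theorem IsGen.conj_mem (hu : Emb N u) (hα : IsGen u f α) {p q : ℚ} (h : el u p q ∈ Hz) :
    α⁻¹ * el u p q * α ∈ Hz := by
  obtain ⟨w, hw, hw'⟩ := hα.order_mul_mem hu h (mem_RI_self α)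
  rw [mul_assoc, hw', inv_mul_cancel_left₀ hα.1]
  exact hw

/-- A primitive form takes `1` as a combination of its coefficients. -/
theorem PrimForm.bezout (hf : PrimForm N f) :
    ∃ x y z : ℤ, f.1 * x + f.2.1 * y + f.2.2 * z = 1 := by
  obtain ⟨s, t, h⟩ : ∃ s t : ℤ, (Int.gcd f.1 f.2.1 : ℤ) * s + f.2.2 * t = 1 :=
    ⟨_, _, (Int.gcd_eq_gcd_ab _ _).symm.trans (by rw [hf.2.2, Nat.cast_one])⟩
  rw [Int.gcd_eq_gcd_ab] at h
  exact ⟨Int.gcdA f.1 f.2.1 * s, Int.gcdB f.1 f.2.1 * s, t, by linear_combination h⟩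

theorem el_conj_eq {α : ℍ[ℚ]} (h0 : α ≠ 0) (p q : ℚ) :
    el (α⁻¹ * u * α) p q = α⁻¹ * el u p q * α := by
  rw [mul_assoc α⁻¹ (el u p q), el_conj (u₁ := α⁻¹ * u * α)
    (by rw [← mul_assoc, ← mul_assoc, mul_inv_cancel₀ h0, one_mul]), inv_mul_cancel_left₀ h0]

/-- **The conjugate is an optimal embedding.** -/
theorem IsGen.emb (hu : Emb N u) (hN : N ≠ 0) (hf : PrimForm N f) (hα : IsGen u f α) :
    Emb N (α⁻¹ * u * α) := by
  have h0 := hα.1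
  refine ⟨?_, ?_, by rw [el_conj_eq h0]; exact hα.conj_mem hu hu.half, fun p q h => ?_⟩
  · have h1 : (α⁻¹ * u * α).re = (u * α * α⁻¹).re := by
      rw [mul_assoc, Quaternion.re_mul, Quaternion.re_mul (a := u * α)]
      ring
    rw [h1, mul_inv_cancel_right₀ h0, hu.re]
  · rw [map_mul, map_mul, map_inv₀, hu.norm]
    field_simp [normSq_ne_zero.2 h0]
  rw [el_conj_eq h0] at h
  -- `p + q u` maps the lattice of the form into itself
  have hlat : ∀ z ∈ RI α, el u p q * z ∈ RI α := by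
    rintro _ ⟨w, hw, rfl⟩
    exact ⟨α⁻¹ * el u p q * α * w, mul_mem h hw, by
      simp only [mul_assoc, mul_inv_cancel_left₀ h0]⟩
  have h1 := hlat _ hα.scalar_mem_RI
  have h2 := hlat _ hα.gen_mem_RI
  rw [hu.el_mul] at h1
  rw [gen, hu.el_mul] at h2
  obtain ⟨m, k, e1, e2⟩ := hα.lattice hu hf h1
  obtain ⟨m', k', e3, e4⟩ := hα.lattice hu hf h2
  have ha : (f.1 : ℚ) ≠ 0 := Int.cast_ne_zero.2 hf.1.ne'
  have hD : (f.2.1 : ℚ) ^ 2 - 4 * f.1 * f.2.2 = -(N : ℚ) := by exact_mod_cast hf.2.1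
  have hp : p = m + q * f.2.1 := mul_left_cancel₀ ha (by
    linear_combination e1 - (f.2.1 : ℚ) * e2)
  have hB : 2 * q * f.2.1 = k' - m := by linear_combination 2 * e4 - hp
  have hA : 2 * q * f.1 = k := by linear_combination 2 * e2
  have hC : 2 * q * f.2.2 = -m' := mul_left_cancel₀ ha (by
    linear_combination -e3 + ((f.2.1 : ℚ) / 2) * hp + (-q / 2) * hD + ((f.2.1 : ℚ) / 2) * hB)
  -- so `2 q` is an integer
  obtain ⟨T, hT⟩ : ∃ T : ℤ, 2 * q = T := by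
    obtain ⟨x, y, z, hxyz⟩ := hf.bezout
    refine ⟨k * x + (k' - m) * y + -m' * z, ?_⟩
    have e : (f.1 : ℚ) * x + f.2.1 * y + f.2.2 * z = 1 := by exact_mod_cast hxyz
    push_cast
    linear_combination (-(2 * q)) * e + (x : ℚ) * hA + (y : ℚ) * hB + (z : ℚ) * hC
  refine ⟨2 * m + T * f.2.1, T, ?_, by linarith, ?_⟩
  · push_cast
    linear_combination hp + ((f.2.1 : ℚ) / 2) * hT
  · rw [show 2 * m + T * f.2.1 - T * (N : ℤ) = 2 * m + T * (f.2.1 - N) by ring]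
    exact dvd_add (dvd_mul_right 2 m) (dvd_mul_of_dvd_right hf.parity T)

/-- A scaling between the ideals of two forms gives a substitution of determinant one. -/
theorem IsGen.exists_equiv (hu : Emb N u) {f' : ℤ × ℤ × ℤ} {α' : ℍ[ℚ]}
    (hf : PrimForm N f) (hf' : PrimForm N f') (hα : IsGen u f α) (hα' : IsGen u f' α')
    {p q : ℚ} (hsub : ∀ z ∈ RI α, el u p q * z ∈ RI α')
    (hnorm : (p ^ 2 + N * q ^ 2) * f.1 = f'.1) :
    ∃ m k m' k' : ℤ, m * k' - k * m' = 1 ∧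
      f.1 = f'.1 * m ^ 2 + f'.2.1 * m * k + f'.2.2 * k ^ 2 ∧
      f.2.1 = 2 * f'.1 * m * m' + f'.2.1 * (m * k' + k * m') + 2 * f'.2.2 * k * k' ∧
      f.2.2 = f'.1 * m' ^ 2 + f'.2.1 * m' * k' + f'.2.2 * k' ^ 2 := by
  have h1 := hsub _ hα.scalar_mem_RI
  have h2 := hsub _ hα.gen_mem_RI
  rw [hu.el_mul] at h1
  rw [gen, hu.el_mul] at h2
  obtain ⟨m, k, e1, e2⟩ := hα'.lattice hu hf' h1
  obtain ⟨m', k', e3, e4⟩ := hα'.lattice hu hf' h2
  have hD : (f.2.1 : ℚ) ^ 2 - 4 * f.1 * f.2.2 = -(N : ℚ) := by exact_mod_cast hf.2.1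
  have hD' : (f'.2.1 : ℚ) ^ 2 - 4 * f'.1 * f'.2.2 = -(N : ℚ) := by exact_mod_cast hf'.2.1
  have ha' : (f'.1 : ℚ) ≠ 0 := Int.cast_ne_zero.2 hf'.1.ne'
  simp only [mul_zero, zero_add, sub_zero] at e1 e2
  refine ⟨m, k, m', k', ?_, ?_, ?_, ?_⟩ <;> rw [← Int.cast_inj (α := ℚ)] <;> push_cast <;>
    refine mul_left_cancel₀ ha' ?_
  · linear_combination
      (-(k' : ℚ)) * e1 + ((k : ℚ)) * e3 + hnorm + (2 * p * f.1 : ℚ) * (-e4) +
        (-(p * f.2.1) + N * q) * (-e2)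
  · linear_combination (-(f.1 : ℚ)) * hnorm + (p * f.1 + (m * f'.1 + k * (f'.2.1 / 2))) * e1 +
      N * (q * f.1 + k / 2) * e2 + ((k : ℚ) ^ 2 / 4) * hD'
  · linear_combination (-(f.2.1 : ℚ)) * hnorm +
      2 * (m' * f'.1 + k' * (f'.2.1 / 2)) * e1 + 2 * (p * f.1) * e3 +
      2 * N * (k' / 2) * e2 + 2 * N * (q * f.1) * e4 + ((k : ℚ) * k' / 2) * hD'
  · linear_combination (-(f.2.2 : ℚ)) * hnorm +
      ((p * (f.2.1 / 2) - N * (q * (1 / 2))) + (m' * f'.1 + k' * (f'.2.1 / 2))) * e3 +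
      N * ((p * (1 / 2) + q * (f.2.1 / 2)) + k' / 2) * e4 + ((k' : ℚ) ^ 2 / 4) * hD' +
      (-(p ^ 2 + N * q ^ 2) / 4) * hD

/-- Translating a form does not change its ideal. -/
theorem IsGen.shift (hα : IsGen u f α) (k : ℤ) :
    IsGen u (f.1, f.2.1 + 2 * k * f.1, f.1 * k ^ 2 + f.2.1 * k + f.2.2) α := by
  refine ⟨hα.1, hα.2.trans (Set.ext fun x => ?_)⟩
  have e : gen u (f.1, f.2.1 + 2 * k * f.1, f.1 * k ^ 2 + f.2.1 * k + f.2.2) =
      el u f.1 0 * (k : ℍ[ℚ]) + gen u f := by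
    ext <;> simp [gen, el]; ring
  constructor <;> rintro ⟨h₁, hh₁, h₂, hh₂, rfl⟩
  · exact ⟨h₁ - k * h₂, sub_mem hh₁ (mul_mem (intCast_mem Hz k) hh₂), h₂, hh₂, by
      simp only [e]; noncomm_ring⟩
  · exact ⟨h₁ + k * h₂, add_mem hh₁ (mul_mem (intCast_mem Hz k) hh₂), h₂, hh₂, by
      simp only [e]; noncomm_ring⟩

/-- The inverse form has a generator with the same conjugate. -/
theorem IsGen.swap (hu : Emb N u) (hN : N ≠ 0) (hf : PrimForm N f) (hα : IsGen u f α) :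
    ∃ α', IsGen u (f.2.2, -f.2.1, f.1) α' ∧ α'⁻¹ * u * α' = α⁻¹ * u * α := by
  obtain ⟨a, B, c⟩ := f
  obtain ⟨ha, hD, -⟩ := id hf
  simp only at ha hD
  have ha' : (a : ℚ) ≠ 0 := Int.cast_ne_zero.2 ha.ne'
  set s : ℍ[ℚ] := el u ((B : ℚ) / (2 * a)) (-1 / (2 * a)) with hs
  have hD' : (B : ℚ) ^ 2 - 4 * a * c = -(N : ℚ) := by exact_mod_cast hD
  have hs0 : s ≠ 0 := fun e => by
    have h := congrArg normSq e
    rw [hs, hu.normSq_el, map_zero] at h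
    field_simp at h
    have : (0 : ℚ) < N := Nat.cast_pos.2 (Nat.pos_of_ne_zero hN)
    nlinarith [sq_nonneg (B : ℚ)]
  have e1 : s * el u a 0 = -gen u (c, -B, a) := by
    rw [hs, hu.el_mul, show -gen u (c, -B, a) = el u ((B : ℚ) / 2) (-1 / 2) by
      ext <;> simp [gen, el] <;> ring]
    congr 1 <;> field_simp <;> ring
  have e2 : s * gen u (a, B, c) = el u c 0 := by
    rw [hs, gen, hu.el_mul]
    congr 1 <;> field_simp <;> first | linear_combination hD' | ring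
  refine ⟨s * α, ⟨mul_ne_zero hs0 hα.1, Set.ext fun x => ⟨?_, ?_⟩⟩, ?_⟩
  · rintro ⟨h, hh, rfl⟩
    obtain ⟨h₁, hh₁, h₂, hh₂, e⟩ := (hα.2 ▸ ⟨h, hh, rfl⟩ : α * h ∈ RIf u (a, B, c))
    refine ⟨h₂, hh₂, -h₁, neg_mem hh₁, ?_⟩
    rw [mul_assoc, e, mul_add, ← mul_assoc, ← mul_assoc, e1, e2, neg_mul, mul_neg, add_comm]
  · rintro ⟨h₁, hh₁, h₂, hh₂, rfl⟩
    obtain ⟨h, hh, e⟩ := (hα.2.symm ▸ ⟨-h₂, neg_mem hh₂, h₁, hh₁, rfl⟩ :
      el u a 0 * (-h₂) + gen u (a, B, c) * h₁ ∈ RI α)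
    refine ⟨h, hh, ?_⟩
    rw [mul_assoc, ← e, mul_add, ← mul_assoc, ← mul_assoc, e1, e2, mul_neg, neg_mul, neg_neg,
      add_comm]
  · rw [mul_inv_rev, mul_assoc _ _ (s * α), ← mul_assoc u, hs, el_comm, mul_assoc (α⁻¹),
      mul_assoc _ u, inv_mul_cancel_left₀ (hs ▸ hs0), ← mul_assoc]

end FA.HurwitzQ

end
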