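import Fermat.Agent.Forms3.ThreeSquaresRelation
import Fermat.Agent.Root.SummaryFourSquares

/-!
# The moments of one coordinate over the Hurwitz quaternions of a norm

The four squares summing to `4 n` are twice the Hurwitz quaternions of norm `n`. The units act on
them as a spherical `5`-design, so a coordinate has its moments of order two and four equal to those
of the sphere; over one value of the coordinate lie the representations by three squares.
-/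

set_option autoImplicit false

noncomputable section

namespace FA.HurwitzQ

open FA.ClassRelation

/-- The representations of `m` by four squares. -/
def fours (m : ℕ) : Finset (ℤ × ℤ × ℤ × ℤ) :=
  ((Finset.Icc (-(m : ℤ)) m) ×ˢ (Finset.Icc (-(m : ℤ)) m) ×ˢ (Finset.Icc (-(m : ℤ)) m) ×ˢ
    (Finset.Icc (-(m : ℤ)) m)).filter
    fun v => v.1 ^ 2 + v.2.1 ^ 2 + v.2.2.1 ^ 2 + v.2.2.2 ^ 2 = (m : ℤ)

theorem mem_fours {m : ℕ} {v : ℤ × ℤ × ℤ × ℤ} :
    v ∈ fours m ↔ v.1 ^ 2 + v.2.1 ^ 2 + v.2.2.1 ^ 2 + v.2.2.2 ^ 2 = (m : ℤ) := by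
  simp only [fours, Finset.mem_filter, Finset.mem_product, Finset.mem_Icc, and_iff_right_iff_imp]
  intro h
  have hb : ∀ x : ℤ, x ^ 2 ≤ (m : ℤ) → -(m : ℤ) ≤ x ∧ x ≤ m := fun x hx => by
    constructor <;> nlinarith [sq_nonneg (x - 1), sq_nonneg (x + 1)]
  have := sq_nonneg v.1; have := sq_nonneg v.2.1
  have := sq_nonneg v.2.2.1; have := sq_nonneg v.2.2.2
  exact ⟨hb _ (by linarith), hb _ (by linarith), hb _ (by linarith), hb _ (by linarith)⟩

theorem natCard_fours (m : ℕ) : (fours m).card =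
    Nat.card {v : ℤ × ℤ × ℤ × ℤ // v.1 ^ 2 + v.2.1 ^ 2 + v.2.2.1 ^ 2 + v.2.2.2 ^ 2 = (m : ℤ)} := by
  rw [← Nat.card_eq_finsetCard]
  exact Nat.card_congr (Equiv.subtypeEquivRight fun v => mem_fours)

theorem filter_divisors_four {n : ℕ} (hn : n ≠ 0) :
    ∑ d ∈ (4 * n).divisors with ¬ 4 ∣ d, d = 3 * ∑ d ∈ n.divisors with Odd d, d := by
  rw [← Finset.sum_filter_add_sum_filter_not _ Odd]
  have h4 : 4 * n ≠ 0 := by omega
  have e1 : ((4 * n).divisors.filter fun d => ¬ 4 ∣ d).filter Odd = n.divisors.filter Odd := by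
    ext d
    simp only [Finset.mem_filter, Nat.mem_divisors, ne_eq, h4, hn, not_false_eq_true, and_true]
    constructor
    · rintro ⟨⟨hd, -⟩, ho⟩
      refine ⟨Nat.Coprime.dvd_of_dvd_mul_left ?_ hd, ho⟩
      exact (Nat.coprime_two_right.2 ho).pow_right 2
    · rintro ⟨hd, ho⟩
      exact ⟨⟨hd.mul_left 4, fun h => by rw [Nat.odd_iff] at ho; omega⟩, ho⟩
  have e2 : ((4 * n).divisors.filter fun d => ¬ 4 ∣ d).filter (fun d => ¬ Odd d) =
      (n.divisors.filter Odd).image (2 * ·) := by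
    ext d
    simp only [Finset.mem_filter, Finset.mem_image, Nat.mem_divisors, ne_eq, h4, hn,
      not_false_eq_true, and_true, Nat.not_odd_iff_even]
    constructor
    · rintro ⟨⟨hd, hd4⟩, he⟩
      obtain ⟨k, rfl⟩ := he.two_dvd
      have hk : Odd k := Nat.not_even_iff_odd.1 fun ⟨j, hj⟩ => hd4 ⟨j, by omega⟩
      refine ⟨k, ⟨Nat.Coprime.dvd_of_dvd_mul_left ((Nat.coprime_two_right.2 hk).pow_right 2)
        ((Dvd.intro_left 2 rfl).trans hd), hk⟩, rfl⟩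
    · rintro ⟨k, ⟨hk, ho⟩, rfl⟩
      refine ⟨⟨?_, fun h => by rw [Nat.odd_iff] at ho; omega⟩, even_two_mul k⟩
      exact mul_dvd_mul (by norm_num) hk
  rw [e1, e2, Finset.sum_image fun a _ b _ h => by simpa using h, ← Finset.mul_sum]
  ring

theorem card_fours_four {n : ℕ} (hn : n ≠ 0) :
    (fours (4 * n)).card = 24 * ∑ d ∈ n.divisors with Odd d, d := by
  rw [natCard_fours, FA.Summary.jacobi_four_squares (by omega), filter_divisors_four hn]
  ring

theorem card_fours_odd {n : ℕ} (hn : Odd n) :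
    (fours n).card = 8 * ArithmeticFunction.sigma 1 n := by
  rw [natCard_fours, FA.Summary.jacobi_four_squares_odd hn]

theorem card_fours_four_odd {n : ℕ} (hn : Odd n) :
    (fours (4 * n)).card = 24 * ArithmeticFunction.sigma 1 n := by
  rw [card_fours_four hn.pos.ne', ArithmeticFunction.sigma_one_apply,
    Finset.filter_true_of_mem fun d hd =>
      hn.of_dvd_nat (Nat.dvd_of_mem_divisors hd)]

/-- A symmetry does not change a sum. -/
theorem sum_fours_comp {m : ℕ} (g : ℤ × ℤ × ℤ × ℤ → ℤ × ℤ × ℤ × ℤ)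
    (hg : ∀ v ∈ fours m, g v ∈ fours m ∧ g (g v) = v) (f : ℤ × ℤ × ℤ × ℤ → ℚ) :
    ∑ v ∈ fours m, f (g v) = ∑ v ∈ fours m, f v :=
  Finset.sum_nbij' g g (fun v hv => (hg v hv).1) (fun v hv => (hg v hv).1)
    (fun v hv => (hg v hv).2) (fun v hv => (hg v hv).2) fun _ _ => rfl

theorem sum_sq_first (m : ℕ) :
    4 * ∑ v ∈ fours m, (v.1 : ℚ) ^ 2 = (m : ℚ) * (fours m).card := by
  have hb := sum_fours_comp (m := m) (fun v => (v.2.1, v.1, v.2.2)) (fun v hv => by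
    simp only [mem_fours] at hv ⊢; exact ⟨by linarith, trivial⟩) fun v => (v.1 : ℚ) ^ 2
  have hc := sum_fours_comp (m := m) (fun v => (v.2.2.1, v.2.1, v.1, v.2.2.2)) (fun v hv => by
    simp only [mem_fours] at hv ⊢; exact ⟨by linarith, trivial⟩) fun v => (v.1 : ℚ) ^ 2
  have hd := sum_fours_comp (m := m) (fun v => (v.2.2.2, v.2.1, v.2.2.1, v.1)) (fun v hv => by
    simp only [mem_fours] at hv ⊢; exact ⟨by linarith, trivial⟩) fun v => (v.1 : ℚ) ^ 2
  simp only at hb hc hd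
  have htot : ∑ v ∈ fours m, ((v.1 : ℚ) ^ 2 + (v.2.1 : ℚ) ^ 2 + (v.2.2.1 : ℚ) ^ 2 +
      (v.2.2.2 : ℚ) ^ 2) = (m : ℚ) * (fours m).card := by
    rw [Finset.sum_congr rfl fun v hv => show _ = (m : ℚ) by exact_mod_cast mem_fours.1 hv,
      Finset.sum_const, nsmul_eq_mul, mul_comm]
  rw [Finset.sum_add_distrib, Finset.sum_add_distrib, Finset.sum_add_distrib, hb, hc, hd] at htot
  linarith

/-- A unit of order two, on twice a quaternion. -/
def halfMap (v : ℤ × ℤ × ℤ × ℤ) : ℤ × ℤ × ℤ × ℤ :=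
  ((v.1 + v.2.1 + v.2.2.1 + v.2.2.2) / 2, (v.1 + v.2.1 - v.2.2.1 - v.2.2.2) / 2,
    (v.1 - v.2.1 + v.2.2.1 - v.2.2.2) / 2, (v.1 - v.2.1 - v.2.2.1 + v.2.2.2) / 2)

theorem two_dvd_sum {n : ℕ} {v : ℤ × ℤ × ℤ × ℤ} (hv : v ∈ fours (4 * n)) :
    (2 : ℤ) ∣ v.1 + v.2.1 + v.2.2.1 + v.2.2.2 := by
  have h := mem_fours.1 hv
  have he : ∀ x : ℤ, x ^ 2 % 2 = x % 2 := fun x => by
    rcases Int.even_or_odd' x with ⟨w, rfl | rfl⟩ <;> ring_nf <;> omega
  have := he v.1; have := he v.2.1; have := he v.2.2.1; have := he v.2.2.2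
  push_cast at h
  omega

theorem halfMap_spec {n : ℕ} {v : ℤ × ℤ × ℤ × ℤ} (hv : v ∈ fours (4 * n)) :
    halfMap v ∈ fours (4 * n) ∧ halfMap (halfMap v) = v ∧
      2 * (halfMap v).1 = v.1 + v.2.1 + v.2.2.1 + v.2.2.2 := by
  obtain ⟨s, hs⟩ := two_dvd_sum hv
  obtain ⟨a, b, c, d⟩ := v
  have h := mem_fours.1 hv
  simp only at hs h
  obtain rfl : a = 2 * s - b - c - d := by linarith
  have e : halfMap (2 * s - b - c - d, b, c, d) = (s, s - c - d, s - b - d, s - b - c) := by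
    simp only [halfMap, Prod.mk.injEq]
    omega
  refine ⟨?_, ?_, by rw [e]; ring⟩
  · rw [e, mem_fours]
    linear_combination h
  · rw [e]
    simp only [halfMap, Prod.mk.injEq]
    omega

theorem sum_pow_four_first (n : ℕ) :
    ∑ v ∈ fours (4 * n), (v.1 : ℚ) ^ 4 = 2 * (n : ℚ) ^ 2 * (fours (4 * n)).card := by
  set A := ∑ v ∈ fours (4 * n), (v.1 : ℚ) ^ 4
  have hflip : ∀ e : ℤ × ℤ × ℤ, e.1 * e.1 = 1 → e.2.1 * e.2.1 = 1 → e.2.2 * e.2.2 = 1 →
      ∑ v ∈ fours (4 * n), ((v.1 : ℚ) + (e.1 : ℚ) * v.2.1 + (e.2.1 : ℚ) * v.2.2.1 +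
        (e.2.2 : ℚ) * v.2.2.2) ^ 4 = 16 * A := fun e h1 h2 h3 => by
    have hf := sum_fours_comp (m := 4 * n)
      (fun v => (v.1, e.1 * v.2.1, e.2.1 * v.2.2.1, e.2.2 * v.2.2.2)) (fun v hv => by
        simp only [mem_fours, mul_pow] at hv ⊢
        refine ⟨?_, ?_⟩
        · rw [pow_two e.1, pow_two e.2.1, pow_two e.2.2, h1, h2, h3]; linarith
        · simp only [← mul_assoc, h1, h2, h3, one_mul])
      (fun v => ((v.1 : ℚ) + v.2.1 + v.2.2.1 + v.2.2.2) ^ 4)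
    simp only [Int.cast_mul] at hf
    rw [hf, show 16 * A = ∑ v ∈ fours (4 * n), (2 * ((halfMap v).1 : ℚ)) ^ 4 by
      rw [Finset.mul_sum, ← sum_fours_comp halfMap
        (fun v hv => ⟨(halfMap_spec hv).1, (halfMap_spec hv).2.1⟩)
        (fun v => 16 * (v.1 : ℚ) ^ 4)]
      exact Finset.sum_congr rfl fun v _ => by ring]
    exact Finset.sum_congr rfl fun v hv => by
      rw [show (2 : ℚ) * ((halfMap v).1 : ℚ) = (v.1 : ℚ) + v.2.1 + v.2.2.1 + v.2.2.2 by
        exact_mod_cast (halfMap_spec hv).2.2]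
  have hb := sum_fours_comp (m := 4 * n) (fun v => (v.2.1, v.1, v.2.2)) (fun v hv => by
    simp only [mem_fours] at hv ⊢; exact ⟨by linarith, trivial⟩) fun v => (v.1 : ℚ) ^ 4
  have hc := sum_fours_comp (m := 4 * n) (fun v => (v.2.2.1, v.2.1, v.1, v.2.2.2)) (fun v hv => by
    simp only [mem_fours] at hv ⊢; exact ⟨by linarith, trivial⟩) fun v => (v.1 : ℚ) ^ 4
  have hd := sum_fours_comp (m := 4 * n) (fun v => (v.2.2.2, v.2.1, v.2.2.1, v.1)) (fun v hv => by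
    simp only [mem_fours] at hv ⊢; exact ⟨by linarith, trivial⟩) fun v => (v.1 : ℚ) ^ 4
  simp only at hb hc hd
  have p1 := hflip (1, 1, 1) rfl rfl rfl
  have p2 := hflip (1, 1, -1) rfl rfl rfl
  have p3 := hflip (1, -1, 1) rfl rfl rfl
  have p4 := hflip (1, -1, -1) rfl rfl rfl
  have p5 := hflip (-1, 1, 1) rfl rfl rfl
  have p6 := hflip (-1, 1, -1) rfl rfl rfl
  have p7 := hflip (-1, -1, 1) rfl rfl rfl
  have p8 := hflip (-1, -1, -1) rfl rfl rfl
  simp only [Int.cast_one, Int.cast_neg] at p1 p2 p3 p4 p5 p6 p7 p8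
  have key : ∑ v ∈ fours (4 * n), (384 * (n : ℚ) ^ 2 - 16 * ((v.1 : ℚ) ^ 4 + (v.2.1 : ℚ) ^ 4 +
      (v.2.2.1 : ℚ) ^ 4 + (v.2.2.2 : ℚ) ^ 4)) = 128 * A := by
    rw [show 128 * A = 16 * A + 16 * A + 16 * A + 16 * A + 16 * A + 16 * A + 16 * A + 16 * A by
      ring]
    nth_rewrite 1 [← p1]; nth_rewrite 1 [← p2]; nth_rewrite 1 [← p3]; nth_rewrite 1 [← p4]
    nth_rewrite 1 [← p5]; nth_rewrite 1 [← p6]; nth_rewrite 1 [← p7]; nth_rewrite 1 [← p8]
    simp only [← Finset.sum_add_distrib]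
    refine Finset.sum_congr rfl fun v hv => ?_
    have h : (v.1 : ℚ) ^ 2 + (v.2.1 : ℚ) ^ 2 + (v.2.2.1 : ℚ) ^ 2 + (v.2.2.2 : ℚ) ^ 2 = 4 * n := by
      exact_mod_cast mem_fours.1 hv
    linear_combination (-24 * (((v.1 : ℚ) ^ 2 + (v.2.1 : ℚ) ^ 2 + (v.2.2.1 : ℚ) ^ 2 +
      (v.2.2.2 : ℚ) ^ 2) + 4 * n)) * h
  rw [Finset.sum_sub_distrib, Finset.sum_const, nsmul_eq_mul, ← Finset.mul_sum,
    Finset.sum_add_distrib, Finset.sum_add_distrib, Finset.sum_add_distrib, hb, hc, hd] at key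
  linarith

/-- Over one value of the first coordinate lie representations by three squares. -/
theorem card_fours_fiber {m : ℕ} {t : ℤ} (ht : t ^ 2 ≤ (m : ℤ)) :
    ((fours m).filter fun v => v.1 = t).card = (reps ((m : ℤ) - t ^ 2).toNat).card := by
  have e : (((m : ℤ) - t ^ 2).toNat : ℤ) = (m : ℤ) - t ^ 2 := Int.toNat_of_nonneg (by linarith)
  refine Finset.card_nbij' (fun v => v.2) (fun w => (t, w)) (fun v hv => ?_) (fun w hw => ?_)
    (fun v hv => ?_) fun w _ => rfl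
  · obtain ⟨h, ht'⟩ := Finset.mem_filter.1 (Finset.mem_coe.1 hv)
    rw [Finset.mem_coe, mem_reps, e, ← ht']
    linarith [mem_fours.1 h]
  · rw [Finset.mem_coe, mem_reps, e] at hw
    rw [Finset.mem_coe, Finset.mem_filter, mem_fours]
    exact ⟨by linarith, rfl⟩
  · rw [Finset.mem_coe, Finset.mem_filter] at hv
    exact Prod.ext hv.2.symm rfl

theorem sum_fours_eq (n : ℕ) (f : ℤ → ℚ) :
    ∑ v ∈ fours (4 * n), f v.1 =
      ∑ t ∈ (Finset.Icc (-(2 * (n : ℤ))) (2 * n)).filter (fun t => t ^ 2 ≤ 4 * (n : ℤ)),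
        f t * (reps (4 * (n : ℤ) - t ^ 2).toNat).card := by
  rw [← Finset.sum_fiberwise_of_maps_to (g := fun v : ℤ × ℤ × ℤ × ℤ => v.1) (t := (Finset.Icc
    (-(2 * (n : ℤ))) (2 * n)).filter fun t => t ^ 2 ≤ 4 * (n : ℤ)) fun v hv => ?_]
  · refine Finset.sum_congr rfl fun t ht => ?_
    rw [Finset.sum_congr rfl fun v hv => congrArg f (Finset.mem_filter.1 hv).2, Finset.sum_const,
      nsmul_eq_mul, mul_comm, card_fours_fiber (by push_cast; exact (Finset.mem_filter.1 ht).2)]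
    push_cast
    rfl
  · have h := mem_fours.1 hv
    push_cast at h
    have h2 : v.1 ^ 2 ≤ 4 * (n : ℤ) := by
      nlinarith [sq_nonneg v.2.1, sq_nonneg v.2.2.1, sq_nonneg v.2.2.2]
    rw [Finset.mem_filter, Finset.mem_Icc]
    refine ⟨⟨?_, ?_⟩, h2⟩ <;> nlinarith [sq_nonneg (v.1 - 1), sq_nonneg (v.1 + 1)]

/-- The odd values of the coordinate. -/
theorem sum_odd_traces {n : ℕ} (hn : Odd n) (f : ℤ → ℚ) :
    ∑ t ∈ (Finset.Icc (-(2 * (n : ℤ))) (2 * n)).filter (fun t => t ^ 2 < 4 * (n : ℤ) ∧ Odd t),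
        f t * (24 * classNumberH (4 * (n : ℤ) - t ^ 2).toNat) =
      ∑ v ∈ fours (4 * n), f v.1 - ∑ v ∈ fours n, f (2 * v.1) := by
  have hev : ∑ v ∈ fours (4 * n) with ¬ Odd v.1, f v.1 = ∑ v ∈ fours n, f (2 * v.1) := by
    refine (Finset.sum_nbij' (fun v => (2 * v.1, 2 * v.2.1, 2 * v.2.2.1, 2 * v.2.2.2))
      (fun v => (v.1 / 2, v.2.1 / 2, v.2.2.1 / 2, v.2.2.2 / 2)) (fun v hv => ?_) (fun v hv => ?_)
      (fun v _ => ?_) (fun v hv => ?_) fun v _ => rfl).symm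
    · rw [Finset.mem_filter, mem_fours]
      have := mem_fours.1 hv
      exact ⟨by push_cast; linarith, by simp⟩
    all_goals try (simp; done)
    all_goals
      obtain ⟨h, he⟩ := Finset.mem_filter.1 hv
      have h := mem_fours.1 h
      push_cast at h
      rw [Int.not_odd_iff_even, even_iff_two_dvd] at he
      obtain ⟨a, b, c, d⟩ := v
      simp only at h he
      have hp : ∀ x : ℤ, ((2 : ℤ) ∣ x ∧ x ^ 2 % 4 = 0) ∨ x ^ 2 % 4 = 1 := fun x => by
        rcases Int.even_or_odd' x with ⟨w, rfl | rfl⟩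
        · exact Or.inl ⟨dvd_mul_right 2 w, by ring_nf; omega⟩
        · exact Or.inr (by ring_nf; omega)
      have := hp a; have := hp b; have := hp c; have := hp d
      have ha2 : a ^ 2 % 4 = 0 := by
        obtain ⟨w, hw⟩ := he
        rw [hw, mul_pow]; norm_num
      obtain ⟨hb', hc', hd'⟩ : (2 : ℤ) ∣ b ∧ (2 : ℤ) ∣ c ∧ (2 : ℤ) ∣ d := by
        refine ⟨?_, ?_, ?_⟩ <;> omega
      obtain ⟨a, rfl⟩ := he
      obtain ⟨b, rfl⟩ := hb'
      obtain ⟨c, rfl⟩ := hc'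
      obtain ⟨d, rfl⟩ := hd'
    · rw [mem_fours]
      simp only [Int.mul_ediv_cancel_left _ (two_ne_zero (α := ℤ))]
      linarith
    · simp only [Int.mul_ediv_cancel_left _ (two_ne_zero (α := ℤ))]
  rw [eq_sub_iff_add_eq, ← hev, ← Finset.sum_filter_add_sum_filter_not (fours (4 * n))
    (fun v => Odd v.1), add_left_inj, ← Finset.sum_fiberwise_of_maps_to (g := fun v => v.1)
    (s := (fours (4 * n)).filter fun v => Odd v.1)
      (t := (Finset.Icc (-(2 * (n : ℤ))) (2 * n)).filter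
      fun t => t ^ 2 < 4 * (n : ℤ) ∧ Odd t) fun v hv => ?_]
  · refine Finset.sum_congr rfl fun t ht => ?_
    obtain ⟨-, hlt, ho⟩ := Finset.mem_filter.1 ht
    have hset : ((fours (4 * n)).filter fun v => Odd v.1).filter (fun v => v.1 = t) =
        (fours (4 * n)).filter fun v => v.1 = t := by
      rw [Finset.filter_filter]
      exact Finset.filter_congr fun v _ => ⟨fun h => h.2, fun h => ⟨h ▸ ho, h⟩⟩
    rw [hset, Finset.sum_congr rfl fun v hv => congrArg f (Finset.mem_filter.1 hv).2,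
      Finset.sum_const, nsmul_eq_mul, mul_comm, card_fours_fiber (by push_cast; linarith)]
    push_cast
    rw [card_reps_one]
    obtain ⟨w, rfl⟩ := ho
    obtain ⟨u, hu⟩ := Int.even_mul_succ_self w
    have : (2 * w + 1) ^ 2 = 1 + 8 * u := by linear_combination 4 * hu
    obtain ⟨k, rfl⟩ := hn
    omega
  · obtain ⟨hv, ho⟩ := Finset.mem_filter.1 hv
    have h := mem_fours.1 hv
    push_cast at h
    have h2 : v.1 ^ 2 ≤ 4 * (n : ℤ) := by
      nlinarith [sq_nonneg v.2.1, sq_nonneg v.2.2.1, sq_nonneg v.2.2.2]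
    have hne : v.1 ^ 2 ≠ 4 * (n : ℤ) := fun e => by
      have h1 : Odd (v.1 ^ 2) := ho.pow
      rw [e, Int.odd_iff] at h1
      omega
    rw [Finset.mem_filter, Finset.mem_Icc]
    refine ⟨⟨?_, ?_⟩, lt_of_le_of_ne h2 hne, ho⟩ <;>
      nlinarith [sq_nonneg (v.1 - 1), sq_nonneg (v.1 + 1)]

end FA.HurwitzQ

end
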