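import Fermat.Agent.Forms3.HurwitzTransitive

/-!
# Every optimal embedding is the conjugate of another by a form

For two optimal embeddings `u`, `u'` there is a primitive form whose quaternion `α` conjugates `u`
to `u'` up to units, when the discriminant is `-4 n` with `n ≡ 1, 2 (mod 4)`; in general it does so
for `u` or for its conjugate by `1 + i`.
-/

set_option autoImplicit false

noncomputable section

namespace FA.HurwitzQ

open Quaternion
open scoped Quaternion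

variable {N : ℕ} {u u' α : ℍ[ℚ]}

theorem re_conj {x : ℍ[ℚ]} (h0 : α ≠ 0) : (α⁻¹ * x * α).re = x.re := by
  have h : (α⁻¹ * x * α).re = (x * α * α⁻¹).re := by
    rw [mul_assoc, Quaternion.re_mul, Quaternion.re_mul (a := x * α)]
    ring
  rw [h, mul_inv_cancel_right₀ h0]

theorem normSq_conj {x : ℍ[ℚ]} (h0 : α ≠ 0) : normSq (α⁻¹ * x * α) = normSq x := by
  rw [map_mul, map_mul, map_inv₀]
  field_simp [normSq_ne_zero.2 h0]

/-- The conjugate by `1 + i`. -/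
theorem Emb.sigma (hu : Emb N u) : Emb N (pi2⁻¹ * u * pi2) := by
  refine ⟨by rw [re_conj pi2_ne_zero, hu.re], by rw [normSq_conj pi2_ne_zero, hu.norm], ?_,
    fun p q h => hu.opt p q ?_⟩
  · rw [el_conj_eq pi2_ne_zero]
    exact (pi2_normalises hu.half).1
  · rw [el_conj_eq pi2_ne_zero] at h
    have := (pi2_normalises h).2
    simpa [mul_assoc, mul_inv_cancel_left₀ pi2_ne_zero, mul_inv_cancel₀ pi2_ne_zero] using this

theorem mul_sigma (u : ℍ[ℚ]) : u * pi2 = pi2 * (pi2⁻¹ * u * pi2) := by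
  rw [← mul_assoc, ← mul_assoc, mul_inv_cancel₀ pi2_ne_zero, one_mul]

/-- For `N = 4 n` with `n ≡ 1, 2 (mod 4)` the ideal of `2` is generated by `1 + i`. -/
theorem exists_form_two (hu : Emb N u) (hA : N % 16 = 4 ∨ N % 16 = 8) :
    ∃ f, PrimForm N f ∧ IsGen u f pi2 := by
  obtain ⟨B, c, hBc, hc, hc0⟩ :
      ∃ B c : ℕ, 8 * c = B ^ 2 + N ∧ c % 2 = 1 ∧ B % 2 = 0 := by
    rcases hA with h | h
    · exact ⟨2, (N + 4) / 8, by omega, by omega, rfl⟩
    · exact ⟨0, N / 8, by omega, by omega, rfl⟩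
  have hBc' : 8 * (c : ℤ) = (B : ℤ) ^ 2 + N := by exact_mod_cast hBc
  have hf : PrimForm N (2, (B : ℤ), (c : ℤ)) := by
    refine ⟨two_pos, by simp only; linarith, ?_⟩
    simp only
    have h2 : Int.gcd (2 : ℤ) (B : ℤ) = 2 := by
      rw [show ((2 : ℤ)) = ((2 : ℕ) : ℤ) from rfl, Int.gcd_natCast_natCast]
      exact Nat.gcd_eq_left (Nat.dvd_of_mod_eq_zero hc0)
    rw [h2, Int.gcd_natCast_natCast, ← Nat.coprime_iff_gcd_eq_one]
    exact (Nat.coprime_two_left).2 (Nat.odd_iff.2 hc)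
  obtain ⟨αf, hαf⟩ := exists_isGen hu hf
  have hn : normSq αf = ((2 * 1 : ℕ) : ℚ) := by rw [hαf.normSq_eq hu hf]; norm_num
  obtain ⟨e, he, hee⟩ := even_norm (hαf.mem_Hz hu hf) hn
  have he' : e ∈ units := ⟨he, by
    have := congrArg normSq hee
    rw [map_mul, normSq_pi2, hn] at this
    push_cast at this
    linarith⟩
  refine ⟨_, hf, pi2_ne_zero, ?_⟩
  rw [← hαf.2, hee]
  refine Set.ext fun x => ⟨?_, fun ⟨h, hh, hx⟩ => ⟨e * h, mul_mem he hh, by rw [hx, mul_assoc]⟩⟩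
  rintro ⟨h, hh, rfl⟩
  exact ⟨e⁻¹ * h, mul_mem (unit_inv he').1.1 hh, by
    rw [mul_assoc pi2, mul_inv_cancel_left₀ (unit_ne_zero he')]⟩

/-- `u ⬝ (w u' w̄)` for `w = a + b i + c j + d k`. -/
def rotDot {R : Type*} [CommRing R] (a b c d x y z x' y' z' : R) : R :=
  x * ((a ^ 2 + b ^ 2 - c ^ 2 - d ^ 2) * x' + 2 * (b * c - a * d) * y' + 2 * (b * d + a * c) * z') +
  y * (2 * (b * c + a * d) * x' + (a ^ 2 - b ^ 2 + c ^ 2 - d ^ 2) * y' + 2 * (c * d - a * b) * z') +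
  z * (2 * (b * d - a * c) * x' + 2 * (c * d + a * b) * y' + (a ^ 2 - b ^ 2 - c ^ 2 + d ^ 2) * z')

/-- Some rotation keeps two nonzero vectors from being orthogonal. -/
theorem exists_rotDot_ne_zero {F : Type*} [Field F] (h2 : (2 : F) ≠ 0) {x y z x' y' z' : F}
    (h : x ≠ 0 ∨ y ≠ 0 ∨ z ≠ 0) (h' : x' ≠ 0 ∨ y' ≠ 0 ∨ z' ≠ 0) :
    ∃ a b c d : ℤ, rotDot (a : F) b c d x y z x' y' z' ≠ 0 := by
  by_contra hne
  push Not at hne
  have e1 := hne 1 0 0 0
  have ei := hne 0 1 0 0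
  have ej := hne 0 0 1 0
  have ek := hne 0 0 0 1
  have eij := hne 0 1 1 0
  have e1k := hne 1 0 0 1
  have ejk := hne 0 0 1 1
  have e1i := hne 1 1 0 0
  have eki := hne 0 1 0 1
  have e1j := hne 1 0 1 0
  simp only [rotDot, Int.cast_one, Int.cast_zero] at e1 ei ej ek eij e1k ejk e1i eki e1j
  have h4 : (2 : F) * 2 ≠ 0 := mul_ne_zero h2 h2
  have z2 : ∀ {s : F}, 2 * s = 0 → s = 0 := fun e => (mul_eq_zero.1 e).resolve_left h2
  have z4 : ∀ {s : F}, 2 * 2 * s = 0 → s = 0 := fun e => (mul_eq_zero.1 e).resolve_left h4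
  have xx : x * x' = 0 := z2 (by linear_combination e1 + ei)
  have yy : y * y' = 0 := z2 (by linear_combination e1 + ej)
  have zz : z * z' = 0 := z2 (by linear_combination e1 + ek)
  have yx : y * x' = 0 := z4 (by linear_combination eij + e1k)
  have xy : x * y' = 0 := z4 (by linear_combination eij - e1k + 4 * zz)
  have zy : z * y' = 0 := z4 (by linear_combination ejk + e1i)
  have yz : y * z' = 0 := z4 (by linear_combination ejk - e1i + 4 * xx)
  have xz : x * z' = 0 := z4 (by linear_combination eki + e1j)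
  have zx : z * x' = 0 := z4 (by linear_combination eki - e1j + 4 * yy)
  rcases h with h | h | h <;> rcases h' with h' | h' | h'
  · exact mul_ne_zero h h' xx
  · exact mul_ne_zero h h' xy
  · exact mul_ne_zero h h' xz
  · exact mul_ne_zero h h' yx
  · exact mul_ne_zero h h' yy
  · exact mul_ne_zero h h' yz
  · exact mul_ne_zero h h' zx
  · exact mul_ne_zero h h' zy
  · exact mul_ne_zero h h' zz

/-- The quaternion `a + b i + c j + d k`. -/
def lip (a b c d : ℤ) : ℍ[ℚ] := ⟨a, b, c, d⟩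

theorem lip_mem (a b c d : ℤ) : lip a b c d ∈ Hz :=
  ⟨(b - a, c - a, d - a, 2 * a), by ext <;> simp [lip, ofCoords]⟩

/-- The coordinates of an embedding. -/
theorem Emb.exists_coords (hu : Emb N u) : ∃ X Y Z : ℤ, u = lip 0 X Y Z ∧
    X ^ 2 + Y ^ 2 + Z ^ 2 = (N : ℤ) ∧
    ∀ p : ℕ, p.Prime → p ≠ 2 → (p : ℤ) ∣ X → (p : ℤ) ∣ Y → ¬ (p : ℤ) ∣ Z := by
  obtain ⟨⟨a, b, c, d⟩, he⟩ := hu.mem
  have hd : d = 0 := by
    have := congrArg QuaternionAlgebra.re he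
    simp [ofCoords, hu.re] at this
    exact this
  subst hd
  have hlip : u = lip 0 a b c := by rw [← he]; ext <;> simp [ofCoords, lip]
  refine ⟨a, b, c, hlip, ?_, fun p hp h2 h1 h1' h1'' => ?_⟩
  · have h := hu.normSq_eq
    rw [hlip] at h
    simp only [lip] at h
    exact_mod_cast h
  obtain ⟨⟨a', rfl⟩, ⟨b', rfl⟩, ⟨c', rfl⟩⟩ := And.intro h1 (And.intro h1' h1'')
  have hp0 : (p : ℚ) ≠ 0 := Nat.cast_ne_zero.2 hp.ne_zero
  have e : el u 0 (1 / p) = lip 0 a' b' c' := by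
    rw [hlip]
    ext <;> simp [el, lip] <;> field_simp
  obtain ⟨-, k, -, hk, -⟩ := hu.opt 0 (1 / p) (e ▸ lip_mem _ _ _ _)
  field_simp at hk
  have hk' : (2 : ℤ) = p * k := by exact_mod_cast (by linarith : (2 : ℚ) = (p : ℚ) * k)
  have := (Nat.prime_dvd_prime_iff_eq hp Nat.prime_two).1
    (Int.natCast_dvd_natCast.1 ⟨k, by exact_mod_cast hk'⟩)
  exact h2 this

/-- The quaternions that carry `u` to `u'`. -/
def Carrier (u u' : ℍ[ℚ]) : Set ℍ[ℚ] := {α | α ∈ Hz ∧ u * α = α * u'}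

theorem comb_mem_carrier (hu : Emb N u) (hu' : Emb N u') {w : ℍ[ℚ]} (hw : w ∈ Hz) :
    u * w + w * u' ∈ Carrier u u' := by
  refine ⟨add_mem (mul_mem hu.mem hw) (mul_mem hw hu'.mem), ?_⟩
  have hsq : ∀ {v : ℍ[ℚ]}, Emb N v → v * v = (-(N : ℚ)) • (1 : ℍ[ℚ]) := fun {v} hv => by
    have e := hv.el_mul 0 1 0 1
    simp only [el, zero_smul, one_smul, zero_add] at e
    rw [e]
    simp
  rw [mul_add, add_mul, ← mul_assoc u u, hsq hu, smul_mul_assoc, one_mul, mul_assoc w u' u',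
    hsq hu', mul_smul_comm, mul_one, add_comm, mul_assoc]

theorem normSq_comb (hu : Emb N u) (hu' : Emb N u') {X Y Z X' Y' Z' : ℤ} (e : u = lip 0 X Y Z)
    (e' : u' = lip 0 X' Y' Z') (a b c d : ℤ) :
    normSq (u * lip a b c d + lip a b c d * u') =
      ((2 * (N : ℤ) * (a ^ 2 + b ^ 2 + c ^ 2 + d ^ 2) +
        2 * rotDot a b c d X Y Z X' Y' Z' : ℤ) : ℚ) := by
  have h := hu.normSq_eq
  have h' := hu'.normSq_eq
  rw [e] at h ⊢
  rw [e'] at h' ⊢
  simp only [lip] at h h' ⊢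
  rw [normSq_def']
  simp [rotDot]
  linear_combination ((a : ℚ) ^ 2 + b ^ 2 + c ^ 2 + d ^ 2) * h +
    ((a : ℚ) ^ 2 + b ^ 2 + c ^ 2 + d ^ 2) * h'

/-- A carrier of norm prime to a finite set of odd prime divisors of `N`. -/
theorem exists_carrier (hu : Emb N u) (hu' : Emb N u') (hN : N ≠ 0) :
    ∀ S : Finset ℕ, (∀ p ∈ S, p.Prime ∧ p ≠ 2 ∧ p ∣ N) →
      ∃ α ∈ Carrier u u', α ≠ 0 ∧ ∀ p ∈ S, ∀ M : ℕ, normSq α = M → ¬ p ∣ M := by
  classical
  intro S
  induction S using Finset.induction with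
  | empty =>
    intro _
    by_contra hne
    push Not at hne
    have h : ∀ w ∈ Hz, u * w + w * u' = 0 := fun w hw => by
      by_contra h0
      obtain ⟨p, hp, -⟩ := hne _ (comb_mem_carrier hu hu' hw) h0
      simp at hp
    have h1 := h 1 (one_mem Hz)
    rw [mul_one, one_mul, add_eq_zero_iff_eq_neg] at h1
    obtain ⟨X, Y, Z, e, hXYZ, -⟩ := hu.exists_coords
    have hi := h _ (lip_mem 0 1 0 0)
    have hj := h _ (lip_mem 0 0 1 0)
    rw [show u' = -u by rw [h1, neg_neg]] at hi hj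
    rw [e] at hi hj
    simp [lip, Quaternion.ext_iff] at hi hj
    have hx : X = 0 := by
      exact hj.2
    have hy : Y = 0 := by
      exact hi.2
    have hz : Z = 0 := by
      exact hi.1
    subst hx hy hz
    exact hN (by exact_mod_cast hXYZ.symm)
  | @insert p S hpS ih =>
    intro hS
    obtain ⟨hp, hp2, hpN⟩ := hS p (Finset.mem_insert_self p S)
    obtain ⟨α, ⟨hα, hαc⟩, -, hαS⟩ := ih fun q hq => hS q (Finset.mem_insert_of_mem hq)
    -- a carrier good at `p`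
    obtain ⟨β, ⟨hβ, hβc⟩, Mb, hMb, hpb⟩ :
        ∃ β ∈ Carrier u u', ∃ M : ℤ, normSq β = M ∧ ¬ (p : ℤ) ∣ M := by
      have : Fact p.Prime := ⟨hp⟩
      obtain ⟨X, Y, Z, e, -, hX⟩ := hu.exists_coords
      obtain ⟨X', Y', Z', e', -, hX'⟩ := hu'.exists_coords
      have hnz : ∀ A B C : ℤ, ((p : ℤ) ∣ A → (p : ℤ) ∣ B → ¬ (p : ℤ) ∣ C) →
          (A : ZMod p) ≠ 0 ∨ (B : ZMod p) ≠ 0 ∨ (C : ZMod p) ≠ 0 := fun A B C h => by
        simp only [ne_eq, ZMod.intCast_zmod_eq_zero_iff_dvd]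
        tauto
      have h2 : (2 : ZMod p) ≠ 0 := by
        intro h
        have : ((2 : ℕ) : ZMod p) = 0 := by exact_mod_cast h
        rw [ZMod.natCast_eq_zero_iff] at this
        exact hp2 ((Nat.prime_dvd_prime_iff_eq hp Nat.prime_two).1 this)
      obtain ⟨a, b, c, d, hne⟩ := exists_rotDot_ne_zero h2 (hnz X Y Z (hX p hp hp2))
        (hnz X' Y' Z' (hX' p hp hp2))
      refine ⟨_, comb_mem_carrier hu hu' (lip_mem a b c d), _,
        normSq_comb hu hu' e e' a b c d, fun hd => ?_⟩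
      rw [← ZMod.intCast_zmod_eq_zero_iff_dvd] at hd
      have hN0 : (N : ZMod p) = 0 := (ZMod.natCast_eq_zero_iff _ _).2 hpN
      simp only [rotDot] at hd hne
      push_cast at hd
      rw [hN0] at hd
      exact hne ((mul_eq_zero.1 (by linear_combination hd)).resolve_left h2)
    -- combine
    set P : ℤ := ∏ q ∈ S, (q : ℤ)
    set γ : ℍ[ℚ] := (p : ℍ[ℚ]) * α + (P : ℍ[ℚ]) * β with hγ
    have hγm : γ ∈ Hz := add_mem (mul_mem (natCast_mem Hz p) hα) (mul_mem (intCast_mem Hz P) hβ)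
    obtain ⟨Ma, hMa⟩ := exists_norm hα
    obtain ⟨z, hz⟩ := exists_two_re (mul_mem hα (star_mem hβ))
    have hval : normSq γ = (((p : ℤ) ^ 2 * Ma + P ^ 2 * Mb + (p : ℤ) * P * z : ℤ) : ℚ) := by
      rw [hγ, normSq_add_eq, show (p : ℍ[ℚ]) * α = (p : ℚ) • α by ext <;> simp,
        show (P : ℍ[ℚ]) * β = (P : ℚ) • β by ext <;> simp, normSq_smul, normSq_smul, hMa, hMb,
        Quaternion.star_smul, smul_mul_smul_comm, Quaternion.re_smul, smul_eq_mul]
      push_cast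
      linear_combination ((p : ℚ) * P) * hz
    have hall : ∀ q ∈ insert p S, ¬ (q : ℤ) ∣ (p : ℤ) ^ 2 * Ma + P ^ 2 * Mb + (p : ℤ) * P * z := by
      intro q hq hdvd
      rcases Finset.mem_insert.1 hq with rfl | hq'
      · have hqz : Prime (q : ℤ) := Nat.prime_iff_prime_int.1 hp
        have h : (q : ℤ) ∣ P ^ 2 * Mb := by
          have e : P ^ 2 * Mb = ((q : ℤ) ^ 2 * Ma + P ^ 2 * Mb + (q : ℤ) * P * z) -
              (q : ℤ) * ((q : ℤ) * Ma + P * z) := by ring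
          rw [e]
          exact dvd_sub hdvd (dvd_mul_right _ _)
        rcases hqz.dvd_or_dvd h with h | h
        · obtain ⟨r, hr, hqr⟩ :=
            (Prime.dvd_finsetProd_iff hqz _).1 (hqz.dvd_of_dvd_pow h)
          have := (Nat.prime_dvd_prime_iff_eq hp (hS r (Finset.mem_insert_of_mem hr)).1).1
            (Int.natCast_dvd_natCast.1 hqr)
          exact hpS (this ▸ hr)
        · exact hpb h
      · have hqp := (hS q (Finset.mem_insert_of_mem hq')).1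
        have hqz : Prime (q : ℤ) := Nat.prime_iff_prime_int.1 hqp
        have hqP : (q : ℤ) ∣ P := Finset.dvd_prod_of_mem _ hq'
        have h : (q : ℤ) ∣ (p : ℤ) ^ 2 * Ma := by
          have e : (p : ℤ) ^ 2 * Ma = ((p : ℤ) ^ 2 * Ma + P ^ 2 * Mb + (p : ℤ) * P * z) -
              P * (P * Mb + (p : ℤ) * z) := by ring
          rw [e]
          exact dvd_sub hdvd (dvd_mul_of_dvd_left hqP _)
        rcases hqz.dvd_or_dvd h with h | h
        · have := (Nat.prime_dvd_prime_iff_eq hqp hp).1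
            (Int.natCast_dvd_natCast.1 (hqz.dvd_of_dvd_pow h))
          exact hpS (this ▸ hq')
        · exact hαS q hq' Ma hMa (Int.natCast_dvd_natCast.1 h)
    refine ⟨γ, ⟨hγm, ?_⟩, fun h0 => ?_, fun q hq M hM hdvd => hall q hq ?_⟩
    · rw [hγ, mul_add, add_mul, ← mul_assoc, ← mul_assoc, ← Nat.cast_comm p u, ← Int.cast_comm P u,
        mul_assoc, mul_assoc, hαc, hβc, mul_assoc, mul_assoc]
    · rw [h0, map_zero] at hval
      exact hall p (Finset.mem_insert_self p S) (by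
        rw [show (p : ℤ) ^ 2 * Ma + P ^ 2 * Mb + (p : ℤ) * P * z = 0 by exact_mod_cast hval.symm]
        exact dvd_zero _)
    · rw [hval] at hM
      have hM' : (p : ℤ) ^ 2 * Ma + P ^ 2 * Mb + (p : ℤ) * P * z = (M : ℤ) := by exact_mod_cast hM
      rw [hM']
      exact Int.natCast_dvd_natCast.2 hdvd

/-- The powers of `1 + i` are taken out. -/
theorem exists_odd_carrier : ∀ (M : ℕ) {u u' α : ℍ[ℚ]}, α ∈ Carrier u u' → normSq α = M → 0 < M →
    ∃ (β : ℍ[ℚ]) (L : ℕ), normSq β = L ∧ L % 2 = 1 ∧ L ∣ M ∧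
      (β ∈ Carrier u u' ∨ β ∈ Carrier (pi2⁻¹ * u * pi2) u') := by
  intro M
  induction M using Nat.strong_induction_on with
  | _ M ih =>
  intro u u' α hα hM hM0
  obtain ⟨hαm, hαc⟩ := hα
  rcases Nat.mod_two_eq_zero_or_one M with h | h
  swap
  · exact ⟨α, M, hM, h, dvd_rfl, Or.inl ⟨hαm, hαc⟩⟩
  obtain ⟨K, rfl⟩ : 2 ∣ M := Nat.dvd_of_mod_eq_zero h
  obtain ⟨α₁, hα₁, rfl⟩ := even_norm hαm hM
  have hn₁ : normSq α₁ = K := by
    rw [map_mul, normSq_pi2] at hM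
    push_cast at hM
    linarith
  have hc₁ : (pi2⁻¹ * u * pi2) * α₁ = α₁ * u' := by
    refine mul_left_cancel₀ pi2_ne_zero ?_
    rw [← mul_assoc, ← mul_sigma, mul_assoc, hαc, mul_assoc]
  rcases Nat.mod_two_eq_zero_or_one K with h' | h'
  swap
  · exact ⟨α₁, K, hn₁, h', dvd_mul_left K 2, Or.inr ⟨hα₁, hc₁⟩⟩
  obtain ⟨J, rfl⟩ : 2 ∣ K := Nat.dvd_of_mod_eq_zero h'
  obtain ⟨α₂, hα₂, rfl⟩ := even_norm hα₁ hn₁
  set β := lip 0 1 0 0 * α₂
  have hβ : pi2 * (pi2 * α₂) = (2 : ℚ) • β := by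
    rw [← mul_assoc, show pi2 * pi2 = (2 : ℚ) • lip 0 1 0 0 by
      ext <;> simp [pi2, lip]; norm_num, smul_mul_assoc]
  have hβn : normSq β = J := by
    have e := hM
    rw [hβ, normSq_smul] at e
    push_cast at e
    linarith
  obtain ⟨γ, L, h1, h2, h3, h4⟩ := ih J (by omega) (u := u) (u' := u') (α := β)
    ⟨mul_mem (lip_mem _ _ _ _) hα₂, by
      rw [hβ, mul_smul_comm, smul_mul_assoc] at hαc
      exact smul_right_injective ℍ[ℚ] two_ne_zero hαc⟩ hβn (by omega)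
  exact ⟨γ, L, h1, h2, (h3.mul_left 2).mul_left 2, h4⟩

/-- A spanned carrier gives a form. -/
theorem exists_form_of_spanned (hu : Emb N u) (hu' : Emb N u')
    (hα : α ∈ Carrier u u') (hα0 : α ≠ 0) (hs : Spanned u α) :
    ∃ f αf, PrimForm N f ∧ IsGen u f αf ∧ ∃ e ∈ units, u' = e⁻¹ * (αf⁻¹ * u * αf) * e := by
  classical
  obtain ⟨hαm, hαc⟩ := hα
  obtain ⟨M, hM⟩ := exists_norm hαm
  have hM0 : 0 < M := Nat.pos_of_ne_zero fun e => by
    rw [e, Nat.cast_zero] at hM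
    exact hα0 (normSq_eq_zero.1 hM)
  obtain ⟨K, hK⟩ : ∃ K : ℕ, ((N : ℚ) ^ 2 + N) / 4 = K := by
    obtain ⟨K, hK⟩ := exists_norm hu.half
    rw [hu.normSq_el] at hK
    exact ⟨K, by rw [← hK]; ring⟩
  -- the lattice in the basis `1, θ`
  let E : ℤ → ℤ → ℍ[ℚ] := fun x y => el u (x + y * ((N : ℚ) / 2)) (y / 2)
  have hEm : ∀ x y, E x y ∈ Hz := fun x y => by
    have h := hu.el_mem (m := 2 * x + y * N) (k := y) ⟨x, by ring⟩
    convert h using 2
    push_cast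
    ring
  have hEadd : ∀ x y x' y', E (x + x') (y + y') = E x y + E x' y' := fun x y x' y' => by
    simp only [E, el_add]
    congr 1 <;> push_cast <;> ring
  have hEθ : ∀ x y, el u ((N : ℚ) / 2) (1 / 2) * E x y = E (-(y * K)) (x + y * N) := fun x y => by
    simp only [E, hu.el_mul]
    congr 1 <;> push_cast <;> first | linear_combination -(y : ℚ) * hK | ring
  have hRθ : ∀ z ∈ RI α, el u ((N : ℚ) / 2) (1 / 2) * z ∈ RI α := by
    rintro _ ⟨w, hw, rfl⟩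
    refine ⟨el u' ((N : ℚ) / 2) (1 / 2) * w, mul_mem hu'.half hw, ?_⟩
    rw [← mul_assoc, el_conj hαc, mul_assoc]
  let L : ℤ → ℤ → Prop := fun x y => E x y ∈ RI α
  have hLadd : ∀ {x y x' y'}, L x y → L x' y' → L (x + x') (y + y') := fun h h' => by
    show E _ _ ∈ RI α
    rw [hEadd]
    exact RI_add_mem h h'
  have hLmul : ∀ (k : ℤ) {x y}, L x y → L (k * x) (k * y) := fun k {x y} h => by
    show E _ _ ∈ RI α
    have e : E (k * x) (k * y) = E x y * (k : ℍ[ℚ]) := by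
      simp only [E]
      ext <;> simp [el] <;> ring
    rw [e]
    exact RI_mul_mem h (intCast_mem Hz k)
  have hLθ : ∀ {x y}, L x y → L (-(y * K)) (x + y * N) := fun {x y} h => by
    show E _ _ ∈ RI α
    rw [← hEθ]
    exact hRθ _ h
  have hLM : L M 0 := by
    show E _ _ ∈ RI α
    rw [show E M 0 = (M : ℍ[ℚ]) by ext <;> simp [E, el]]
    exact natCast_mem_RI hαm hM
  have hexk : ∃ k : ℕ, 0 < k ∧ ∃ x, L x k := ⟨M, hM0, _, by simpa using hLθ hLM⟩
  obtain ⟨hk0, x₀, hx₀⟩ := Nat.find_spec hexk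
  set k₀ := Nat.find hexk
  have hdvd : ∀ {x y}, L x y → (k₀ : ℤ) ∣ y := fun {x y} h => by
    by_contra hn
    have hr := Int.emod_nonneg y (Int.natCast_ne_zero.2 hk0.ne')
    have hr' := Int.emod_lt_of_pos y (Int.natCast_pos.2 hk0)
    have hr0 : y % k₀ ≠ 0 := fun e => hn (Int.dvd_of_emod_eq_zero e)
    have h' := hLadd h (hLmul (-(y / k₀)) hx₀)
    rw [show y + -(y / (k₀ : ℤ)) * k₀ = (((y % k₀).toNat : ℕ) : ℤ) by
      rw [Int.toNat_of_nonneg hr, Int.emod_def]; ring] at h'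
    have := Nat.find_min' hexk (m := (y % k₀).toNat) ⟨by omega, _, h'⟩
    omega
  have hexA : ∃ A : ℕ, 0 < A ∧ L A 0 := ⟨M, hM0, hLM⟩
  obtain ⟨hA0, hLA⟩ := Nat.find_spec hexA
  set A := Nat.find hexA
  have hAdvd : ∀ {x}, L x 0 → (A : ℤ) ∣ x := fun {x} h => by
    by_contra hn
    have hr := Int.emod_nonneg x (Int.natCast_ne_zero.2 hA0.ne')
    have hr' := Int.emod_lt_of_pos x (Int.natCast_pos.2 hA0)
    have hr0 : x % A ≠ 0 := fun e => hn (Int.dvd_of_emod_eq_zero e)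
    have h' := hLadd h (hLmul (-(x / A)) hLA)
    rw [mul_zero, add_zero, show x + -(x / (A : ℤ)) * A = (((x % A).toNat : ℕ) : ℤ) by
      rw [Int.toNat_of_nonneg hr, Int.emod_def]; ring] at h'
    have := Nat.find_min' hexA (m := (x % A).toNat) ⟨by omega, h'⟩
    omega
  obtain ⟨a, ha⟩ : (k₀ : ℤ) ∣ A := by
    have := hdvd (hLθ hLA)
    simpa using this
  obtain ⟨b, hb⟩ : (k₀ : ℤ) ∣ x₀ := by
    have := hdvd (hLθ hx₀)
    rwa [dvd_add_left (dvd_mul_right _ _)] at this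
  subst hb
  obtain ⟨c, hc⟩ : a ∣ b ^ 2 + N * b + K := by
    have h := hLadd (hLθ hx₀) (hLmul (-(b + N)) hx₀)
    rw [show (k₀ : ℤ) * b + k₀ * N + -(b + N) * k₀ = 0 by ring] at h
    obtain ⟨w, hw⟩ := hAdvd h
    rw [ha] at hw
    exact ⟨-w, mul_left_cancel₀ (Int.natCast_ne_zero.2 hk0.ne') (by linear_combination -hw)⟩
  have hk0' : (k₀ : ℚ) ≠ 0 := Nat.cast_ne_zero.2 hk0.ne'
  have ha0 : 0 < a :=
    pos_of_mul_pos_right (ha ▸ Int.natCast_pos.2 hA0) (Int.natCast_nonneg k₀)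
  have hK4 : 4 * (K : ℤ) = (N : ℤ) ^ 2 + N := by
    have : ((4 * (K : ℤ) : ℤ) : ℚ) = (((N : ℤ) ^ 2 + N : ℤ) : ℚ) := by
      push_cast
      linear_combination (-4 : ℚ) * hK
    exact_mod_cast this
  set B : ℤ := 2 * b + N with hB
  have hD : B ^ 2 - 4 * a * c = -(N : ℤ) := by rw [hB]; linear_combination 4 * hc - hK4
  have hscalar : E A 0 = (k₀ : ℚ) • el u a 0 := by
    have ha' : (A : ℚ) = k₀ * a := by exact_mod_cast ha
    simp only [E, el_smul]
    congr 1 <;> push_cast <;> first | linear_combination ha' | ring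
  have hgenE : E (k₀ * b) k₀ = (k₀ : ℚ) • el u ((B : ℚ) / 2) (1 / 2) := by
    simp only [E, el_smul, hB]
    congr 1 <;> push_cast <;> ring
  have hbasis : ∀ {x y}, L x y → ∃ i j : ℤ,
      E x y = (i : ℚ) • ((k₀ : ℚ) • el u a 0) + (j : ℚ) • ((k₀ : ℚ) • el u ((B : ℚ) / 2) (1 / 2)) :=
    fun {x y} h => by
    obtain ⟨j, hj⟩ := hdvd h
    obtain ⟨i, hi⟩ := hAdvd (x := x - j * (k₀ * b)) (by
      have h' := hLadd h (hLmul (-j) hx₀)
      rw [show y + -j * (k₀ : ℤ) = 0 by rw [hj]; ring] at h'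
      rwa [show x + -j * ((k₀ : ℤ) * b) = x - j * (k₀ * b) by ring] at h')
    refine ⟨i, j, ?_⟩
    rw [← hscalar, ← hgenE]
    have hi' : (x : ℚ) - j * (k₀ * b) = A * i := by exact_mod_cast hi
    have hj' : (y : ℚ) = k₀ * j := by exact_mod_cast hj
    simp only [E, el_smul, el_add]
    congr 1 <;> push_cast <;> rw [hj'] <;> first | linear_combination hi' | ring
  have hmemL : ∀ {p q : ℚ}, el u p q ∈ Hz → el u p q ∈ RI α → ∃ x y, L x y ∧ el u p q = E x y :=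
    fun {p q} h h' => by
    obtain ⟨m, k, rfl, rfl, j, hj⟩ := hu.opt p q h
    have e : el u ((m : ℚ) / 2) ((k : ℚ) / 2) = E j k := by
      have hj' : (m : ℚ) - k * N = 2 * j := by exact_mod_cast hj
      simp only [E]
      congr 1
      linear_combination (1 / 2 : ℚ) * hj'
    exact ⟨j, k, by show E j k ∈ RI α; rw [← e]; exact h', e⟩
  -- the form is primitive
  have hprim : Int.gcd (Int.gcd a B) c = 1 := by
    set d := Int.gcd (Int.gcd a B) c with hd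
    have h12 : (d : ℤ) ∣ (Int.gcd a B : ℤ) := Int.gcd_dvd_left _ _
    obtain ⟨a', ha'⟩ : (d : ℤ) ∣ a := h12.trans (Int.gcd_dvd_left _ _)
    obtain ⟨B', hB'⟩ : (d : ℤ) ∣ B := h12.trans (Int.gcd_dvd_right _ _)
    obtain ⟨c', hc'⟩ : (d : ℤ) ∣ c := Int.gcd_dvd_right _ _
    have hd0 : (d : ℚ) ≠ 0 := fun e => ha0.ne' (by
      rw [ha', show (d : ℤ) = 0 by exact_mod_cast e, zero_mul])
    set P : ℚ := (B : ℚ) / 2 / d
    set Q : ℚ := 1 / 2 / d
    have qa : (a : ℚ) = d * a' := by exact_mod_cast ha'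
    have qB : (B : ℚ) = d * B' := by exact_mod_cast hB'
    have qc : (c : ℚ) = d * c' := by exact_mod_cast hc'
    have qD : (B : ℚ) ^ 2 - 4 * a * c = -(N : ℚ) := by exact_mod_cast hD
    have hkey := hs {z | el u P Q * z ∈ RI α}
      (fun x hx y hy => by simpa [mul_add] using RI_add_mem hx hy)
      (fun x hx w hw => by simpa [mul_assoc] using RI_mul_mem hx hw)
      (fun p q hp hq => by
        obtain ⟨x, y, hxy, e⟩ := hmemL hp hq
        obtain ⟨i, j, e'⟩ := hbasis hxy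
        show el u P Q * _ ∈ RI α
        rw [e, e', show el u P Q * ((i : ℚ) • ((k₀ : ℚ) • el u a 0) +
            (j : ℚ) • ((k₀ : ℚ) • el u ((B : ℚ) / 2) (1 / 2))) =
          ((k₀ : ℚ) • el u ((B : ℚ) / 2) (1 / 2)) * ((a' * i + B' * j : ℤ) : ℍ[ℚ]) +
            ((k₀ : ℚ) • el u a 0) * ((-(c' * j) : ℤ) : ℍ[ℚ]) by
          rw [show ((a' * i + B' * j : ℤ) : ℍ[ℚ]) = el u ((a' * i + B' * j : ℤ) : ℚ) 0 by
              ext <;> simp [el],
            show ((-(c' * j) : ℤ) : ℍ[ℚ]) = el u ((-(c' * j) : ℤ) : ℚ) 0 by ext <;> simp [el]]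
          simp only [el_smul, el_add, hu.el_mul, P, Q]
          congr 1 <;> push_cast <;> rw [qa, qB] <;> field_simp
          · rw [qa, qB, qc] at qD
            linear_combination -(j : ℚ) * qD
          · ring]
        exact RI_add_mem (RI_mul_mem (hgenE ▸ hx₀) (intCast_mem Hz _))
          (RI_mul_mem (hscalar ▸ hLA) (intCast_mem Hz _)))
    obtain ⟨w, hw, hw'⟩ : el u P Q * α ∈ RI α := hkey
    rw [el_conj hαc] at hw'
    obtain ⟨-, k, -, hk, -⟩ := hu'.opt P Q (mul_left_cancel₀ hα0 hw' ▸ hw)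
    have hk' : (1 : ℤ) = d * k := by
      have : ((1 : ℤ) : ℚ) = ((d * k : ℤ) : ℚ) := by
        push_cast
        simp only [Q] at hk
        field_simp at hk
        linear_combination hk
      exact_mod_cast this
    have := Int.eq_one_of_dvd_one (Int.natCast_nonneg d) ⟨k, hk'⟩
    exact_mod_cast this
  have hf : PrimForm N (a, B, c) := ⟨ha0, hD, hprim⟩
  obtain ⟨αf, hαf⟩ := exists_isGen hu hf
  have hnat : ∀ x : ℍ[ℚ], (k₀ : ℚ) • x = (k₀ : ℍ[ℚ]) * x := fun x => by ext <;> simp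
  -- `α = k₀ αf e`
  obtain ⟨w, hw, hαw⟩ : ∃ w ∈ Hz, α = (k₀ : ℚ) • (αf * w) := by
    have hkey := hs {z | ∃ w ∈ Hz, z = (k₀ : ℚ) • (αf * w)}
      (by rintro _ ⟨w, hw, rfl⟩ _ ⟨w', hw', rfl⟩
          exact ⟨w + w', add_mem hw hw', by rw [mul_add, smul_add]⟩)
      (by rintro _ ⟨w, hw, rfl⟩ h hh
          exact ⟨w * h, mul_mem hw hh, by rw [smul_mul_assoc, mul_assoc]⟩)
      (fun p q hp hq => by
        obtain ⟨x, y, hxy, e⟩ := hmemL hp hq
        obtain ⟨i, j, e'⟩ := hbasis hxy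
        obtain ⟨w₁, hw₁, e₁⟩ := hαf.scalar_mem_RI
        obtain ⟨w₂, hw₂, e₂⟩ := hαf.gen_mem_RI
        simp only [gen] at e₁ e₂
        refine ⟨w₁ * (i : ℍ[ℚ]) + w₂ * (j : ℍ[ℚ]), add_mem (mul_mem hw₁ (intCast_mem Hz i))
          (mul_mem hw₂ (intCast_mem Hz j)), ?_⟩
        rw [e, e', mul_add, ← mul_assoc, ← mul_assoc, ← e₁, ← e₂,
          show el u (a : ℚ) 0 * (i : ℍ[ℚ]) = (i : ℚ) • el u (a : ℚ) 0 by ext <;> simp <;> ring,
          show el u ((B : ℚ) / 2) (1 / 2) * (j : ℍ[ℚ]) = (j : ℚ) • el u ((B : ℚ) / 2) (1 / 2) by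
            ext <;> simp <;> ring, smul_add, smul_comm, smul_comm (j : ℚ)])
    exact hkey
  obtain ⟨w', hw', hαw'⟩ : (k₀ : ℚ) • αf ∈ RI α := by
    obtain ⟨h₁, hh₁, h₂, hh₂, e⟩ := (hαf.2 ▸ mem_RI_self αf : αf ∈ RIf u (a, B, c))
    rw [e, smul_add, ← smul_mul_assoc, ← smul_mul_assoc, gen, ← hscalar, ← hgenE]
    exact RI_add_mem (RI_mul_mem hLA hh₁) (RI_mul_mem hx₀ hh₂)
  have hwu : w ∈ units := by
    obtain ⟨n₁, hn₁⟩ := exists_norm hw
    obtain ⟨n₂, hn₂⟩ := exists_norm hw'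
    have e := congrArg normSq hαw'
    have e' := congrArg normSq hαw
    rw [normSq_smul, map_mul, hn₂] at e
    rw [normSq_smul, map_mul, hn₁] at e'
    have h0 : normSq α ≠ 0 := normSq_ne_zero.2 hα0
    have h1 : ((n₁ * n₂ : ℕ) : ℚ) = ((1 : ℕ) : ℚ) := by
      refine mul_left_cancel₀ h0 ?_
      push_cast
      linear_combination (-(n₁ : ℚ)) * e - e'
    refine ⟨hw, ?_⟩
    rw [hn₁, Nat.eq_one_of_mul_eq_one_right (Nat.cast_injective h1), Nat.cast_one]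
  refine ⟨_, αf, hf, hαf, w, hwu, ?_⟩
  have e : u * (αf * w) = αf * w * u' := by
    rw [hαw, mul_smul_comm, smul_mul_assoc] at hαc
    exact smul_right_injective ℍ[ℚ] hk0' hαc
  refine mul_left_cancel₀ (unit_ne_zero hwu) (mul_left_cancel₀ hαf.1 ?_)
  rw [← mul_assoc αf w u', ← e]
  simp only [mul_assoc, mul_inv_cancel_left₀ (unit_ne_zero hwu), mul_inv_cancel_left₀ hαf.1]

/-- **Transitivity**: a form conjugates `u` or `pi2⁻¹ u pi2` to `u'` up to units; for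
`N = 4 n`, `n ≡ 1, 2 (mod 4)`, it is `u`. -/
theorem exists_form_orbit (hu : Emb N u) (hu' : Emb N u') (hN : N ≠ 0) :
    ∃ v, (v = u ∨ v = pi2⁻¹ * u * pi2) ∧ (N % 16 = 4 ∨ N % 16 = 8 → v = u) ∧
      ∃ f αf, PrimForm N f ∧ IsGen v f αf ∧ ∃ e ∈ units, u' = e⁻¹ * (αf⁻¹ * v * αf) * e := by
  classical
  obtain ⟨α, hαc, hα0, hαS⟩ := exists_carrier hu hu' hN (N.primeFactors.erase 2) fun p hp => by
    obtain ⟨h1, h2⟩ := Finset.mem_erase.1 hp
    exact ⟨Nat.prime_of_mem_primeFactors h2, h1, Nat.dvd_of_mem_primeFactors h2⟩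
  obtain ⟨M, hM⟩ := exists_norm hαc.1
  obtain ⟨β, L, hL, hodd, hLM, hβ⟩ := exists_odd_carrier M hαc hM
    (Nat.pos_of_ne_zero fun e => hα0 (normSq_eq_zero.1 (by rw [hM, e, Nat.cast_zero])))
  have hcop : ∀ p : ℕ, p.Prime → p ∣ L → ¬ p ∣ N := fun p hp hpL hpN => by
    have h2 : p ≠ 2 := fun e => by
      rw [e, Nat.dvd_iff_mod_eq_zero] at hpL
      omega
    exact hαS p (Finset.mem_erase.2 ⟨h2, Nat.mem_primeFactors.2 ⟨hp, hpN, hN⟩⟩) M hM
      (hpL.trans hLM)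
  have hβ0 : β ≠ 0 := fun e => by
    rw [e, map_zero] at hL
    have : L = 0 := by exact_mod_cast hL.symm
    omega
  rcases hβ with hβ | hβ
  · exact ⟨u, Or.inl rfl, fun _ => rfl, exists_form_of_spanned hu hu' hβ hβ0
      (spanned_of_coprime hN L hu hu' hβ.1 hβ.2 hL hodd hcop)⟩
  have hsp := spanned_of_coprime hN L hu.sigma hu' hβ.1 hβ.2 hL hodd hcop
  by_cases hA : N % 16 = 4 ∨ N % 16 = 8
  · obtain ⟨f, hf, hgen⟩ := exists_form_two hu hA
    refine ⟨u, Or.inl rfl, fun _ => rfl, exists_form_of_spanned hu hu'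
      (α := pi2 * β) ⟨mul_mem pi2_mem hβ.1, ?_⟩ (mul_ne_zero pi2_ne_zero hβ0)
      (Spanned.mul hu hu.sigma (mul_sigma u) (spanned_of_isGen hu hf hgen) hsp)⟩
    rw [← mul_assoc, mul_sigma, mul_assoc, hβ.2, mul_assoc]
  · exact ⟨_, Or.inr rfl, fun h => absurd h hA,
      exists_form_of_spanned hu.sigma hu' hβ hβ0 hsp⟩

end FA.HurwitzQ

end
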