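import Mathlib.Algebra.Quaternion
import Mathlib.Tactic

/-!
# Hurwitz's order of quaternions

The quaternions whose coordinates are all integers or all half of odd integers form a ring with
`24` units in which every right ideal is principal. The elements of even norm are the multiples of
`1 + i`, which normalises the ring.
-/

set_option autoImplicit false

noncomputable section

namespace FA.HurwitzQ

open Quaternion
open scoped Quaternion

/-- The element `a i + b j + c k + d (1 + i + j + k) / 2`. -/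
def ofCoords (q : ℤ × ℤ × ℤ × ℤ) : ℍ[ℚ] :=
  ⟨(q.2.2.2 : ℚ) / 2, q.1 + (q.2.2.2 : ℚ) / 2, q.2.1 + (q.2.2.2 : ℚ) / 2,
    q.2.2.1 + (q.2.2.2 : ℚ) / 2⟩

theorem ofCoords_injective : Function.Injective ofCoords := by
  rintro ⟨a, b, c, d⟩ ⟨a', b', c', d'⟩ h
  simp only [ofCoords, Quaternion.ext_iff] at h
  obtain ⟨h1, h2, h3, h4⟩ := h
  obtain rfl : d = d' := by exact_mod_cast (div_left_inj' (two_ne_zero' ℚ)).1 h1
  simp only [add_left_inj, Int.cast_inj] at h2 h3 h4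
  simp [h2, h3, h4]

/-- **Hurwitz's order.** -/
def Hz : Subring ℍ[ℚ] where
  carrier := Set.range ofCoords
  zero_mem' := ⟨0, by ext <;> simp [ofCoords]⟩
  one_mem' := ⟨(-1, -1, -1, 2), by ext <;> simp [ofCoords]⟩
  add_mem' := by
    rintro _ _ ⟨q, rfl⟩ ⟨r, rfl⟩
    exact ⟨q + r, by ext <;> simp [ofCoords] <;> ring⟩
  neg_mem' := by
    rintro _ ⟨q, rfl⟩
    exact ⟨-q, by ext <;> simp [ofCoords] <;> ring⟩
  mul_mem' := by
    rintro _ _ ⟨⟨a, b, c, d⟩, rfl⟩ ⟨⟨a', b', c', d'⟩, rfl⟩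
    refine ⟨(a * a' + b * b' + c * c' + b * c' - c * b' + d * d' + d * (a' + c') + d' * (a + b),
      a * a' + b * b' + c * c' + c * a' - a * c' + d * d' + d * (b' + a') + d' * (b + c),
      a * a' + b * b' + c * c' + a * b' - b * a' + d * d' + d * (c' + b') + d' * (c + a),
      -2 * (a * a' + b * b' + c * c') - d * (a' + b' + c') - d' * (a + b + c) - d * d'), ?_⟩
    ext <;> simp [ofCoords] <;> ring

theorem mem_Hz {h : ℍ[ℚ]} : h ∈ Hz ↔ ∃ q, ofCoords q = h := Iff.rfl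

theorem star_mem {h : ℍ[ℚ]} (hh : h ∈ Hz) : star h ∈ Hz := by
  obtain ⟨⟨a, b, c, d⟩, rfl⟩ := hh
  exact ⟨(-a - d, -b - d, -c - d, d), by ext <;> simp [ofCoords] <;> ring⟩

theorem int_mem (z : ℤ) : ((z : ℚ) : ℍ[ℚ]) ∈ Hz := intCast_mem Hz z

/-- Twice the real part is an integer. -/
theorem exists_two_re {h : ℍ[ℚ]} (hh : h ∈ Hz) : ∃ z : ℤ, 2 * h.re = z := by
  obtain ⟨⟨a, b, c, d⟩, rfl⟩ := hh
  exact ⟨d, by simp [ofCoords]; ring⟩

/-- The norm is a natural number. -/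
theorem exists_norm {h : ℍ[ℚ]} (hh : h ∈ Hz) : ∃ n : ℕ, normSq h = n := by
  obtain ⟨⟨a, b, c, d⟩, rfl⟩ := hh
  have e : normSq (ofCoords (a, b, c, d)) =
      ((a ^ 2 + b ^ 2 + c ^ 2 + (a + b + c) * d + d ^ 2 : ℤ) : ℚ) := by
    rw [normSq_def']
    simp only [ofCoords]
    push_cast
    ring
  obtain ⟨n, hn⟩ := Int.eq_ofNat_of_zero_le (show
      0 ≤ a ^ 2 + b ^ 2 + c ^ 2 + (a + b + c) * d + d ^ 2 by
    have h0 : (0 : ℚ) ≤ normSq (ofCoords (a, b, c, d)) := normSq_nonneg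
    rw [e] at h0
    exact_mod_cast h0)
  exact ⟨n, by rw [e, hn]; norm_cast⟩

/-- Division with a smaller remainder. -/
theorem exists_near (q : ℍ[ℚ]) : ∃ h ∈ Hz, normSq (q - h) < 1 := by
  have hb : ∀ x : ℚ, (x - round x) ^ 2 ≤ 1 / 4 := fun x => by
    have h := abs_sub_round x
    rw [← sq_abs]
    nlinarith [abs_nonneg (x - round x)]
  have hh : ∀ x : ℚ, (x - round x) ^ 2 = 1 / 4 → ∃ a : ℤ, x = a + 1 / 2 := fun x h => by
    rcases sq_eq_sq_iff_eq_or_eq_neg.1 (show (x - round x) ^ 2 = (1 / 2 : ℚ) ^ 2 by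
      rw [h]; norm_num) with e | e
    · exact ⟨round x, by linarith⟩
    · exact ⟨round x - 1, by push_cast; linarith⟩
  set r : ℍ[ℚ] :=
    ((round q.re : ℤ) : ℍ[ℚ]) + ofCoords (round q.imI, round q.imJ, round q.imK, 0) with hr
  have hre : normSq (q - r) = (q.re - round q.re) ^ 2 + (q.imI - round q.imI) ^ 2 +
      (q.imJ - round q.imJ) ^ 2 + (q.imK - round q.imK) ^ 2 := by
    rw [normSq_def']
    simp [hr, ofCoords]
  have := hb q.re; have := hb q.imI; have := hb q.imJ; have := hb q.imK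
  by_cases hlt : normSq (q - r) < 1
  · exact ⟨r, add_mem (intCast_mem Hz _) ⟨_, rfl⟩, hlt⟩
  -- the centre of a cell
  rw [hre, not_lt] at hlt
  obtain ⟨a₀, e₀⟩ := hh q.re (by linarith)
  obtain ⟨a₁, e₁⟩ := hh q.imI (by linarith)
  obtain ⟨a₂, e₂⟩ := hh q.imJ (by linarith)
  obtain ⟨a₃, e₃⟩ := hh q.imK (by linarith)
  refine ⟨q, ⟨(a₁ - a₀, a₂ - a₀, a₃ - a₀, 2 * a₀ + 1), ?_⟩, by simp⟩
  ext <;> simp [ofCoords, e₀, e₁, e₂, e₃] <;> ring

/-- The right ideal `α Hz`. -/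
def RI (α : ℍ[ℚ]) : Set ℍ[ℚ] := {x | ∃ h ∈ Hz, x = α * h}

/-- **Every right ideal is principal.** -/
theorem exists_generator {S : Set ℍ[ℚ]} (hS : ∀ s ∈ S, s ∈ Hz)
    (hsub : ∀ s ∈ S, ∀ s' ∈ S, s - s' ∈ S) (hmul : ∀ s ∈ S, ∀ h ∈ Hz, s * h ∈ S)
    (hne : ∃ s ∈ S, s ≠ 0) : ∃ β ∈ S, β ≠ 0 ∧ S = RI β := by
  classical
  have hex : ∃ n : ℕ, ∃ s ∈ S, s ≠ 0 ∧ normSq s = n := by
    obtain ⟨s, hs, h0⟩ := hne
    obtain ⟨n, hn⟩ := exists_norm (hS s hs)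
    exact ⟨n, s, hs, h0, hn⟩
  obtain ⟨β, hβ, hβ0, hβn⟩ := Nat.find_spec hex
  refine ⟨β, hβ, hβ0, Set.ext fun s => ⟨fun hs => ?_, ?_⟩⟩
  · obtain ⟨h, hh, hlt⟩ := exists_near (β⁻¹ * s)
    refine ⟨h, hh, ?_⟩
    by_contra hne'
    have hmem := hsub s hs _ (hmul β hβ h hh)
    obtain ⟨m, hm⟩ := exists_norm (hS _ hmem)
    have hmin := Nat.find_min' hex ⟨_, hmem, sub_ne_zero.2 hne', hm⟩
    have e : normSq (s - β * h) = normSq β * normSq (β⁻¹ * s - h) := by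
      rw [← map_mul, mul_sub, mul_inv_cancel_left₀ hβ0]
    have hle : (Nat.find hex : ℚ) ≤ (m : ℚ) := by exact_mod_cast hmin
    rw [hm, hβn] at e
    have hpos : (0 : ℚ) < (Nat.find hex : ℕ) := by
      rw [← hβn]
      exact lt_of_le_of_ne normSq_nonneg (normSq_ne_zero.2 hβ0).symm
    nlinarith
  · rintro ⟨h, hh, rfl⟩
    exact hmul β hβ h hh

/-- The units. -/
def units : Set ℍ[ℚ] := {e | e ∈ Hz ∧ normSq e = 1}

theorem unit_ne_zero {e : ℍ[ℚ]} (he : e ∈ units) : e ≠ 0 := fun h => by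
  have := he.2
  rw [h, map_zero] at this
  exact zero_ne_one this

theorem unit_inv {e : ℍ[ℚ]} (he : e ∈ units) : e⁻¹ ∈ units ∧ e⁻¹ = star e := by
  have h1 : e * star e = 1 := by rw [self_mul_star, he.2, Quaternion.coe_one]
  have h2 : e⁻¹ = star e := inv_eq_of_mul_eq_one_right h1
  exact ⟨h2 ▸ ⟨star_mem he.1, by rw [normSq_star]; exact he.2⟩, h2⟩

theorem unit_mul {e f : ℍ[ℚ]} (he : e ∈ units) (hf : f ∈ units) : e * f ∈ units :=
  ⟨mul_mem he.1 hf.1, by rw [map_mul, he.2, hf.2, mul_one]⟩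

/-- The coordinates of the units. -/
def unitCoords : Finset (ℤ × ℤ × ℤ × ℤ) :=
  (Finset.Icc (-2 : ℤ) 2 ×ˢ Finset.Icc (-2 : ℤ) 2 ×ˢ Finset.Icc (-2 : ℤ) 2 ×ˢ
    Finset.Icc (-2 : ℤ) 2).filter fun q => q.1 ^ 2 + q.2.1 ^ 2 + q.2.2.1 ^ 2 +
      (q.1 + q.2.1 + q.2.2.1) * q.2.2.2 + q.2.2.2 ^ 2 = 1

/-- **There are `24` units.** -/
theorem units_eq : units = ofCoords '' (unitCoords : Set (ℤ × ℤ × ℤ × ℤ)) := by
  ext e
  constructor
  · rintro ⟨⟨⟨a, b, c, d⟩, rfl⟩, h1⟩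
    rw [normSq_def'] at h1
    simp only [ofCoords] at h1
    have h4 : (2 * a + d) ^ 2 + (2 * b + d) ^ 2 + (2 * c + d) ^ 2 + d ^ 2 = 4 := by
      have : ((2 * a + d) ^ 2 + (2 * b + d) ^ 2 + (2 * c + d) ^ 2 + d ^ 2 : ℚ) = 4 := by
        linear_combination 4 * h1
      exact_mod_cast this
    have hb : ∀ x : ℤ, x ^ 2 ≤ 4 → -2 ≤ x ∧ x ≤ 2 := fun x hx => by constructor <;> nlinarith
    have := hb (2 * a + d) (by nlinarith)
    have := hb (2 * b + d) (by nlinarith)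
    have := hb (2 * c + d) (by nlinarith)
    have := hb d (by nlinarith)
    refine ⟨(a, b, c, d), ?_, rfl⟩
    simp only [unitCoords, Finset.coe_filter, Finset.mem_product, Finset.mem_Icc, Set.mem_ofPred_eq]
    exact ⟨by omega, by linarith⟩
  · rintro ⟨⟨a, b, c, d⟩, hq, rfl⟩
    simp only [unitCoords, Finset.coe_filter, Set.mem_ofPred_eq] at hq
    refine ⟨⟨_, rfl⟩, ?_⟩
    rw [normSq_def']
    simp only [ofCoords]
    have := congrArg (fun z : ℤ => (z : ℚ)) hq.2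
    push_cast at this
    linear_combination this

theorem finite_units : units.Finite := units_eq ▸ (unitCoords.finite_toSet.image _)

theorem card_units : Nat.card units = 24 := by
  rw [units_eq, Nat.card_image_of_injective ofCoords_injective, Nat.card_coe_set_eq,
    Set.ncard_coe_finset]
  decide +kernel

/-- `1 + i`. -/
def pi2 : ℍ[ℚ] := ⟨1, 1, 0, 0⟩

theorem pi2_mem : pi2 ∈ Hz := ⟨(0, -1, -1, 2), by ext <;> simp [pi2, ofCoords]⟩

theorem normSq_pi2 : normSq pi2 = 2 := by rw [normSq_def']; norm_num [pi2]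

theorem pi2_ne_zero : pi2 ≠ 0 := fun h => by
  have := normSq_pi2
  rw [h, map_zero] at this
  norm_num at this

/-- `1 + i` normalises the order. -/
theorem pi2_normalises {h : ℍ[ℚ]} (hh : h ∈ Hz) :
    pi2⁻¹ * h * pi2 ∈ Hz ∧ pi2 * h * pi2⁻¹ ∈ Hz := by
  obtain ⟨⟨a, b, c, d⟩, rfl⟩ := hh
  have e1 : pi2 * ofCoords (a, c, -b - d, d) = ofCoords (a, b, c, d) * pi2 := by
    ext <;> simp [pi2, ofCoords] <;> ring
  have e2 : pi2 * ofCoords (a, b, c, d) = ofCoords (a, -c - d, b, d) * pi2 := by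
    ext <;> simp [pi2, ofCoords] <;> ring
  refine ⟨?_, ?_⟩
  · rw [mul_assoc, ← e1, inv_mul_cancel_left₀ pi2_ne_zero]
    exact ⟨_, rfl⟩
  · rw [e2, mul_assoc, mul_inv_cancel₀ pi2_ne_zero, mul_one]
    exact ⟨_, rfl⟩

/-- The elements of even norm. -/
theorem even_norm {h : ℍ[ℚ]} (hh : h ∈ Hz) {n : ℕ} (hn : normSq h = (2 * n : ℕ)) :
    h ∈ RI pi2 := by
  obtain ⟨⟨a, b, c, d⟩, rfl⟩ := hh
  have e : a ^ 2 + b ^ 2 + c ^ 2 + (a + b + c) * d + d ^ 2 = 2 * (n : ℤ) := by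
    rw [normSq_def'] at hn
    simp only [ofCoords] at hn
    push_cast at hn
    have : ((a ^ 2 + b ^ 2 + c ^ 2 + (a + b + c) * d + d ^ 2 : ℤ) : ℚ) =
        ((2 * (n : ℤ) : ℤ) : ℚ) := by
      push_cast
      linear_combination hn
    exact_mod_cast this
  have h2 := congrArg (fun z : ℤ => (z : ZMod 2)) e
  push_cast at h2
  have key : ∀ x y z w : ZMod 2,
      x ^ 2 + y ^ 2 + z ^ 2 + (x + y + z) * w + w ^ 2 = 2 * (n : ZMod 2) →
      w = 0 ∧ x + y + z = 0 := by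
    have e2 : (2 : ZMod 2) = 0 := rfl
    simp only [e2, zero_mul]
    decide
  obtain ⟨hw, hs⟩ := key _ _ _ _ h2
  rw [← Int.cast_add, ← Int.cast_add] at hs
  obtain ⟨d', rfl⟩ : (2 : ℤ) ∣ d := (ZMod.intCast_zmod_eq_zero_iff_dvd d 2).1 hw
  obtain ⟨t, ht⟩ : (2 : ℤ) ∣ a + b + c := (ZMod.intCast_zmod_eq_zero_iff_dvd _ 2).1 hs
  refine ⟨_, ⟨(-d', t - a, t - a - b - d', a + 2 * d'), rfl⟩, ?_⟩
  obtain rfl : c = 2 * t - a - b := by linarith
  ext <;> simp [pi2, ofCoords] <;> ring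

end FA.HurwitzQ

end
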