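import Fermat.Agent.Forms3.HurwitzIdeals
import Mathlib.Algebra.Field.ZMod

/-!
# The forms act transitively on the optimal embeddings

Two optimal embeddings `u`, `u'` have a quaternion `α` with `u α = α u'` and of norm prime to the
odd divisors of the discriminant. Its prime factors are ideals of forms, so `α Hz` is generated by
what it contains of `ℚ(u)`, a lattice that gives a form; at `2` the factor `1 + i` is left over.
-/

set_option autoImplicit false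

noncomputable section

namespace FA.HurwitzQ

open Quaternion
open scoped Quaternion

variable {N : ℕ} {u u' α : ℍ[ℚ]}

theorem Emb.mem (hu : Emb N u) : u ∈ Hz := by
  have h := hu.el_mem (m := 0) (k := 2) ⟨-N, by ring⟩
  simpa [el] using h

theorem Emb.el_mem_of {u₁ : ℍ[ℚ]} (hu : Emb N u) (hu₁ : Emb N u₁) {p q : ℚ}
    (h : el u₁ p q ∈ Hz) : el u p q ∈ Hz := by
  obtain ⟨m, k, rfl, rfl, hd⟩ := hu₁.opt p q h
  exact hu.el_mem hd

theorem RI_mul_mem {x h : ℍ[ℚ]} (hx : x ∈ RI α) (hh : h ∈ Hz) : x * h ∈ RI α := by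
  obtain ⟨w, hw, rfl⟩ := hx
  exact ⟨w * h, mul_mem hw hh, mul_assoc _ _ _⟩

theorem RI_add_mem {x y : ℍ[ℚ]} (hx : x ∈ RI α) (hy : y ∈ RI α) : x + y ∈ RI α := by
  obtain ⟨w, hw, rfl⟩ := hx
  obtain ⟨w', hw', rfl⟩ := hy
  exact ⟨w + w', add_mem hw hw', (mul_add _ _ _).symm⟩

theorem natCast_mem_RI {M : ℕ} (hα : α ∈ Hz) (hM : normSq α = M) : (M : ℍ[ℚ]) ∈ RI α :=
  ⟨star α, star_mem hα, by rw [self_mul_star, hM, Quaternion.coe_natCast]⟩

/-- `α` lies in every right ideal that contains what `α Hz` contains of the order of `u`. -/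
def Spanned (u α : ℍ[ℚ]) : Prop :=
  ∀ R : Set ℍ[ℚ], (∀ x ∈ R, ∀ y ∈ R, x + y ∈ R) → (∀ x ∈ R, ∀ h ∈ Hz, x * h ∈ R) →
    (∀ p q : ℚ, el u p q ∈ Hz → el u p q ∈ RI α → el u p q ∈ R) → α ∈ R

theorem spanned_intCast (u : ℍ[ℚ]) (z : ℤ) : Spanned u (z : ℍ[ℚ]) := fun R _ _ hR => by
  have e : el u z 0 = (z : ℍ[ℚ]) := by ext <;> simp [el]
  exact e ▸ hR z 0 (scalar_mem u z) (e ▸ mem_RI_self _)

theorem spanned_unit (u : ℍ[ℚ]) {e : ℍ[ℚ]} (he : e ∈ units) : Spanned u e := fun R _ hmul hR => by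
  have h1 : el u 1 0 = 1 := by simp [el]
  have := hmul _ (hR 1 0 (h1 ▸ one_mem Hz) ⟨e⁻¹, (unit_inv he).1.1, by
    rw [h1, mul_inv_cancel₀ (unit_ne_zero he)]⟩) e he.1
  rwa [h1, one_mul] at this

theorem spanned_of_isGen {f : ℤ × ℤ × ℤ} (hu : Emb N u) (hf : PrimForm N f)
    (hα : IsGen u f α) : Spanned u α := fun R hadd hmul hR => by
  obtain ⟨h₁, hh₁, h₂, hh₂, e⟩ := (hα.2 ▸ mem_RI_self α : α ∈ RIf u f)
  rw [e]
  exact hadd _ (hmul _ (hR _ _ (scalar_mem u _) hα.scalar_mem_RI) _ hh₁) _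
    (hmul _ (hR _ _ (gen_mem hu hf) hα.gen_mem_RI) _ hh₂)

theorem Spanned.mul {π u₁ α' : ℍ[ℚ]} (hu : Emb N u) (hu₁ : Emb N u₁) (h : u * π = π * u₁)
    (hπ : Spanned u π) (hα' : Spanned u₁ α') : Spanned u (π * α') := by
  intro R hadd hmul hR
  refine hα' {x | π * x ∈ R} (fun x hx y hy => by simpa [mul_add] using hadd _ hx _ hy)
    (fun x hx w hw => by simpa [mul_assoc] using hmul _ hx w hw) fun p q hpq hmem => ?_
  show π * el u₁ p q ∈ R
  rw [← el_conj h]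
  have hp := hu.el_mem_of hu₁ hpq
  refine hπ {x | el u p q * x ∈ R} (fun x hx y hy => by simpa [mul_add] using hadd _ hx _ hy)
    (fun x hx w hw => by simpa [mul_assoc] using hmul _ hx w hw) fun r t hrt hmem' => ?_
  show el u p q * el u r t ∈ R
  obtain ⟨w, hw, hw'⟩ := hmem'
  obtain ⟨v, hv, hv'⟩ := hmem
  rw [hu.el_mul]
  refine hR _ _ (hu.el_mul p q r t ▸ mul_mem hp hrt) ⟨v * w, mul_mem hv hw, ?_⟩
  rw [← hu.el_mul, hw', ← mul_assoc, el_conj h, hv']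
  simp only [mul_assoc]

/-- The ideal of an odd prime is the ideal of a form. -/
theorem exists_prime_form (hu : Emb N u) {p : ℕ} (hp : p.Prime) (h2 : p ≠ 2) (hpN : ¬ p ∣ N)
    {π u₁ : ℍ[ℚ]} (hπ : π ∈ Hz) (hπn : normSq π = p) (hu₁ : u₁ ∈ Hz) (h : u * π = π * u₁) :
    ∃ f, PrimForm N f ∧ IsGen u f π := by
  have hp0 : (p : ℚ) ≠ 0 := Nat.cast_ne_zero.2 hp.ne_zero
  have hpz : Prime (p : ℤ) := Nat.prime_iff_prime_int.1 hp
  have hπ0 : π ≠ 0 := fun e => hp0 (by rw [← hπn, e, map_zero])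
  have hπu : star π * u = u₁ * star π := by
    refine mul_right_cancel₀ hπ0 ?_
    rw [mul_assoc, h, ← mul_assoc, star_mul_self, hπn, Quaternion.coe_commutes, mul_assoc,
      star_mul_self, hπn]
  have key : ∀ x y : ℍ[ℚ], x * y * x = (2 * (x * y).re) • x - normSq x • star y := fun x y => by
    rw [normSq_def']
    ext <;> simp <;> ring
  -- a trace prime to `p`
  obtain ⟨η, hη, t, ht, hpt⟩ : ∃ η ∈ Hz, ∃ t : ℤ, 2 * (star π * η).re = t ∧ ¬ (p : ℤ) ∣ t := by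
    obtain ⟨⟨a, b, c, d⟩, rfl⟩ := hπ
    by_contra hne
    push Not at hne
    have h1 := hne 1 (one_mem Hz) d (by simp [ofCoords]; ring)
    have hi := hne ⟨0, 1, 0, 0⟩ ⟨(1, 0, 0, 0), by ext <;> simp [ofCoords]⟩ (2 * a + d)
      (by simp [ofCoords]; ring)
    have hj := hne ⟨0, 0, 1, 0⟩ ⟨(0, 1, 0, 0), by ext <;> simp [ofCoords]⟩ (2 * b + d)
      (by simp [ofCoords]; ring)
    have hk := hne ⟨0, 0, 0, 1⟩ ⟨(0, 0, 1, 0), by ext <;> simp [ofCoords]⟩ (2 * c + d)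
      (by simp [ofCoords]; ring)
    have h4 : ((p : ℤ) : ℤ) * p ∣ 4 * p := by
      have e : ((2 * a + d) ^ 2 + (2 * b + d) ^ 2 + (2 * c + d) ^ 2 + d ^ 2 : ℤ) = 4 * (p : ℤ) := by
        rw [normSq_def'] at hπn
        simp only [ofCoords] at hπn
        have : (((2 * a + d) ^ 2 + (2 * b + d) ^ 2 + (2 * c + d) ^ 2 + d ^ 2 : ℤ) : ℚ) =
            ((4 * (p : ℤ) : ℤ) : ℚ) := by
          push_cast
          linear_combination 4 * hπn
        exact_mod_cast this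
      rw [← e, ← pow_two]
      exact dvd_add (dvd_add (dvd_add (pow_dvd_pow_of_dvd hi 2) (pow_dvd_pow_of_dvd hj 2))
        (pow_dvd_pow_of_dvd hk 2)) (pow_dvd_pow_of_dvd h1 2)
    have h4' : (p : ℤ) ∣ ((4 : ℕ) : ℤ) := Int.dvd_of_mul_dvd_mul_right hpz.ne_zero h4
    exact h2 ((Nat.prime_dvd_prime_iff_eq hp Nat.prime_two).1
      (hp.dvd_of_dvd_pow (n := 2) (Int.natCast_dvd_natCast.1 h4')))
  obtain ⟨t₂, ht₂⟩ := exists_two_re (mul_mem (star_mem hπ) (mul_mem hη hu₁))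
  obtain ⟨s, z, hsz⟩ : ∃ s z : ℤ, t * s + p * z = 1 := by
    obtain ⟨s, z, h⟩ := (hpz.coprime_iff_not_dvd.2 hpt).symm
    exact ⟨s, z, by linear_combination h⟩
  set r : ℤ := s * t₂
  -- `u - r` lies in the ideal
  obtain ⟨w, hw, hur⟩ : u - (r : ℍ[ℚ]) ∈ RI π := by
    have e := congrArg (· * u) (key (star π) η)
    have e' : star π * η * star π * u = star π * (η * u₁) * star π := by
      simp only [mul_assoc, hπu]
    rw [e', key, normSq_star, hπn, ht₂, ht, sub_mul, smul_mul_assoc, smul_mul_assoc] at e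
    set E := (s : ℚ) • (star η * u - star (η * u₁)) + (z : ℚ) • (star π * u) with hE
    have hint : ∀ (k : ℤ) (x : ℍ[ℚ]), x ∈ Hz → (k : ℚ) • x ∈ Hz := fun k x hx => by
      rw [show (k : ℚ) • x = (k : ℍ[ℚ]) * x by ext <;> simp]
      exact mul_mem (intCast_mem Hz k) hx
    have hEm : E ∈ Hz := add_mem
      (hint _ _ (sub_mem (mul_mem (star_mem hη) hu.mem) (star_mem (mul_mem hη hu₁))))
      (hint _ _ (mul_mem (star_mem hπ) hu.mem))
    have hdiff : star π * (u - (r : ℍ[ℚ])) = (p : ℚ) • E := by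
      have hsz' : (t : ℚ) * s + p * z = 1 := by exact_mod_cast hsz
      have e2 : (s : ℚ) • ((t : ℚ) • (star π * u) - (t₂ : ℚ) • star π) =
          (p : ℚ) • ((s : ℚ) • (star η * u - star (η * u₁))) := by
        rw [show (t : ℚ) • (star π * u) - (t₂ : ℚ) • star π =
          (p : ℚ) • (star η * u - star (η * u₁)) by linear_combination (norm := module) -e,
          smul_comm]
      rw [hE, smul_add, ← e2, mul_sub,
        show star π * (r : ℍ[ℚ]) = ((s : ℚ) * t₂) • star π by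
          ext <;> simp [r] <;> ring]
      conv_lhs => rw [← one_smul ℚ (star π * u), ← hsz']
      module
    refine ⟨E, hEm, smul_right_injective ℍ[ℚ] hp0 ?_⟩
    simp only
    rw [← mul_smul_comm, ← hdiff, ← mul_assoc, self_mul_star, hπn, Quaternion.coe_mul_eq_smul]
  -- the form
  set B : ℤ := -r + p * (r + N)
  have hpar : (2 : ℤ) ∣ B - 1 * N := by
    obtain ⟨k, hk⟩ := hp.odd_of_ne_two h2
    refine ⟨(k : ℤ) * (r + N), ?_⟩
    simp only [B, hk]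
    push_cast
    ring
  have hg : el u ((B : ℚ) / 2) (1 / 2) ∈ Hz := by simpa using hu.el_mem hpar
  have hmem : el u ((B : ℚ) / 2) (1 / 2) ∈ RI π := by
    obtain ⟨k, hk⟩ := hp.odd_of_ne_two h2
    have e : el u ((B : ℚ) / 2) (1 / 2) = (u - (r : ℍ[ℚ])) * ((k + 1 : ℕ) : ℍ[ℚ]) +
        (p : ℍ[ℚ]) *
          (((k + 1 : ℕ) : ℍ[ℚ]) * ((r + N : ℤ) : ℍ[ℚ]) - el u ((B : ℚ) / 2) (1 / 2)) := by
      have hk' : (p : ℚ) = 2 * k + 1 := by exact_mod_cast hk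
      ext <;> simp [el, B, hk', hu.re] <;> ring
    rw [e]
    exact RI_add_mem (RI_mul_mem ⟨w, hw, hur⟩ (natCast_mem Hz _))
      (RI_mul_mem (natCast_mem_RI hπ hπn)
        (sub_mem (mul_mem (natCast_mem Hz _) (intCast_mem Hz _)) hg))
  obtain ⟨y, hy, hgy⟩ := hmem
  obtain ⟨c, hc⟩ := exists_norm hy
  have hD : B ^ 2 - 4 * (p : ℤ) * (c : ℤ) = -(N : ℤ) := by
    have e := congrArg normSq hgy
    rw [map_mul, hπn, hc, hu.normSq_el] at e
    have : ((B ^ 2 - 4 * (p : ℤ) * (c : ℤ) : ℤ) : ℚ) = ((-(N : ℤ) : ℤ) : ℚ) := by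
      push_cast
      linear_combination 4 * e
    exact_mod_cast this
  have hf : PrimForm N ((p : ℤ), B, (c : ℤ)) := by
    refine ⟨Int.natCast_pos.2 hp.pos, hD, ?_⟩
    set g := Int.gcd (Int.gcd (p : ℤ) B) (c : ℤ) with hgdef
    have hgc : (g : ℤ) ∣ (c : ℤ) := Int.gcd_dvd_right _ _
    have h12 : (g : ℤ) ∣ (Int.gcd (p : ℤ) B : ℤ) := Int.gcd_dvd_left _ _
    have hgB : (g : ℤ) ∣ B := h12.trans (Int.gcd_dvd_right _ _)
    rcases hp.eq_one_or_self_of_dvd g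
      (Int.natCast_dvd_natCast.1 (h12.trans (Int.gcd_dvd_left _ _))) with e | e
    · exact e
    · refine absurd ?_ hpN
      rw [e] at hgB hgc
      have : (p : ℤ) ∣ (N : ℤ) := by
        rw [show (N : ℤ) = 4 * p * c - B ^ 2 by linarith]
        exact dvd_sub (dvd_mul_of_dvd_left (dvd_mul_left _ _) _) (dvd_pow hgB two_ne_zero)
      exact Int.natCast_dvd_natCast.1 this
  obtain ⟨αf, hαf⟩ := exists_isGen hu hf
  refine ⟨_, hf, hπ0, ?_⟩
  obtain ⟨e, he, hee⟩ : αf ∈ RI π := by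
    obtain ⟨h₁, hh₁, h₂, hh₂, e⟩ := (hαf.2 ▸ mem_RI_self αf : αf ∈ RIf u ((p : ℤ), B, (c : ℤ)))
    rw [e]
    refine RI_add_mem (RI_mul_mem ?_ hh₁) (RI_mul_mem ⟨y, hy, hgy⟩ hh₂)
    rw [el_scalar, show (((p : ℤ) : ℚ)) • (1 : ℍ[ℚ]) = (p : ℍ[ℚ]) by ext <;> simp]
    exact natCast_mem_RI hπ hπn
  have he' : e ∈ units := ⟨he, by
    have := congrArg normSq hee
    rw [map_mul, hπn, hαf.normSq_eq hu hf] at this
    simp only [Int.cast_natCast] at this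
    exact mul_left_cancel₀ hp0 (by rw [mul_one]; exact this.symm)⟩
  rw [← hαf.2, hee]
  refine Set.ext fun x => ⟨?_, fun ⟨h, hh, hx⟩ => ⟨e * h, mul_mem he hh, by rw [hx, mul_assoc]⟩⟩
  rintro ⟨h, hh, rfl⟩
  exact ⟨e⁻¹ * h, mul_mem (unit_inv he').1.1 hh, by
    rw [mul_assoc π, mul_inv_cancel_left₀ (unit_ne_zero he')]⟩

/-- A quaternion of odd norm prime to `N` carrying `u` to `u'` is spanned. -/
theorem spanned_of_coprime (hN : N ≠ 0) : ∀ (M : ℕ) {u u' α : ℍ[ℚ]}, Emb N u → Emb N u' →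
    α ∈ Hz → u * α = α * u' → normSq α = M → M % 2 = 1 →
    (∀ p : ℕ, p.Prime → p ∣ M → ¬ p ∣ N) → Spanned u α := by
  intro M
  induction M using Nat.strong_induction_on with
  | _ M ih =>
  intro u u' α hu hu' hα hua hM hodd hcop
  by_cases h1 : M = 1
  · exact spanned_unit u ⟨hα, by rw [hM, h1, Nat.cast_one]⟩
  have hp := Nat.minFac_prime h1
  set p := M.minFac
  obtain ⟨M', hM'⟩ : p ∣ M := Nat.minFac_dvd M
  have hM0 : 0 < M' := Nat.pos_of_ne_zero fun e => by rw [hM', e] at hodd; simp at hodd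
  have hp2 : p ≠ 2 := fun e => by rw [hM', e] at hodd; omega
  have hp0 : (p : ℚ) ≠ 0 := Nat.cast_ne_zero.2 hp.ne_zero
  have hpH : (p : ℍ[ℚ]) ≠ 0 := fun e => hp0 (by simpa using congrArg QuaternionAlgebra.re e)
  by_cases hdiv : ∃ β ∈ Hz, α = (p : ℍ[ℚ]) * β
  · obtain ⟨β, hβ, rfl⟩ := hdiv
    obtain ⟨K, hK⟩ := exists_norm hβ
    have hMK : p * p * K = M := by
      have e : normSq ((p : ℍ[ℚ]) * β) = ((p * p * K : ℕ) : ℚ) := by
        rw [map_mul, hK, ← Quaternion.coe_natCast, Quaternion.normSq_coe]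
        push_cast
        ring
      rw [hM] at e
      exact_mod_cast e.symm
    have hcomm : u * (p : ℍ[ℚ]) = (p : ℍ[ℚ]) * u := (Nat.cast_comm p u).symm
    refine Spanned.mul hu hu hcomm (by simpa using spanned_intCast u p) ?_
    refine ih K ?_ hu hu' hβ ?_ hK ?_ fun q hq hqK => hcop q hq (hMK ▸ hqK.mul_left _)
    · nlinarith [hp.two_le, hM0, Nat.mul_le_mul hp.two_le hp.two_le]
    · have := hua
      rw [← mul_assoc, hcomm, mul_assoc, mul_assoc] at this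
      exact mul_left_cancel₀ hpH this
    · rw [← hMK, Nat.mul_mod] at hodd
      rcases Nat.mod_two_eq_zero_or_one K with e | e
      · rw [e, mul_zero] at hodd; simp at hodd
      · exact e
  -- the right ideal of `α` and `p`
  set S : Set ℍ[ℚ] := {x | ∃ h₁ ∈ Hz, ∃ h₂ ∈ Hz, x = α * h₁ + (p : ℍ[ℚ]) * h₂}
  obtain ⟨π, hπS, hπ0, hSπ⟩ := exists_generator (S := S)
    (by
      rintro _ ⟨h₁, hh₁, h₂, hh₂, rfl⟩
      exact add_mem (mul_mem hα hh₁) (mul_mem (natCast_mem Hz p) hh₂))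
    (by
      rintro _ ⟨h₁, hh₁, h₂, hh₂, rfl⟩ _ ⟨h₃, hh₃, h₄, hh₄, rfl⟩
      exact ⟨h₁ - h₃, sub_mem hh₁ hh₃, h₂ - h₄, sub_mem hh₂ hh₄, by noncomm_ring⟩)
    (by
      rintro _ ⟨h₁, hh₁, h₂, hh₂, rfl⟩ h hh
      exact ⟨h₁ * h, mul_mem hh₁ hh, h₂ * h, mul_mem hh₂ hh, by noncomm_ring⟩)
    ⟨(p : ℍ[ℚ]), ⟨0, zero_mem Hz, 1, one_mem Hz, by simp⟩, hpH⟩
  have hαπ : α ∈ RI π := hSπ ▸ ⟨1, one_mem Hz, 0, zero_mem Hz, by simp⟩
  obtain ⟨q, hq, hpq⟩ : (p : ℍ[ℚ]) ∈ RI π := hSπ ▸ ⟨0, zero_mem Hz, 1, one_mem Hz, by simp⟩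
  obtain ⟨h₁, hh₁, h₂, hh₂, hπe⟩ := hπS
  have hπ : π ∈ Hz := hπe ▸ add_mem (mul_mem hα hh₁) (mul_mem (natCast_mem Hz p) hh₂)
  obtain ⟨K, hK⟩ := exists_norm hπ
  obtain ⟨Q, hQ⟩ := exists_norm hq
  have hKQ : K * Q = p ^ 2 := by
    have e := congrArg normSq hpq
    rw [← Quaternion.coe_natCast, Quaternion.normSq_coe, map_mul, hK, hQ] at e
    exact_mod_cast e.symm
  have hpK : p ∣ K := by
    obtain ⟨n₁, hn₁⟩ := exists_norm hh₁
    obtain ⟨n₂, hn₂⟩ := exists_norm hh₂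
    obtain ⟨z, hz⟩ := exists_two_re (mul_mem (mul_mem hα hh₁) (star_mem hh₂))
    have e := congrArg normSq hπe
    rw [hK, normSq_add_eq, map_mul, map_mul, hM, hn₁, hn₂, ← Quaternion.coe_natCast,
      Quaternion.normSq_coe, Quaternion.coe_mul_eq_smul, Quaternion.star_smul, mul_smul_comm,
      Quaternion.re_smul, smul_eq_mul, mul_left_comm 2, hz] at e
    have e' : (K : ℤ) = (p : ℤ) * (M' * n₁ + p * n₂ + z) := by
      rw [hM'] at e
      push_cast at e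
      have : ((K : ℤ) : ℚ) = (((p : ℤ) * (M' * n₁ + p * n₂ + z) : ℤ) : ℚ) := by
        push_cast
        linear_combination e
      exact_mod_cast this
    exact Int.natCast_dvd_natCast.1 ⟨_, e'⟩
  have hKp : K = p := by
    obtain ⟨i, hi, hKi⟩ := (Nat.dvd_prime_pow hp).1 ⟨Q, hKQ.symm⟩
    interval_cases i
    · rw [hKi, pow_zero, Nat.dvd_one] at hpK
      exact absurd hpK hp.one_lt.ne'
    · rw [hKi, pow_one]
    · exfalso
      refine hdiv ?_
      have hQ1 : Q = 1 := by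
        rw [hKi] at hKQ
        exact (Nat.mul_eq_left (pow_ne_zero 2 hp.ne_zero)).1 hKQ
      have hqu : q ∈ units := ⟨hq, by rw [hQ, hQ1, Nat.cast_one]⟩
      obtain ⟨w, hw, hαw⟩ := hαπ
      refine ⟨q⁻¹ * w, mul_mem (unit_inv hqu).1.1 hw, ?_⟩
      rw [hpq, mul_assoc, mul_inv_cancel_left₀ (unit_ne_zero hqu), hαw]
  subst hKp
  -- `u` maps it to itself
  obtain ⟨u₁, hu₁, huπ⟩ : u * π ∈ RI π := by
    rw [hπe, mul_add, ← mul_assoc, hua, ← mul_assoc, ← (Nat.cast_comm p u), mul_assoc, mul_assoc,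
      ← hπe, ← hSπ]
    exact ⟨u' * h₁, mul_mem hu'.mem hh₁, u * h₂, mul_mem hu.mem hh₂, rfl⟩
  obtain ⟨f, hf, hgen⟩ := exists_prime_form hu hp hp2 (hcop p hp ⟨M', hM'⟩) hπ hK hu₁ huπ
  have he : π⁻¹ * u * π = u₁ := by rw [mul_assoc, huπ, inv_mul_cancel_left₀ hπ0]
  have hu₁' : Emb N u₁ := he ▸ hgen.emb hu hN hf
  obtain ⟨β, hβ, rfl⟩ := hαπ
  obtain ⟨L, hL⟩ := exists_norm hβ
  have hML : p * L = M := by
    have e : normSq (π * β) = ((p * L : ℕ) : ℚ) := by rw [map_mul, hK, hL]; push_cast; rfl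
    rw [hM] at e
    exact_mod_cast e.symm
  refine Spanned.mul hu hu₁' huπ (spanned_of_isGen hu hf hgen) ?_
  refine ih L ?_ hu₁' hu' hβ ?_ hL ?_ fun q hq hqL => hcop q hq (hML ▸ hqL.mul_left _)
  · rw [← hML]
    exact lt_mul_left (Nat.pos_of_ne_zero fun e => by rw [← hML, e] at hodd; simp at hodd) hp.one_lt
  · refine mul_left_cancel₀ hπ0 ?_
    rw [← mul_assoc, ← huπ, mul_assoc, hua, mul_assoc]
  · rw [← hML, Nat.mul_mod] at hodd
    rcases Nat.mod_two_eq_zero_or_one L with e | e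
    · rw [e, mul_zero] at hodd; simp at hodd
    · exact e

end FA.HurwitzQ

end
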