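import Fermat.Agent.Forms3.KissingSchoenberg
import Fermat.Agent.Forms3.EightLattice

/-!
# The kissing number in dimension eight

The polynomial `(t + 1) (t + 1/2)² t² (t - 1/2)` has non-negative Gegenbauer coefficients, with
constant term `f(1) / 240`, and is not positive on `[-1, 1/2]`; the shortest vectors of `E₈`
attain the bound.
-/

set_option autoImplicit false

noncomputable section

namespace FA.Kissing

variable {ι : Type*} [Fintype ι]

/-- The polynomial of Levenshtein, Odlyzko and Sloane. -/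
def lpPoly (t : ℝ) : ℝ := (t + 1) * (t + 1 / 2) ^ 2 * t ^ 2 * (t - 1 / 2)

theorem lpPoly_eq (t : ℝ) : lpPoly t = 3 / 320 * geg 8 0 t + 3 / 40 * geg 8 1 t +
    15 / 56 * geg 8 2 t + 39 / 56 * geg 8 3 t + 19 / 16 * geg 8 4 t +
    3 / 2 * geg 8 5 t + 1 * geg 8 6 t := by
  simp only [lpPoly, geg]
  ring

theorem lpPoly_nonpos {t : ℝ} (h1 : -1 ≤ t) (h2 : t ≤ 1 / 2) : lpPoly t ≤ 0 := by
  have e : lpPoly t = -((t + 1) * (1 / 2 - t) * ((t + 1 / 2) * t) ^ 2) := by rw [lpPoly]; ring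
  rw [e]
  exact neg_nonpos.2 (mul_nonneg (mul_nonneg (by linarith) (by linarith)) (sq_nonneg _))

theorem lpPoly_zero {t : ℝ} (h : lpPoly t = 0) :
    t = -1 ∨ t = -1 / 2 ∨ t = 0 ∨ t = 1 / 2 := by
  simp only [lpPoly, mul_eq_zero, pow_eq_zero_iff two_ne_zero] at h
  rcases h with ((h | h) | h) | h
  · exact Or.inl (by linarith)
  · exact Or.inr (Or.inl (by linarith))
  · exact Or.inr (Or.inr (Or.inl h))
  · exact Or.inr (Or.inr (Or.inr (by linarith)))

/-- The linear programming inequality. -/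
theorem lp_bound (x : ι → Fin 8 → ℝ) (hx : ∀ i, ∑ l, x i l ^ 2 = 1) :
    3 / 320 * (Fintype.card ι : ℝ) ^ 2 ≤ ∑ i, ∑ j, lpPoly (∑ l, x i l * x j l) := by
  have h : ∀ k ≤ 6, 0 ≤ ∑ i, ∑ j, geg 8 k (∑ l, x i l * x j l) := fun k hk => by
    have h := geg_posDef (show 0 < 8 by norm_num) hk (fun _ : ι => (1 : ℝ)) x hx
    simpa using h
  have h0 : ∑ i, ∑ j, geg 8 0 (∑ l, x i l * x j l) = (Fintype.card ι : ℝ) ^ 2 := by
    simp [geg, sq]
  simp only [lpPoly_eq, Finset.sum_add_distrib, ← Finset.mul_sum, h0]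
  have h1 := h 1 (by norm_num)
  have h2 := h 2 (by norm_num)
  have h3 := h 3 (by norm_num)
  have h4 := h 4 (by norm_num)
  have h5 := h 5 (by norm_num)
  have h6 := h 6 (by norm_num)
  linarith

theorem dot_ge_neg_one {a b : Fin 8 → ℝ} (ha : ∑ l, a l ^ 2 = 1) (hb : ∑ l, b l ^ 2 = 1) :
    -1 ≤ ∑ l, a l * b l := by
  have h : 0 ≤ ∑ l, (a l + b l) ^ 2 := Finset.sum_nonneg fun l _ => sq_nonneg _
  simp only [add_sq, Finset.sum_add_distrib, mul_assoc, ← Finset.mul_sum, ha, hb] at h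
  linarith

/-- At most `240`, with the inner products forced in the case of equality. -/
theorem kissing_le (x : ι → Fin 8 → ℝ) (hx : ∀ i, ∑ l, x i l ^ 2 = 1)
    (hsep : ∀ i j, i ≠ j → ∑ l, x i l * x j l ≤ 1 / 2) :
    Fintype.card ι ≤ 240 ∧ (Fintype.card ι = 240 → ∀ i j, i ≠ j →
      ∑ l, x i l * x j l ∈ ({-1, -1 / 2, 0, 1 / 2} : Set ℝ)) := by
  classical
  have hd : ∀ i, lpPoly (∑ l, x i l * x i l) = 9 / 4 := fun i => by
    rw [show ∑ l, x i l * x i l = 1 by simpa [sq] using hx i, lpPoly]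
    norm_num
  have hle : ∀ i, ∀ j ∈ Finset.univ.erase i, lpPoly (∑ l, x i l * x j l) ≤ 0 := fun i j hj =>
    lpPoly_nonpos (dot_ge_neg_one (hx i) (hx j)) (hsep i j (Finset.ne_of_mem_erase hj).symm)
  have hsum := lp_bound x hx
  have hsplit : ∑ i, ∑ j, lpPoly (∑ l, x i l * x j l) = (Fintype.card ι : ℝ) * (9 / 4) +
      ∑ i, ∑ j ∈ Finset.univ.erase i, lpPoly (∑ l, x i l * x j l) := by
    rw [show (Fintype.card ι : ℝ) * (9 / 4) = ∑ i, lpPoly (∑ l, x i l * x i l) by simp [hd],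
      ← Finset.sum_add_distrib]
    exact Finset.sum_congr rfl fun i _ => (Finset.add_sum_erase Finset.univ
      (fun j => lpPoly (∑ l, x i l * x j l)) (Finset.mem_univ i)).symm
  rw [hsplit] at hsum
  have hoff : ∑ i, ∑ j ∈ Finset.univ.erase i, lpPoly (∑ l, x i l * x j l) ≤ 0 :=
    Finset.sum_nonpos fun i _ => Finset.sum_nonpos (hle i)
  refine ⟨?_, fun hN i j hij => ?_⟩
  · by_contra hlt
    have : (241 : ℝ) ≤ Fintype.card ι := by exact_mod_cast Nat.not_le.1 hlt
    nlinarith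
  · rw [hN] at hsum
    push_cast at hsum
    have hz : ∑ i, ∑ j ∈ Finset.univ.erase i, lpPoly (∑ l, x i l * x j l) = 0 :=
      le_antisymm hoff (by linarith)
    have hi := (Finset.sum_eq_zero_iff_of_nonpos fun i _ => Finset.sum_nonpos (hle i)).1 hz i
      (Finset.mem_univ i)
    exact lpPoly_zero ((Finset.sum_eq_zero_iff_of_nonpos (hle i)).1 hi j
      (Finset.mem_erase.2 ⟨hij.symm, Finset.mem_univ j⟩))

open FA.EightLattice in
/-- The shortest vectors of `E₈`, scaled to length one, touch at most. -/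
theorem roots_separated {y z : Fin 8 → ℤ} (hy : ∑ i, ∑ j, y i * gram i j * y j = 2)
    (hz : ∑ i, ∑ j, z i * gram i j * z j = 2) (hne : y ≠ z) :
    ∑ l, ((embed y l : ℝ) / 2) ^ 2 = 1 ∧
      ∑ l, (embed y l : ℝ) / 2 * ((embed z l : ℝ) / 2) ≤ 1 / 2 := by
  have h1 : ∑ l, (embed y l : ℝ) ^ 2 = 4 := by
    exact_mod_cast (sum_sq_embed y).trans (by rw [hy]; rfl)
  have hB : ∑ l, embed y l * embed z l = 2 * ∑ i, ∑ j, y i * gram i j * z j := by
    simp [Fin.sum_univ_eight, embed, gram]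
    ring
  have hdiff : ∑ l, embed (y - z) l ^ 2 =
      ∑ l, embed y l ^ 2 + ∑ l, embed z l ^ 2 - 2 * ∑ l, embed y l * embed z l := by
    rw [Finset.mul_sum, ← Finset.sum_add_distrib, ← Finset.sum_sub_distrib]
    refine Finset.sum_congr rfl fun l _ => ?_
    have e : embed (y - z) l = embed y l - embed z l := by
      fin_cases l <;> simp [embed] <;> ring
    rw [e]
    ring
  rw [sum_sq_embed, sum_sq_embed, sum_sq_embed, hB, hy, hz] at hdiff
  have hpos := gram_pos (sub_ne_zero.2 hne)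
  have hB1 : ∑ l, embed y l * embed z l ≤ 2 := by omega
  have hB2 : ∑ l, (embed y l : ℝ) * (embed z l : ℝ) ≤ 2 := by exact_mod_cast hB1
  constructor
  · simp only [div_pow, ← Finset.sum_div, h1]
    norm_num
  · simp only [div_mul_div_comm, ← Finset.sum_div]
    linarith

end FA.Kissing

end
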