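import Mathlib

/-!
# Gegenbauer polynomials are positive definite on spheres

`geg n k` is the monic Gegenbauer polynomial of degree `k ≤ 6` for the sphere in dimension `n`.
Schoenberg's positivity is proved by induction on the dimension through the addition formula, on
`{1, -1}` they vanish from degree two on.
-/

set_option autoImplicit false
set_option linter.unusedSimpArgs false

noncomputable section

namespace FA.Kissing

/-- The monic Gegenbauer polynomials of degree at most six in dimension `n`. -/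
def geg (n : ℝ) : ℕ → ℝ → ℝ
  | 0, _ => 1
  | 1, t => t
  | 2, t => t ^ 2 - 1 / n
  | 3, t => t ^ 3 - 3 / (n + 2) * t
  | 4, t => t ^ 4 - 6 / (n + 4) * t ^ 2 + 3 / ((n + 2) * (n + 4))
  | 5, t => t ^ 5 - 10 / (n + 6) * t ^ 3 + 15 / ((n + 4) * (n + 6)) * t
  | 6, t => t ^ 6 - 15 / (n + 8) * t ^ 4 + 45 / ((n + 6) * (n + 8)) * t ^ 2 -
      15 / ((n + 4) * (n + 6) * (n + 8))
  | _, _ => 0

/-- The value at `1` of `geg (e + 1) k`. -/
def gegOne (e : ℝ) : ℕ → ℝ
  | 2 => e / (e + 1)
  | 3 => e / (e + 3)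
  | 4 => e * (e + 2) / ((e + 3) * (e + 5))
  | 5 => e * (e + 2) / ((e + 5) * (e + 7))
  | 6 => e * (e + 2) * (e + 4) / ((e + 5) * (e + 7) * (e + 9))
  | _ => 1

theorem gegOne_pos {e : ℝ} (he : 0 < e) (k : ℕ) : 0 < gegOne e k := by
  unfold gegOne
  split <;> positivity

/-- The addition formula at `w = 0`, only even degrees contribute. -/
theorem geg_mul {d : ℝ} (hd : 0 < d) {k : ℕ} (hk : k ≤ 6) (a b : ℝ) :
    geg (d + 1) k (a * b) = ∑ m ∈ Finset.range (k / 2 + 1),
      (k.choose (2 * m) : ℝ) / gegOne (d + 2 * (2 * m : ℕ)) (k - 2 * m) *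
        ((1 - a ^ 2) * (1 - b ^ 2)) ^ m * geg (d + 2 * (2 * m : ℕ) + 1) (k - 2 * m) a *
          geg (d + 2 * (2 * m : ℕ) + 1) (k - 2 * m) b * geg d (2 * m) 0 := by
  interval_cases k <;>
    simp [Finset.sum_range_succ, Finset.sum_range_zero, Nat.choose, geg, gegOne] <;>
    field_simp <;> ring

/-- **The addition formula**, by Taylor expansion at `w = 0`. -/
theorem geg_addition {d : ℝ} (hd : 0 < d) {k : ℕ} (hk : k ≤ 6) (a b p q w : ℝ)
    (hp : p ^ 2 = 1 - a ^ 2) (hq : q ^ 2 = 1 - b ^ 2) :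
    geg (d + 1) k (a * b + p * q * w) = ∑ j ∈ Finset.range (k + 1),
      (k.choose j : ℝ) / gegOne (d + 2 * j) (k - j) * (p * q) ^ j *
        geg (d + 2 * j + 1) (k - j) a * geg (d + 2 * j + 1) (k - j) b * geg d j w := by
  have A : ∀ i ≤ k, _ := fun i _ =>
    geg_mul (d := d + 2 * (i : ℕ)) (by positivity) (k := k - i) (by omega) a b
  generalize hz : p * q = z
  obtain ⟨r, hr⟩ : ∃ r, r = (1 - a ^ 2) * (1 - b ^ 2) := ⟨_, rfl⟩
  simp only [← hr] at A
  have z2 : z ^ 2 = r := by rw [← hz, mul_pow, hp, hq, hr]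
  have z3 : z ^ 3 = z * r := by rw [← z2]; ring
  have z4 : z ^ 4 = r ^ 2 := by rw [← z2]; ring
  have z5 : z ^ 5 = z * r ^ 2 := by rw [← z2]; ring
  have z6 : z ^ 6 = r ^ 3 := by rw [← z2]; ring
  generalize a * b = u at A ⊢
  have e2 : (u + z * w) ^ 2 = u ^ 2 + 2 * u * (z * w) + r * w ^ 2 := by rw [← z2]; ring
  have e3 : (u + z * w) ^ 3 = u ^ 3 + 3 * u ^ 2 * (z * w) + 3 * u * (r * w ^ 2) +
      z * r * w ^ 3 := by rw [← z2]; ring
  have e4 : (u + z * w) ^ 4 = u ^ 4 + 4 * u ^ 3 * (z * w) + 6 * u ^ 2 * (r * w ^ 2) +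
      4 * u * (z * r * w ^ 3) + r ^ 2 * w ^ 4 := by rw [← z2]; ring
  have e5 : (u + z * w) ^ 5 = u ^ 5 + 5 * u ^ 4 * (z * w) + 10 * u ^ 3 * (r * w ^ 2) +
      10 * u ^ 2 * (z * r * w ^ 3) + 5 * u * (r ^ 2 * w ^ 4) + z * r ^ 2 * w ^ 5 := by
    rw [← z2]; ring
  have e6 : (u + z * w) ^ 6 = u ^ 6 + 6 * u ^ 5 * (z * w) + 15 * u ^ 4 * (r * w ^ 2) +
      20 * u ^ 3 * (z * r * w ^ 3) + 15 * u ^ 2 * (r ^ 2 * w ^ 4) +
      6 * u * (z * r ^ 2 * w ^ 5) + r ^ 3 * w ^ 6 := by rw [← z2]; ring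
  interval_cases k
  · have A0 := A 0 (by norm_num)
    simp only [Finset.sum_range_succ, Finset.sum_range_zero, Nat.choose, geg, gegOne,
      Nat.reduceSub, Nat.reduceAdd, Nat.reduceMul, Nat.reduceDiv, Nat.cast_ofNat, Nat.cast_one,
      Nat.cast_zero, pow_zero, pow_one, z2, z3, z4, z5, z6, e2, e3, e4, e5, e6] at A0 ⊢
    linear_combination A0
  · have A0 := A 0 (by norm_num)
    simp only [Finset.sum_range_succ, Finset.sum_range_zero, Nat.choose, geg, gegOne,
      Nat.reduceSub, Nat.reduceAdd, Nat.reduceMul, Nat.reduceDiv, Nat.cast_ofNat, Nat.cast_one,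
      Nat.cast_zero, pow_zero, pow_one, z2, z3, z4, z5, z6, e2, e3, e4, e5, e6] at A0 ⊢
    linear_combination A0
  · have A0 := A 0 (by norm_num)
    have A1 := A 1 (by norm_num)
    simp only [Finset.sum_range_succ, Finset.sum_range_zero, Nat.choose, geg, gegOne,
      Nat.reduceSub, Nat.reduceAdd, Nat.reduceMul, Nat.reduceDiv, Nat.cast_ofNat, Nat.cast_one,
      Nat.cast_zero, pow_zero, pow_one, z2, z3, z4, z5, z6, e2, e3, e4, e5, e6] at A0 A1 ⊢
    linear_combination A0 +
      2 * (z) * w ^ 1 * A1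
  · have A0 := A 0 (by norm_num)
    have A1 := A 1 (by norm_num)
    have A2 := A 2 (by norm_num)
    simp only [Finset.sum_range_succ, Finset.sum_range_zero, Nat.choose, geg, gegOne,
      Nat.reduceSub, Nat.reduceAdd, Nat.reduceMul, Nat.reduceDiv, Nat.cast_ofNat, Nat.cast_one,
      Nat.cast_zero, pow_zero, pow_one, z2, z3, z4, z5, z6, e2, e3, e4, e5, e6] at A0 A1 A2 ⊢
    linear_combination A0 +
      3 * (z) * w ^ 1 * A1 +
      3 * (r) * w ^ 2 * A2
  · have A0 := A 0 (by norm_num)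
    have A1 := A 1 (by norm_num)
    have A2 := A 2 (by norm_num)
    have A3 := A 3 (by norm_num)
    simp only [Finset.sum_range_succ, Finset.sum_range_zero, Nat.choose, geg, gegOne,
      Nat.reduceSub, Nat.reduceAdd, Nat.reduceMul, Nat.reduceDiv, Nat.cast_ofNat, Nat.cast_one,
      Nat.cast_zero, pow_zero, pow_one, z2, z3, z4, z5, z6, e2, e3, e4, e5, e6] at A0 A1 A2 A3 ⊢
    linear_combination A0 +
      4 * (z) * w ^ 1 * A1 +
      6 * (r) * w ^ 2 * A2 +
      4 * (z * r) * w ^ 3 * A3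
  · have A0 := A 0 (by norm_num)
    have A1 := A 1 (by norm_num)
    have A2 := A 2 (by norm_num)
    have A3 := A 3 (by norm_num)
    have A4 := A 4 (by norm_num)
    simp only [Finset.sum_range_succ, Finset.sum_range_zero, Nat.choose, geg, gegOne,
      Nat.reduceSub, Nat.reduceAdd, Nat.reduceMul, Nat.reduceDiv, Nat.cast_ofNat, Nat.cast_one,
      Nat.cast_zero, pow_zero, pow_one, z2, z3, z4, z5, z6, e2, e3, e4, e5, e6] at A0 A1 A2 A3 A4 ⊢
    linear_combination A0 +
      5 * (z) * w ^ 1 * A1 +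
      10 * (r) * w ^ 2 * A2 +
      10 * (z * r) * w ^ 3 * A3 +
      5 * (r ^ 2) * w ^ 4 * A4
  · have A0 := A 0 (by norm_num)
    have A1 := A 1 (by norm_num)
    have A2 := A 2 (by norm_num)
    have A3 := A 3 (by norm_num)
    have A4 := A 4 (by norm_num)
    have A5 := A 5 (by norm_num)
    simp only [Finset.sum_range_succ, Finset.sum_range_zero, Nat.choose, geg, gegOne,
      Nat.reduceSub, Nat.reduceAdd, Nat.reduceMul, Nat.reduceDiv, Nat.cast_ofNat, Nat.cast_one,
      Nat.cast_zero, pow_zero, pow_one, z2, z3, z4, z5, z6, e2, e3, e4, e5, e6]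
      at A0 A1 A2 A3 A4 A5 ⊢
    linear_combination A0 +
      6 * (z) * w ^ 1 * A1 +
      15 * (r) * w ^ 2 * A2 +
      20 * (z * r) * w ^ 3 * A3 +
      15 * (r ^ 2) * w ^ 4 * A4 +
      6 * (z * r ^ 2) * w ^ 5 * A5

variable {ι : Type*} [Fintype ι]

/-- **Schoenberg**: positive definiteness in every dimension, to degree six. -/
theorem geg_posDef {d : ℕ} (hd : 0 < d) {k : ℕ} (hk : k ≤ 6) (c : ι → ℝ) (x : ι → Fin d → ℝ)
    (hx : ∀ i, ∑ l, x i l ^ 2 = 1) :
    0 ≤ ∑ i, ∑ j, c i * c j * geg d k (∑ l, x i l * x j l) := by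
  induction d, hd using Nat.le_induction generalizing k c with
  | base =>
    have h1 : ∀ i, x i 0 = 1 ∨ x i 0 = -1 := fun i => by
      simpa [sq_eq_one_iff] using hx i
    simp only [Fin.sum_univ_one, Nat.cast_one]
    rcases k with _ | _ | k
    · simp only [geg, mul_one, ← Finset.mul_sum, ← Finset.sum_mul]
      exact mul_self_nonneg _
    · simp only [geg]
      rw [Finset.sum_congr rfl fun i _ => Finset.sum_congr rfl fun j _ =>
        show c i * c j * (x i 0 * x j 0) = c i * x i 0 * (c j * x j 0) by ring,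
        ← Finset.sum_mul_sum]
      exact mul_self_nonneg _
    · refine le_of_eq (Eq.symm (Finset.sum_eq_zero fun i _ => Finset.sum_eq_zero fun j _ => ?_))
      have : k ≤ 4 := by omega
      rcases h1 i with hi | hi <;> rcases h1 j with hj | hj <;>
        interval_cases k <;> simp [geg, hi, hj] <;> norm_num
  | succ d hd ih =>
    obtain ⟨d', rfl⟩ : ∃ d', d = d' + 1 := ⟨d - 1, by omega⟩
    let S : ι → ℝ := fun i => ∑ l : Fin (d' + 1), x i l.succ ^ 2
    let s : ι → ℝ := fun i => Real.sqrt (S i)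
    let u : ι → Fin (d' + 1) → ℝ := fun i l =>
      if s i = 0 then (if l = 0 then 1 else 0) else x i l.succ / s i
    have hS : ∀ i, s i ^ 2 = S i := fun i => Real.sq_sqrt (by positivity)
    have hs : ∀ i, s i ^ 2 = 1 - x i 0 ^ 2 := fun i => by
      rw [hS, eq_sub_iff_add_eq, ← hx i, Fin.sum_univ_succ (f := fun l => x i l ^ 2), add_comm]
    have hu : ∀ i, ∑ l, u i l ^ 2 = 1 := fun i => by
      by_cases h : s i = 0
      · simp [u, h]
      · simp only [u, if_neg h, div_pow, ← Finset.sum_div]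
        rw [show ∑ l : Fin (d' + 1), x i l.succ ^ 2 = s i ^ 2 from (hS i).symm,
          div_self (pow_ne_zero 2 h)]
    have htail : ∀ i l, x i (Fin.succ l) = s i * u i l := fun i l => by
      by_cases h : s i = 0
      · have h0 : S i = 0 := by rw [← hS, h, sq, mul_zero]
        have := (Finset.sum_eq_zero_iff_of_nonneg fun l _ => sq_nonneg (x i l.succ)).1 h0 l
          (Finset.mem_univ _)
        simp [h, pow_eq_zero_iff two_ne_zero |>.1 this]
      · simp only [u, if_neg h]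
        field_simp
    have hdot : ∀ i j, ∑ l, x i l * x j l =
        x i 0 * x j 0 + s i * s j * ∑ l, u i l * u j l := fun i j => by
      rw [Fin.sum_univ_succ, Finset.mul_sum]
      congr 1
      exact Finset.sum_congr rfl fun l _ => by rw [htail, htail]; ring
    have hpos : (0 : ℝ) < ((d' + 1 : ℕ) : ℝ) := by positivity
    set D : ℝ := ((d' + 1 : ℕ) : ℝ)
    let C : ℕ → ι → ℝ := fun m i => c i * s i ^ m * geg (D + 2 * m + 1) (k - m) (x i 0)
    have key : ∀ i j, c i * c j * geg (((d' + 1 + 1 : ℕ) : ℝ)) k (∑ l, x i l * x j l) =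
        ∑ m ∈ Finset.range (k + 1), (k.choose m : ℝ) / gegOne (D + 2 * m) (k - m) *
          (C m i * C m j * geg D m (∑ l, u i l * u j l)) := fun i j => by
      rw [hdot, Nat.cast_add_one (d' + 1), geg_addition hpos hk _ _ _ _ _ (hs i) (hs j),
        Finset.mul_sum]
      exact Finset.sum_congr rfl fun m _ => by simp only [C, mul_pow]; ring
    simp only [key]
    rw [Finset.sum_congr rfl fun i _ => Finset.sum_comm, Finset.sum_comm]
    refine Finset.sum_nonneg fun m hm => ?_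
    simp only [← Finset.mul_sum]
    exact mul_nonneg
      (div_nonneg (Nat.cast_nonneg _) (gegOne_pos (by positivity) _).le)
      (ih (by have := Finset.mem_range.1 hm; omega) (C m) u hu)

end FA.Kissing

end
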