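import Fermat.Agent.Forms3.SchoenbergAll

/-!
# The linear programming bound in dimension 24

`(t + 1) (t + 1/2)² (t + 1/4)² t² (t - 1/4)² (t - 1/2)` is not positive on `[-1, 1/2]` and has
positive Gegenbauer coefficients for the sphere in `ℝ²⁴`, the first one `f(1) / 196560`.
-/

set_option autoImplicit false

noncomputable section

namespace FA.Zonal

variable {ι : Type*} [Fintype ι]

/-- The polynomial of Levenshtein, Odlyzko and Sloane. -/
def lpTwentyFour (t : ℝ) : ℝ :=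
  (t + 1) * ((t + 1 / 2) * (t + 1 / 4) * t * (t - 1 / 4)) ^ 2 * (t - 1 / 2)

/-- Its Gegenbauer coefficients. -/
def lpCoeff : ℕ → ℝ
  | 0 => 15 / 1490944
  | 1 => 45 / 186368
  | 2 => 495 / 243712
  | 3 => 435 / 34816
  | 4 => 6927 / 139264
  | 5 => 1467 / 8704
  | 6 => 17747 / 43776
  | 7 => 261 / 304
  | 8 => 5 / 4
  | 9 => 3 / 2
  | _ => 1

theorem lpTwentyFour_eq (t : ℝ) :
    lpTwentyFour t = ∑ k ∈ Finset.range 11, lpCoeff k * gegPoly 24 k t := by
  simp only [lpTwentyFour, lpCoeff, gegPoly, gegC, Finset.sum_range_succ, Finset.sum_range_zero,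
    Nat.reduceDiv, Nat.reduceMul, Nat.reduceSub]
  norm_num
  ring

theorem lpTwentyFour_nonpos {t : ℝ} (h1 : -1 ≤ t) (h2 : t ≤ 1 / 2) : lpTwentyFour t ≤ 0 :=
  mul_nonpos_of_nonneg_of_nonpos (mul_nonneg (by linarith) (sq_nonneg _)) (by linarith)

theorem lpTwentyFour_zero {t : ℝ} (h : lpTwentyFour t = 0) :
    t = -1 ∨ t = -1 / 2 ∨ t = -1 / 4 ∨ t = 0 ∨ t = 1 / 4 ∨ t = 1 / 2 := by
  simp only [lpTwentyFour, mul_eq_zero, pow_eq_zero_iff two_ne_zero] at h
  rcases h with (h | ((h | h) | h) | h) | h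
  · exact Or.inl (by linarith)
  · exact Or.inr (Or.inl (by linarith))
  · exact Or.inr (Or.inr (Or.inl (by linarith)))
  · exact Or.inr (Or.inr (Or.inr (Or.inl h)))
  · exact Or.inr (Or.inr (Or.inr (Or.inr (Or.inl (by linarith)))))
  · exact Or.inr (Or.inr (Or.inr (Or.inr (Or.inr (by linarith)))))

theorem lp_bound_twentyFour (x : ι → Fin 24 → ℝ) (hx : ∀ i, ∑ l, x i l ^ 2 = 1) :
    15 / 1490944 * (Fintype.card ι : ℝ) ^ 2 ≤
      ∑ i, ∑ j, lpTwentyFour (∑ l, x i l * x j l) := by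
  have h : ∀ k, 0 ≤ ∑ i, ∑ j, gegPoly 24 k (∑ l, x i l * x j l) := fun k => by
    simpa using gegPoly_posDef (show 0 < 24 by norm_num) k (fun _ : ι => (1 : ℝ)) x hx
  have hc : ∀ k, 0 ≤ lpCoeff k := fun k => by
    unfold lpCoeff
    split <;> norm_num
  simp only [lpTwentyFour_eq]
  rw [Finset.sum_congr rfl fun i _ => Finset.sum_comm, Finset.sum_comm]
  simp only [← Finset.mul_sum]
  refine le_trans (le_of_eq ?_) (Finset.single_le_sum (fun k _ => mul_nonneg (hc k) (h k))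
    (Finset.mem_range.2 (show 0 < 11 by norm_num)))
  simp [gegPoly, gegC, lpCoeff, sq]

/-- At most `196560`, with the inner products forced in the case of equality. -/
theorem kissing_le_twentyFour (x : ι → Fin 24 → ℝ) (hx : ∀ i, ∑ l, x i l ^ 2 = 1)
    (hsep : ∀ i j, i ≠ j → ∑ l, x i l * x j l ≤ 1 / 2) :
    Fintype.card ι ≤ 196560 ∧ (Fintype.card ι = 196560 → ∀ i j, i ≠ j →
      ∑ l, x i l * x j l ∈ ({-1, -1 / 2, -1 / 4, 0, 1 / 4, 1 / 2} : Set ℝ)) := by
  classical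
  have hd : ∀ i, lpTwentyFour (∑ l, x i l * x i l) = lpTwentyFour 1 := fun i => by
    rw [show ∑ l, x i l * x i l = 1 by simpa [sq] using hx i]
  have hle : ∀ i, ∀ j ∈ Finset.univ.erase i, lpTwentyFour (∑ l, x i l * x j l) ≤ 0 :=
    fun i j hj => lpTwentyFour_nonpos (by
      have h : 0 ≤ ∑ l, (x i l + x j l) ^ 2 := Finset.sum_nonneg fun l _ => sq_nonneg _
      simp only [add_sq, Finset.sum_add_distrib, mul_assoc, ← Finset.mul_sum, hx] at h
      linarith) (hsep i j (Finset.ne_of_mem_erase hj).symm)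
  have hsum := lp_bound_twentyFour x hx
  have hsplit : ∑ i, ∑ j, lpTwentyFour (∑ l, x i l * x j l) =
      (Fintype.card ι : ℝ) * lpTwentyFour 1 +
      ∑ i, ∑ j ∈ Finset.univ.erase i, lpTwentyFour (∑ l, x i l * x j l) := by
    rw [show (Fintype.card ι : ℝ) * lpTwentyFour 1 = ∑ i, lpTwentyFour (∑ l, x i l * x i l) by
      simp [hd], ← Finset.sum_add_distrib]
    exact Finset.sum_congr rfl fun i _ => (Finset.add_sum_erase Finset.univ
      (fun j => lpTwentyFour (∑ l, x i l * x j l)) (Finset.mem_univ i)).symm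
  rw [hsplit, show lpTwentyFour 1 = 15 / 1490944 * 196560 by norm_num [lpTwentyFour]] at hsum
  have hoff : ∑ i, ∑ j ∈ Finset.univ.erase i, lpTwentyFour (∑ l, x i l * x j l) ≤ 0 :=
    Finset.sum_nonpos fun i _ => Finset.sum_nonpos (hle i)
  refine ⟨?_, fun hN i j hij => ?_⟩
  · by_contra hlt
    have : (196561 : ℝ) ≤ Fintype.card ι := by exact_mod_cast Nat.not_le.1 hlt
    nlinarith
  · rw [hN] at hsum
    push_cast at hsum
    have hz : ∑ i, ∑ j ∈ Finset.univ.erase i, lpTwentyFour (∑ l, x i l * x j l) = 0 :=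
      le_antisymm hoff (by linarith)
    have hi := (Finset.sum_eq_zero_iff_of_nonpos fun i _ => Finset.sum_nonpos (hle i)).1 hz i
      (Finset.mem_univ i)
    exact lpTwentyFour_zero ((Finset.sum_eq_zero_iff_of_nonpos (hle i)).1 hi j
      (Finset.mem_erase.2 ⟨hij.symm, Finset.mem_univ j⟩))

end FA.Zonal

end
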