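import Fermat.Agent.Forms3.Golay

/-!
# The Leech lattice

Conway's description: the vectors of `ℤ²⁴` of one parity `m`, whose second binary digits form a
word of the Golay code and whose sum is `4 m` modulo `8`, with `(x·y)/8`.
-/

set_option autoImplicit false

noncomputable section

namespace FA.Leech

open FA.Golay

/-- The second binary digits. -/
def pat (x : Fin 24 → ℤ) : Fin 24 → Bool := fun i => decide (x i / 2 % 2 = 1)

/-- Membership of the Leech lattice. -/
def InL (x : Fin 24 → ℤ) : Prop :=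
  (∀ i, x i % 2 = x 0 % 2) ∧ pat x ∈ code ∧ (8 : ℤ) ∣ ∑ i, x i - 4 * (x 0 % 2)

/-- A bit as an integer. -/
def bitZ (c : Fin 24 → Bool) (i : Fin 24) : ℤ := if c i = true then 1 else 0

theorem sum_bitZ (c : Fin 24 → Bool) : ∑ i, bitZ c i = (wt c : ℤ) := by
  simp only [bitZ, Finset.sum_boole, wt]

theorem sum_bitZ_mul (c d : Fin 24 → Bool) : ∑ i, bitZ c i * bitZ d i = (common c d : ℤ) := by
  simp only [common, bitZ, ite_zero_mul_ite_zero, mul_one, Finset.sum_boole, Bool.and_eq_true]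

theorem sum_bitZ_sq (c : Fin 24 → Bool) : ∑ i, bitZ c i ^ 2 = (wt c : ℤ) := by
  rw [← sum_bitZ c]
  exact Finset.sum_congr rfl fun i _ => by unfold bitZ; split_ifs <;> norm_num

theorem coords {x : Fin 24 → ℤ} (hp : ∀ i, x i % 2 = x 0 % 2) (i : Fin 24) :
    x i = x 0 % 2 + 2 * bitZ (pat x) i + 4 * (x i / 4) := by
  have := hp i
  simp only [bitZ, pat, decide_eq_true_eq]
  split_ifs <;> omega

theorem sum_coords {x : Fin 24 → ℤ} (hp : ∀ i, x i % 2 = x 0 % 2) :
    ∑ i, x i = 24 * (x 0 % 2) + 2 * (wt (pat x) : ℤ) + 4 * ∑ i, x i / 4 := by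
  rw [Finset.sum_congr rfl fun i _ => coords hp i, Finset.sum_add_distrib, Finset.sum_add_distrib,
    Finset.sum_const, Finset.card_univ, Fintype.card_fin, nsmul_eq_mul, ← Finset.mul_sum,
    ← Finset.mul_sum, sum_bitZ]
  push_cast
  ring

theorem sum_quarters {x : Fin 24 → ℤ} (hx : InL x) :
    (2 : ℤ) ∣ ∑ i, x i / 4 - x 0 % 2 ∧ (4 : ℤ) ∣ (wt (pat x) : ℤ) := by
  obtain ⟨hp, hc, hs⟩ := hx
  have h4 : (4 : ℤ) ∣ (wt (pat x) : ℤ) := by exact_mod_cast four_dvd_wt hc
  rw [sum_coords hp] at hs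
  exact ⟨by omega, h4⟩

theorem eight_dvd_inner {x y : Fin 24 → ℤ} (hx : InL x) (hy : InL y) :
    (8 : ℤ) ∣ ∑ i, x i * y i := by
  obtain ⟨⟨s, hs⟩, u, hu⟩ := sum_quarters hx
  obtain ⟨⟨t, ht⟩, v, hv⟩ := sum_quarters hy
  obtain ⟨k, hk⟩ := two_dvd_common hx.2.1 hy.2.1
  have hcm : ∑ i, bitZ (pat x) i * bitZ (pat y) i = 2 * (k : ℤ) := by
    rw [sum_bitZ_mul, hk]; push_cast; rfl
  set m := x 0 % 2
  set n := y 0 % 2
  refine ⟨4 * (m * n) + m * v + n * u + m * t + n * s + k + ∑ i, (bitZ (pat x) i * (y i / 4) +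
    bitZ (pat y) i * (x i / 4) + 2 * (x i / 4 * (y i / 4))), ?_⟩
  rw [Finset.sum_congr rfl fun i _ => show x i * y i = m * n + 2 * m * bitZ (pat y) i +
      2 * n * bitZ (pat x) i + 4 * m * (y i / 4) + 4 * n * (x i / 4) +
      4 * (bitZ (pat x) i * bitZ (pat y) i) + 8 * (bitZ (pat x) i * (y i / 4) +
        bitZ (pat y) i * (x i / 4) + 2 * (x i / 4 * (y i / 4))) by
    conv_lhs => rw [coords hx.1 i, coords hy.1 i]
    ring]
  simp only [Finset.sum_add_distrib, ← Finset.mul_sum, sum_bitZ, hcm, Finset.sum_const,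
    Finset.card_univ, Fintype.card_fin, nsmul_eq_mul, hu, hv]
  linear_combination (4 * m) * ht + (4 * n) * hs

theorem sum_sq_coords {x : Fin 24 → ℤ} (hp : ∀ i, x i % 2 = x 0 % 2) :
    ∃ w : ℤ, ∑ i, x i ^ 2 = 24 * (x 0 % 2) + 4 * (x 0 % 2) * (wt (pat x) : ℤ) +
      8 * (x 0 % 2) * (∑ i, x i / 4) + 4 * (wt (pat x) : ℤ) + 16 * w := by
  refine ⟨∑ i, (bitZ (pat x) i * (x i / 4) + (x i / 4) ^ 2), ?_⟩
  have hm : (x 0 % 2) ^ 2 = x 0 % 2 := by
    rcases Int.emod_two_eq_zero_or_one (x 0) with h | h <;> simp [h]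
  rw [Finset.sum_congr rfl fun i _ => show x i ^ 2 = (x 0 % 2) ^ 2 +
      4 * (x 0 % 2) * bitZ (pat x) i + 8 * (x 0 % 2) * (x i / 4) + 4 * bitZ (pat x) i ^ 2 +
      16 * (bitZ (pat x) i * (x i / 4) + (x i / 4) ^ 2) by
    conv_lhs => rw [coords hp i]
    ring]
  simp only [Finset.sum_add_distrib, ← Finset.mul_sum, sum_bitZ, sum_bitZ_sq, hm,
    Finset.sum_const, Finset.card_univ, Fintype.card_fin, nsmul_eq_mul]
  push_cast
  ring

theorem sixteen_dvd_norm {x : Fin 24 → ℤ} (hx : InL x) : (16 : ℤ) ∣ ∑ i, x i ^ 2 := by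
  obtain ⟨w, hw⟩ := sum_sq_coords hx.1
  obtain ⟨⟨s, hs⟩, v, hv⟩ := sum_quarters hx
  rw [hw, show ∑ i, x i / 4 = x 0 % 2 + 2 * s by linarith, hv]
  rcases Int.emod_two_eq_zero_or_one (x 0) with h | h <;> rw [h]
  · exact ⟨v + w, by ring⟩
  · exact ⟨2 + 2 * v + s + w, by ring⟩

theorem inL_add {x y : Fin 24 → ℤ} (hx : InL x) (hy : InL y) : InL (x + y) := by
  obtain ⟨hpx, hcx, hsx⟩ := hx
  obtain ⟨hpy, hcy, hsy⟩ := hy
  refine ⟨fun i => ?_, ?_, ?_⟩
  · have := hpx i
    have := hpy i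
    simp only [Pi.add_apply]
    omega
  · have hxy := bxor_mem hcx hcy
    by_cases hmn : x 0 % 2 = 1 ∧ y 0 % 2 = 1
    · convert bxor_mem hxy ones_mem using 1
      funext i
      have := hpx i
      have := hpy i
      simp only [pat, Pi.add_apply]
      by_cases h1 : x i / 2 % 2 = 1 <;> by_cases h2 : y i / 2 % 2 = 1 <;> simp [h1, h2] <;> omega
    · convert hxy using 1
      funext i
      have := hpx i
      have := hpy i
      simp only [pat, Pi.add_apply]
      by_cases h1 : x i / 2 % 2 = 1 <;> by_cases h2 : y i / 2 % 2 = 1 <;> simp [h1, h2] <;> omega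
  · simp only [Pi.add_apply, Finset.sum_add_distrib]
    omega

theorem inL_neg {x : Fin 24 → ℤ} (hx : InL x) : InL (-x) := by
  obtain ⟨hp, hc, hs⟩ := hx
  refine ⟨fun i => ?_, ?_, ?_⟩
  · have := hp i
    simp only [Pi.neg_apply]
    omega
  · by_cases hm : x 0 % 2 = 1
    · convert bxor_mem hc ones_mem using 1
      funext i
      have := hp i
      simp only [pat, Pi.neg_apply]
      by_cases h1 : x i / 2 % 2 = 1 <;> simp [h1] <;> omega
    · convert hc using 1
      funext i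
      have := hp i
      simp only [pat, Pi.neg_apply]
      by_cases h1 : x i / 2 % 2 = 1 <;> simp [h1] <;> omega
  · simp only [Pi.neg_apply, Finset.sum_neg_distrib]
    omega

theorem inL_zero : InL 0 :=
  ⟨fun _ => rfl, by convert zero_mem using 1; funext i; simp [pat], by simp⟩

theorem inL_pair (i j : Fin 24) (s : ℤ) (hs : s = 1 ∨ s = -1) :
    InL (Pi.single i 4 + Pi.single j (4 * s)) := by
  refine ⟨fun k => ?_, ?_, ?_⟩
  · simp only [Pi.add_apply, Pi.single_apply]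
    split_ifs <;> omega
  · convert zero_mem using 1
    funext k
    simp only [pat, Pi.add_apply, Pi.single_apply, decide_eq_false_iff_not]
    split_ifs <;> omega
  · simp only [Pi.add_apply, Finset.sum_add_distrib, Finset.sum_pi_single', Finset.mem_univ,
      if_true]
    simp only [Pi.single_apply]
    split_ifs <;> omega

theorem inL_double {c : Fin 24 → Bool} (hc : c ∈ code) : InL fun i => 2 * bitZ c i := by
  have hev : ∀ i, 2 * bitZ c i % 2 = 0 := fun i => by omega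
  refine ⟨fun i => (hev i).trans (hev 0).symm, ?_, ?_⟩
  · convert hc using 1
    funext i
    simp only [pat, bitZ]
    by_cases h : c i = true <;> simp [h]
  · show (8 : ℤ) ∣ ∑ i, 2 * bitZ c i - 4 * (2 * bitZ c 0 % 2)
    rw [← Finset.mul_sum, sum_bitZ]
    have : (4 : ℤ) ∣ (wt c : ℤ) := by exact_mod_cast four_dvd_wt hc
    omega

theorem inL_glue : InL fun i => 1 - 4 * if i = 0 then 1 else 0 := by
  refine ⟨fun i => by beta_reduce; split_ifs <;> simp, ?_, by simp⟩
  convert zero_mem using 1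
  funext i
  simp only [pat]
  split_ifs <;> rfl

/-- **Self-duality.** -/
theorem self_dual (x : Fin 24 → ℚ)
    (h : ∀ y, InL y → ∃ k : ℤ, (∑ i, x i * (y i : ℚ)) / 8 = k) :
    ∃ z, InL z ∧ ∀ i, x i = (z i : ℚ) := by
  have hp : ∀ i j, ∀ s : ℤ, s = 1 ∨ s = -1 → ∃ k : ℤ, (x i + (s : ℚ) * x j) / 2 = k :=
    fun i j s hs => by
      obtain ⟨k, hk⟩ := h _ (inL_pair i j s hs)
      refine ⟨k, ?_⟩
      rw [← hk]
      simp only [Pi.add_apply, Int.cast_add, mul_add, Finset.sum_add_distrib, Pi.single_apply,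
        apply_ite (fun t : ℤ => (t : ℚ)), Int.cast_zero, mul_ite, mul_zero, Finset.sum_ite_eq',
        Finset.mem_univ, if_true]
      push_cast
      ring
  have hint : ∀ i, ∃ z : ℤ, x i = z := fun i => by
    obtain ⟨a, ha⟩ := hp i i 1 (Or.inl rfl)
    exact ⟨a, by push_cast at ha; linarith⟩
  choose z hz using hint
  have hdot : ∀ y, InL y → (8 : ℤ) ∣ ∑ i, z i * y i := fun y hy => by
    obtain ⟨k, hk⟩ := h y hy
    refine ⟨k, Int.cast_injective (α := ℚ) ?_⟩
    rw [div_eq_iff (by norm_num : (8 : ℚ) ≠ 0)] at hk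
    simp only [hz] at hk
    push_cast
    linarith
  have hpar : ∀ i, z i % 2 = z 0 % 2 := fun i => by
    obtain ⟨a, ha⟩ := hp i 0 (-1) (Or.inr rfl)
    rw [hz i, hz 0, div_eq_iff two_ne_zero] at ha
    push_cast at ha
    have : z i - z 0 = a * 2 := by
      apply Int.cast_injective (α := ℚ)
      push_cast
      linarith
    omega
  have hcode : pat z ∈ code := mem_of_two_dvd_common fun d hd => by
    have h8 := hdot _ (inL_double hd)
    obtain ⟨w, hw⟩ : (4 : ℤ) ∣ (wt d : ℤ) := by exact_mod_cast four_dvd_wt hd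
    have e : ∑ i, z i * (2 * bitZ d i) = 2 * (z 0 % 2) * (wt d : ℤ) +
        4 * (common (pat z) d : ℤ) + 8 * ∑ i, z i / 4 * bitZ d i := by
      rw [Finset.sum_congr rfl fun i _ => show z i * (2 * bitZ d i) = 2 * (z 0 % 2) * bitZ d i +
          4 * (bitZ (pat z) i * bitZ d i) + 8 * (z i / 4 * bitZ d i) by
        conv_lhs => rw [coords hpar i]
        ring]
      simp only [Finset.sum_add_distrib, ← Finset.mul_sum, sum_bitZ, sum_bitZ_mul]
    rw [e, hw] at h8
    rcases Int.emod_two_eq_zero_or_one (z 0) with hm | hm <;> rw [hm] at h8 <;> omega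
  refine ⟨z, ⟨hpar, hcode, ?_⟩, hz⟩
  have h8 := hdot _ inL_glue
  simp only [mul_sub, mul_one, Finset.sum_sub_distrib, mul_ite, mul_zero, Finset.sum_ite_eq',
    Finset.mem_univ, if_true] at h8
  omega

end FA.Leech

end
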