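import Fermat.Agent.Forms3.EightLattice

/-!
# The lattice `D₁₆⁺`

The vectors of `ℤ¹⁶` with all parities equal and sum divisible by four, with `(x·y)/4`. Its theta
series is the even part of `θ¹⁶ + O⁴/2`, `O` the series of four odd squares; reflecting `q` turns
`θ⁴` into `θ⁴ - O`, so Sturm's bound in weight eight makes it `E₈`.
-/

set_option autoImplicit false
set_option linter.style.haveILetI false

noncomputable section

namespace FA.SixteenLattice

open UpperHalfPlane hiding I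
open CongruenceSubgroup FA.Eis FA.FourSquares FA.Tau FA.QuarticTheta FA.ManySquares FA.EightLattice
open FA.EightSquares (thetaSer E4 isLv_thetaFour)
open PowerSeries (coeff)
open scoped MatrixGroups ModularForm ArithmeticFunction.sigma

/-- Membership of `D₁₆⁺`. -/
def InD (x : Fin 16 → ℤ) : Prop := (∀ i, x i % 2 = x 0 % 2) ∧ (4 : ℤ) ∣ ∑ i, x i

theorem inD_coords {x : Fin 16 → ℤ} (h : InD x) :
    ∃ (e : ℤ) (a : Fin 16 → ℤ), (e = 0 ∨ e = 1) ∧ (∀ i, x i = e + 2 * a i) ∧
      (2 : ℤ) ∣ ∑ i, a i := by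
  obtain ⟨hp, hs⟩ := h
  refine ⟨x 0 % 2, fun i => x i / 2, by omega, fun i => ?_, ?_⟩
  · have := hp i
    show x i = x 0 % 2 + 2 * (x i / 2)
    omega
  · show (2 : ℤ) ∣ ∑ i, x i / 2
    have e : ∑ i, x i = ∑ i : Fin 16, (x 0 % 2 + 2 * (x i / 2)) :=
      Finset.sum_congr rfl fun i _ => by have := hp i; omega
    rw [Finset.sum_add_distrib, Finset.sum_const, Finset.card_univ, Fintype.card_fin,
      ← Finset.mul_sum, nsmul_eq_mul] at e
    push_cast at e
    omega

theorem four_dvd_inner {x y : Fin 16 → ℤ} (hx : InD x) (hy : InD y) :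
    (4 : ℤ) ∣ ∑ i, x i * y i := by
  obtain ⟨e, a, -, ha, ha2⟩ := inD_coords hx
  obtain ⟨f, b, -, hb, hb2⟩ := inD_coords hy
  obtain ⟨s, hs⟩ := ha2
  obtain ⟨t, ht⟩ := hb2
  refine ⟨4 * (e * f) + e * t + f * s + ∑ i, a i * b i, ?_⟩
  rw [Finset.sum_congr rfl fun i _ => show x i * y i =
      e * f + 2 * e * b i + 2 * f * a i + 4 * (a i * b i) by rw [ha, hb]; ring,
    Finset.sum_add_distrib, Finset.sum_add_distrib, Finset.sum_add_distrib, Finset.sum_const,
    Finset.card_univ, Fintype.card_fin, ← Finset.mul_sum, ← Finset.mul_sum, ← Finset.mul_sum,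
    nsmul_eq_mul, hs, ht]
  push_cast
  ring

theorem eight_dvd_norm {x : Fin 16 → ℤ} (hx : InD x) : (8 : ℤ) ∣ ∑ i, x i ^ 2 := by
  obtain ⟨e, a, -, ha, s, hs⟩ := inD_coords hx
  obtain ⟨u, hu⟩ : (2 : ℤ) ∣ ∑ i, a i ^ 2 := by
    have h2 : (2 : ℤ) ∣ ∑ i, (a i ^ 2 - a i) := Finset.dvd_sum fun i _ => by
      obtain ⟨w, hw⟩ := Int.even_mul_succ_self (a i - 1)
      exact ⟨w, by linear_combination hw⟩
    rw [Finset.sum_sub_distrib] at h2
    omega
  refine ⟨2 * e ^ 2 + e * s + u, ?_⟩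
  rw [Finset.sum_congr rfl fun i _ => show x i ^ 2 = e ^ 2 + 4 * e * a i + 4 * a i ^ 2 by
      rw [ha]; ring,
    Finset.sum_add_distrib, Finset.sum_add_distrib, Finset.sum_const, Finset.card_univ,
    Fintype.card_fin, ← Finset.mul_sum, ← Finset.mul_sum, nsmul_eq_mul, hs, hu]
  push_cast
  ring

/-- `2 (± eᵢ ± eⱼ)`, `4 eᵢ` and `(1, …, 1)` are in the lattice. -/
theorem inD_pair (i j : Fin 16) (s : ℤ) (hs : s = 1 ∨ s = -1) :
    InD (Pi.single i 2 + Pi.single j (2 * s)) := by
  refine ⟨fun k => ?_, ?_⟩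
  · simp only [Pi.add_apply, Pi.single_apply]
    split_ifs <;> omega
  · simp only [Pi.add_apply, Finset.sum_add_distrib, Finset.sum_pi_single', Finset.mem_univ,
      if_true]
    omega

theorem inD_one : InD fun _ => 1 :=
  ⟨fun _ => rfl, by simp⟩

/-- **Self-duality.** -/
theorem self_dual (x : Fin 16 → ℚ)
    (h : ∀ y, InD y → ∃ k : ℤ, (∑ i, x i * (y i : ℚ)) / 4 = k) :
    ∃ z, InD z ∧ ∀ i, x i = (z i : ℚ) := by
  have hp : ∀ i j, ∀ s : ℤ, s = 1 ∨ s = -1 → ∃ k : ℤ, (x i + (s : ℚ) * x j) / 2 = k :=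
    fun i j s hs => by
      obtain ⟨k, hk⟩ := h _ (inD_pair i j s hs)
      refine ⟨k, ?_⟩
      rw [← hk]
      simp only [Pi.add_apply, Int.cast_add, mul_add, Finset.sum_add_distrib, Pi.single_apply,
        apply_ite (fun t : ℤ => (t : ℚ)), Int.cast_zero, mul_ite, mul_zero, Finset.sum_ite_eq',
        Finset.mem_univ, if_true]
      push_cast
      ring
  have hint : ∀ i, ∃ z : ℤ, x i = z := fun i => by
    obtain ⟨a, ha⟩ := hp i i 1 (Or.inl rfl)
    exact ⟨a, by push_cast at ha; linarith⟩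
  choose z hz using hint
  refine ⟨z, ⟨fun i => ?_, ?_⟩, hz⟩
  · obtain ⟨a, ha⟩ := hp i 0 (-1) (Or.inr rfl)
    rw [hz i, hz 0, div_eq_iff two_ne_zero] at ha
    push_cast at ha
    have : z i - z 0 = a * 2 := by
      apply Int.cast_injective (α := ℚ)
      push_cast
      linarith
    omega
  · obtain ⟨k, hk⟩ := h _ inD_one
    refine ⟨k, ?_⟩
    apply Int.cast_injective (α := ℚ)
    rw [div_eq_iff (by norm_num : (4 : ℚ) ≠ 0)] at hk
    simp only [Int.cast_one, mul_one, hz] at hk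
    push_cast
    linarith

/-! ### The theta series -/

theorem rescale_thetaSer : PowerSeries.rescale (-1 : ℤ) thetaSer = thetaSer - oddSer := by
  refine PowerSeries.ext fun n => ?_
  refine mul_left_cancel₀ (show (3 : ℤ) ≠ 0 by norm_num) ?_
  rw [PowerSeries.coeff_rescale, map_sub, mul_sub]
  have h := three_mul_rep4 n
  have ho := congrArg (coeff n) three_mul_oddSer
  rw [← map_ofNat (PowerSeries.C (R := ℤ)) 3, ← map_ofNat (PowerSeries.C (R := ℤ)) 2,
    PowerSeries.coeff_C_mul, PowerSeries.coeff_C_mul, map_sub, coeff_Vp] at ho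
  rw [eisSer, map_add, map_add, coeff_Vp] at h
  simp only [thetaSer, PowerSeries.coeff_mk]
  by_cases h2 : 2 ∣ n
  · obtain ⟨k, rfl⟩ := h2
    rw [if_pos (dvd_mul_right 2 k), Nat.mul_div_cancel_left k two_pos] at h ho
    have hk : coeff (2 * k) (EZ 2) = coeff k (EZ 2) := by
      rcases eq_or_ne k 0 with rfl | hk
      · simp
      · rw [coeff_EZ, coeff_EZ, if_neg hk, if_neg (by omega), sigP_p_mul]
    rw [(even_two_mul k).neg_one_pow]
    linarith
  · rw [if_neg h2] at h ho
    rw [(show Odd n from Nat.odd_iff.2 (by omega)).neg_one_pow]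
    linarith

theorem sixteen_series :
    thetaSer ^ 4 + (thetaSer - oddSer) ^ 4 + oddSer ^ 4 = 2 * Vp 2 (eFourInt * eFourInt) := by
  let u : ℍ → ℂ := (2 : ℂ) • oddFun
  let v : ℍ → ℂ := (3 : ℂ) • thetaFour + (-1 : ℂ) • u
  let F : ℍ → ℂ := (81 : ℂ) • (thetaFour * thetaFour * (thetaFour * thetaFour)) +
    (v * v * (v * v) + u * u * (u * u)) + (-162 : ℂ) • dil 2 (E4 * E4)
  let U : PowerSeries ℤ := EZ 2 - Vp 2 (EZ 2)
  have hlv : IsLv 4 8 F := by
    have hE : IsLv 1 8 (E4 * E4) :=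
      (IsLv.of_modularForm ModularForm.E₄).mul (IsLv.of_modularForm ModularForm.E₄)
    have hu : IsLv 4 2 u := isLv_oddFun.smul (2 : ℂ)
    have hv : IsLv 4 2 v := (isLv_thetaFour.smul (3 : ℂ)).add (hu.smul (-1 : ℂ))
    exact ((((isLv_thetaFour.mul isLv_thetaFour).mul (isLv_thetaFour.mul isLv_thetaFour)).smul
      (81 : ℂ)).add (((hv.mul hv).mul (hv.mul hv)).add ((hu.mul hu).mul (hu.mul hu)))).add
        ((isLv_four_of_two hE).smul (-162 : ℂ))
  have hQ : HasQ 1 F (toC (81 * (thetaSer * thetaSer * (thetaSer * thetaSer)) +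
      ((3 * thetaSer - 2 * U) * (3 * thetaSer - 2 * U) *
          ((3 * thetaSer - 2 * U) * (3 * thetaSer - 2 * U)) +
        2 * U * (2 * U) * (2 * U * (2 * U))) - 162 * Vp 2 (eFourInt * eFourInt))) := by
    have hT := hasQ_thetaFour
    have he : HasQ 1 (Efun 2) (toC (EZ 2)) := hasQ_Efun 2
    have hu := (he.add ((he.dil 2).smul (-1 : ℂ))).smul (2 : ℂ)
    have hv := (hT.smul (3 : ℂ)).add (hu.smul (-1 : ℂ))
    have h4 : HasQ 1 E4 (toC eFourInt) := hasQ_eFour
    have h := ((((hT.mul one_pos hT).mul one_pos (hT.mul one_pos hT)).smul (81 : ℂ)).add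
      (((hv.mul one_pos hv).mul one_pos (hv.mul one_pos hv)).add
        ((hu.mul one_pos hu).mul one_pos (hu.mul one_pos hu)))).add
          (((h4.mul one_pos h4).dil 2).smul (-162 : ℂ))
    simp only [F, v, u, oddFun]
    convert h using 1
    simp only [U, map_sub, map_add, map_mul, FA.EightSquares.toC_Vp, PowerSeries.smul_eq_C_mul,
      map_ofNat, map_neg, map_one]
    ring
  have hE : Nine (EZ 2) [1, 24, 24, 96, 24, 144, 96, 192, 24] := fun i hi => by
    rw [coeff_EZ]
    interval_cases i <;> decide +kernel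
  have hT := nine_thetaSer
  have hz := series_eq_zero_four hlv hQ (by
    simp only [U, ← map_ofNat (PowerSeries.C (R := ℤ))]
    have hu := (nine_C 2).mul (hE.sub (nine_Vp 2 hE rfl) rfl) rfl
    have hv := ((nine_C 3).mul hT rfl).sub hu rfl
    exact (((nine_C 81).mul ((hT.mul hT rfl).mul (hT.mul hT rfl) rfl) rfl).add
      (((hv.mul hv rfl).mul (hv.mul hv rfl) rfl).add ((hu.mul hu rfl).mul (hu.mul hu rfl) rfl) rfl)
      rfl).sub ((nine_C 162).mul (nine_Vp 2 (nine_eFourInt.mul nine_eFourInt rfl) rfl) rfl) rfl)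
    (by decide +kernel) (by decide +kernel)
  have hU : 2 * U = 3 * oddSer := three_mul_oddSer.symm
  rw [hU] at hz
  have hne : (81 : PowerSeries ℤ) ≠ 0 := fun h => by
    have h0 := congrArg (coeff 0) h
    rw [← map_ofNat (PowerSeries.C (R := ℤ)) 81, PowerSeries.coeff_C, map_zero] at h0
    simp at h0
  refine sub_eq_zero.1 ((mul_eq_zero.1 ?_).resolve_left hne)
  linear_combination hz

/-- The vectors of norm `2 n`. -/
def dVecs (n : ℕ) : Finset (Fin 16 → ℤ) :=
  (tuples 16 (8 * n)).filter fun x => (∀ i, x i % 2 = x 0 % 2) ∧ (4 : ℤ) ∣ ∑ i, x i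

theorem mem_dVecs {n : ℕ} {x : Fin 16 → ℤ} :
    x ∈ dVecs n ↔ InD x ∧ ∑ i, x i ^ 2 = 8 * (n : ℤ) := by
  rw [dVecs, Finset.mem_filter, mem_tuples, and_comm]
  refine and_congr Iff.rfl ?_
  zify
  simp only [sq_abs]

theorem card_parTuples (b : Bool) {A : PowerSeries ℤ} (hA : parSer b ^ 4 = Vp 4 A) (n : ℕ) :
    ((parTuples (fun _ : Fin 16 => b) (8 * n)).card : ℤ) = coeff (2 * n) (A ^ 4) := by
  have h := congrArg (coeff (8 * n)) (prod_parSer fun _ : Fin 16 => b)
  rw [Finset.prod_const, Finset.card_univ, Fintype.card_fin, show (16 : ℕ) = 4 * 4 from rfl,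
    pow_mul, hA, ← map_pow, coeff_Vp, if_pos ⟨2 * n, by ring⟩, fibreSer, PowerSeries.coeff_mk,
    show 8 * n / 4 = 2 * n by omega] at h
  rw [h]
  simp

theorem two_mul_card_dVecs (n : ℕ) :
    2 * ((dVecs n).card : ℤ) = 2 * coeff (2 * n) (thetaSer ^ 4) + coeff (2 * n) (oddSer ^ 4) := by
  rw [← card_parTuples false parSer_false_four, ← card_parTuples true parSer_true_four]
  have hdec : ∀ (b : Bool) (x : Fin 16 → ℤ),
      pattern x = (fun _ => b) ↔ ∀ i, x i % 2 = if b then 1 else 0 := fun b x => by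
    rw [funext_iff]
    refine forall_congr' fun i => ?_
    cases b <;> simp [pattern, Int.odd_iff]
  have hE : (dVecs n).filter (fun x => x 0 % 2 = 0) = parTuples (fun _ => false) (8 * n) := by
    ext x
    simp only [dVecs, parTuples, Finset.mem_filter, hdec, Bool.false_eq_true, if_false]
    constructor
    · rintro ⟨⟨h1, h2, -⟩, h0⟩
      exact ⟨h1, fun i => (h2 i).trans h0⟩
    · rintro ⟨h1, h2⟩
      refine ⟨⟨h1, fun i => (h2 i).trans (h2 0).symm, ?_⟩, h2 0⟩
      have hn := (mem_tuples _ x).1 h1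
      zify at hn
      simp only [sq_abs] at hn
      obtain ⟨u, hu⟩ : (2 : ℤ) ∣ ∑ i, ((x i / 2) ^ 2 - x i / 2) := Finset.dvd_sum fun i _ => by
        obtain ⟨w, hw⟩ := Int.even_mul_succ_self (x i / 2 - 1)
        exact ⟨w, by linear_combination hw⟩
      rw [Finset.sum_congr rfl fun i _ => show x i ^ 2 = 4 * (x i / 2) ^ 2 by
        rw [show x i = 2 * (x i / 2) by have := h2 i; omega]; ring_nf; simp,
        ← Finset.mul_sum] at hn
      rw [Finset.sum_sub_distrib] at hu
      rw [Finset.sum_congr rfl fun i _ => show x i = 2 * (x i / 2) by have := h2 i; omega,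
        ← Finset.mul_sum]
      omega
  set O := parTuples (fun _ : Fin 16 => true) (8 * n)
  have hO : (dVecs n).filter (fun x => ¬ x 0 % 2 = 0) = O.filter fun x => (4 : ℤ) ∣ ∑ i, x i := by
    ext x
    simp only [O, dVecs, parTuples, Finset.mem_filter, hdec, if_true]
    constructor
    · rintro ⟨⟨h1, h2, h3⟩, h0⟩
      exact ⟨⟨h1, fun i => by have := h2 i; omega⟩, h3⟩
    · rintro ⟨⟨h1, h2⟩, h3⟩
      exact ⟨⟨h1, fun i => (h2 i).trans (h2 0).symm, h3⟩, by have := h2 0; omega⟩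
  have hflip : (O.filter fun x => (4 : ℤ) ∣ ∑ i, x i).card =
      (O.filter fun x => ¬ (4 : ℤ) ∣ ∑ i, x i).card := by
    have hsum : ∀ x : Fin 16 → ℤ, ∑ i, Function.update x 0 (-x 0) i = ∑ i, x i - 2 * x 0 :=
      fun x => by
        rw [Fin.sum_univ_succ, Fin.sum_univ_succ (f := x)]
        simp [Fin.succ_ne_zero]
        ring
    have hmem : ∀ x ∈ O, Function.update x 0 (-x 0) ∈ O ∧ x 0 % 2 = 1 ∧ (2 : ℤ) ∣ ∑ i, x i :=
      fun x hx => by
      simp only [O, parTuples, Finset.mem_filter, hdec, if_true, mem_tuples] at hx ⊢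
      obtain ⟨h1, h2⟩ := hx
      refine ⟨⟨?_, fun i => ?_⟩, h2 0, ?_⟩
      · rw [← h1]
        refine Finset.sum_congr rfl fun i _ => ?_
        rcases eq_or_ne i 0 with rfl | hi
        · simp
        · simp [Function.update_of_ne hi]
      · rcases eq_or_ne i 0 with rfl | hi
        · have := h2 0
          simp only [Function.update_self]
          omega
        · rw [Function.update_of_ne hi]
          exact h2 i
      · rw [Finset.sum_congr rfl fun i _ => show x i = 2 * (x i / 2) + 1 by have := h2 i; omega,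
          Finset.sum_add_distrib, ← Finset.mul_sum, Finset.sum_const, Finset.card_univ,
          Fintype.card_fin]
        exact dvd_add (dvd_mul_right 2 _) (by norm_num)
    refine Finset.card_nbij' (fun x => Function.update x 0 (-x 0))
      (fun x => Function.update x 0 (-x 0)) (fun x hx => ?_) (fun x hx => ?_)
      (fun x _ => by simp) fun x _ => by simp
    all_goals
      simp only [Finset.mem_coe, Finset.mem_filter] at hx ⊢
      obtain ⟨h1, h2, h3⟩ := hmem x hx.1
      refine ⟨h1, ?_⟩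
      rw [hsum]
      have := hx.2
      omega
  rw [← Finset.card_filter_add_card_filter_not (s := dVecs n) (fun x => x 0 % 2 = 0), hE, hO,
    ← Finset.card_filter_add_card_filter_not (s := O) (fun x => (4 : ℤ) ∣ ∑ i, x i), ← hflip]
  push_cast
  ring

/-- **The theta series of `D₁₆⁺` is `E₈`.** -/
theorem card_dVecs {n : ℕ} (hn : n ≠ 0) : ((dVecs n).card : ℤ) = 480 * (σ 7 n : ℤ) := by
  have h := congrArg (coeff (2 * n)) sixteen_series
  rw [← rescale_thetaSer, ← map_pow, map_add, map_add, PowerSeries.coeff_rescale,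
    (even_two_mul n).neg_one_pow, ← map_ofNat (PowerSeries.C (R := ℤ)) 2, PowerSeries.coeff_C_mul,
    coeff_Vp, if_pos (dvd_mul_right 2 n), Nat.mul_div_cancel_left n two_pos, eFourInt_sq,
    eEightInt, PowerSeries.coeff_mk, if_neg hn] at h
  have := two_mul_card_dVecs n
  linarith

/-- An odd vector has norm at least four. -/
theorem even_of_norm {x : Fin 16 → ℤ} (hx : InD x) (h : ∑ i, x i ^ 2 = 8) : ∀ i, (2 : ℤ) ∣ x i := by
  intro i
  by_contra hi
  have h1 : ∀ j, 1 ≤ x j ^ 2 := fun j => by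
    have := hx.1 i
    have := hx.1 j
    have hne : x j ≠ 0 := by omega
    have : 0 < x j ^ 2 := by positivity
    omega
  have := Finset.card_nsmul_le_sum Finset.univ (fun j => x j ^ 2) 1 fun j _ => h1 j
  simp [h] at this

end FA.SixteenLattice

end
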