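import Fermat.Agent.Forms3.EightLattice

/-!
# Sums of four, eight and twelve triangular numbers

An odd square is `8 t + 1` with `t` triangular, so the powers of the series `O` of four odd squares
count sums of triangular numbers; `O²` and `O³` are Eisenstein series, the latter up to `η(2z)¹²`.
-/

set_option autoImplicit false
set_option linter.style.haveILetI false

noncomputable section

namespace FA.Triangular

open UpperHalfPlane hiding I
open CongruenceSubgroup FA.Eis FA.FourSquares FA.Tau FA.QuarticTheta FA.ManySquares FA.EightLattice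
open FA.EightSquares (thetaSer E4 isLv_thetaFour)
open PowerSeries (coeff)
open scoped MatrixGroups ModularForm ArithmeticFunction.sigma

theorem two_mul_tri (a : ℕ) : 2 * (a * (a + 1) / 2) = a * (a + 1) :=
  Nat.mul_div_cancel' (Nat.even_mul_succ_self a).two_dvd

theorem natAbs_sq_odd {x : ℤ} (hx : Odd x) :
    x.natAbs ^ 2 = 8 * (x.natAbs / 2 * (x.natAbs / 2 + 1) / 2) + 1 := by
  obtain ⟨u, hu⟩ := Int.natAbs_odd.2 hx
  rw [hu, show (2 * u + 1) / 2 = u by omega, show 8 * (u * (u + 1) / 2) = 4 * (u * (u + 1)) by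
    have := two_mul_tri u; omega]
  ring

/-- Vectors with odd coordinates are signs and triangular numbers. -/
theorem card_odd_eq (k n : ℕ) :
    (parTuples (fun _ : Fin k => true) (8 * n + k)).card =
      2 ^ k * Nat.card {t : Fin k → ℕ // ∑ i, t i * (t i + 1) / 2 = n} := by
  let sg : Bool → ℕ → ℤ := fun b a => if b then (2 * (a : ℤ) + 1) else -(2 * (a : ℤ) + 1)
  have hsg : ∀ b a, (sg b a).natAbs = 2 * a + 1 ∧ Odd (sg b a) := fun b a => by
    cases b <;> simp [sg, Int.odd_iff] <;> omega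
  have hinj : ∀ b b' a a', sg b a = sg b' a' → b = b' ∧ a = a' := fun b b' a a' h => by
    cases b <;> cases b' <;> simp [sg] at h ⊢ <;> omega
  have hnorm : ∀ (b : Fin k → Bool) (t : Fin k → ℕ),
      ∑ i, (sg (b i) (t i)).natAbs ^ 2 = 8 * (∑ i, t i * (t i + 1) / 2) + k := fun b t => by
    rw [Finset.sum_congr rfl fun i _ => (natAbs_sq_odd (hsg (b i) (t i)).2),
      Finset.sum_add_distrib, ← Finset.mul_sum, Finset.sum_const, Finset.card_univ,
      Fintype.card_fin, smul_eq_mul, mul_one]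
    congr 2
    exact Finset.sum_congr rfl fun i _ => by
      rw [(hsg (b i) (t i)).1, show (2 * t i + 1) / 2 = t i by omega]
  let e : (Fin k → Bool) × {t : Fin k → ℕ // ∑ i, t i * (t i + 1) / 2 = n} ≃
      {v : Fin k → ℤ // v ∈ parTuples (fun _ : Fin k => true) (8 * n + k)} :=
    Equiv.ofBijective (fun q => ⟨fun i => sg (q.1 i) (q.2.1 i), by
      rw [parTuples, Finset.mem_filter, mem_tuples, hnorm, q.2.2]
      exact ⟨rfl, funext fun i => decide_eq_true (hsg _ _).2⟩⟩) (by
      refine ⟨fun ⟨b, t⟩ ⟨b', t'⟩ h => ?_, fun ⟨v, hv⟩ => ?_⟩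
      · have h' := fun i => hinj _ _ _ _ (congrFun (congrArg Subtype.val h) i)
        exact Prod.ext (funext fun i => (h' i).1) (Subtype.ext (funext fun i => (h' i).2))
      · rw [parTuples, Finset.mem_filter, mem_tuples] at hv
        have ho : ∀ i, Odd (v i) := fun i => of_decide_eq_true (congrFun hv.2 i)
        have hval : ∀ i, sg (decide (0 ≤ v i)) ((v i).natAbs / 2) = v i := fun i => by
          have := Int.odd_iff.1 (ho i)
          by_cases h : 0 ≤ v i <;> simp only [sg, h, decide_true, decide_false, ↓reduceIte,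
            Bool.false_eq_true] <;> omega
        refine ⟨⟨fun i => decide (0 ≤ v i), fun i => (v i).natAbs / 2, ?_⟩,
          Subtype.ext (funext hval)⟩
        have h := hnorm (fun i => decide (0 ≤ v i)) fun i => (v i).natAbs / 2
        simp only [hval, hv.1] at h
        show ∑ i, (v i).natAbs / 2 * ((v i).natAbs / 2 + 1) / 2 = n
        omega)
  rw [← Nat.card_eq_finsetCard, ← Nat.card_congr e, Nat.card_prod, Nat.card_fun,
    Nat.card_eq_fintype_card (α := Bool), Fintype.card_bool, Nat.card_eq_fintype_card (α := Fin k),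
    Fintype.card_fin]

theorem coeff_oddSer_pow (j n : ℕ) :
    coeff (2 * n + j) (oddSer ^ j) = (2 : ℤ) ^ (4 * j) *
      (Nat.card {t : Fin (4 * j) → ℕ // ∑ i, t i * (t i + 1) / 2 = n} : ℤ) := by
  have h := congrArg (coeff (8 * n + 4 * j)) (prod_parSer fun _ : Fin (4 * j) => true)
  rw [Finset.prod_const, Finset.card_univ, Fintype.card_fin, pow_mul, parSer_true_four, ← map_pow,
    coeff_Vp, if_pos ⟨2 * n + j, by ring⟩, fibreSer, PowerSeries.coeff_mk,
    show (8 * n + 4 * j) / 4 = 2 * n + j by omega] at h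
  rw [h, Finset.sum_const, nsmul_eq_mul, mul_one, card_odd_eq]
  push_cast
  rfl

/-- **Legendre**: four triangular numbers. -/
theorem four_tri (n : ℕ) :
    Nat.card {t : Fin 4 → ℕ // ∑ i, t i * (t i + 1) / 2 = n} = σ 1 (2 * n + 1) := by
  have h : coeff (2 * n + 1) oddSer =
      16 * (Nat.card {t : Fin 4 → ℕ // ∑ i, t i * (t i + 1) / 2 = n} : ℤ) := by
    have h := coeff_oddSer_pow 1 n
    rw [pow_one] at h
    exact h
  have ho := congrArg (coeff (2 * n + 1)) three_mul_oddSer
  rw [← map_ofNat (PowerSeries.C (R := ℤ)) 3, ← map_ofNat (PowerSeries.C (R := ℤ)) 2,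
    PowerSeries.coeff_C_mul, PowerSeries.coeff_C_mul, map_sub, coeff_Vp, if_neg (by omega),
    coeff_EZ, if_neg (by omega), h] at ho
  have e : sigP 2 (2 * n + 1) = (σ 1 (2 * n + 1) : ℤ) := by
    rw [sigP, ArithmeticFunction.sigma_one_apply, Nat.cast_sum]
    refine Finset.sum_congr (Finset.filter_true_of_mem fun d hd h2 => ?_) fun _ _ => rfl
    have := h2.trans (Nat.dvd_of_mem_divisors hd)
    omega
  rw [e] at ho
  norm_num at ho
  omega

theorem eight_series : 15 * oddSer ^ 2 = 16 * (Vp 2 eFourInt - Vp 4 eFourInt) := by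
  let F : ℍ → ℂ := (60 : ℂ) • (oddFun * oddFun) +
    (-144 : ℂ) • (dil 2 E4 + (-1 : ℂ) • dil 4 E4)
  let U : PowerSeries ℤ := EZ 2 - Vp 2 (EZ 2)
  have hlv : IsLv 4 4 F := by
    have hE : IsLv 1 4 E4 := IsLv.of_modularForm ModularForm.E₄
    exact ((isLv_oddFun.mul isLv_oddFun).smul (60 : ℂ)).add
      (((isLv_four_of_two hE).add ((hE.dil 4).smul (-1 : ℂ))).smul (-144 : ℂ))
  have hQ : HasQ 1 F (toC (60 * (U * U) - 144 * (Vp 2 eFourInt - Vp 4 eFourInt))) := by
    have he : HasQ 1 (Efun 2) (toC (EZ 2)) := hasQ_Efun 2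
    have hu := he.add ((he.dil 2).smul (-1 : ℂ))
    have h4 : HasQ 1 E4 (toC eFourInt) := hasQ_eFour
    have h := ((hu.mul one_pos hu).smul (60 : ℂ)).add
      (((h4.dil 2).add ((h4.dil 4).smul (-1 : ℂ))).smul (-144 : ℂ))
    simp only [F, oddFun]
    convert h using 1
    simp only [U, map_sub, map_mul, FA.EightSquares.toC_Vp, PowerSeries.smul_eq_C_mul,
      map_ofNat, map_neg, map_one]
    ring
  have hE : Nine (EZ 2) [1, 24, 24, 96, 24, 144, 96, 192, 24] := fun i hi => by
    rw [coeff_EZ]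
    interval_cases i <;> decide +kernel
  have hu := hE.sub (nine_Vp 2 hE rfl) rfl
  have h4 := nine_eFourInt
  have hz := series_eq_zero_four hlv hQ (by
    simp only [U, ← map_ofNat (PowerSeries.C (R := ℤ))]
    exact ((nine_C 60).mul (hu.mul hu rfl) rfl).sub
      ((nine_C 144).mul ((nine_Vp 2 h4 rfl).sub (nine_Vp 4 h4 rfl) rfl) rfl) rfl)
    (by decide +kernel) (by decide +kernel)
  have hne : (9 : PowerSeries ℤ) ≠ 0 := fun h => by
    have h0 := congrArg (coeff 0) h
    rw [← map_ofNat (PowerSeries.C (R := ℤ)) 9, PowerSeries.coeff_C, map_zero] at h0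
    simp at h0
  refine sub_eq_zero.1 ((mul_eq_zero.1 ?_).resolve_left hne)
  linear_combination hz + (45 * oddSer + 30 * U) * three_mul_oddSer

theorem sum_odd_cofactor (f : ℕ → ℤ) (m : ℕ) (hm : m ≠ 0) :
    ∑ d ∈ m.divisors with Odd (m / d), f d =
      ∑ d ∈ m.divisors, f d - (if 2 ∣ m then ∑ d ∈ (m / 2).divisors, f d else 0) := by
  rw [eq_sub_iff_add_eq, ← Finset.sum_filter_add_sum_filter_not m.divisors fun d => Odd (m / d)]
  congr 1
  split_ifs with h2
  · obtain ⟨k, rfl⟩ := h2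
    rw [Nat.mul_div_cancel_left k two_pos]
    refine Finset.sum_congr (Finset.ext fun d => ?_) fun _ _ => rfl
    simp only [Finset.mem_filter, Nat.mem_divisors, Nat.not_odd_iff_even, ne_eq, hm,
      not_false_eq_true, and_true, show k ≠ 0 by omega]
    constructor
    · exact fun h => ⟨h.mul_left 2, by rw [Nat.mul_div_assoc 2 h]; exact even_two_mul _⟩
    · rintro ⟨h, he⟩
      obtain ⟨c, hc⟩ := h
      rcases Nat.eq_zero_or_pos d with rfl | hd
      · simp at hc; omega
      rw [hc, Nat.mul_div_cancel_left c hd] at he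
      obtain ⟨w, rfl⟩ := he
      exact ⟨w, mul_left_cancel₀ two_ne_zero (by linear_combination hc)⟩
  · rw [Finset.sum_eq_zero fun d hd => ?_]
    simp only [Finset.mem_filter, Nat.mem_divisors, Nat.not_odd_iff_even] at hd
    exact absurd (hd.2.two_dvd.trans (Nat.div_dvd_of_dvd hd.1.1)) h2

/-- **Eight triangular numbers.** -/
theorem eight_tri (n : ℕ) :
    (Nat.card {t : Fin 8 → ℕ // ∑ i, t i * (t i + 1) / 2 = n} : ℤ) =
      ∑ d ∈ (n + 1).divisors with Odd ((n + 1) / d), (d : ℤ) ^ 3 := by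
  have hs : ∀ k : ℕ, (σ 3 k : ℤ) = ∑ d ∈ k.divisors, (d : ℤ) ^ 3 := fun k => by
    rw [ArithmeticFunction.sigma_apply]; push_cast; rfl
  have h : coeff (2 * n + 2) (oddSer ^ 2) =
      256 * (Nat.card {t : Fin 8 → ℕ // ∑ i, t i * (t i + 1) / 2 = n} : ℤ) := coeff_oddSer_pow 2 n
  have he := congrArg (coeff (2 * n + 2)) eight_series
  rw [← map_ofNat (PowerSeries.C (R := ℤ)) 15, ← map_ofNat (PowerSeries.C (R := ℤ)) 16,
    PowerSeries.coeff_C_mul, PowerSeries.coeff_C_mul, map_sub, coeff_Vp, coeff_Vp,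
    if_pos (show 2 ∣ 2 * n + 2 by omega), show (2 * n + 2) / 2 = n + 1 by omega, h] at he
  simp only [eFourInt, PowerSeries.coeff_mk, if_neg (show n + 1 ≠ 0 by omega), hs] at he
  rw [sum_odd_cofactor _ _ (by omega)]
  by_cases h2 : 2 ∣ n + 1
  · rw [if_pos h2]
    rw [if_pos (show 4 ∣ 2 * n + 2 by omega), if_neg (show (2 * n + 2) / 4 ≠ 0 by omega),
      show (2 * n + 2) / 4 = (n + 1) / 2 by omega] at he
    norm_num at he
    linarith
  · rw [if_neg h2]
    rw [if_neg (show ¬ 4 ∣ 2 * n + 2 by omega)] at he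
    norm_num at he
    linarith

theorem twelve_series :
    63 * oddSer ^ 3 + 2 * (eSixInt - 33 * Vp 2 eSixInt + 32 * Vp 4 eSixInt) +
      1008 * etaTwelveSer = 0 := by
  let w : ℍ → ℂ := ⇑ModularForm.E₆ + (-33 : ℂ) • dil 2 ⇑ModularForm.E₆ +
    (32 : ℂ) • dil 4 ⇑ModularForm.E₆
  let F : ℍ → ℂ := (2016 : ℂ) • (thetaFour * oddFun * (oddFun * oddFun)) +
    (216 : ℂ) • (thetaFour * w) + (189 : ℂ) • bracketFun
  let U : PowerSeries ℤ := EZ 2 - Vp 2 (EZ 2)
  let W : PowerSeries ℤ := eSixInt - 33 * Vp 2 eSixInt + 32 * Vp 4 eSixInt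
  have hlv : IsLv 4 8 F := by
    have h6 : IsLv 1 6 ⇑ModularForm.E₆ := IsLv.of_modularForm ModularForm.E₆
    have hw : IsLv 4 6 w := ((h6.of_levelOne 4).add ((isLv_four_of_two h6).smul (-33 : ℂ))).add
      ((h6.dil 4).smul (32 : ℂ))
    exact ((((isLv_thetaFour.mul isLv_oddFun).mul (isLv_oddFun.mul isLv_oddFun)).smul
      (2016 : ℂ)).add ((isLv_thetaFour.mul hw).smul (216 : ℂ))).add
        (isLv_bracketFun.smul (189 : ℂ))
  have hQ : HasQ 1 F (toC (2016 * (thetaSer * U * (U * U)) + 216 * (thetaSer * W) +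
      6804 * bracketSer)) := by
    have hT := hasQ_thetaFour
    have he : HasQ 1 (Efun 2) (toC (EZ 2)) := hasQ_Efun 2
    have hu := he.add ((he.dil 2).smul (-1 : ℂ))
    have h6 : HasQ 1 ⇑ModularForm.E₆ (toC eSixInt) := hasQ_eSix
    have hw := (h6.add ((h6.dil 2).smul (-33 : ℂ))).add ((h6.dil 4).smul (32 : ℂ))
    have h := ((((hT.mul one_pos hu).mul one_pos (hu.mul one_pos hu)).smul (2016 : ℂ)).add
      ((hT.mul one_pos hw).smul (216 : ℂ))).add (hasQ_bracketFun.smul (189 : ℂ))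
    simp only [F, w, oddFun]
    convert h using 1
    simp only [U, W, map_sub, map_add, map_mul, FA.EightSquares.toC_Vp, PowerSeries.smul_eq_C_mul,
      map_ofNat, map_neg, map_one]
    ring
  have hE : Nine (EZ 2) [1, 24, 24, 96, 24, 144, 96, 192, 24] := fun i hi => by
    rw [coeff_EZ]
    interval_cases i <;> decide +kernel
  have hu := hE.sub (nine_Vp 2 hE rfl) rfl
  have h6 := nine_eSixInt
  have hz := series_eq_zero_four hlv hQ (by
    simp only [U, W, ← map_ofNat (PowerSeries.C (R := ℤ))]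
    exact (((nine_C 2016).mul ((nine_thetaSer.mul hu rfl).mul (hu.mul hu rfl) rfl) rfl).add
      ((nine_C 216).mul (nine_thetaSer.mul ((h6.sub ((nine_C 33).mul (nine_Vp 2 h6 rfl) rfl)
        rfl).add ((nine_C 32).mul (nine_Vp 4 h6 rfl) rfl) rfl) rfl) rfl) rfl).add
          ((nine_C 6804).mul nine_bracketSer rfl) rfl)
    (by decide +kernel) (by decide +kernel)
  rw [bracketSer_eq] at hz
  have hne : (108 : PowerSeries ℤ) * thetaSer ≠ 0 := fun h => by
    have h0 := congrArg (coeff 0) h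
    rw [← map_ofNat (PowerSeries.C (R := ℤ)) 108, PowerSeries.coeff_C_mul,
      nine_thetaSer 0 (by norm_num)] at h0
    norm_num at h0
  refine (mul_eq_zero.1 ?_).resolve_left hne
  linear_combination hz + 252 * thetaSer * (9 * oddSer ^ 2 + 6 * oddSer * U + 4 * U ^ 2) *
    three_mul_oddSer

/-- **Twelve triangular numbers.** -/
theorem twelve_tri (n : ℕ) :
    256 * (Nat.card {t : Fin 12 → ℕ // ∑ i, t i * (t i + 1) / 2 = n} : ℤ) =
      (σ 5 (2 * n + 3) : ℤ) - etaTwelve (2 * n + 3) := by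
  have h : coeff (2 * n + 3) (oddSer ^ 3) =
      4096 * (Nat.card {t : Fin 12 → ℕ // ∑ i, t i * (t i + 1) / 2 = n} : ℤ) :=
    coeff_oddSer_pow 3 n
  have he := congrArg (coeff (2 * n + 3)) twelve_series
  simp only [← map_ofNat (PowerSeries.C (R := ℤ)), map_add, map_sub, PowerSeries.coeff_C_mul,
    coeff_Vp, map_zero, if_neg (show ¬ 2 ∣ 2 * n + 3 by omega),
    if_neg (show ¬ 4 ∣ 2 * n + 3 by omega), eSixInt, PowerSeries.coeff_mk,
    if_neg (show 2 * n + 3 ≠ 0 by omega), h] at he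
  rw [etaTwelve]
  norm_num at he
  linarith

end FA.Triangular

end
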