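import Fermat.Agent.Forms3.LeechLattice
import Fermat.Agent.Forms3.SixteenLattice
import Fermat.Agent.Forms3.TriangularNumbers

/-!
# The theta series of the Leech lattice

The even vectors are halved by parities of `ℤ²⁴` in code words, halved again by a change of sign;
the odd ones are one in `2¹²` of all odd vectors. So the theta series is a form of weight twelve
built from Jacobi's four squares, equal to `E₁₂ - 65520/691 Δ` by Sturm's bound.
-/

set_option autoImplicit false
set_option linter.style.haveILetI false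

noncomputable section

namespace FA.Leech

open UpperHalfPlane hiding I
open CongruenceSubgroup FA.Eis FA.FourSquares FA.Tau FA.QuarticTheta FA.ManySquares FA.EightLattice
open FA.EightSquares (thetaSer E4 isLv_thetaFour)
open FA.SixteenLattice (rescale_thetaSer)
open FA.Golay (wt bxor_mem ones_mem zero_mem)
open PowerSeries (coeff)
open scoped MatrixGroups ModularForm ArithmeticFunction.sigma

/-- The vectors of norm `2 n`. -/
def vecs (n : ℕ) : Finset (Fin 24 → ℤ) :=
  (tuples 24 (16 * n)).filter fun x =>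
    (∀ i, x i % 2 = x 0 % 2) ∧ pat x ∈ FA.Golay.code ∧ (8 : ℤ) ∣ ∑ i, x i - 4 * (x 0 % 2)

theorem mem_tuples_sq {k : ℕ} (m : ℕ) (v : Fin k → ℤ) :
    v ∈ tuples k m ↔ ∑ i, v i ^ 2 = (m : ℤ) := by
  rw [mem_tuples]
  zify
  simp only [sq_abs]

theorem mem_vecs {n : ℕ} {x : Fin 24 → ℤ} :
    x ∈ vecs n ↔ InL x ∧ ∑ i, x i ^ 2 = 16 * (n : ℤ) := by
  rw [vecs, Finset.mem_filter, mem_tuples_sq, and_comm]
  push_cast
  rfl

/-- The halves of the even vectors. -/
def evenVecs (n : ℕ) : Finset (Fin 24 → ℤ) :=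
  (tuples 24 (4 * n)).filter fun y => pattern y ∈ FA.Golay.code ∧ (4 : ℤ) ∣ ∑ i, y i

theorem card_even_vecs (n : ℕ) :
    ((vecs n).filter fun x => x 0 % 2 = 0).card = (evenVecs n).card := by
  have hpat : ∀ y : Fin 24 → ℤ, pat (fun i => 2 * y i) = pattern y := fun y => funext fun i => by
    simp only [pat, pattern, Int.odd_iff, decide_eq_decide]
    omega
  symm
  refine Finset.card_bij (fun y _ => fun i => 2 * y i) (fun y hy => ?_) (fun y _ z _ h => ?_)
    (fun x hx => ?_)
  · obtain ⟨hn, hc, hs⟩ := Finset.mem_filter.1 hy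
    rw [mem_tuples_sq] at hn
    push_cast at hn
    refine Finset.mem_filter.2 ⟨mem_vecs.2 ⟨⟨fun i => ?_, by rw [hpat]; exact hc, ?_⟩, ?_⟩, ?_⟩
    · show 2 * y i % 2 = 2 * y 0 % 2
      omega
    · show (8 : ℤ) ∣ ∑ i, 2 * y i - 4 * (2 * y 0 % 2)
      rw [← Finset.mul_sum]
      omega
    · show ∑ i, (2 * y i) ^ 2 = _
      simp only [mul_pow, ← Finset.mul_sum, hn]
      ring
    · show 2 * y 0 % 2 = 0
      omega
  · funext i
    have : 2 * y i = 2 * z i := congrFun h i
    omega
  · obtain ⟨hx, h0⟩ := Finset.mem_filter.1 hx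
    obtain ⟨⟨hp, hc, hs⟩, hn⟩ := mem_vecs.1 hx
    have he : (fun i => 2 * (x i / 2)) = x := funext fun i => by have := hp i; omega
    refine ⟨fun i => x i / 2, Finset.mem_filter.2 ⟨(mem_tuples_sq _ _).2 ?_, ?_, ?_⟩, he⟩
    · rw [← he] at hn
      simp only [mul_pow, ← Finset.mul_sum] at hn
      push_cast
      linarith
    · rw [← hpat, he]
      exact hc
    · rw [← he] at hs h0
      simp only [← Finset.mul_sum] at hs h0
      beta_reduce
      omega

theorem card_parTuples (c : Fin 24 → Bool) (hc : c ∈ FA.Golay.code) (n : ℕ) :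
    ((parTuples c (4 * n)).card : ℤ) =
      coeff n (thetaSer ^ (6 - wt c / 4) * oddSer ^ (wt c / 4)) := by
  obtain ⟨j, hj⟩ := FA.Golay.four_dvd_wt hc
  have hprod : ∏ i, parSer (c i) = parSer true ^ wt c * parSer false ^ (24 - wt c) := by
    rw [Finset.prod_congr rfl (fun i _ => show parSer (c i) =
      if c i = true then parSer true else parSer false by cases c i <;> rfl), Finset.prod_ite,
      Finset.prod_const, Finset.prod_const, Finset.filter_not,
      Finset.card_sdiff_of_subset (Finset.filter_subset _ _), Finset.card_univ, Fintype.card_fin,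
      wt]
  have h := congrArg (coeff (4 * n)) (hprod.symm.trans (prod_parSer c))
  rw [hj, show 24 - 4 * j = 4 * (6 - j) by omega, pow_mul, pow_mul, parSer_true_four,
    parSer_false_four, ← map_pow, ← map_pow, ← map_mul, coeff_Vp, if_pos (dvd_mul_right 4 n),
    Nat.mul_div_cancel_left n (by norm_num), fibreSer, PowerSeries.coeff_mk, Finset.sum_const,
    nsmul_eq_mul, mul_one] at h
  rw [hj, Nat.mul_div_cancel_left j (by norm_num)]
  exact h.symm.trans (congrArg _ (mul_comm _ _))

theorem two_mul_card_even {n : ℕ} {c : Fin 24 → Bool} (hc : c ∈ FA.Golay.code) :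
    2 * (((parTuples c (4 * n)).filter fun y => (4 : ℤ) ∣ ∑ i, y i).card : ℤ) =
      (parTuples c (4 * n)).card + if c = (fun _ => false) then
        (-1) ^ n * ((parTuples c (4 * n)).card : ℤ) else 0 := by
  set P := parTuples c (4 * n)
  have hmem : ∀ y ∈ P, ∑ i, y i ^ 2 = 4 * (n : ℤ) ∧ ∀ i, y i % 2 = bitZ c i := fun y hy => by
    obtain ⟨h1, h2⟩ := Finset.mem_filter.1 hy
    rw [mem_tuples_sq] at h1
    push_cast at h1
    refine ⟨h1, fun i => ?_⟩
    have h3 := congrFun h2 i
    simp only [pattern, Int.odd_iff] at h3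
    simp only [bitZ, ← h3, decide_eq_true_eq]
    omega
  by_cases h0 : c = fun _ => false
  · rw [if_pos h0]
    have key : ∀ y ∈ P, ((4 : ℤ) ∣ ∑ i, y i ↔ Even n) := fun y hy => by
      obtain ⟨h1, h2⟩ := hmem y hy
      have he : (fun i => 2 * (y i / 2)) = y := funext fun i => by
        have := h2 i
        simp [h0, bitZ] at this
        omega
      obtain ⟨u, hu⟩ : (2 : ℤ) ∣ ∑ i, ((y i / 2) ^ 2 - y i / 2) := Finset.dvd_sum fun i _ => by
        obtain ⟨w, hw⟩ := Int.even_mul_succ_self (y i / 2 - 1)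
        exact ⟨w, by linear_combination hw⟩
      rw [← he] at h1
      simp only [mul_pow, ← Finset.mul_sum] at h1
      rw [Finset.sum_sub_distrib] at hu
      conv_lhs => rw [← he]
      rw [← Finset.mul_sum, Nat.even_iff]
      omega
    rcases Nat.even_or_odd n with hn | hn
    · rw [Finset.filter_true_of_mem fun y hy => (key y hy).2 hn, hn.neg_one_pow]
      ring
    · rw [Finset.filter_false_of_mem fun y hy h => Nat.not_even_iff_odd.2 hn ((key y hy).1 h),
        hn.neg_one_pow]
      simp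
  · rw [if_neg h0, add_zero]
    obtain ⟨i₀, hi₀⟩ : ∃ i, c i = true := by
      by_contra hne
      exact h0 (funext fun i => by simpa using fun h => hne ⟨i, h⟩)
    have hflip : ∀ y ∈ P, Function.update y i₀ (-y i₀) ∈ P ∧ y i₀ % 2 = 1 ∧ (2 : ℤ) ∣ ∑ i, y i ∧
        ∑ i, Function.update y i₀ (-y i₀) i = ∑ i, y i - 2 * y i₀ := fun y hy => by
      obtain ⟨h1, h2⟩ := hmem y hy
      have hb : y i₀ % 2 = 1 := by rw [h2]; simp [bitZ, hi₀]
      have hsum : ∀ f : ℤ → ℤ, ∑ i, f (Function.update y i₀ (-y i₀) i) =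
          ∑ i, f (y i) + (f (-y i₀) - f (y i₀)) := fun f => by
        rw [← Finset.add_sum_erase _ _ (Finset.mem_univ i₀),
          ← Finset.add_sum_erase (f := fun i => f (y i)) _ (Finset.mem_univ i₀),
          Finset.sum_congr rfl fun i hi => congrArg f
            (Function.update_of_ne (Finset.ne_of_mem_erase hi) _ _), Function.update_self]
        ring
      refine ⟨Finset.mem_filter.2 ⟨(mem_tuples_sq _ _).2 ?_, funext fun i => ?_⟩, hb, ?_, ?_⟩
      · rw [hsum fun t => t ^ 2, h1]
        push_cast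
        ring
      · rcases eq_or_ne i i₀ with rfl | hi
        · simp only [pattern, Function.update_self, Int.odd_iff, hi₀, decide_eq_true_eq]
          omega
        · simp only [pattern, Function.update_of_ne hi]
          exact congrFun (Finset.mem_filter.1 hy).2 i
      · obtain ⟨u, hu⟩ : (2 : ℤ) ∣ ∑ i, (y i - bitZ c i) :=
          Finset.dvd_sum fun i _ => by have := h2 i; omega
        obtain ⟨w, hw⟩ : (4 : ℤ) ∣ (wt c : ℤ) := by exact_mod_cast FA.Golay.four_dvd_wt hc
        rw [Finset.sum_sub_distrib, sum_bitZ] at hu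
        omega
      · rw [hsum fun t => t]
        ring
    have heq : (P.filter fun y => (4 : ℤ) ∣ ∑ i, y i).card =
        (P.filter fun y => ¬ (4 : ℤ) ∣ ∑ i, y i).card := by
      refine Finset.card_nbij' (fun y => Function.update y i₀ (-y i₀))
        (fun y => Function.update y i₀ (-y i₀)) (fun y hy => ?_) (fun y hy => ?_)
        (fun y _ => by simp) fun y _ => by simp
      all_goals
        simp only [Finset.mem_coe, Finset.mem_filter] at hy ⊢
        obtain ⟨h1, h2, h3, h4⟩ := hflip y hy.1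
        refine ⟨h1, ?_⟩
        rw [h4]
        have := hy.2
        omega
    conv_rhs => rw [← Finset.card_filter_add_card_filter_not (s := P)
      (fun y => (4 : ℤ) ∣ ∑ i, y i), ← heq]
    push_cast
    ring

theorem two_mul_card_evenVecs (n : ℕ) :
    2 * ((evenVecs n).card : ℤ) = coeff n (thetaSer ^ 6) + (-1) ^ n * coeff n (thetaSer ^ 6) +
      759 * coeff n (thetaSer ^ 4 * oddSer ^ 2) + 2576 * coeff n (thetaSer ^ 3 * oddSer ^ 3) +
      759 * coeff n (thetaSer ^ 2 * oddSer ^ 4) + coeff n (oddSer ^ 6) := by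
  rw [Finset.card_eq_sum_card_fiberwise (s := evenVecs n) (f := pattern) (t := FA.Golay.code)
    fun y hy => Finset.mem_coe.2 (Finset.mem_filter.1 hy).2.1]
  have hfib : ∀ c ∈ FA.Golay.code, ((evenVecs n).filter fun y => pattern y = c) =
      (parTuples c (4 * n)).filter fun y => (4 : ℤ) ∣ ∑ i, y i := fun c hc => by
    simp only [evenVecs, parTuples, Finset.filter_filter]
    exact Finset.filter_congr fun y _ => ⟨fun h => ⟨h.2, h.1.2⟩, fun h => ⟨⟨h.1 ▸ hc, h.2⟩, h.1⟩⟩
  push_cast
  rw [Finset.mul_sum, Finset.sum_congr rfl fun c hc => by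
    rw [hfib c hc, two_mul_card_even hc, card_parTuples c hc n]]
  rw [Finset.sum_add_distrib, Finset.sum_ite_eq' FA.Golay.code, if_pos zero_mem]
  have hw0 : wt (fun _ : Fin 24 => false) = 0 := by simp [wt]
  rw [hw0, ← Finset.sum_fiberwise_of_maps_to fun c hc => FA.Golay.wt_mem hc]
  have hconst : ∀ k, ∑ c ∈ FA.Golay.code with wt c = k,
      coeff n (thetaSer ^ (6 - wt c / 4) * oddSer ^ (wt c / 4)) =
      ((FA.Golay.code.filter fun c => wt c = k).card : ℤ) *
        coeff n (thetaSer ^ (6 - k / 4) * oddSer ^ (k / 4)) := fun k => by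
    rw [← nsmul_eq_mul, ← Finset.sum_const]
    exact Finset.sum_congr rfl fun c hc => by rw [(Finset.mem_filter.1 hc).2]
  obtain ⟨h1, h2, h3, h4, h5⟩ := FA.Golay.card_wt_values
  simp only [hconst, Finset.sum_insert, Finset.mem_insert, Finset.mem_singleton,
    Finset.sum_singleton, OfNat.zero_ne_ofNat, Nat.reduceEqDiff, or_self, not_false_eq_true, h1,
    h2, h3, h4, h5, Nat.reduceDiv, Nat.reduceSub, Nat.zero_div, pow_zero, mul_one, one_mul]
  push_cast
  ring

theorem card_odd_vecs (n : ℕ) :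
    4096 * (((vecs n).filter fun x => ¬ x 0 % 2 = 0).card : ℤ) = coeff (4 * n) (oddSer ^ 6) := by
  set Q := parTuples (fun _ : Fin 24 => true) (16 * n)
  have hQ : (Q.card : ℤ) = coeff (4 * n) (oddSer ^ 6) := by
    have h := congrArg (coeff (16 * n)) (prod_parSer fun _ : Fin 24 => true)
    rw [Finset.prod_const, Finset.card_univ, Fintype.card_fin, show (24 : ℕ) = 4 * 6 from rfl,
      pow_mul, parSer_true_four, ← map_pow, coeff_Vp, if_pos ⟨4 * n, by ring⟩, fibreSer,
      PowerSeries.coeff_mk, show 16 * n / 4 = 4 * n by omega] at h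
    rw [h]
    simp [Q]
  have hodd : ∀ x ∈ Q, (∀ i, x i % 2 = 1) ∧ ∑ i, x i ^ 2 = 16 * (n : ℤ) := fun x hx => by
    obtain ⟨h1, h2⟩ := Finset.mem_filter.1 hx
    rw [mem_tuples_sq] at h1
    push_cast at h1
    exact ⟨fun i => Int.odd_iff.1 (of_decide_eq_true (congrFun h2 i)), h1⟩
  have hset : (vecs n).filter (fun x => ¬ x 0 % 2 = 0) =
      Q.filter fun x => pat x ∈ FA.Golay.code := by
    ext x
    rw [Finset.mem_filter, Finset.mem_filter, mem_vecs]
    constructor
    · rintro ⟨⟨⟨hp, hc, -⟩, hn⟩, h0⟩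
      refine ⟨Finset.mem_filter.2 ⟨(mem_tuples_sq _ _).2 (by push_cast; exact hn),
        funext fun i => decide_eq_true (Int.odd_iff.2 (by have := hp i; omega))⟩, hc⟩
    · rintro ⟨hx, hc⟩
      obtain ⟨ho, hn⟩ := hodd x hx
      have hp : ∀ i, x i % 2 = x 0 % 2 := fun i => (ho i).trans (ho 0).symm
      obtain ⟨w, hw⟩ := sum_sq_coords hp
      obtain ⟨v, hv⟩ : (4 : ℤ) ∣ (wt (pat x) : ℤ) := by exact_mod_cast FA.Golay.four_dvd_wt hc
      have hs := sum_coords hp
      rw [hn, ho 0, hv] at hw
      rw [ho 0, hv] at hs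
      exact ⟨⟨⟨hp, hc, by rw [ho 0]; omega⟩, hn⟩, by rw [ho 0]; norm_num⟩
  let N : (Fin 24 → Bool) → ℕ := fun c => (Q.filter fun x => pat x = c).card
  have hN : ∀ c, N c = N fun _ => false := fun c => by
    let φ : (Fin 24 → ℤ) → Fin 24 → ℤ := fun x i => if c i = true then -x i else x i
    have hφ : ∀ x ∈ Q, φ x ∈ Q ∧ ∀ i, pat (φ x) i = xor (pat x i) (c i) := fun x hx => by
      obtain ⟨ho, hn⟩ := hodd x hx
      refine ⟨Finset.mem_filter.2 ⟨(mem_tuples_sq _ _).2 ?_, funext fun i => ?_⟩, fun i => ?_⟩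
      · push_cast
        rw [← hn]
        exact Finset.sum_congr rfl fun i _ => by simp only [φ]; split_ifs <;> ring
      · refine decide_eq_true (Int.odd_iff.2 ?_)
        have := ho i
        simp only [φ]
        split_ifs <;> omega
      · have := ho i
        simp only [pat, φ]
        by_cases hci : c i = true <;> by_cases h1 : x i / 2 % 2 = 1 <;> simp [hci, h1] <;> omega
    refine Finset.card_nbij' φ φ (fun x hx => ?_) (fun x hx => ?_) (fun x _ => ?_) fun x _ => ?_
    · obtain ⟨h1, h2⟩ := Finset.mem_filter.1 (Finset.mem_coe.1 hx)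
      exact Finset.mem_coe.2 (Finset.mem_filter.2 ⟨(hφ x h1).1, funext fun i => by
        rw [(hφ x h1).2, h2, Bool.xor_self]⟩)
    · obtain ⟨h1, h2⟩ := Finset.mem_filter.1 (Finset.mem_coe.1 hx)
      exact Finset.mem_coe.2 (Finset.mem_filter.2 ⟨(hφ x h1).1, funext fun i => by
        rw [(hφ x h1).2, h2]; simp⟩)
    all_goals exact funext fun i => by simp only [φ]; split_ifs <;> ring
  have hcode : (Q.filter fun x => pat x ∈ FA.Golay.code).card = 4096 * N fun _ => false := by
    rw [Finset.card_eq_sum_card_fiberwise (f := pat) (t := FA.Golay.code)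
      fun x hx => Finset.mem_coe.2 (Finset.mem_filter.1 hx).2]
    rw [Finset.sum_congr rfl fun c hc => show _ = N fun _ => false by
      rw [← hN c]
      exact congrArg Finset.card (by
        rw [Finset.filter_filter]
        exact Finset.filter_congr fun x _ => ⟨fun h => h.2, fun h => ⟨h ▸ hc, h⟩⟩),
      Finset.sum_const, FA.Golay.card_code, smul_eq_mul]
  have hall : Q.card = 2 ^ 24 * N fun _ => false := by
    rw [Finset.card_eq_sum_card_fiberwise (f := pat)
      (t := (Finset.univ : Finset (Fin 24 → Bool))) fun x _ => Finset.mem_coe.2 (Finset.mem_univ _),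
      Finset.sum_congr rfl fun c _ => hN c, Finset.sum_const, Finset.card_univ, Fintype.card_fun,
      Fintype.card_bool, Fintype.card_fin, smul_eq_mul]
  rw [hset, hcode, ← hQ, hall]
  push_cast
  ring

/-! ### Weight twelve -/

theorem isLv_twelveFun : IsLv 1 12 twelveFun := by
  have h4 : IsLv 1 4 ⇑ModularForm.E₄ := IsLv.of_modularForm ModularForm.E₄
  have hD : IsLv 1 12 ModularForm.discriminant :=
    IsLv.of_modularForm (CuspForm.discriminant : ModularForm 𝒮ℒ 12)
  exact (((h4.mul h4).mul h4).smul (691 : ℂ)).add (hD.smul (-432000 : ℂ))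

theorem hasQ_twelveFun : HasQ 1 twelveFun (toC twelveSer) := by
  have h4 : HasQ 1 ⇑ModularForm.E₄ (toC eFourInt) := hasQ_eFour
  have hd : HasQ 1 ModularForm.discriminant (toC deltaInt) := FA.Tau.hasQ_discriminant
  have h := (((h4.mul one_pos h4).mul one_pos h4).smul (691 : ℂ)).add (hd.smul (-432000 : ℂ))
  rw [twelveFun]
  convert h using 1
  simp only [twelveSer, map_sub, map_mul, PowerSeries.smul_eq_C_mul, map_ofNat, map_neg]
  ring

theorem nine_twelveSer : Nine twelveSer [691, 65520, 134250480, 11606736960, 274945048560,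
    3199218815520, 23782204031040, 129554448266880, 563087459516400] := fun i hi => by
  have h4 := nine_eFourInt
  rw [twelveSer, ← map_ofNat (PowerSeries.C (R := ℤ)) 691,
    ← map_ofNat (PowerSeries.C (R := ℤ)) 432000]
  exact ((nine_C 691).mul ((h4.mul h4 rfl).mul h4 rfl) rfl).sub
    ((nine_C 432000).mul nine_deltaInt rfl) (by decide +kernel) i hi

theorem cube_series :
    62881 * (eFourInt - Vp 2 eFourInt) ^ 3 + 4914000 * deltaInt +
      10181808000 * Vp 2 deltaInt + 75 * Vp 2 twelveSer = 75 * twelveSer := by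
  let e : ℍ → ℂ := E4 + (-1 : ℂ) • dil 2 E4
  have hD : IsLv 1 12 ModularForm.discriminant :=
    IsLv.of_modularForm (CuspForm.discriminant : ModularForm 𝒮ℒ 12)
  have hlv : IsLv 4 12 ((62881 : ℂ) • (e * e * e) + (4914000 : ℂ) • ModularForm.discriminant +
      (10181808000 : ℂ) • dil 2 ModularForm.discriminant +
      ((75 : ℂ) • dil 2 twelveFun + (-75 : ℂ) • twelveFun)) := by
    have hE : IsLv 1 4 E4 := IsLv.of_modularForm ModularForm.E₄
    have he : IsLv 4 4 e := (hE.of_levelOne 4).add ((isLv_four_of_two hE).smul (-1 : ℂ))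
    exact (((((he.mul he).mul he).smul _).add ((hD.of_levelOne 4).smul _)).add
      ((isLv_four_of_two hD).smul _)).add
        (((isLv_four_of_two isLv_twelveFun).smul _).add ((isLv_twelveFun.of_levelOne 4).smul _))
  have hQ : HasQ 1 ((62881 : ℂ) • (e * e * e) + (4914000 : ℂ) • ModularForm.discriminant +
      (10181808000 : ℂ) • dil 2 ModularForm.discriminant +
      ((75 : ℂ) • dil 2 twelveFun + (-75 : ℂ) • twelveFun))
      (toC (62881 * ((eFourInt - Vp 2 eFourInt) * (eFourInt - Vp 2 eFourInt) *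
          (eFourInt - Vp 2 eFourInt)) + 4914000 * deltaInt +
        10181808000 * Vp 2 deltaInt + (75 * Vp 2 twelveSer - 75 * twelveSer))) := by
    have h4 : HasQ 1 E4 (toC eFourInt) := hasQ_eFour
    have hd : HasQ 1 ModularForm.discriminant (toC deltaInt) := FA.Tau.hasQ_discriminant
    have he := h4.add ((h4.dil 2).smul (-1 : ℂ))
    have h := (((((he.mul one_pos he).mul one_pos he).smul (62881 : ℂ)).add
      (hd.smul (4914000 : ℂ))).add ((hd.dil 2).smul (10181808000 : ℂ))).add
        (((hasQ_twelveFun.dil 2).smul (75 : ℂ)).add (hasQ_twelveFun.smul (-75 : ℂ)))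
    simp only [e]
    convert h using 1
    simp only [map_sub, map_add, map_mul, FA.EightSquares.toC_Vp, PowerSeries.smul_eq_C_mul,
      map_ofNat, map_neg, map_one]
    ring
  have hd := nine_deltaInt
  have hl := nine_twelveSer
  have he := nine_eFourInt.sub (nine_Vp 2 nine_eFourInt rfl) rfl
  have hz := series_eq_zero_four hlv hQ (by
    simp only [← map_ofNat (PowerSeries.C (R := ℤ))]
    exact ((((nine_C 62881).mul ((he.mul he rfl).mul he rfl) rfl).add
      ((nine_C 4914000).mul hd rfl) rfl).add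
        ((nine_C 10181808000).mul (nine_Vp 2 hd rfl) rfl) rfl).add
          (((nine_C 75).mul (nine_Vp 2 hl rfl) rfl).sub ((nine_C 75).mul hl rfl) rfl) rfl)
    (by decide +kernel) (by decide +kernel)
  linear_combination hz

theorem leech_series :
    2829645 * (thetaSer ^ 6 + (thetaSer - oddSer) ^ 6 + 759 * (thetaSer ^ 4 * oddSer ^ 2) +
        2576 * (thetaSer ^ 3 * oddSer ^ 3) + 759 * (thetaSer ^ 2 * oddSer ^ 4) + oddSer ^ 6) +
      268238880 * deltaInt + 268369920 * Vp 2 deltaInt =
      4094 * twelveSer + 4096 * Vp 2 twelveSer := by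
  let u : ℍ → ℂ := (2 : ℂ) • oddFun
  let a : ℍ → ℂ := (3 : ℂ) • thetaFour
  let v : ℍ → ℂ := a + (-1 : ℂ) • u
  let W : ℍ → ℂ := a * a * (a * a) * (a * a) + v * v * (v * v) * (v * v) +
    (759 : ℂ) • (a * a * (a * a) * (u * u)) + (2576 : ℂ) • (a * a * (a * u) * (u * u)) +
    (759 : ℂ) • (a * a * (u * u) * (u * u)) + u * u * (u * u) * (u * u)
  let F : ℍ → ℂ := (2829645 : ℂ) • W + (729 : ℂ) • ((268238880 : ℂ) • ModularForm.discriminant +
    (268369920 : ℂ) • dil 2 ModularForm.discriminant +
    ((-4094 : ℂ) • twelveFun + (-4096 : ℂ) • dil 2 twelveFun))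
  have hlv : IsLv 4 12 F := by
    have hD : IsLv 1 12 ModularForm.discriminant :=
      IsLv.of_modularForm (CuspForm.discriminant : ModularForm 𝒮ℒ 12)
    have hu : IsLv 4 2 u := isLv_oddFun.smul (2 : ℂ)
    have ha : IsLv 4 2 a := isLv_thetaFour.smul (3 : ℂ)
    have hv : IsLv 4 2 v := ha.add (hu.smul (-1 : ℂ))
    have hW : IsLv 4 12 W :=
      (((((((ha.mul ha).mul (ha.mul ha)).mul (ha.mul ha)).add
        (((hv.mul hv).mul (hv.mul hv)).mul (hv.mul hv))).add
        ((((ha.mul ha).mul (ha.mul ha)).mul (hu.mul hu)).smul _)).add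
        ((((ha.mul ha).mul (ha.mul hu)).mul (hu.mul hu)).smul _)).add
        ((((ha.mul ha).mul (hu.mul hu)).mul (hu.mul hu)).smul _)).add
        (((hu.mul hu).mul (hu.mul hu)).mul (hu.mul hu))
    exact (hW.smul _).add (((((hD.of_levelOne 4).smul _).add ((isLv_four_of_two hD).smul _)).add
      (((isLv_twelveFun.of_levelOne 4).smul _).add
        ((isLv_four_of_two isLv_twelveFun).smul _))).smul _)
  let A : PowerSeries ℤ := 3 * thetaSer
  let U : PowerSeries ℤ := 2 * (EZ 2 - Vp 2 (EZ 2))
  have hQ : HasQ 1 F (toC (2829645 * (A * A * (A * A) * (A * A) +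
      (A - U) * (A - U) * ((A - U) * (A - U)) * ((A - U) * (A - U)) +
      759 * (A * A * (A * A) * (U * U)) + 2576 * (A * A * (A * U) * (U * U)) +
      759 * (A * A * (U * U) * (U * U)) + U * U * (U * U) * (U * U)) +
      729 * (268238880 * deltaInt + 268369920 * Vp 2 deltaInt -
        (4094 * twelveSer + 4096 * Vp 2 twelveSer)))) := by
    have hT := hasQ_thetaFour
    have he : HasQ 1 (Efun 2) (toC (EZ 2)) := hasQ_Efun 2
    have hd : HasQ 1 ModularForm.discriminant (toC deltaInt) := FA.Tau.hasQ_discriminant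
    have hu := (he.add ((he.dil 2).smul (-1 : ℂ))).smul (2 : ℂ)
    have ha := hT.smul (3 : ℂ)
    have hv := ha.add (hu.smul (-1 : ℂ))
    have h := ((((((((ha.mul one_pos ha).mul one_pos (ha.mul one_pos ha)).mul one_pos
        (ha.mul one_pos ha)).add
        (((hv.mul one_pos hv).mul one_pos (hv.mul one_pos hv)).mul one_pos
          (hv.mul one_pos hv))).add
        ((((ha.mul one_pos ha).mul one_pos (ha.mul one_pos ha)).mul one_pos
          (hu.mul one_pos hu)).smul (759 : ℂ))).add
        ((((ha.mul one_pos ha).mul one_pos (ha.mul one_pos hu)).mul one_pos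
          (hu.mul one_pos hu)).smul (2576 : ℂ))).add
        ((((ha.mul one_pos ha).mul one_pos (hu.mul one_pos hu)).mul one_pos
          (hu.mul one_pos hu)).smul (759 : ℂ))).add
        (((hu.mul one_pos hu).mul one_pos (hu.mul one_pos hu)).mul one_pos
          (hu.mul one_pos hu))).smul (2829645 : ℂ) |>.add
      ((((hd.smul (268238880 : ℂ)).add ((hd.dil 2).smul (268369920 : ℂ))).add
        ((hasQ_twelveFun.smul (-4094 : ℂ)).add
          ((hasQ_twelveFun.dil 2).smul (-4096 : ℂ)))).smul (729 : ℂ))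
    simp only [F, W, v, a, u, oddFun]
    convert h using 1
    simp only [A, U, map_sub, map_add, map_mul, FA.EightSquares.toC_Vp, PowerSeries.smul_eq_C_mul,
      map_ofNat, map_neg, map_one]
    ring
  have hE : Nine (EZ 2) [1, 24, 24, 96, 24, 144, 96, 192, 24] := fun i hi => by
    rw [coeff_EZ]
    interval_cases i <;> decide +kernel
  have hd := nine_deltaInt
  have hl := nine_twelveSer
  have hz := series_eq_zero_four hlv hQ (by
    simp only [A, U, ← map_ofNat (PowerSeries.C (R := ℤ))]
    have hu := (nine_C 2).mul (hE.sub (nine_Vp 2 hE rfl) rfl) rfl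
    have ha := (nine_C 3).mul nine_thetaSer rfl
    have hv := ha.sub hu rfl
    have haa := ha.mul ha rfl
    have huu := hu.mul hu rfl
    have hvv := hv.mul hv rfl
    exact ((nine_C 2829645).mul (((((((haa.mul haa rfl).mul haa rfl).add
      ((hvv.mul hvv rfl).mul hvv rfl) rfl).add
      ((nine_C 759).mul ((haa.mul haa rfl).mul huu rfl) rfl) rfl).add
      ((nine_C 2576).mul ((haa.mul (ha.mul hu rfl) rfl).mul huu rfl) rfl) rfl).add
      ((nine_C 759).mul ((haa.mul huu rfl).mul huu rfl) rfl) rfl).add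
      ((huu.mul huu rfl).mul huu rfl) rfl) rfl).add
      ((nine_C 729).mul ((((nine_C 268238880).mul hd rfl).add
        ((nine_C 268369920).mul (nine_Vp 2 hd rfl) rfl) rfl).sub
        (((nine_C 4094).mul hl rfl).add ((nine_C 4096).mul (nine_Vp 2 hl rfl) rfl) rfl) rfl) rfl)
          rfl)
    (by decide +kernel) (by decide +kernel)
  have hU : U = 3 * oddSer := three_mul_oddSer.symm
  simp only [A, hU] at hz
  have hne : (729 : PowerSeries ℤ) ≠ 0 := fun h => by
    have h0 := congrArg (coeff 0) h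
    rw [← map_ofNat (PowerSeries.C (R := ℤ)) 729, PowerSeries.coeff_C, map_zero] at h0
    simp at h0
  refine sub_eq_zero.1 ((mul_eq_zero.1 ?_).resolve_left hne)
  linear_combination hz

theorem sigma_two_mul {m : ℕ} (hm : m ≠ 0) :
    (σ 11 (2 * m) : ℤ) =
      2049 * (σ 11 m : ℤ) - 2048 * (if 2 ∣ m then (σ 11 (m / 2) : ℤ) else 0) := by
  obtain ⟨r, j, hj, rfl⟩ := Nat.exists_eq_two_pow_mul_odd hm
  have hc : ∀ e : ℕ, (σ 11 (2 ^ e * j) : ℤ) = (∑ i ∈ Finset.range (e + 1), (2048 : ℤ) ^ i) *
      (σ 11 j : ℤ) := fun e => by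
    rw [ArithmeticFunction.isMultiplicative_sigma.map_mul_of_coprime
      ((Nat.coprime_two_left.2 hj).pow_left e), ArithmeticFunction.sigma_apply_prime_pow
      Nat.prime_two]
    push_cast
    congr 1
    exact Finset.sum_congr rfl fun i _ => by
      rw [show (2048 : ℤ) = 2 ^ 11 by norm_num, ← pow_mul, mul_comm]
  rw [← mul_assoc, ← pow_succ', hc, hc]
  rcases r with _ | r
  · rw [if_neg (by
      rw [pow_zero, one_mul, ← even_iff_two_dvd, Nat.not_even_iff_odd]; exact hj)]
    simp [Finset.sum_range_succ]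
  · rw [if_pos (Dvd.intro (2 ^ r * j) (by ring)),
      show 2 ^ (r + 1) * j / 2 = 2 ^ r * j by rw [pow_succ', mul_assoc]; omega, hc,
      Finset.sum_range_succ _ (r + 2), Finset.sum_range_succ _ (r + 1)]
    ring

theorem oddSer_six {n : ℕ} (hn : n ≠ 0) :
    691 * coeff (4 * n) (oddSer ^ 6) = 134217728 * ((σ 11 n : ℤ) -
      (if 2 ∣ n then (σ 11 (n / 2) : ℤ) else 0) - coeff n deltaInt +
      (if 2 ∣ n then coeff (n / 2) deltaInt else 0)) := by
  have hsix : 3375 * oddSer ^ 6 = 4096 * Vp 2 ((eFourInt - Vp 2 eFourInt) ^ 3) := by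
    have e : Vp 2 (eFourInt - Vp 2 eFourInt) = Vp 2 eFourInt - Vp 4 eFourInt := by
      rw [map_sub, sub_right_inj]
      refine PowerSeries.ext fun k => ?_
      simp only [coeff_Vp]
      by_cases h4 : 4 ∣ k
      · rw [if_pos h4, if_pos (by omega), if_pos (by omega), Nat.div_div_eq_div_mul]
      · rw [if_neg h4]
        by_cases h2 : 2 ∣ k
        · rw [if_pos h2, if_neg (by omega)]
        · rw [if_neg h2]
    rw [map_pow, e]
    linear_combination (225 * oddSer ^ 4 + 240 * oddSer ^ 2 *
      (Vp 2 eFourInt - Vp 4 eFourInt) + 256 * (Vp 2 eFourInt - Vp 4 eFourInt) ^ 2) *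
      FA.Triangular.eight_series
  have h1 := congrArg (coeff (4 * n)) hsix
  rw [← map_ofNat (PowerSeries.C (R := ℤ)) 3375, ← map_ofNat (PowerSeries.C (R := ℤ)) 4096,
    PowerSeries.coeff_C_mul, PowerSeries.coeff_C_mul, coeff_Vp, if_pos ⟨2 * n, by ring⟩,
    show 4 * n / 2 = 2 * n by omega] at h1
  have h2 := congrArg (coeff (2 * n)) cube_series
  simp only [← map_ofNat (PowerSeries.C (R := ℤ)), map_add, PowerSeries.coeff_C_mul, coeff_Vp,
    if_pos (dvd_mul_right 2 n), Nat.mul_div_cancel_left n two_pos] at h2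
  rw [coeff_twelveSer hn, coeff_twelveSer (by omega), sigma_two_mul hn,
    coeff_deltaInt_two_mul hn] at h2
  linarith

/-- **The theta series of the Leech lattice.** -/
theorem card_vecs {n : ℕ} (hn : n ≠ 0) :
    691 * ((vecs n).card : ℤ) = 65520 * ((σ 11 n : ℤ) - coeff n deltaInt) := by
  have h := congrArg (coeff n) leech_series
  rw [← rescale_thetaSer, ← map_pow] at h
  simp only [← map_ofNat (PowerSeries.C (R := ℤ)), map_add, PowerSeries.coeff_C_mul,
    PowerSeries.coeff_rescale, coeff_Vp] at h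
  have hev := two_mul_card_evenVecs n
  have hod := card_odd_vecs n
  have hsix := oddSer_six hn
  rw [← card_even_vecs] at hev
  rw [← Finset.card_filter_add_card_filter_not (s := vecs n) (fun x => x 0 % 2 = 0)]
  push_cast
  rw [coeff_twelveSer hn] at h
  by_cases h2 : 2 ∣ n
  · rw [if_pos h2, if_pos h2, coeff_twelveSer (by omega)] at h
    rw [if_pos h2, if_pos h2] at hsix
    linarith
  · rw [if_neg h2, if_neg h2] at h
    rw [if_neg h2, if_neg h2] at hsix
    linarith

end FA.Leech

end
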