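import Fermat.Agent.Forms3.Existence
import Mathlib.Algebra.BigOperators.Fin
import Mathlib.Tactic.IntervalCases

/-!
# Sums of four, five and more positive squares

The theorems of Dubouis and Pall from that of three squares: a number `≡ 3, 6 (mod 8)`, or four
times one, is a sum of three positive squares.
-/

set_option autoImplicit false

namespace FA.PositiveSquares

open FA.Forms3

theorem sq_mod_eight (x : ℕ) :
    (x % 2 = 0 ∧ (x ^ 2 % 8 = 0 ∨ x ^ 2 % 8 = 4)) ∨ (x % 2 = 1 ∧ x ^ 2 % 8 = 1) := by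
  have e : x ^ 2 % 8 = x % 8 * (x % 8) % 8 := by rw [pow_two, Nat.mul_mod]
  have := Nat.mod_lt x (show 8 > 0 by norm_num)
  interval_cases h : x % 8 <;> omega

/-- Numbers congruent to `3` or `6` modulo `8` are sums of three positive squares. -/
theorem three_pos {s : ℕ} (h : s % 8 = 3 ∨ s % 8 = 6) :
    ∃ a b c : ℕ, 0 < a ∧ 0 < b ∧ 0 < c ∧ a ^ 2 + b ^ 2 + c ^ 2 = s := by
  obtain ⟨x, y, z, e⟩ : ∃ u v w : ℤ, (s : ℤ) = u ^ 2 + v ^ 2 + w ^ 2 := by
    rcases h with h | h
    · exact exists_of_odd (Or.inr (Or.inl h))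
    · exact exists_of_two_mod_four (by omega)
  have e' : x.natAbs ^ 2 + y.natAbs ^ 2 + z.natAbs ^ 2 = s := by
    zify
    rw [sq_abs, sq_abs, sq_abs, e]
  have := sq_mod_eight x.natAbs
  have := sq_mod_eight y.natAbs
  have := sq_mod_eight z.natAbs
  refine ⟨_, _, _, ?_, ?_, ?_, e'⟩ <;> refine Nat.pos_of_ne_zero fun e0 => ?_ <;>
    rw [e0, zero_pow two_ne_zero] at e' <;> omega

/-- The classes used to split off one square. -/
theorem three_pos_classes {s : ℕ}
    (h : s % 8 = 3 ∨ s % 8 = 6 ∨ s % 32 = 12 ∨ s % 32 = 24) :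
    ∃ a b c : ℕ, 0 < a ∧ 0 < b ∧ 0 < c ∧ a ^ 2 + b ^ 2 + c ^ 2 = s := by
  rcases (show (s % 8 = 3 ∨ s % 8 = 6) ∨ (s % 32 = 12 ∨ s % 32 = 24) by omega) with h | h
  · exact three_pos h
  obtain ⟨a, b, c, ha, hb, hc, e⟩ := three_pos (s := s / 4) (by omega)
  refine ⟨2 * a, 2 * b, 2 * c, by omega, by omega, by omega, ?_⟩
  rw [mul_pow, mul_pow, mul_pow, ← mul_add, ← mul_add, e]
  omega

/-- `n` is a sum of `k` positive squares. -/
def IsSum (k n : ℕ) : Prop := ∃ v : Fin k → ℕ, (∀ i, 0 < v i) ∧ ∑ i, v i ^ 2 = n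

theorem isSum_four {n : ℕ} : IsSum 4 n ↔
    ∃ a b c d : ℕ, 0 < a ∧ 0 < b ∧ 0 < c ∧ 0 < d ∧ a ^ 2 + b ^ 2 + c ^ 2 + d ^ 2 = n := by
  constructor
  · rintro ⟨v, hv, e⟩
    rw [Fin.sum_univ_four] at e
    exact ⟨v 0, v 1, v 2, v 3, hv 0, hv 1, hv 2, hv 3, e⟩
  · rintro ⟨a, b, c, d, ha, hb, hc, hd, e⟩
    refine ⟨![a, b, c, d], fun i => ?_, by rw [Fin.sum_univ_four]; exact e⟩
    fin_cases i <;> assumption

theorem IsSum.add_sq {k n a : ℕ} (h : IsSum k n) (ha : 0 < a) : IsSum (k + 1) (n + a ^ 2) := by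
  obtain ⟨v, hv, e⟩ := h
  refine ⟨Fin.cons a v, Fin.cases (by simpa using ha) (by simpa using hv), ?_⟩
  rw [Fin.sum_univ_succ]
  simp only [Fin.cons_zero, Fin.cons_succ]
  omega

theorem IsSum.le {k n : ℕ} (h : IsSum k n) : k ≤ n := by
  obtain ⟨v, hv, e⟩ := h
  have := Finset.card_nsmul_le_sum Finset.univ (fun i => v i ^ 2) 1
    fun i _ => Nat.one_le_pow 2 _ (hv i)
  simpa [e] using this

/-- A summand `1` if the sum is small. -/
theorem IsSum.remove_one {k n : ℕ} (h : IsSum (k + 1) n) (hn : n < 4 * (k + 1)) :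
    IsSum k (n - 1) := by
  obtain ⟨v, hv, e⟩ := h
  obtain ⟨i, hi⟩ : ∃ i, v i = 1 := by
    by_contra hne
    have := Finset.card_nsmul_le_sum Finset.univ (fun i => v i ^ 2) 4 fun i _ => by
      have h2 : 2 ≤ v i := lt_of_le_of_ne (hv i) fun e => hne ⟨i, e.symm⟩
      simpa using Nat.pow_le_pow_left h2 2
    simp only [Finset.card_univ, Fintype.card_fin, smul_eq_mul, e] at this
    omega
  rw [Fin.sum_univ_succAbove _ i, hi, one_pow] at e
  exact ⟨fun j => v (i.succAbove j), fun j => hv _,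
    show ∑ j, v (i.succAbove j) ^ 2 = n - 1 by omega⟩

/-- The numbers which are not sums of four positive squares. -/
def Exceptional (n : ℕ) : Prop :=
  n ∈ ({0, 1, 3, 5, 9, 11, 17, 29, 41} : Finset ℕ) ∨
    ∃ a, n = 2 * 4 ^ a ∨ n = 6 * 4 ^ a ∨ n = 14 * 4 ^ a

theorem four_split {n k : ℕ} (hk : 0 < k) (hn : k ^ 2 ≤ n)
    (h : (n - k ^ 2) % 8 = 3 ∨ (n - k ^ 2) % 8 = 6 ∨ (n - k ^ 2) % 32 = 12 ∨
      (n - k ^ 2) % 32 = 24) : IsSum 4 n := by
  obtain ⟨a, b, c, ha, hb, hc, e⟩ := three_pos_classes h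
  exact isSum_four.2 ⟨a, b, c, k, ha, hb, hc, hk, by omega⟩

theorem four_small_exists : ∀ n < 49, n % 8 ≠ 0 →
    n ∉ ({1, 3, 5, 9, 11, 17, 29, 41, 2, 6, 14} : Finset ℕ) →
      ∃ k ∈ ({1, 2, 3, 4, 5, 7} : Finset ℕ), k ^ 2 ≤ n ∧
        ((n - k ^ 2) % 8 = 3 ∨ (n - k ^ 2) % 8 = 6 ∨ (n - k ^ 2) % 32 = 12 ∨
          (n - k ^ 2) % 32 = 24) := by
  decide +kernel

theorem four_of_not_eight {n : ℕ} (h8 : n % 8 ≠ 0)
    (hn : n ∉ ({1, 3, 5, 9, 11, 17, 29, 41, 2, 6, 14} : Finset ℕ)) : IsSum 4 n := by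
  obtain ⟨k, hk, h⟩ : ∃ k ∈ ({1, 2, 3, 4, 5, 7} : Finset ℕ), k ^ 2 ≤ n ∧
      ((n - k ^ 2) % 8 = 3 ∨ (n - k ^ 2) % 8 = 6 ∨ (n - k ^ 2) % 32 = 12 ∨
        (n - k ^ 2) % 32 = 24) := by
    rcases lt_or_ge n 49 with hlt | hge
    · exact four_small_exists n hlt h8 hn
    rcases (show n % 8 = 4 ∨ n % 8 = 7 ∨ n % 8 = 3 ∨ n % 8 = 6 ∨ n % 8 = 2 ∨
        n % 32 = 25 ∨ n % 32 = 1 ∨ n % 32 = 17 ∨ n % 32 = 9 ∨
        n % 32 = 13 ∨ n % 32 = 21 ∨ n % 32 = 5 ∨ n % 32 = 29 by
      omega) with h | h | h | h | h | h | h | h | h | h | h | h | h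
    · exact ⟨1, by decide, by omega, by omega⟩
    · exact ⟨2, by decide, by omega, by omega⟩
    · exact ⟨4, by decide, by omega, by omega⟩
    · exact ⟨4, by decide, by omega, by omega⟩
    · exact ⟨2, by decide, by omega, by omega⟩
    · exact ⟨1, by decide, by omega, by omega⟩
    · exact ⟨3, by decide, by omega, by omega⟩
    · exact ⟨5, by decide, by omega, by omega⟩
    · exact ⟨7, by decide, by omega, by omega⟩
    · exact ⟨1, by decide, by omega, by omega⟩
    · exact ⟨3, by decide, by omega, by omega⟩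
    · exact ⟨5, by decide, by omega, by omega⟩
    · exact ⟨7, by decide, by omega, by omega⟩
  refine four_split (k := k) ?_ h.1 h.2
  simp only [Finset.mem_insert, Finset.mem_singleton] at hk
  omega

theorem four_four {m : ℕ} (hm : m % 2 = 0) : IsSum 4 (4 * m) ↔ IsSum 4 m := by
  rw [isSum_four, isSum_four]
  constructor
  · rintro ⟨a, b, c, d, ha, hb, hc, hd, e⟩
    have := sq_mod_eight a; have := sq_mod_eight b
    have := sq_mod_eight c; have := sq_mod_eight d
    obtain ⟨a', rfl⟩ : 2 ∣ a := Nat.dvd_of_mod_eq_zero (by omega)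
    obtain ⟨b', rfl⟩ : 2 ∣ b := Nat.dvd_of_mod_eq_zero (by omega)
    obtain ⟨c', rfl⟩ : 2 ∣ c := Nat.dvd_of_mod_eq_zero (by omega)
    obtain ⟨d', rfl⟩ : 2 ∣ d := Nat.dvd_of_mod_eq_zero (by omega)
    rw [mul_pow, mul_pow, mul_pow, mul_pow] at e
    exact ⟨a', b', c', d', by omega, by omega, by omega, by omega, by omega⟩
  · rintro ⟨a, b, c, d, ha, hb, hc, hd, e⟩
    refine ⟨2 * a, 2 * b, 2 * c, 2 * d, by omega, by omega, by omega, by omega, ?_⟩
    rw [mul_pow, mul_pow, mul_pow, mul_pow]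
    omega

theorem exceptional_four {m : ℕ} (hm : m % 2 = 0) : Exceptional (4 * m) ↔ Exceptional m := by
  constructor
  · rintro (h | ⟨a, h⟩)
    · simp only [Finset.mem_insert, Finset.mem_singleton] at h
      obtain rfl : m = 0 := by omega
      exact Or.inl (by decide)
    · obtain _ | a := a
      · simp only [pow_zero] at h; omega
      · exact Or.inr ⟨a, by rw [pow_succ] at h; omega⟩
  · rintro (h | ⟨a, h⟩)
    · simp only [Finset.mem_insert, Finset.mem_singleton] at h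
      obtain rfl : m = 0 := by omega
      exact Or.inl (by decide)
    · exact Or.inr ⟨a + 1, by rw [pow_succ]; omega⟩

theorem four_small : ∀ a ∈ Finset.Icc 1 6, ∀ b ∈ Finset.Icc 1 6, ∀ c ∈ Finset.Icc 1 6,
    ∀ d ∈ Finset.Icc 1 6,
      a ^ 2 + b ^ 2 + c ^ 2 + d ^ 2 ∉
        ({0, 1, 3, 5, 9, 11, 17, 29, 41, 2, 6, 14} : Finset ℕ) := by
  decide +kernel

/-- **Dubouis**: the sums of four positive squares. -/
theorem isSum_four_iff (n : ℕ) : IsSum 4 n ↔ ¬ Exceptional n := by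
  induction n using Nat.strong_induction_on with
  | _ n ih =>
  rcases eq_or_ne n 0 with rfl | h0
  · exact iff_of_false (fun h => by have := h.le; omega) fun h => h (Or.inl (by decide))
  by_cases h8 : n % 8 = 0
  · obtain ⟨m, rfl⟩ : 4 ∣ n := Nat.dvd_of_mod_eq_zero (by omega)
    rw [four_four (by omega), exceptional_four (by omega)]
    exact ih m (by omega)
  by_cases hn : n ∈ ({0, 1, 3, 5, 9, 11, 17, 29, 41, 2, 6, 14} : Finset ℕ)
  · refine iff_of_false (fun h => ?_) fun h => h ?_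
    · obtain ⟨a, b, c, d, ha, hb, hc, hd, e⟩ := isSum_four.1 h
      have hle : n ≤ 41 := by
        simp only [Finset.mem_insert, Finset.mem_singleton] at hn
        omega
      have hb' : ∀ x : ℕ, x ^ 2 ≤ n → x ≤ 6 := fun x hx => by nlinarith
      exact four_small a (Finset.mem_Icc.2 ⟨ha, hb' a (by omega)⟩)
        b (Finset.mem_Icc.2 ⟨hb, hb' b (by omega)⟩) c (Finset.mem_Icc.2 ⟨hc, hb' c (by omega)⟩)
        d (Finset.mem_Icc.2 ⟨hd, hb' d (by omega)⟩) (e.symm ▸ hn)
    · simp only [Finset.mem_insert, Finset.mem_singleton] at hn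
      rcases hn with h | h | h | h | h | h | h | h | h | h | h | h
      iterate 9 exact Or.inl (by subst h; decide)
      · exact Or.inr ⟨0, by omega⟩
      · exact Or.inr ⟨0, by omega⟩
      · exact Or.inr ⟨0, by omega⟩
  refine iff_of_true (four_of_not_eight h8 ?_) ?_
  · simp only [Finset.mem_insert, Finset.mem_singleton] at hn ⊢
    omega
  · simp only [Finset.mem_insert, Finset.mem_singleton] at hn
    rintro (h | ⟨a, h⟩)
    · simp only [Finset.mem_insert, Finset.mem_singleton] at h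
      omega
    · obtain _ | a := a
      · simp only [pow_zero] at h; omega
      · rw [pow_succ] at h; omega

/-- The numbers which are not sums of five positive squares. -/
def excFive : Finset ℕ := {1, 2, 3, 4, 6, 7, 9, 10, 12, 15, 18, 33}

/-- The exceptional numbers below `46`. -/
def excList : Finset ℕ := {0, 1, 2, 3, 5, 6, 8, 9, 11, 14, 17, 24, 29, 32, 41}

theorem mem_excList {m : ℕ} (hm : m < 46) (h : Exceptional m) : m ∈ excList := by
  rcases h with h | ⟨a, h⟩
  · revert h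
    simp only [excList, Finset.mem_insert, Finset.mem_singleton]
    omega
  · have ha : a < 3 := by
      by_contra! ha
      have := Nat.pow_le_pow_right (show 0 < 4 by norm_num) ha
      omega
    interval_cases a <;> simp only [excList, Finset.mem_insert, Finset.mem_singleton] <;> omega

theorem five_small_exists : ∀ n < 46, n ≠ 0 → n ∉ excFive →
    ∃ j ∈ Finset.Icc 1 6, j ^ 2 < n ∧ n - j ^ 2 ∉ excList := by
  decide +kernel

theorem five_small : ∀ a ∈ Finset.Icc 1 5, ∀ b ∈ Finset.Icc 1 5, ∀ c ∈ Finset.Icc 1 5,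
    ∀ d ∈ Finset.Icc 1 5, ∀ e ∈ Finset.Icc 1 5,
      a ^ 2 + b ^ 2 + c ^ 2 + d ^ 2 + e ^ 2 ∉ excFive := by
  decide +kernel

/-- **The sums of five positive squares.** -/
theorem isSum_five_iff (n : ℕ) : IsSum 5 n ↔ n ≠ 0 ∧ n ∉ excFive := by
  constructor
  · intro h
    refine ⟨fun e => by have := h.le; omega, fun hn => ?_⟩
    have hle : n ≤ 33 := by
      simp only [excFive, Finset.mem_insert, Finset.mem_singleton] at hn
      omega
    obtain ⟨v, hv, e⟩ := h
    rw [Fin.sum_univ_five] at e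
    have hm : ∀ i, v i ^ 2 ≤ 33 → v i ∈ Finset.Icc 1 5 := fun i hi =>
      Finset.mem_Icc.2 ⟨hv i, by nlinarith⟩
    exact five_small _ (hm 0 (by omega)) _ (hm 1 (by omega)) _ (hm 2 (by omega))
      _ (hm 3 (by omega)) _ (hm 4 (by omega)) (e.symm ▸ hn)
  · rintro ⟨h0, hn⟩
    rcases lt_or_ge n 46 with h | h
    · obtain ⟨j, hj, hlt, hne⟩ := five_small_exists n h h0 hn
      have := ((isSum_four_iff (n - j ^ 2)).2 fun hx => hne (mem_excList (by omega) hx)).add_sq
        (Finset.mem_Icc.1 hj).1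
      rwa [Nat.sub_add_cancel hlt.le] at this
    by_cases h1 : Exceptional (n - 1)
    · have hev : (n - 1) % 2 = 0 := by
        rcases h1 with h1 | ⟨a, h1⟩
        · simp only [Finset.mem_insert, Finset.mem_singleton] at h1
          omega
        · omega
      have := ((isSum_four_iff (n - 4)).2 ?_).add_sq (a := 2) (by norm_num)
      · rwa [show n - 4 + 2 ^ 2 = n by omega] at this
      rintro (h4 | ⟨a, h4⟩)
      · simp only [Finset.mem_insert, Finset.mem_singleton] at h4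
        omega
      · omega
    · have := ((isSum_four_iff (n - 1)).2 h1).add_sq (a := 1) (by norm_num)
      rwa [show n - 1 + 1 ^ 2 = n by omega] at this

/-- The differences `n - k` that never occur. -/
def excMany : Finset ℕ := {1, 2, 4, 5, 7, 10, 13}

theorem not_isSum_many : ∀ k, 5 ≤ k → ∀ e ∈ excMany, ¬ IsSum k (k + e) := by
  intro k hk
  induction k, hk using Nat.le_induction with
  | base =>
    intro e he h
    have := ((isSum_five_iff _).1 h).2
    simp only [excMany, excFive, Finset.mem_insert, Finset.mem_singleton] at he this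
    omega
  | succ k hk ih =>
    intro e he h
    have := h.remove_one (by
      simp only [excMany, Finset.mem_insert, Finset.mem_singleton] at he
      omega)
    exact ih e he (by rwa [show k + 1 + e - 1 = k + e by omega] at this)

/-- **Pall**: the sums of `k ≥ 6` positive squares. -/
theorem isSum_many_iff (k : ℕ) (hk : 6 ≤ k) (n : ℕ) :
    IsSum k n ↔ k ≤ n ∧ n - k ∉ excMany := by
  refine ⟨fun h => ⟨h.le, fun he => not_isSum_many k (by omega) _ he
    (by rwa [Nat.add_sub_cancel' h.le])⟩, ?_⟩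
  induction k, hk using Nat.le_induction generalizing n with
  | base =>
    rintro ⟨hle, hne⟩
    rcases eq_or_ne n 34 with rfl | h34
    · exact ⟨![3, 3, 2, 2, 2, 2], fun i => by fin_cases i <;> norm_num,
        by rw [Fin.sum_univ_six]; rfl⟩
    have := ((isSum_five_iff (n - 1)).2 ⟨by omega, fun h => ?_⟩).add_sq (a := 1) (by norm_num)
    · rwa [show n - 1 + 1 ^ 2 = n by omega] at this
    simp only [excFive, excMany, Finset.mem_insert, Finset.mem_singleton] at h hne
    omega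
  | succ k hk ih =>
    rintro ⟨hle, hne⟩
    have := (ih (n - 1) ⟨by omega, by rwa [show n - 1 - k = n - (k + 1) by omega]⟩).add_sq
      (a := 1) (by norm_num)
    rwa [show n - 1 + 1 ^ 2 = n by omega] at this

end FA.PositiveSquares
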