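import Fermat.Agent.Forms3.HurwitzMoments
import Fermat.Agent.Root.SummaryEightSquares
import Fermat.Agent.Tau.QuasiModular
import Fermat.Agent.CurveRed.Haupt.Coeff

/-!
# The quartic moment of the representations by four squares

With `f = θ⁴` and `D = q d/dq` the bracket `2 f D²f - 3 (Df)²` is `f` times a series whose square is
`256 Δ(2z)`, by Sturm's bound in weight sixteen: so `∑ x₁⁴` over the representations of `n` is
`n² r₄(n) / 8` plus the coefficient of `η(2z)¹²`.
-/

set_option autoImplicit false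
set_option linter.style.haveILetI false

noncomputable section

namespace FA.QuarticTheta

open UpperHalfPlane hiding I
open CongruenceSubgroup FA.Eis FA.FourSquares FA.Tau Derivative
open FA.EightSquares (thetaSer E4 toC_thetaSer isLv_thetaFour)
open PowerSeries (coeff)
open scoped MatrixGroups ModularForm

/-! ### The bracket -/

/-- Six times the Serre derivative of `θ⁴`. -/
def firstFun : ℍ → ℂ := (6 : ℂ) • serreDerivative (2 : ℤ) thetaFour

/-- Its series. -/
def firstSer : PowerSeries ℤ := 6 * thetaInt thetaSer - eTwoInt * thetaSer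

/-- Three times the Serre derivative of that. -/
def secondFun : ℍ → ℂ := (3 : ℂ) • serreDerivative (4 : ℤ) firstFun

/-- Its series. -/
def secondSer : PowerSeries ℤ := 3 * thetaInt firstSer - eTwoInt * firstSer

theorem isLv_serre {N : ℕ} {k : ℤ} {f : ℍ → ℂ} (hf : IsLv N k f) :
    IsLv N (k + 2) (serreDerivative k f) where
  inv γ hγ := serreDerivative_slash_invariant hf.hol (hf.inv γ hγ)
  hol := serreDerivative_mdifferentiable _ hf.hol
  bdd A := by
    rw [serreDerivative_slash_equivariant hf.hol]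
    exact (FA.Dim.isBoundedAtImInfty_D (MDifferentiable.slash hf.hol k _) (hf.bdd A)).sub
      (((Filter.const_boundedAtFilter _ ((k : ℂ) * 12⁻¹)).mul
        EisensteinSeries.isBoundedAtImInfty_E2).mul (hf.bdd A))

theorem hasQ_serre {k : ℤ} {f : ℍ → ℂ} {A : PowerSeries ℤ} (h : HasQ 1 f (toC A)) :
    HasQ 1 (serreDerivative k f)
      (toC (thetaInt A) - ((k : ℂ) * 12⁻¹) • toC (eTwoInt * A)) := by
  rw [map_mul]
  refine cast ?_ ((hasQ_deriv h).sub ((hasQ_eTwo.mul one_pos h).smul ((k : ℂ) * 12⁻¹)))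
  congr 1
  funext z
  simp only [serreDerivative_apply, Pi.sub_apply, Pi.smul_apply, Pi.mul_apply, smul_eq_mul]
  ring

theorem hasQ_thetaFour : HasQ 1 thetaFour (toC thetaSer) := by
  rw [toC_thetaSer]
  exact Q₀.hasQ_theta.mul one_pos Q₀.hasQ_theta

theorem hasQ_firstFun : HasQ 1 firstFun (toC firstSer) := by
  have h := (hasQ_serre (k := 2) hasQ_thetaFour).smul (6 : ℂ)
  rw [firstFun]
  convert h using 1
  refine PowerSeries.ext fun n => ?_
  rw [firstSer, show (6 : PowerSeries ℤ) = PowerSeries.C (6 : ℤ) from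
    (map_ofNat (PowerSeries.C (R := ℤ)) 6).symm]
  simp only [coeff_toC, map_sub, PowerSeries.coeff_smul, PowerSeries.coeff_C_mul, smul_eq_mul]
  push_cast
  ring

theorem hasQ_secondFun : HasQ 1 secondFun (toC secondSer) := by
  have h := (hasQ_serre (k := 4) hasQ_firstFun).smul (3 : ℂ)
  rw [secondFun]
  convert h using 1
  refine PowerSeries.ext fun n => ?_
  rw [secondSer, show (3 : PowerSeries ℤ) = PowerSeries.C (3 : ℤ) from
    (map_ofNat (PowerSeries.C (R := ℤ)) 3).symm]
  simp only [coeff_toC, map_sub, PowerSeries.coeff_smul, PowerSeries.coeff_C_mul, smul_eq_mul]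
  push_cast
  ring

/-- Thirty-six times the bracket, a form of weight eight. -/
def bracketFun : ℍ → ℂ :=
  (4 : ℂ) • (thetaFour * secondFun) + (-3 : ℂ) • (firstFun * firstFun) +
    (-1 : ℂ) • (E4 * (thetaFour * thetaFour))

theorem isLv_bracketFun : IsLv 4 8 bracketFun := by
  have h1 : IsLv 4 4 firstFun := (isLv_serre isLv_thetaFour).smul (6 : ℂ)
  have h2 : IsLv 4 6 secondFun := (isLv_serre h1).smul (3 : ℂ)
  have hE : IsLv 4 4 E4 := (IsLv.of_modularForm ModularForm.E₄).of_levelOne 4
  exact (((isLv_thetaFour.mul h2).smul (4 : ℂ)).add ((h1.mul h1).smul (-3 : ℂ))).add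
    ((hE.mul (isLv_thetaFour.mul isLv_thetaFour)).smul (-1 : ℂ))

/-- The bracket `2 f D²f - 3 (Df)²` of `f = θ⁴`. -/
def bracketSer : PowerSeries ℤ :=
  2 * thetaSer * thetaInt (thetaInt thetaSer) - 3 * thetaInt thetaSer ^ 2

theorem bracket_identity :
    4 * (thetaSer * secondSer) - 3 * (firstSer * firstSer) - Qz * (thetaSer * thetaSer) =
      36 * bracketSer := by
  have hQ : eFourInt = Qz := by
    refine PowerSeries.ext fun n => ?_
    rw [FA.EightSquares.coeff_Qz, eFourInt, PowerSeries.coeff_mk]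
  have h2 := theta_eTwo
  rw [hQ, ← thetaDer_apply] at h2
  have hD : thetaDer firstSer = 6 * thetaDer (thetaDer thetaSer) -
      (eTwoInt * thetaDer thetaSer + thetaSer * thetaDer eTwoInt) := by
    have h6 : thetaDer (6 * thetaDer thetaSer) = 6 * thetaDer (thetaDer thetaSer) := by
      have e : (6 : PowerSeries ℤ) = ((6 : ℕ) : PowerSeries ℤ) := by norm_num
      rw [e, Derivation.leibniz, Derivation.map_natCast, smul_zero, add_zero, smul_eq_mul]
    rw [firstSer, ← thetaDer_apply, map_sub, h6, Derivation.leibniz, smul_eq_mul, smul_eq_mul]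
  rw [secondSer, bracketSer, ← thetaDer_apply, ← thetaDer_apply, ← thetaDer_apply, hD, firstSer,
    ← thetaDer_apply]
  linear_combination -thetaSer * thetaSer * h2

theorem hasQ_bracketFun : HasQ 1 bracketFun (toC (36 * bracketSer)) := by
  have hE : HasQ 1 E4 (toC Qz) := hasQ_E₄
  have hT := hasQ_thetaFour
  have h := ((((hT.mul one_pos hasQ_secondFun).smul (4 : ℂ)).add
    ((hasQ_firstFun.mul one_pos hasQ_firstFun).smul (-3 : ℂ))).add
      ((hE.mul one_pos (hT.mul one_pos hT)).smul (-1 : ℂ)))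
  rw [bracketFun, ← bracket_identity]
  convert h using 1
  simp only [map_sub, map_mul, PowerSeries.smul_eq_C_mul, map_ofNat, map_neg, map_one]
  ring

/-! ### The square of the bracket -/

/-- The difference of the two sides in weight sixteen. -/
def diffFun : ℍ → ℂ :=
  bracketFun * bracketFun +
    (-331776 : ℂ) • ((thetaFour * thetaFour) * dil 2 ModularForm.discriminant)

theorem isLv_diffFun : IsLv 4 16 diffFun := by
  have h1 : IsLv 1 12 ModularForm.discriminant :=
    IsLv.of_modularForm (CuspForm.discriminant : ModularForm 𝒮ℒ 12)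
  have h2 : IsLv 4 12 (dil 2 ModularForm.discriminant) :=
    { inv := fun γ hγ => (h1.dil 2).inv γ (mem_Gamma0_iff_dvd.mpr
        (dvd_trans (by norm_num) (mem_Gamma0_iff_dvd.mp hγ)))
      hol := (h1.dil 2).hol
      bdd := (h1.dil 2).bdd }
  exact (isLv_bracketFun.mul isLv_bracketFun).add
    (((isLv_thetaFour.mul isLv_thetaFour).mul h2).smul (-331776 : ℂ))

/-- The difference as a modular form. -/
def diffForm : ModularForm (Gamma0 4) 16 where
  toFun := diffFun
  slash_action_eq' := by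
    rintro _ ⟨M, hM, rfl⟩
    exact isLv_diffFun.inv M hM
  holo' := isLv_diffFun.hol
  bdd_at_cusps' := fun hc => by
    rw [Subgroup.IsArithmetic.isCusp_iff_isCusp_SL2Z] at hc
    exact isLv_diffFun.bdd.isBoundedAt hc

/-- The difference of the series. -/
def diffSer : PowerSeries ℤ :=
  1296 * (bracketSer * bracketSer - 256 * (thetaSer * thetaSer * Vp 2 deltaInt))

theorem hasQ_diffFun : HasQ 1 diffFun (toC diffSer) := by
  have hT := hasQ_thetaFour
  have h := (hasQ_bracketFun.mul one_pos hasQ_bracketFun).add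
    (((hT.mul one_pos hT).mul one_pos (FA.Tau.hasQ_discriminant.dil 2)).smul (-331776 : ℂ))
  rw [diffFun]
  convert h using 1
  simp only [diffSer, map_sub, map_mul, FA.EightSquares.toC_Vp, PowerSeries.smul_eq_C_mul,
    map_ofNat, map_neg]
  simp only [toC]
  ring

/-! ### Nine coefficients -/

/-- Agreement of the first nine coefficients with a list. -/
def Nine (A : PowerSeries ℤ) (l : List ℤ) : Prop := ∀ i < 9, coeff i A = l.getD i 0

/-- The product of two lists as series, to nine places. -/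
def mulNine (a b : List ℤ) : List ℤ :=
  (List.range 9).map fun n => ((List.range (n + 1)).map fun i => a.getD i 0 * b.getD (n - i) 0).sum

theorem getD_nine (f : ℕ → ℤ) {i : ℕ} (hi : i < 9) :
    ((List.range 9).map f).getD i 0 = f i := by
  simp [List.getD_eq_getElem?_getD, hi]

theorem Nine.mul {A B : PowerSeries ℤ} {a b c : List ℤ} (ha : Nine A a) (hb : Nine B b)
    (hc : mulNine a b = c) : Nine (A * B) c := fun n hn => by
  subst hc
  rw [mulNine, getD_nine _ hn, PowerSeries.coeff_mul,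
    Finset.Nat.sum_antidiagonal_eq_sum_range_succ_mk]
  have : ∀ (m : ℕ) (g : ℕ → ℤ), ∑ i ∈ Finset.range m, g i = ((List.range m).map g).sum :=
    fun m g => rfl
  rw [← this]
  refine Finset.sum_congr rfl fun i hi => ?_
  rw [Finset.mem_range] at hi
  rw [ha i (by omega), hb (n - i) (by omega)]

theorem nine_thetaInt {A : PowerSeries ℤ} {a c : List ℤ} (ha : Nine A a)
    (hc : ((List.range 9).map fun n : ℕ => (n : ℤ) * a.getD n 0) = c) :
    Nine (thetaInt A) c := fun n hn => by
  subst hc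
  rw [getD_nine _ hn, thetaInt, PowerSeries.coeff_mk, ha n hn]

theorem nine_thetaSer : Nine thetaSer [1, 8, 24, 32, 24, 48, 96, 64, 24] := fun i hi => by
  rw [thetaSer, PowerSeries.coeff_mk]
  rcases Nat.eq_zero_or_pos i with rfl | h0
  · rw [FA.EightSquares.rep4_zero]; rfl
  rw [rep4, FA.Summary.jacobi_four_squares h0]
  interval_cases i <;> decide +kernel

theorem Nine.sub {A B : PowerSeries ℤ} {a b c : List ℤ} (ha : Nine A a) (hb : Nine B b)
    (hc : ((List.range 9).map fun n => a.getD n 0 - b.getD n 0) = c) : Nine (A - B) c :=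
  fun n hn => by
  subst hc
  rw [getD_nine _ hn, map_sub, ha n hn, hb n hn]

theorem nine_C (k : ℤ) : Nine (PowerSeries.C k) [k] := fun i hi => by
  rw [PowerSeries.coeff_C]
  interval_cases i <;> rfl

theorem nine_deltaInt_dil : Nine (Vp 2 deltaInt) [0, 0, 1, 0, -24, 0, 252, 0, -1472] :=
    fun i hi => by
  have h5 := FA.CurveRed.Haupt.five_etaUnit
  rw [coeff_Vp]
  interval_cases i <;> simp only [deltaInt] <;>
    norm_num [PowerSeries.coeff_succ_X_mul, h5 0 (by norm_num), h5 1 (by norm_num),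
      h5 2 (by norm_num), h5 3 (by norm_num)]

theorem nine_bracketSer :
    Nine bracketSer [0, 16, 128, 192, -1024, -3360, 1536, 16256, 8192] := by
  have hT := nine_thetaSer
  have h1 : Nine (thetaInt thetaSer) [0, 8, 48, 96, 96, 240, 576, 448, 192] :=
    nine_thetaInt hT (by decide)
  have h2 : Nine (thetaInt (thetaInt thetaSer)) [0, 8, 96, 288, 384, 1200, 3456, 3136, 1536] :=
    nine_thetaInt h1 (by decide)
  rw [bracketSer, mul_assoc, pow_two, ← map_ofNat (PowerSeries.C (R := ℤ)) 2,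
    ← map_ofNat (PowerSeries.C (R := ℤ)) 3]
  exact ((nine_C 2).mul (hT.mul h2 rfl) rfl).sub ((nine_C 3).mul (h1.mul h1 rfl) rfl)
    (by decide +kernel)

theorem bracketSer_sq :
    bracketSer * bracketSer = 256 * (thetaSer * thetaSer * Vp 2 deltaInt) := by
  have h9 : Nine (bracketSer * bracketSer - 256 * (thetaSer * thetaSer * Vp 2 deltaInt))
      [0, 0, 0, 0, 0, 0, 0, 0, 0] := by
    rw [← map_ofNat (PowerSeries.C (R := ℤ)) 256]
    exact (nine_bracketSer.mul nine_bracketSer rfl).sub
      ((nine_C 256).mul ((nine_thetaSer.mul nine_thetaSer rfl).mul nine_deltaInt_dil rfl) rfl)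
      (by decide +kernel)
  have hF : diffForm = 0 := ModularForm.sturm_bound_Gamma0 4 diffForm fun m hm => by
    rw [index_four] at hm
    have hm8 : m < 9 := by norm_num at hm; omega
    show coeff m (qExpansion 1 diffFun) = 0
    rw [hasQ_diffFun.qExpansion_eq one_pos, coeff_toC, Int.cast_eq_zero, diffSer,
      ← map_ofNat (PowerSeries.C (R := ℤ)) 1296, PowerSeries.coeff_C_mul, h9 m hm8]
    interval_cases m <;> rfl
  have h0 : toC diffSer = 0 := HasQ.eq_zero_of_fun (h := 1) (by
    have e : (0 : ℍ → ℂ) = diffFun := (congrArg DFunLike.coe hF).symm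
    rw [e]; exact hasQ_diffFun) one_pos
  refine PowerSeries.ext fun n => sub_eq_zero.1 ?_
  have h := congrArg (coeff n) h0
  rw [coeff_toC, map_zero, Int.cast_eq_zero, diffSer, ← map_ofNat (PowerSeries.C (R := ℤ)) 1296,
    PowerSeries.coeff_C_mul, mul_eq_zero] at h
  rw [← map_sub]
  exact h.resolve_left (by norm_num)

/-- The series `q ∏ (1 - q^(2m))^12` of `η(2z)¹²`. -/
def etaTwelveSer : PowerSeries ℤ :=
  PowerSeries.X * PowerSeries.expand 2 two_ne_zero (ModularCurve.etaProd ^ 12)

theorem etaTwelveSer_sq : etaTwelveSer * etaTwelveSer = Vp 2 deltaInt := by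
  show _ = PowerSeries.expand 2 _ deltaInt
  rw [etaTwelveSer, deltaInt, map_mul, PowerSeries.expand_X, ModularCurve.dedekindEtaUnit,
    show (24 : ℕ) = 12 + 12 from rfl, pow_add, map_mul]
  ring

theorem bracketSer_eq : bracketSer = 16 * (thetaSer * etaTwelveSer) := by
  have hsq : bracketSer * bracketSer =
      16 * (thetaSer * etaTwelveSer) * (16 * (thetaSer * etaTwelveSer)) := by
    rw [bracketSer_sq, ← etaTwelveSer_sq]
    ring
  refine (mul_self_eq_mul_self_iff.1 hsq).resolve_right fun h => ?_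
  have h1 := congrArg (coeff 1) h
  rw [nine_bracketSer 1 (by norm_num), map_neg, ← map_ofNat (PowerSeries.C (R := ℤ)) 16,
    PowerSeries.coeff_C_mul, etaTwelveSer, PowerSeries.coeff_mul,
    Finset.Nat.sum_antidiagonal_eq_sum_range_succ_mk, Finset.sum_range_succ,
    Finset.sum_range_one] at h1
  rw [nine_thetaSer 0 (by norm_num), nine_thetaSer 1 (by norm_num)] at h1
  norm_num [PowerSeries.coeff_succ_X_mul, PowerSeries.coeff_expand,
    ModularCurve.constantCoeff_etaProd] at h1

/-! ### The combinatorics of one squared variable -/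

/-- A series of sums over the fibres of a value. -/
def fibreSer {α : Type} (S : ℕ → Finset α) (g : α → ℤ) : PowerSeries ℤ :=
  PowerSeries.mk fun n => ∑ a ∈ S n, g a

theorem fibreSer_mul {α β γ : Type} {S : ℕ → Finset α} {T : ℕ → Finset β} {U : ℕ → Finset γ}
    (qS : α → ℕ) (hS : ∀ n a, a ∈ S n ↔ qS a = n) (qT : β → ℕ) (hT : ∀ n b, b ∈ T n ↔ qT b = n)
    (e : γ ≃ α × β) (hU : ∀ n c, c ∈ U n ↔ qS (e c).1 + qT (e c).2 = n) (g : α → ℤ) (h : β → ℤ) :
    fibreSer S g * fibreSer T h = fibreSer U fun c => g (e c).1 * h (e c).2 := by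
  refine PowerSeries.ext fun n => ?_
  simp only [PowerSeries.coeff_mul, fibreSer, PowerSeries.coeff_mk, Finset.sum_mul_sum,
    ← Finset.sum_product']
  rw [Finset.sum_sigma']
  refine Finset.sum_nbij' (fun x => e.symm x.2) (fun c => ⟨(qS (e c).1, qT (e c).2), e c⟩)
    (fun x hx => ?_) (fun c hc => ?_) (fun x hx => ?_) (fun c _ => by simp) fun x _ => by simp
  · obtain ⟨h1, h2⟩ := Finset.mem_sigma.1 hx
    rw [Finset.mem_product, hS, hT] at h2
    rw [hU, e.apply_symm_apply, h2.1, h2.2]
    exact Finset.HasAntidiagonal.mem_antidiagonal.1 h1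
  · rw [Finset.mem_sigma, Finset.mem_product, hS, hT, Finset.HasAntidiagonal.mem_antidiagonal]
    exact ⟨(hU n c).1 hc, rfl, rfl⟩
  · obtain ⟨h1, h2⟩ := Finset.mem_sigma.1 hx
    rw [Finset.mem_product, hS, hT] at h2
    simp [h2.1, h2.2]

/-- The roots of `n`. -/
def ones (n : ℕ) : Finset ℤ := (Finset.Icc (-(n : ℤ)) n).filter fun s => s.natAbs ^ 2 = n

theorem mem_ones (n : ℕ) (s : ℤ) : s ∈ ones n ↔ s.natAbs ^ 2 = n := by
  simp only [ones, Finset.mem_filter, Finset.mem_Icc, and_iff_right_iff_imp]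
  intro h
  have := Nat.le_self_pow two_ne_zero s.natAbs
  omega

/-- The representations by two squares. -/
def twos (n : ℕ) : Finset (ℤ × ℤ) := ((Finset.Icc (-(n : ℤ)) n) ×ˢ (Finset.Icc (-(n : ℤ)) n)).filter
  fun v => v.1.natAbs ^ 2 + v.2.natAbs ^ 2 = n

theorem mem_twos (n : ℕ) (v : ℤ × ℤ) : v ∈ twos n ↔ v.1.natAbs ^ 2 + v.2.natAbs ^ 2 = n := by
  simp only [twos, Finset.mem_filter, Finset.mem_product, Finset.mem_Icc, and_iff_right_iff_imp]
  intro h
  have := Nat.le_self_pow two_ne_zero v.1.natAbs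
  have := Nat.le_self_pow two_ne_zero v.2.natAbs
  omega

theorem mem_fours_natAbs (n : ℕ) (v : ℤ × ℤ × ℤ × ℤ) : v ∈ FA.HurwitzQ.fours n ↔
    v.1.natAbs ^ 2 + v.2.1.natAbs ^ 2 + (v.2.2.1.natAbs ^ 2 + v.2.2.2.natAbs ^ 2) = n := by
  rw [FA.HurwitzQ.mem_fours, ← add_assoc]
  zify
  simp only [sq_abs]

/-- The series of `∑ sᵏ q^(s²)`. -/
def powSer (k : ℕ) : PowerSeries ℤ := fibreSer ones fun s => s ^ k

theorem thetaInt_powSer (k : ℕ) : thetaInt (powSer k) = powSer (k + 2) := by
  refine PowerSeries.ext fun n => ?_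
  simp only [powSer, fibreSer, thetaInt, PowerSeries.coeff_mk, Finset.mul_sum]
  refine Finset.sum_congr rfl fun s hs => ?_
  rw [show (n : ℤ) = s ^ 2 by rw [← (mem_ones n s).1 hs, Nat.cast_pow, Int.natAbs_sq], ← pow_add,
    add_comm]

theorem powSer_prod (k : ℕ) :
    powSer k * powSer 0 * (powSer 0 * powSer 0) =
      fibreSer FA.HurwitzQ.fours fun v => v.1 ^ k := by
  have h2 : ∀ i j, powSer i * powSer j = fibreSer twos fun v => v.1 ^ i * v.2 ^ j := fun i j =>
    fibreSer_mul (fun s : ℤ => s.natAbs ^ 2) mem_ones (fun s : ℤ => s.natAbs ^ 2) mem_ones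
      (Equiv.refl _) mem_twos (fun s => s ^ i) fun s => s ^ j
  rw [h2, h2, fibreSer_mul (fun v : ℤ × ℤ => v.1.natAbs ^ 2 + v.2.natAbs ^ 2) mem_twos
    (fun v : ℤ × ℤ => v.1.natAbs ^ 2 + v.2.natAbs ^ 2) mem_twos
    (Equiv.prodAssoc ℤ ℤ (ℤ × ℤ)).symm mem_fours_natAbs]
  simp

theorem thetaSer_eq : thetaSer = powSer 0 * powSer 0 * (powSer 0 * powSer 0) := by
  rw [powSer_prod]
  refine PowerSeries.ext fun n => ?_
  simp [thetaSer, fibreSer, rep4, ← FA.HurwitzQ.natCard_fours]

/-- The coefficient of `qⁿ` in `η(2z)¹² = q ∏ (1 - q^(2m))¹²`. -/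
def etaTwelve (n : ℕ) : ℤ := coeff n etaTwelveSer

/-- **The quartic moment of four squares.** -/
theorem sum_fours_quartic (n : ℕ) :
    8 * ∑ v ∈ FA.HurwitzQ.fours n, v.1 ^ 4 =
      (n : ℤ) ^ 2 * (FA.HurwitzQ.fours n).card + 8 * etaTwelve n := by
  set T4 : PowerSeries ℤ := fibreSer FA.HurwitzQ.fours fun v => v.1 ^ 4
  have key : 8 * T4 = thetaInt (thetaInt thetaSer) + 8 * etaTwelveSer := by
    have hne : (2 : PowerSeries ℤ) * thetaSer ≠ 0 := fun h => by
      have h0 := congrArg (coeff 0) h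
      rw [← map_ofNat (PowerSeries.C (R := ℤ)) 2, PowerSeries.coeff_C_mul,
        nine_thetaSer 0 (by norm_num)] at h0
      norm_num at h0
    refine mul_left_cancel₀ hne ?_
    rw [mul_add, show 2 * thetaSer * (8 * etaTwelveSer) = bracketSer by rw [bracketSer_eq]; ring,
      bracketSer, show T4 = powSer 4 * powSer 0 * (powSer 0 * powSer 0) from (powSer_prod 4).symm,
      thetaSer_eq, ← thetaDer_apply, ← thetaDer_apply]
    simp only [Derivation.leibniz, smul_eq_mul, map_add, thetaDer_apply, thetaInt_powSer]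
    ring
  have h := congrArg (coeff n) key
  rw [map_add, ← map_ofNat (PowerSeries.C (R := ℤ)) 8, PowerSeries.coeff_C_mul,
    PowerSeries.coeff_C_mul] at h
  simp only [T4, fibreSer, PowerSeries.coeff_mk, thetaInt] at h
  rw [h, thetaSer, PowerSeries.coeff_mk, rep4, ← FA.HurwitzQ.natCard_fours, etaTwelve]
  ring

end FA.QuarticTheta

end
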