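import Mathlib.Tactic

/-!
# Positive ternary forms of determinant one

Such a form, written `a x² + b y² + c z² + 2 f y z + 2 g x z + 2 h x y`, takes only values which are
sums of three squares: a form in its class with the least `a`, then the least `a b - h²` and
`a c - g²`, is the sum of three squares.
-/

set_option autoImplicit false

namespace FA.Forms3

/-- The value of the form. -/
def val (a b c f g h x y z : ℤ) : ℤ :=
  a * x ^ 2 + b * y ^ 2 + c * z ^ 2 + 2 * f * y * z + 2 * g * x * z + 2 * h * x * y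

/-- The determinant of the form. -/
def det3 (a b c f g h : ℤ) : ℤ :=
  a * b * c + 2 * f * g * h - a * f ^ 2 - b * g ^ 2 - c * h ^ 2

theorem exists_squares_val : ∀ a b c f g h : ℤ, 0 < a → 0 < a * b - h ^ 2 →
    det3 a b c f g h = 1 → ∀ x y z : ℤ, ∃ u v w : ℤ,
      val a b c f g h x y z = u ^ 2 + v ^ 2 + w ^ 2 ∧
        ∀ d : ℤ, d ∣ u → d ∣ v → d ∣ w → d ∣ x ∧ d ∣ y ∧ d ∣ z
  | a, b, c, f, g, h, ha, hM, hd, x, y, z => by
    set N := a * f - g * h with hN
    have hMP : (a * b - h ^ 2) * (a * c - g ^ 2) - N ^ 2 = a := by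
      calc _ = a * det3 a b c f g h := by rw [hN]; unfold det3; ring
        _ = a := by rw [hd, mul_one]
    have hP : 0 < a * c - g ^ 2 := by
      by_contra hc
      push Not at hc
      nlinarith [mul_nonpos_of_nonneg_of_nonpos hM.le hc, sq_nonneg N]
    obtain ⟨k, hk1, hk2⟩ : ∃ k : ℤ, -a ≤ 2 * (h + k * a) ∧ 2 * (h + k * a) ≤ a := by
      have hm := Int.emod_nonneg h ha.ne'
      have hl := Int.emod_lt_of_pos h ha
      have he : h + -(h / a) * a = h % a := by rw [Int.emod_def]; ring
      by_cases hle : 2 * (h % a) ≤ a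
      · exact ⟨-(h / a), by rw [he]; omega, by rw [he]; exact hle⟩
      · refine ⟨-(h / a) - 1, ?_, ?_⟩ <;>
          rw [show h + (-(h / a) - 1) * a = h + -(h / a) * a - a by ring, he] <;> omega
    set h' := h + k * a with hh'
    set b' := b + 2 * k * h + k ^ 2 * a with hb'
    have hM' : a * b' - h' ^ 2 = a * b - h ^ 2 := by rw [hb', hh']; ring
    by_cases hba : b' < a
    · -- a smaller first coefficient
      have hb0 : 0 < b' := by
        by_contra hc
        push Not at hc
        nlinarith [mul_nonpos_of_nonneg_of_nonpos ha.le hc, sq_nonneg h']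
      obtain ⟨u, v, w, e, hdvd⟩ := exists_squares_val b' a c g (f + k * g) h' hb0
        (by rw [mul_comm b']; linarith)
        (by rw [← hd, hb', hh']; unfold det3; ring) y (x - k * y) z
      refine ⟨u, v, w, by rw [← e, hb', hh']; unfold val; ring, fun d d1 d2 d3 => ?_⟩
      obtain ⟨hy, hxy, hz⟩ := hdvd d d1 d2 d3
      refine ⟨?_, hy, hz⟩
      have := dvd_add hxy (dvd_mul_of_dvd_right hy k)
      rwa [sub_add_cancel] at this
    by_cases hPM : a * c - g ^ 2 < a * b - h ^ 2
    · -- a smaller second minor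
      obtain ⟨u, v, w, e, hdvd⟩ := exists_squares_val a c b f h g ha hP
        (by rw [← hd]; unfold det3; ring) x z y
      exact ⟨u, v, w, by rw [← e]; unfold val; ring, fun d d1 d2 d3 =>
        let ⟨hx, hz, hy⟩ := hdvd d d1 d2 d3; ⟨hx, hy, hz⟩⟩
    by_cases hNM : a * b - h ^ 2 < 2 * |N|
    · -- a smaller third minor
      obtain ⟨s, hs, hsN⟩ : ∃ s : ℤ, s ^ 2 = 1 ∧ s * N = -|N| := by
        rcases abs_choice N with e | e
        · exact ⟨-1, by norm_num, by rw [e]; ring⟩
        · exact ⟨1, by norm_num, by rw [e]; ring⟩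
      have hP' : a * (c + 2 * s * f + s ^ 2 * b) - (g + s * h) ^ 2 < a * c - g ^ 2 := by
        calc a * (c + 2 * s * f + s ^ 2 * b) - (g + s * h) ^ 2
            = (a * c - g ^ 2) + 2 * (s * N) + s ^ 2 * (a * b - h ^ 2) := by rw [hN]; ring
          _ < a * c - g ^ 2 := by rw [hs, hsN]; linarith
      obtain ⟨u, v, w, e, hdvd⟩ := exists_squares_val a b (c + 2 * s * f + s ^ 2 * b) (f + s * b)
        (g + s * h) h ha hM (by rw [← hd]; unfold det3; ring) x (y - s * z) z
      refine ⟨u, v, w, by rw [← e]; unfold val; ring, fun d d1 d2 d3 => ?_⟩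
      obtain ⟨hx, hyz, hz⟩ := hdvd d d1 d2 d3
      refine ⟨hx, ?_, hz⟩
      have := dvd_add hyz (dvd_mul_of_dvd_right hz s)
      rwa [sub_add_cancel] at this
    -- the reduced case
    push Not at hba hPM hNM
    set M := a * b - h ^ 2 with hMd
    set P := a * c - g ^ 2 with hPd
    have hh2 : 4 * h' ^ 2 ≤ a ^ 2 := by nlinarith
    have hlow : 3 * a ^ 2 ≤ 4 * M := by nlinarith
    have hN2 : 4 * N ^ 2 ≤ M ^ 2 := by
      have := abs_nonneg N
      nlinarith [sq_abs N]
    have hup : 3 * M ^ 2 ≤ 4 * a := by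
      nlinarith [mul_le_mul_of_nonneg_left hPM hM.le]
    have ha1 : a = 1 := by
      by_contra hne
      have h2 : 2 ≤ a := by omega
      have h3 : 9 * a ^ 4 ≤ 16 * M ^ 2 := by
        calc 9 * a ^ 4 = (3 * a ^ 2) * (3 * a ^ 2) := by ring
          _ ≤ (4 * M) * (4 * M) := mul_le_mul hlow hlow (by positivity) (by positivity)
          _ = 16 * M ^ 2 := by ring
      have h8 : 8 ≤ a ^ 3 := by nlinarith
      nlinarith [mul_le_mul_of_nonneg_left h8 (show 0 ≤ a by omega)]
    subst ha1
    have hM1 : M = 1 := by nlinarith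
    have hN0 : N = 0 := by
      have : |N| = 0 := by have := abs_nonneg N; omega
      exact abs_eq_zero.mp this
    have hP1 : P = 1 := by rw [hM1, hN0] at hMP; linarith
    refine ⟨x + h * y + g * z, y, z, ?_, fun d d1 d2 d3 => ⟨?_, d2, d3⟩⟩
    swap
    · have := dvd_sub (dvd_sub d1 (dvd_mul_of_dvd_right d2 h)) (dvd_mul_of_dvd_right d3 g)
      rwa [show x + h * y + g * z - h * y - g * z = x by ring] at this
    have e : val 1 b c f g h x y z =
        (x + h * y + g * z) ^ 2 + M * y ^ 2 + 2 * N * y * z + P * z ^ 2 := by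
      rw [hMd, hN, hPd]; unfold val; ring
    rw [e, hM1, hN0, hP1]; ring
termination_by a b c _ g h => (a.toNat, (a * b - h ^ 2).toNat, (a * c - g ^ 2).toNat)
decreasing_by
  · exact Prod.Lex.left _ _ (by omega)
  · exact Prod.Lex.right _ (Prod.Lex.left _ _ (by omega))
  · exact Prod.Lex.right _ (Prod.Lex.right _ (by omega))

/-- It takes only values which are sums of three squares. -/
theorem isSumThreeSquares_val (a b c f g h : ℤ) (ha : 0 < a) (hM : 0 < a * b - h ^ 2)
    (hd : det3 a b c f g h = 1) (x y z : ℤ) :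
    ∃ u v w : ℤ, val a b c f g h x y z = u ^ 2 + v ^ 2 + w ^ 2 :=
  let ⟨u, v, w, e, _⟩ := exists_squares_val a b c f g h ha hM hd x y z
  ⟨u, v, w, e⟩

end FA.Forms3
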