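import Mathlib

/-!
# Schoenberg's theorem in every degree

The zonal polynomial `∑ eᵢ (x·Y)^(k - 2i) |Y|^(2i)` is harmonic in `Y`. In Fischer's inner product
multiplication by `|Y|²` is adjoint to the Laplacian and `(x·Y)^k` evaluates at `x`, so the
matrix of values of the zonal polynomials is a Gram matrix.
-/

set_option autoImplicit false

noncomputable section

namespace FA.Zonal

open MvPolynomial

variable {n : ℕ}

/-- The weight `∏ dᵢ!` of a monomial. -/
def wgt (d : Fin n →₀ ℕ) : ℝ := ∏ i, ((d i).factorial : ℝ)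

/-- Fischer's inner product. -/
def fischer (Q : MvPolynomial (Fin n) ℝ) : MvPolynomial (Fin n) ℝ →ₗ[ℝ] ℝ where
  toFun P := ∑ d ∈ P.support ∪ Q.support, wgt d * P.coeff d * Q.coeff d
  map_add' P R := by
    have e : ∀ S : MvPolynomial (Fin n) ℝ,
        ∑ d ∈ S.support ∪ Q.support, wgt d * S.coeff d * Q.coeff d =
          ∑ d ∈ Q.support, wgt d * S.coeff d * Q.coeff d := fun S =>
      (Finset.sum_subset Finset.subset_union_right fun d _ hd => by
        rw [notMem_support_iff.1 hd, mul_zero]).symm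
    rw [e, e, e, ← Finset.sum_add_distrib]
    exact Finset.sum_congr rfl fun d _ => by rw [coeff_add]; ring
  map_smul' c P := by
    have e : ∀ S : MvPolynomial (Fin n) ℝ,
        ∑ d ∈ S.support ∪ Q.support, wgt d * S.coeff d * Q.coeff d =
          ∑ d ∈ Q.support, wgt d * S.coeff d * Q.coeff d := fun S =>
      (Finset.sum_subset Finset.subset_union_right fun d _ hd => by
        rw [notMem_support_iff.1 hd, mul_zero]).symm
    rw [e, e, RingHom.id_apply, smul_eq_mul, Finset.mul_sum]
    exact Finset.sum_congr rfl fun d _ => by rw [coeff_smul, smul_eq_mul]; ring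

theorem fischer_apply (P Q : MvPolynomial (Fin n) ℝ) :
    fischer Q P = ∑ d ∈ Q.support, wgt d * P.coeff d * Q.coeff d :=
  (Finset.sum_subset Finset.subset_union_right fun d _ hd => by
    rw [notMem_support_iff.1 hd, mul_zero]).symm

theorem fischer_self_nonneg (P : MvPolynomial (Fin n) ℝ) : 0 ≤ fischer P P := by
  rw [fischer_apply]
  refine Finset.sum_nonneg fun d _ => ?_
  rw [mul_assoc]
  exact mul_nonneg (Finset.prod_nonneg fun i _ => Nat.cast_nonneg _) (mul_self_nonneg _)

/-- Multiplying by a variable is adjoint to differentiating. -/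
theorem fischer_X_mul (j : Fin n) (R Q : MvPolynomial (Fin n) ℝ) :
    fischer Q (X j * R) = fischer (pderiv j Q) R := by
  induction R using MvPolynomial.induction_on' with
  | add P P' h h' => rw [mul_add, map_add, map_add, h, h']
  | monomial d a =>
    have hw : wgt (Finsupp.single j 1 + d) = (d j + 1 : ℕ) * wgt d := by
      simp only [wgt]
      rw [← Finset.mul_prod_erase _ _ (Finset.mem_univ j),
        ← Finset.mul_prod_erase (f := fun i => ((d i).factorial : ℝ)) _ (Finset.mem_univ j),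
        Finset.prod_congr rfl fun i hi => by
          rw [Finsupp.add_apply, Finsupp.single_eq_of_ne (Finset.ne_of_mem_erase hi), zero_add],
        Finsupp.add_apply, Finsupp.single_eq_same, add_comm 1 (d j), Nat.factorial_succ]
      push_cast
      ring
    have hX : X j * monomial d a = monomial (Finsupp.single j 1 + d) a := by
      rw [X, monomial_mul, one_mul]
    have hsum : ∀ (e : Fin n →₀ ℕ) (S : MvPolynomial (Fin n) ℝ),
        fischer S (monomial e a) = wgt e * a * S.coeff e := fun e S => by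
      rw [fischer_apply, Finset.sum_eq_single e]
      · rw [coeff_monomial, if_pos rfl]
      · exact fun b _ hb => by rw [coeff_monomial, if_neg hb.symm, mul_zero, zero_mul]
      · exact fun he => by rw [notMem_support_iff.1 he, mul_zero]
    rw [hX, hsum, hsum, hw, coeff_pderiv, add_comm (Finsupp.single j 1)]
    push_cast
    ring

/-- The linear form `x·Y`. -/
def lin (x : Fin n → ℝ) : MvPolynomial (Fin n) ℝ := ∑ j, C (x j) * X j

/-- The squared length `|Y|²`. -/
def sqLen (n : ℕ) : MvPolynomial (Fin n) ℝ := ∑ j, X j * X j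

/-- The Laplacian. -/
def lap (Q : MvPolynomial (Fin n) ℝ) : MvPolynomial (Fin n) ℝ := ∑ j, pderiv j (pderiv j Q)

theorem fischer_sqLen_mul (R Q : MvPolynomial (Fin n) ℝ) :
    fischer Q (sqLen n * R) = fischer (lap Q) R := by
  have h : ∀ j, fischer Q (X j * X j * R) = fischer (pderiv j (pderiv j Q)) R := fun j => by
    rw [mul_assoc, fischer_X_mul, fischer_X_mul]
  rw [sqLen, Finset.sum_mul, map_sum, Finset.sum_congr rfl fun j _ => h j]
  simp only [fischer_apply, lap]
  rw [Finset.sum_congr rfl fun j _ => show _ = ∑ d ∈ Finset.univ.biUnion fun i =>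
      (pderiv i (pderiv i Q)).support, wgt d * R.coeff d * (pderiv j (pderiv j Q)).coeff d from
    Finset.sum_subset (Finset.subset_biUnion_of_mem (fun i => (pderiv i (pderiv i Q)).support)
      (Finset.mem_univ j)) fun d _ hd => by rw [notMem_support_iff.1 hd, mul_zero]]
  rw [Finset.sum_comm, eq_comm]
  refine (Finset.sum_subset support_sum fun d _ hd => ?_).trans
    (Finset.sum_congr rfl fun d _ => by rw [coeff_sum, Finset.mul_sum])
  rw [notMem_support_iff.1 hd, mul_zero]

theorem fischer_C_mul (c : ℝ) (R Q : MvPolynomial (Fin n) ℝ) :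
    fischer Q (C c * R) = c * fischer Q R := by
  rw [← smul_eq_C_mul, map_smul, smul_eq_mul]

/-- `(x·Y)^k` evaluates the forms of degree `k` at `x`. -/
theorem fischer_lin_pow (x : Fin n → ℝ) :
    ∀ (k : ℕ) (Q : MvPolynomial (Fin n) ℝ), Q.IsHomogeneous k →
      fischer Q (lin x ^ k) = k.factorial * eval x Q := by
  intro k
  induction k with
  | zero =>
    intro Q hQ
    rw [pow_zero, fischer_apply, Nat.factorial_zero, Nat.cast_one, one_mul]
    have hC := hQ.totalDegree_le
    rw [Nat.le_zero, totalDegree_eq_zero_iff_eq_C] at hC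
    conv_rhs => rw [hC, eval_C]
    rw [Finset.sum_eq_single 0]
    · simp [wgt]
    · exact fun d _ hd => by rw [coeff_one, if_neg hd.symm, mul_zero, zero_mul]
    · exact fun h => by rw [notMem_support_iff.1 h, mul_zero]
  | succ k ih =>
    intro Q hQ
    rw [pow_succ', lin, Finset.sum_mul, map_sum]
    simp only [mul_assoc, fischer_C_mul, fischer_X_mul]
    have hh : ∀ j, (pderiv j Q).IsHomogeneous k := fun j => by simpa using hQ.pderiv (i := j)
    have he := congrArg (eval x) hQ.sum_X_mul_pderiv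
    simp only [map_sum, map_mul, eval_X, nsmul_eq_mul, map_natCast] at he
    rw [Finset.sum_congr rfl fun j _ => by rw [← lin, ih _ (hh j)], Nat.factorial_succ]
    push_cast
    rw [mul_comm ((k : ℝ) + 1), mul_assoc, ← Nat.cast_add_one, ← he, Finset.mul_sum]
    exact Finset.sum_congr rfl fun j _ => by ring

/-- The coefficients of the monic Gegenbauer polynomial of degree `k` in dimension `n`. -/
def gegC (n k : ℕ) : ℕ → ℝ
  | 0 => 1
  | i + 1 => -gegC n k i * (((k - 2 * i : ℕ) : ℝ) * (((k - 2 * i : ℕ) : ℝ) - 1)) /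
      (2 * ((i : ℝ) + 1) * ((n : ℝ) + 2 * k - 4 - 2 * i))

/-- **The monic Gegenbauer polynomial** of degree `k` for the sphere in dimension `n`. -/
def gegPoly (n k : ℕ) (t : ℝ) : ℝ :=
  ∑ i ∈ Finset.range (k / 2 + 1), gegC n k i * t ^ (k - 2 * i)

/-- The zonal polynomial with pole `x`. -/
def zonal (k : ℕ) (x : Fin n → ℝ) : MvPolynomial (Fin n) ℝ :=
  ∑ i ∈ Finset.range (k / 2 + 1), C (gegC n k i) * (lin x ^ (k - 2 * i) * sqLen n ^ i)

theorem pderiv_lin (x : Fin n → ℝ) (j : Fin n) : pderiv j (lin x) = C (x j) := by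
  simp only [lin, map_sum, pderiv_C_mul, pderiv_X]
  rw [Finset.sum_eq_single j (fun b _ hb => by simp [hb]) (by simp)]
  simp

theorem pderiv_sqLen (j : Fin n) : pderiv j (sqLen n) = 2 * X j := by
  simp only [sqLen, map_sum, pderiv_mul, pderiv_X]
  rw [Finset.sum_eq_single j (fun b _ hb => by simp [hb]) (by simp)]
  simp [two_mul]

theorem isHomogeneous_zonal (k : ℕ) (x : Fin n → ℝ) : (zonal k x).IsHomogeneous k := by
  refine IsHomogeneous.sum _ _ _ fun i hi => ?_
  have hi := Finset.mem_range.1 hi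
  have h1 : (lin x).IsHomogeneous 1 := IsHomogeneous.sum _ _ _ fun j _ => by
    simpa using (isHomogeneous_X ℝ j).C_mul (x j)
  have h2 : (sqLen n).IsHomogeneous 2 :=
    IsHomogeneous.sum _ _ _ fun j _ => (isHomogeneous_X ℝ j).mul (isHomogeneous_X ℝ j)
  convert ((h1.pow (k - 2 * i)).mul (h2.pow i)).C_mul (gegC n k i) using 1
  omega

/-- The Laplacian of `(x·Y)^m |Y|^(2i)` for a unit vector `x`. -/
theorem lap_term {x : Fin n → ℝ} (hx : ∑ j, x j ^ 2 = 1) (m i : ℕ) :
    lap (lin x ^ m * sqLen n ^ i) =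
      C ((m : ℝ) * ((m : ℝ) - 1)) * (lin x ^ (m - 2) * sqLen n ^ i) +
      C (2 * (i : ℝ) * (2 * m + n + 2 * ((i : ℝ) - 1))) * (lin x ^ m * sqLen n ^ (i - 1)) := by
  set A := lin x
  set B := sqLen n
  have hterm : ∀ j, pderiv j (pderiv j (A ^ m * B ^ i)) =
      C ((m : ℝ) * ((m : ℝ) - 1)) * (A ^ (m - 2) * B ^ i) * C (x j ^ 2) +
      C (4 * (m : ℝ) * i) * (A ^ (m - 1) * B ^ (i - 1)) * (C (x j) * X j) +
      C (2 * (i : ℝ)) * (A ^ m * B ^ (i - 1)) +
      C (4 * (i : ℝ) * ((i : ℝ) - 1)) * (A ^ m * B ^ (i - 2)) * (X j * X j) := fun j => by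
    simp only [A, B, pderiv_mul, pderiv_pow, pderiv_lin, pderiv_sqLen, map_add, pderiv_C,
      Derivation.map_natCast, pderiv_X, Pi.single_eq_same, map_mul, map_sub, map_pow,
      map_ofNat, map_natCast, map_one]
    rw [show pderiv j (2 : MvPolynomial (Fin n) ℝ) = 0 from Derivation.map_natCast _ 2]
    rcases m with _ | _ | m <;> rcases i with _ | _ | i <;> simp <;> ring
  rw [lap, Finset.sum_congr rfl fun j _ => hterm j, Finset.sum_add_distrib, Finset.sum_add_distrib,
    Finset.sum_add_distrib]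
  simp only [← Finset.mul_sum, ← map_sum, hx, Finset.sum_const, Finset.card_univ, Fintype.card_fin,
    nsmul_eq_mul]
  rw [show (∑ j, C (x j) * X j) = A from rfl, show (∑ j : Fin n, X j * X j) = B from rfl]
  simp only [map_mul, map_add, map_sub, map_ofNat, map_natCast, map_one]
  rcases m with _ | m <;> rcases i with _ | _ | i <;> simp [pow_succ] <;> ring

/-- **The zonal polynomial is harmonic.** -/
theorem lap_zonal (hn : 0 < n) (k : ℕ) {x : Fin n → ℝ} (hx : ∑ j, x j ^ 2 = 1) :
    lap (zonal k x) = 0 := by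
  have hadd : lap (zonal k x) = ∑ i ∈ Finset.range (k / 2 + 1),
      C (gegC n k i) * lap (lin x ^ (k - 2 * i) * sqLen n ^ i) := by
    simp only [lap, zonal, map_sum, pderiv_C_mul, Finset.mul_sum]
    exact Finset.sum_comm
  rw [hadd]
  simp only [lap_term hx]
  rw [Finset.sum_congr rfl fun i _ => mul_add _ _ _, Finset.sum_add_distrib]
  rw [Finset.sum_range_succ, Finset.sum_range_succ' (fun i => C (gegC n k i) *
    (C (2 * (i : ℝ) * (2 * ((k - 2 * i : ℕ) : ℝ) + n + 2 * ((i : ℝ) - 1))) *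
      (lin x ^ (k - 2 * i) * sqLen n ^ (i - 1))))]
  have hlast : ((k - 2 * (k / 2) : ℕ) : ℝ) * (((k - 2 * (k / 2) : ℕ) : ℝ) - 1) = 0 := by
    rcases (show k - 2 * (k / 2) = 0 ∨ k - 2 * (k / 2) = 1 by omega) with h | h <;> simp [h]
  rw [hlast, map_zero, zero_mul, mul_zero, add_zero, Nat.cast_zero, mul_zero, zero_mul, map_zero,
    zero_mul, mul_zero, add_zero, ← Finset.sum_add_distrib]
  refine Finset.sum_eq_zero fun i hi => ?_
  have hi := Finset.mem_range.1 hi
  rw [show k - 2 * (i + 1) = k - 2 * i - 2 by omega, Nat.add_sub_cancel]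
  refine (show _ = C (gegC n k i * (((k - 2 * i : ℕ) : ℝ) * (((k - 2 * i : ℕ) : ℝ) - 1)) +
      gegC n k (i + 1) * (2 * ((i + 1 : ℕ) : ℝ) * (2 * ((k - 2 * i - 2 : ℕ) : ℝ) + n +
        2 * (((i + 1 : ℕ) : ℝ) - 1)))) * (lin x ^ (k - 2 * i - 2) * sqLen n ^ i) by
    simp only [map_add, map_mul]; ring).trans ?_
  have h0 : (2 : ℝ) * ((i : ℝ) + 1) * ((n : ℝ) + 2 * k - 4 - 2 * i) ≠ 0 := by
    have : (2 * i + 2 : ℝ) ≤ k := by exact_mod_cast (show 2 * i + 2 ≤ k by omega)
    have : (1 : ℝ) ≤ n := by exact_mod_cast hn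
    exact mul_ne_zero (by positivity) (by linarith)
  have e : ((k - 2 * i - 2 : ℕ) : ℝ) = (k : ℝ) - 2 * i - 2 := by
    rw [Nat.cast_sub (by omega), Nat.cast_sub (by omega)]
    push_cast
    ring
  rw [show gegC n k i * (((k - 2 * i : ℕ) : ℝ) * (((k - 2 * i : ℕ) : ℝ) - 1)) +
      gegC n k (i + 1) * (2 * ((i + 1 : ℕ) : ℝ) * (2 * ((k - 2 * i - 2 : ℕ) : ℝ) + n +
        2 * (((i + 1 : ℕ) : ℝ) - 1))) = 0 by
    rw [gegC, e, show 2 * ((i + 1 : ℕ) : ℝ) * (2 * ((k : ℝ) - 2 * i - 2) + n +
        2 * (((i + 1 : ℕ) : ℝ) - 1)) = 2 * ((i : ℝ) + 1) * ((n : ℝ) + 2 * k - 4 - 2 * i) by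
      push_cast; ring, div_mul_cancel₀ _ h0]
    ring, map_zero, zero_mul]

theorem eval_zonal (k : ℕ) (x : Fin n → ℝ) {y : Fin n → ℝ} (hy : ∑ j, y j ^ 2 = 1) :
    eval y (zonal k x) = gegPoly n k (∑ j, x j * y j) := by
  simp only [zonal, gegPoly, lin, sqLen, map_sum, map_mul, map_pow, eval_C, eval_X, ← sq, hy,
    one_pow, mul_one]

/-- **Schoenberg's theorem.** -/
theorem gegPoly_posDef {ι : Type*} [Fintype ι] (hn : 0 < n) (k : ℕ) (c : ι → ℝ)
    (x : ι → Fin n → ℝ) (hx : ∀ i, ∑ j, x i j ^ 2 = 1) :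
    0 ≤ ∑ a, ∑ b, c a * c b * gegPoly n k (∑ j, x a j * x b j) := by
  set P := ∑ b, C (c b) * zonal k (x b) with hP
  have hPh : P.IsHomogeneous k := by
    refine IsHomogeneous.sum _ _ _ fun b _ => ?_
    simpa using (isHomogeneous_zonal k (x b)).C_mul (c b)
  have hlap : lap P = 0 := by
    have h : ∀ b, ∑ j, pderiv j (pderiv j (C (c b) * zonal k (x b))) = 0 := fun b => by
      simp only [pderiv_C_mul, ← Finset.mul_sum]
      rw [show ∑ j, pderiv j (pderiv j (zonal k (x b))) = 0 from lap_zonal hn k (hx b), mul_zero]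
    simp only [lap, hP, map_sum]
    rw [Finset.sum_comm]
    exact Finset.sum_eq_zero fun b _ => h b
  have hz : ∀ a, fischer P (zonal k (x a)) = k.factorial * eval (x a) P := fun a => by
    rw [zonal, map_sum, Finset.sum_range_succ']
    rw [Finset.sum_eq_zero fun i _ => ?_]
    · simp [gegC, fischer_lin_pow (x a) k P hPh]
    · rw [pow_succ', mul_left_comm _ (sqLen n), mul_left_comm _ (sqLen n), fischer_sqLen_mul, hlap,
        fischer_apply, support_zero, Finset.sum_empty]
  have h := fischer_self_nonneg P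
  rw [show fischer P P = ∑ a, c a * fischer P (zonal k (x a)) by
    conv_lhs => arg 2; rw [hP]
    rw [map_sum]
    exact Finset.sum_congr rfl fun a _ => fischer_C_mul _ _ _] at h
  simp only [hz] at h
  simp only [hP, map_sum, map_mul, eval_C, eval_zonal k _ (hx _), Finset.mul_sum] at h
  have hk : (0 : ℝ) < k.factorial := by exact_mod_cast k.factorial_pos
  refine nonneg_of_mul_nonneg_right ?_ hk
  rw [Finset.sum_comm, Finset.mul_sum]
  refine le_of_le_of_eq h (Finset.sum_congr rfl fun a _ => ?_)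
  rw [Finset.mul_sum]
  exact Finset.sum_congr rfl fun b _ => by ring

end FA.Zonal

end
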