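import Fermat.Agent.Forms3.HurwitzOrbits
import Fermat.Agent.Forms3.Existence
import Fermat.Agent.Tau.HurwitzRelation

/-!
# Gauss's count of the representations by three squares

The primitive representations of `n` by three squares are the optimal embeddings of discriminant
`-4 n` for `n ≡ 1, 2 (mod 4)` and `-n` for `n ≡ 3 (mod 8)`. The reduced forms lead from one of them
to all, one orbit of the units for a form, two in the second case; an orbit has twelve times the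
weight of its form in elements.
-/

set_option autoImplicit false

noncomputable section

namespace FA.HurwitzQ

open Quaternion
open scoped Quaternion MatrixGroups
open FA.Singular FA.ClassRelation
open UpperHalfPlane hiding I

variable {N : ℕ} {u : ℍ[ℚ]}

theorem mem_red_iff {f : ℤ × ℤ × ℤ} : f ∈ Red (-(N : ℤ)) ↔
    f ∈ redForms N ∧ Int.gcd (Int.gcd f.1 f.2.1) f.2.2 = 1 := by
  rw [mem_redForms]
  show _ ∧ _ ∧ _ ↔ _
  tauto

/-- The reduced primitive forms of discriminant `-N`. -/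
def primForms (N : ℕ) : Finset (ℤ × ℤ × ℤ) :=
  (redForms N).filter fun f => Int.gcd (Int.gcd f.1 f.2.1) f.2.2 = 1

theorem mem_primForms {f : ℤ × ℤ × ℤ} : f ∈ primForms N ↔ f ∈ Red (-(N : ℤ)) := by
  rw [mem_red_iff, primForms, Finset.mem_filter]

theorem primForm_of_red {f : ℤ × ℤ × ℤ} (h : f ∈ Red (-(N : ℤ))) : PrimForm N f :=
  ⟨h.2.2.1, h.1, h.2.1⟩

theorem red_disc {f : ℤ × ℤ × ℤ} (h : f ∈ Red (-(N : ℤ))) : f ∈ Red (disc f) := by
  rw [show disc f = -(N : ℤ) from h.1]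
  exact h

/-- The weighted number of the reduced primitive forms. -/
def primClassNumber (N : ℕ) : ℚ := ∑ f ∈ primForms N, weight f

/-- The generators of one ideal give conjugates in one orbit. -/
theorem IsGen.unique {f : ℤ × ℤ × ℤ} {α α' : ℍ[ℚ]} (hu : Emb N u) (hf : PrimForm N f)
    (hα : IsGen u f α) (hα' : IsGen u f α') : ∃ e ∈ units, α' = α * e := by
  obtain ⟨e, he, hee⟩ : α' ∈ RI α := by rw [hα.2, ← hα'.2]; exact mem_RI_self α'
  refine ⟨e, ⟨he, ?_⟩, hee⟩
  have h := congrArg normSq hee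
  rw [map_mul, hα.normSq_eq hu hf, hα'.normSq_eq hu hf] at h
  exact mul_left_cancel₀ (Int.cast_ne_zero.2 hf.1.ne') (by rw [mul_one]; exact h.symm)

/-- Every form has a reduced one with the same conjugate. -/
theorem exists_reduced (hu : Emb N u) (hN : N ≠ 0) : ∀ (A : ℕ) {f : ℤ × ℤ × ℤ} {α : ℍ[ℚ]},
    PrimForm N f → IsGen u f α → f.1.toNat = A →
      ∃ f' α', f' ∈ Red (-(N : ℤ)) ∧ IsGen u f' α' ∧ α'⁻¹ * u * α' = α⁻¹ * u * α := by
  intro A
  induction A using Nat.strong_induction_on with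
  | _ A ih =>
  rintro ⟨a, B, c⟩ α hf hα hA
  obtain ⟨ha, hD, hg⟩ := id hf
  simp only at ha hD hg hA
  -- translate to `-a < B ≤ a`
  obtain ⟨k, hk1, hk2⟩ : ∃ k : ℤ, -a < B + 2 * k * a ∧ B + 2 * k * a ≤ a := by
    refine ⟨(a - B) / (2 * a), ?_, ?_⟩ <;>
      nlinarith [Int.emod_nonneg (a - B) (by linarith : (2 * a) ≠ 0),
        Int.emod_lt_of_pos (a - B) (by linarith : (0 : ℤ) < 2 * a),
        Int.emod_add_mul_ediv (a - B) (2 * a)]
  set B' := B + 2 * k * a
  set c' := a * k ^ 2 + B * k + c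
  have hD' : B' ^ 2 - 4 * a * c' = -(N : ℤ) := by simp only [B', c']; linear_combination hD
  have hg' : Int.gcd (Int.gcd a B') c' = 1 := by
    rw [← hg]
    have hdiv : ∀ a b c : ℤ, ∀ k : ℤ, ((Int.gcd (Int.gcd a b) c : ℕ) : ℤ) ∣
        ((Int.gcd (Int.gcd a (b + 2 * k * a)) (a * k ^ 2 + b * k + c) : ℕ) : ℤ) := fun a b c k => by
      have h12 : ((Int.gcd (Int.gcd a b) c : ℕ) : ℤ) ∣ (Int.gcd a b : ℤ) := Int.gcd_dvd_left _ _
      have h1 := h12.trans (Int.gcd_dvd_left _ _)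
      have h2 := h12.trans (Int.gcd_dvd_right _ _)
      exact Int.dvd_coe_gcd (Int.dvd_coe_gcd h1 (dvd_add h2 (dvd_mul_of_dvd_right h1 _)))
        (dvd_add (dvd_add (dvd_mul_of_dvd_left h1 _) (dvd_mul_of_dvd_left h2 _))
          (Int.gcd_dvd_right _ _))
    have h := hdiv a B c k
    have h' := hdiv a B' c' (-k)
    rw [show B' + 2 * -k * a = B by simp only [B']; ring,
      show a * (-k) ^ 2 + B' * -k + c' = c by simp only [B', c']; ring] at h'
    exact Nat.dvd_antisymm (Int.natCast_dvd_natCast.1 h') (Int.natCast_dvd_natCast.1 h)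
  have hf' : PrimForm N (a, B', c') := ⟨ha, hD', hg'⟩
  have hα' : IsGen u (a, B', c') α := hα.shift k
  have hNpos : (0 : ℤ) < N := Int.natCast_pos.2 (Nat.pos_of_ne_zero hN)
  have hc0 : 0 < c' := by
    by_contra h
    nlinarith [sq_nonneg B', mul_nonpos_of_nonneg_of_nonpos ha.le (not_lt.1 h)]
  have hsw : PrimForm N (c', -B', a) := by
    refine ⟨hc0, by simp only; linear_combination hD', ?_⟩
    rw [← hg']
    simp only [Int.gcd, Int.natAbs_neg, Int.natAbs_natCast]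
    rw [Nat.gcd_comm, Nat.gcd_comm c'.natAbs, ← Nat.gcd_assoc]
  by_cases hca : c' < a
  · obtain ⟨α₁, hα₁, e₁⟩ := hα'.swap hu hN hf'
    obtain ⟨f₂, α₂, h2, h3, e₂⟩ := ih c'.toNat (by omega) hsw hα₁ rfl
    exact ⟨f₂, α₂, h2, h3, e₂.trans e₁⟩
  push Not at hca
  have habs : |B'| ≤ a := abs_le.2 ⟨hk1.le, hk2⟩
  by_cases heq : a = c' ∧ B' < 0
  · obtain ⟨α₁, hα₁, e₁⟩ := hα'.swap hu hN hf'
    refine ⟨_, α₁, ⟨hsw.2.1, hsw.2.2, hsw.1, ?_, ?_, ?_⟩, hα₁, e₁⟩ <;> simp only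
    · rw [abs_neg]
      linarith
    · linarith
    · intro _
      linarith
  refine ⟨_, α, ⟨hD', hg', ha, habs, hca, fun h => ?_⟩, hα', rfl⟩
  simp only at h ⊢
  rcases h with h | h
  · rcases abs_choice B' with e | e <;> rw [e] at h <;> linarith
  · by_contra hneg
    exact heq ⟨h, not_le.1 hneg⟩

/-- An equivalence of forms carries a root to a root. -/
theorem red_eq_of_equiv {f f' : ℤ × ℤ × ℤ} (hN : N ≠ 0) (hf : f ∈ Red (-(N : ℤ)))
    (hf' : f' ∈ Red (-(N : ℤ))) {m k m' k' : ℤ} (hdet : m * k' - k * m' = 1)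
    (e1 : f.1 = f'.1 * m ^ 2 + f'.2.1 * m * k + f'.2.2 * k ^ 2)
    (e2 : f.2.1 = 2 * f'.1 * m * m' + f'.2.1 * (m * k' + k * m') + 2 * f'.2.2 * k * k')
    (e3 : f.2.2 = f'.1 * m' ^ 2 + f'.2.1 * m' * k' + f'.2.2 * k' ^ 2) : f = f' := by
  have hD : disc f < 0 := by
    rw [show disc f = -(N : ℤ) from hf.1]
    exact neg_neg_of_pos (Int.natCast_pos.2 (Nat.pos_of_ne_zero hN))
  obtain ⟨τ, hτ⟩ := exists_isRoot hf.2.2.1 hD
  let g : SL(2, ℤ) := ⟨!![m, m'; k, k'], by rw [Matrix.det_fin_two_of]; linarith⟩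
  refine red_eq_of_root (red_disc hf) (red_disc hf') hτ (τ' := g • τ) ?_
    (FA.ModField.jfun_smul g τ).symm
  have hne := FA.ModField.smul_denom_ne g τ
  simp only [FA.Singular.IsRoot] at hτ ⊢
  rw [e1, e2, e3] at hτ
  push_cast at hτ
  rw [FA.ModField.coe_smul_int]
  simp only [g, Matrix.of_apply, Matrix.cons_val', Matrix.cons_val_zero, Matrix.cons_val_one,
    Matrix.empty_val', Matrix.cons_val_fin_one] at hne ⊢
  set z : ℂ := ((m : ℂ) * τ + m') / ((k : ℂ) * τ + k') with hz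
  have hw : z * ((k : ℂ) * τ + k') = (m : ℂ) * τ + m' := div_mul_cancel₀ _ hne
  refine mul_left_cancel₀ (pow_ne_zero 2 hne) ?_
  linear_combination hτ +
    ((f'.1 : ℂ) * (z * ((k : ℂ) * τ + k') + ((m : ℂ) * τ + m')) +
      (f'.2.1 : ℂ) * ((k : ℂ) * τ + k')) * hw

/-- The orbit of `u` under the units. -/
def orbit (u : ℍ[ℚ]) : Set ℍ[ℚ] := {x | ∃ e ∈ units, x = e⁻¹ * u * e}

/-- The units that commute with `u`. -/
def stab (u : ℍ[ℚ]) : Set ℍ[ℚ] := {e | e ∈ units ∧ u * e = e * u}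

theorem card_orbit_mul (u : ℍ[ℚ]) : Nat.card (orbit u) * Nat.card (stab u) = 24 := by
  rw [← card_units, ← Nat.card_prod]
  have hch : ∀ x : orbit u, ∃ e ∈ units, (x : ℍ[ℚ]) = e⁻¹ * u * e := fun x => x.2
  choose e he hxe using hch
  refine Nat.card_eq_of_bijective
    (fun q => ⟨(q.2 : ℍ[ℚ]) * e q.1, unit_mul q.2.2.1 (he q.1)⟩) ⟨?_, ?_⟩
  · rintro ⟨x, s⟩ ⟨x', s'⟩ h
    have h' : (s : ℍ[ℚ]) * e x = s' * e x' := congrArg Subtype.val h
    have hs : ∀ (t : stab u) (y : orbit u),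
        ((t : ℍ[ℚ]) * e y)⁻¹ * u * ((t : ℍ[ℚ]) * e y) = y := fun t y => by
      rw [hxe y, mul_inv_rev, mul_assoc, mul_assoc, ← mul_assoc u, t.2.2, mul_assoc,
        inv_mul_cancel_left₀ (unit_ne_zero t.2.1), mul_assoc]
    obtain rfl : x = x' := Subtype.ext (by rw [← hs s x, h', hs s' x'])
    obtain rfl : s = s' := Subtype.ext (mul_right_cancel₀ (unit_ne_zero (he x)) h')
    rfl
  · rintro ⟨w, hw⟩
    let x : orbit u := ⟨w⁻¹ * u * w, w, hw, rfl⟩
    have hx := hxe x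
    refine ⟨⟨x, ⟨w * (e x)⁻¹, unit_mul hw (unit_inv (he x)).1, ?_⟩⟩,
      Subtype.ext (inv_mul_cancel_right₀ (unit_ne_zero (he x)) w)⟩
    have h1 : u * w = w * ((e x)⁻¹ * u * e x) := by
      rw [← hx]
      simp only [x, mul_assoc, mul_inv_cancel_left₀ (unit_ne_zero hw)]
    rw [← mul_assoc, h1]
    simp only [mul_assoc, mul_inv_cancel₀ (unit_ne_zero (he x)), mul_one]

theorem card_stab (hu : Emb N u) (hN : N ≠ 0) :
    Nat.card (stab u) = (fixPairs (-(N : ℤ)) 1).card := by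
  have hD : -(N : ℤ) < 0 := neg_neg_of_pos (Int.natCast_pos.2 (Nat.pos_of_ne_zero hN))
  have hmem : ∀ q : fixPairs (-(N : ℤ)) 1, el u ((q.1.1 : ℚ) / 2) ((q.1.2 : ℚ) / 2) ∈ units := by
    intro q
    have h := (mem_fixPairs hD).1 q.2
    have hpar : (2 : ℤ) ∣ q.1.1 - q.1.2 * N := by
      have h2 : (2 : ℤ) ∣ q.1.1 ^ 2 + (N : ℤ) * q.1.2 ^ 2 := ⟨2, by push_cast at h; linarith⟩
      have hsq : ∀ x : ℤ, (2 : ℤ) ∣ x ^ 2 - x := fun x => by
        rw [show x ^ 2 - x = x * (x - 1) by ring]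
        exact even_iff_two_dvd.1 (Int.even_mul_pred_self x)
      have e : q.1.1 - q.1.2 * N = (q.1.1 ^ 2 + (N : ℤ) * q.1.2 ^ 2) - (q.1.1 ^ 2 - q.1.1) -
          (N : ℤ) * (q.1.2 ^ 2 - q.1.2) - 2 * ((N : ℤ) * q.1.2) := by ring
      rw [e]
      exact dvd_sub (dvd_sub (dvd_sub h2 (hsq _)) (dvd_mul_of_dvd_right (hsq _) _))
        (dvd_mul_right _ _)
    refine ⟨hu.el_mem hpar, ?_⟩
    rw [hu.normSq_el]
    have h' : (q.1.1 : ℚ) ^ 2 - -(N : ℚ) * q.1.2 ^ 2 = 4 * 1 := by exact_mod_cast h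
    linear_combination (1 / 4 : ℚ) * h'
  rw [← Nat.card_eq_finsetCard]
  refine (Nat.card_eq_of_bijective
    (fun q : fixPairs (-(N : ℤ)) 1 => (⟨el u ((q.1.1 : ℚ) / 2) ((q.1.2 : ℚ) / 2), hmem q,
      el_comm u _ _⟩ : stab u)) ⟨?_, ?_⟩).symm
  · rintro ⟨⟨m, k⟩, _⟩ ⟨⟨m', k'⟩, _⟩ h
    obtain ⟨h1, h2⟩ := hu.el_injective hN (congrArg Subtype.val h)
    simp only [div_left_inj' (two_ne_zero' ℚ), Int.cast_inj] at h1 h2
    simp [h1, h2]
  · rintro ⟨e, he, hc⟩
    obtain ⟨p, q, rfl⟩ := hu.exists_el hN hc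
    obtain ⟨m, k, rfl, rfl, -⟩ := hu.opt p q he.1
    refine ⟨⟨(m, k), (mem_fixPairs hD).2 ?_⟩, rfl⟩
    have h := he.2
    rw [hu.normSq_el] at h
    have : ((m ^ 2 - -(N : ℤ) * k ^ 2 : ℤ) : ℚ) = ((4 * ((1 : ℕ) : ℤ) : ℤ) : ℚ) := by
      push_cast
      linear_combination 4 * h
    exact_mod_cast this

/-- **An orbit has twelve times the weight of the form.** -/
theorem card_orbit (hu : Emb N u) (hN : N ≠ 0) {f : ℤ × ℤ × ℤ} (hf : f ∈ Red (-(N : ℤ))) :
    (Nat.card (orbit u) : ℚ) = 12 * weight f := by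
  have hD : disc f < 0 := by
    rw [show disc f = -(N : ℤ) from hf.1]
    exact neg_neg_of_pos (Int.natCast_pos.2 (Nat.pos_of_ne_zero hN))
  obtain ⟨τ, hτ⟩ := exists_isRoot hf.2.2.1 hD
  obtain ⟨a, b, c⟩ := f
  have h := weight_mul_card (τ := τ) (red_disc hf) hτ
  rw [show disc (a, b, c) = -(N : ℤ) from hf.1, ← card_stab hu hN] at h
  have h24 : (Nat.card (orbit u) : ℚ) * Nat.card (stab u) = 24 := by
    exact_mod_cast card_orbit_mul u
  have h0 : (Nat.card (stab u) : ℚ) ≠ 0 := fun e => by rw [e, mul_zero] at h24; norm_num at h24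
  refine mul_right_cancel₀ h0 ?_
  linear_combination h24 - 12 * h

theorem Emb.conj_unit (hu : Emb N u) {e : ℍ[ℚ]} (he : e ∈ units) : Emb N (e⁻¹ * u * e) := by
  have h0 := unit_ne_zero he
  refine ⟨by rw [re_conj h0, hu.re], by rw [normSq_conj h0, hu.norm], ?_,
    fun p q h => hu.opt p q ?_⟩
  · rw [el_conj_eq h0]
    exact mul_mem (mul_mem (unit_inv he).1.1 hu.half) he.1
  · rw [el_conj_eq h0] at h
    have := mul_mem (mul_mem he.1 h) (unit_inv he).1.1
    simpa [mul_assoc, mul_inv_cancel_left₀ h0, mul_inv_cancel₀ h0] using this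

/-- The forms of an odd discriminant `-N`, `N ≡ 3 (mod 8)`, have odd first coefficient. -/
theorem odd_fst {f : ℤ × ℤ × ℤ} (hB : N % 8 = 3) (hf : PrimForm N f) : f.1 % 2 = 1 := by
  rcases Int.emod_two_eq_zero_or_one f.1 with h | h
  swap
  · exact h
  exfalso
  obtain ⟨a, ha⟩ : (2 : ℤ) ∣ f.1 := Int.dvd_of_emod_eq_zero h
  have e := hf.2.1
  rw [ha] at e
  have h8 : f.2.1 ^ 2 % 8 = 5 := by
    have : f.2.1 ^ 2 = 8 * (a * f.2.2) - (N : ℤ) := by linarith
    omega
  have hall : ∀ z : ZMod 8, z ^ 2 ≠ 5 := by decide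
  refine hall (f.2.1 : ZMod 8) ?_
  rw [← Int.cast_pow, ← ZMod.intCast_mod, Nat.cast_ofNat, h8]
  rfl

/-- `u` and its conjugate by `1 + i` have disjoint orbits if `N ≡ 3 (mod 8)`. -/
theorem no_sigma_carrier (hu : Emb N u) (hB : N % 8 = 3) {f f' : ℤ × ℤ × ℤ} (hf : PrimForm N f)
    (hf' : PrimForm N f') {α α' : ℍ[ℚ]} (hα : IsGen u f α) (hα' : α' ∈ Hz)
    (hn : normSq α' = (f'.1 : ℚ)) {e : ℍ[ℚ]} (he : e ∈ units)
    (h : u * (pi2 * α' * e * α⁻¹) = pi2 * α' * e * α⁻¹ * u) : False := by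
  have hN : N ≠ 0 := by omega
  obtain ⟨p, q, hpq⟩ := hu.exists_el hN h
  have ha : (f.1 : ℚ) ≠ 0 := Int.cast_ne_zero.2 hf.1.ne'
  obtain ⟨w, hw, hwa⟩ := hα.scalar_mem_RI
  have hmem : el u (p * f.1) (q * f.1) ∈ Hz := by
    have e' : el u p q * el u (f.1 : ℚ) 0 = el u (p * f.1) (q * f.1) := by
      rw [hu.el_mul]
      congr 1 <;> ring
    rw [← e', ← hpq, hwa, mul_assoc, inv_mul_cancel_left₀ hα.1]
    exact mul_mem (mul_mem (mul_mem pi2_mem hα') he.1) hw
  obtain ⟨m, k, hm, hk, hpar⟩ := hu.opt _ _ hmem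
  have hN8 : (N : ℤ) % 8 = 3 := by exact_mod_cast hB
  have hnorm := congrArg normSq hpq
  rw [map_mul, map_mul, map_mul, normSq_pi2, hn, he.2, map_inv₀, hα.normSq_eq hu hf,
    hu.normSq_el] at hnorm
  field_simp at hnorm
  have key : m ^ 2 + (N : ℤ) * k ^ 2 = 8 * (f.1 * f'.1) := by
    have hm' : (m : ℚ) = 2 * (p * f.1) := by linarith
    have hk' : (k : ℚ) = 2 * (q * f.1) := by linarith
    have : ((m ^ 2 + (N : ℤ) * k ^ 2 : ℤ) : ℚ) = ((8 * (f.1 * f'.1) : ℤ) : ℚ) := by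
      push_cast
      rw [hm', hk']
      linear_combination (-4 : ℚ) * f.1 * hnorm
    exact_mod_cast this
  have hodd : (f.1 * f'.1) % 2 = 1 := by
    rw [Int.mul_emod, odd_fst hB hf, odd_fst hB hf']
    rfl
  have hall : ∀ x y : ZMod 16, x ^ 2 + 3 * y ^ 2 ≠ 8 ∧ x ^ 2 + 11 * y ^ 2 ≠ 8 := by decide
  have h16 : (((m ^ 2 + (N : ℤ) * k ^ 2 : ℤ)) : ZMod 16) = 8 := by
    rw [key, show (8 : ℤ) * (f.1 * f'.1) = 8 + 16 * (f.1 * f'.1 / 2) by omega]
    push_cast
    rw [show (16 : ZMod 16) = 0 from rfl, zero_mul, add_zero]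
  push_cast at h16
  rcases (show (N : ℤ) % 16 = 3 ∨ (N : ℤ) % 16 = 11 by omega) with e | e
  · refine (hall m k).1 ?_
    rw [← h16, ← Int.cast_natCast (R := ZMod 16) N, ← ZMod.intCast_mod (N : ℤ) 16, Nat.cast_ofNat,
      e]
    rfl
  · refine (hall m k).2 ?_
    rw [← h16, ← Int.cast_natCast (R := ZMod 16) N, ← ZMod.intCast_mod (N : ℤ) 16, Nat.cast_ofNat,
      e]
    rfl

/-- The two conjugates from which the forms reach everything. -/
def basePoint (u : ℍ[ℚ]) (b : Bool) : ℍ[ℚ] := if b then pi2⁻¹ * u * pi2 else u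

theorem Emb.base (hu : Emb N u) (b : Bool) : Emb N (basePoint u b) := by
  cases b
  · exact hu
  · exact hu.sigma

/-- **The optimal embeddings are the orbits of the forms.** -/
theorem card_emb (hu : Emb N u) (hN : N ≠ 0) (S : Finset Bool)
    (hS : ∀ b, b ∉ S → N % 16 = 4 ∨ N % 16 = 8) (hS0 : false ∈ S)
    (hB : true ∈ S → N % 8 = 3) :
    (Nat.card {x : ℍ[ℚ] | Emb N x} : ℚ) = S.card * (12 * primClassNumber N) := by
  classical
  have hex : ∀ i : S × primForms N, ∃ α, IsGen (basePoint u i.1) i.2 α := fun i =>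
    exists_isGen (hu.base i.1) (primForm_of_red (mem_primForms.1 i.2.2))
  choose gn hgn using hex
  let F : S × primForms N → ℍ[ℚ] := fun i => (gn i)⁻¹ * basePoint u i.1 * gn i
  have hF : ∀ i, Emb N (F i) := fun i =>
    (hgn i).emb (hu.base i.1) hN (primForm_of_red (mem_primForms.1 i.2.2))
  let G : (Σ i : S × primForms N, orbit (F i)) → {x : ℍ[ℚ] | Emb N x} := fun q =>
    ⟨q.2, by
      obtain ⟨x, e, he, rfl⟩ := q.2
      exact (hF q.1).conj_unit he⟩
  have hbij : Function.Bijective G := by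
    refine ⟨?_, ?_⟩
    · rintro ⟨i, x⟩ ⟨j, y⟩ h
      have hxy : (x : ℍ[ℚ]) = y := congrArg Subtype.val h
      obtain ⟨⟨b, hb⟩, ⟨f, hf⟩⟩ := i
      obtain ⟨⟨b', hb'⟩, ⟨f', hf'⟩⟩ := j
      have hval := hxy
      obtain ⟨e, he, hx⟩ := x.2
      obtain ⟨e', he', hy⟩ := y.2
      rw [hx, hy] at hxy
      set α := gn (⟨b, hb⟩, ⟨f, hf⟩) with hαd
      set α' := gn (⟨b', hb'⟩, ⟨f', hf'⟩) with hαd'
      have hαg : IsGen (basePoint u b) f α := hgn _
      have hαg' : IsGen (basePoint u b') f' α' := hgn _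
      have hpf := primForm_of_red (mem_primForms.1 hf)
      have hpf' := primForm_of_red (mem_primForms.1 hf')
      set E := e' * e⁻¹
      have hE : E ∈ units := unit_mul he' (unit_inv he).1
      set c := α' * E * α⁻¹ with hc
      -- `c` carries one base point to the other
      have hcomm : basePoint u b' * c = c * basePoint u b := by
        have h1 : α⁻¹ * basePoint u b * α = E⁻¹ * (α'⁻¹ * basePoint u b' * α') * E := by
          have := congrArg (fun z => e * z * e⁻¹) hxy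
          simp only [F] at this
          rw [← hαd, ← hαd'] at this
          simpa [E, mul_assoc, mul_inv_cancel_left₀ (unit_ne_zero he),
            mul_inv_cancel₀ (unit_ne_zero he), mul_inv_rev] using this
        have h2 := congrArg (fun z => α' * E * z * α⁻¹) h1
        simpa [hc, mul_assoc, mul_inv_cancel_left₀ hαg.1, mul_inv_cancel₀ hαg.1,
          mul_inv_cancel_left₀ (unit_ne_zero hE), mul_inv_cancel_left₀ hαg'.1] using h2.symm
      have hbb : b = b' := by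
        cases b <;> cases b' <;> first | rfl | exfalso
        · -- `pi2 c` commutes with `u`
          refine no_sigma_carrier hu (hB hb') hpf hpf' (α' := α') hαg
            (hαg'.mem_Hz (hu.base true) hpf') (hαg'.normSq_eq (hu.base true) hpf') hE ?_
          simp only [basePoint, Bool.false_eq_true, if_false, if_true] at hcomm
          rw [show pi2 * α' * E * α⁻¹ = pi2 * c by simp only [hc, mul_assoc], ← mul_assoc u,
            mul_sigma, mul_assoc pi2 _ c, hcomm, ← mul_assoc pi2 c u]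
        · refine no_sigma_carrier hu (hB hb) hpf' hpf (α := α') (α' := α) hαg'
            (hαg.mem_Hz (hu.base true) hpf) (hαg.normSq_eq (hu.base true) hpf)
            (unit_inv hE).1 ?_
          simp only [basePoint, Bool.false_eq_true, if_false, if_true] at hcomm
          have h3 : (pi2⁻¹ * u * pi2) * c⁻¹ = c⁻¹ * u := by
            have hc0 : c ≠ 0 := mul_ne_zero (mul_ne_zero hαg'.1 (unit_ne_zero hE))
              (inv_ne_zero hαg.1)
            refine mul_left_cancel₀ hc0 ?_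
            rw [← mul_assoc, ← hcomm, mul_assoc, mul_inv_cancel₀ hc0, mul_one,
              mul_inv_cancel_left₀ hc0]
          rw [show pi2 * α * E⁻¹ * α'⁻¹ = pi2 * c⁻¹ by
            simp only [hc, mul_inv_rev, inv_inv, mul_assoc], ← mul_assoc u, mul_sigma,
            mul_assoc pi2 _ c⁻¹, h3, ← mul_assoc pi2 c⁻¹ u]
      subst hbb
      obtain ⟨p, q, hpq⟩ := (hu.base b).exists_el hN hcomm
      have hff : f = f' := by
        obtain ⟨m, k, m', k', hdet, e1, e2, e3⟩ := hαg.exists_equiv (hu.base b) hpf hpf' hαg'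
          (p := p) (q := q) (by
            rintro _ ⟨w, hw, rfl⟩
            exact ⟨E * w, mul_mem hE.1 hw, by
              rw [← hpq, hc]
              simp only [mul_assoc, inv_mul_cancel_left₀ hαg.1]⟩) (by
            have h := congrArg normSq hpq
            rw [hc, map_mul, map_mul, map_inv₀, hαg.normSq_eq (hu.base b) hpf,
              hαg'.normSq_eq (hu.base b) hpf', hE.2, (hu.base b).normSq_el] at h
            have ha : (f.1 : ℚ) ≠ 0 := Int.cast_ne_zero.2 hpf.1.ne'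
            field_simp at h
            linear_combination -h)
        exact red_eq_of_equiv hN (mem_primForms.1 hf) (mem_primForms.1 hf') hdet e1 e2 e3
      subst hff
      obtain rfl : x = y := Subtype.ext hval
      rfl
    · rintro ⟨x, hx⟩
      obtain ⟨v, hv, hvA, f, α, hf, hα, e, he, hxe⟩ := exists_form_orbit hu hx hN
      obtain ⟨b, hb, rfl⟩ : ∃ b, b ∈ S ∧ v = basePoint u b := by
        rcases hv with rfl | rfl
        · exact ⟨false, hS0, rfl⟩
        · by_cases ht : true ∈ S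
          · exact ⟨true, ht, rfl⟩
          · exact ⟨false, hS0, hvA (hS true ht)⟩
      obtain ⟨f', α', hf', hα', he'⟩ := exists_reduced (hu.base b) hN _ hf hα rfl
      let i : S × primForms N := (⟨b, hb⟩, ⟨f', mem_primForms.2 hf'⟩)
      obtain ⟨w, hw, hwe⟩ := IsGen.unique (hu.base b) (primForm_of_red hf') (hgn i) hα'
      refine ⟨⟨i, ⟨x, w * e, unit_mul hw he, ?_⟩⟩, rfl⟩
      rw [hxe, ← he', hwe]
      simp only [F, i, mul_inv_rev, mul_assoc]
  have hfin : ∀ i, Finite (orbit (F i)) := fun i => by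
    refine Set.Finite.to_subtype ((finite_units.image (fun e => e⁻¹ * F i * e)).subset ?_)
    rintro _ ⟨e, he, rfl⟩
    exact ⟨e, he, rfl⟩
  rw [← Nat.card_eq_of_bijective G hbij, Nat.card_sigma, Nat.cast_sum,
    Finset.sum_congr rfl fun i _ => card_orbit (hF i) hN (mem_primForms.1 i.2.2),
    Fintype.sum_prod_type]
  simp only [Finset.sum_const, Finset.card_univ, Fintype.card_coe, nsmul_eq_mul]
  rw [← Finset.mul_sum, primClassNumber, ← Finset.sum_coe_sort (primForms N) (fun f => weight f)]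

end FA.HurwitzQ

end
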