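import Fermat.Agent.Forms3.ThreeSquaresCount

/-!
# Sums of three squares and Hurwitz class numbers

`r₃(m)` is `12 H(4 m)` for `m ≡ 1, 2 (mod 4)`, `24 H(m)` for `m ≡ 3 (mod 8)`, nothing for
`m ≡ 7 (mod 8)`, and `r₃(4 m) = r₃(m)` (Gauss).
-/

set_option autoImplicit false

noncomputable section

namespace FA.HurwitzQ

open Quaternion
open scoped Quaternion
open FA.Singular FA.ClassRelation

/-- The representations of `m` by three squares. -/
def reps (m : ℕ) : Finset (ℤ × ℤ × ℤ) :=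
  ((Finset.Icc (-(m : ℤ)) m) ×ˢ (Finset.Icc (-(m : ℤ)) m) ×ˢ (Finset.Icc (-(m : ℤ)) m)).filter
    fun v => v.1 ^ 2 + v.2.1 ^ 2 + v.2.2 ^ 2 = (m : ℤ)

theorem mem_reps {m : ℕ} {v : ℤ × ℤ × ℤ} :
    v ∈ reps m ↔ v.1 ^ 2 + v.2.1 ^ 2 + v.2.2 ^ 2 = (m : ℤ) := by
  simp only [reps, Finset.mem_filter, Finset.mem_product, Finset.mem_Icc, and_iff_right_iff_imp]
  intro h
  have hb : ∀ x : ℤ, x ^ 2 ≤ (m : ℤ) → -(m : ℤ) ≤ x ∧ x ≤ m := fun x hx =>
    ⟨by nlinarith [Int.le_self_sq (-x)], by linarith [Int.le_self_sq x]⟩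
  exact ⟨hb _ (by nlinarith), hb _ (by nlinarith), hb _ (by nlinarith)⟩

/-- The primitive ones. -/
def primReps (n : ℕ) : Finset (ℤ × ℤ × ℤ) :=
  (reps n).filter fun v => Int.gcd (Int.gcd v.1 v.2.1) v.2.2 = 1

/-- The embedding of a representation, with the scale `s`. -/
def vecQ (s : ℤ) (v : ℤ × ℤ × ℤ) : ℍ[ℚ] := lip 0 (s * v.1) (s * v.2.1) (s * v.2.2)

theorem vecQ_injective {s : ℤ} (hs : s ≠ 0) : Function.Injective (vecQ s) := by
  rintro ⟨x, y, z⟩ ⟨x', y', z'⟩ h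
  simp only [vecQ, lip, Quaternion.ext_iff, Int.cast_inj, mul_right_inj' hs] at h
  simp [h.2.1, h.2.2.1, h.2.2.2]

theorem vecQ_norm (s : ℤ) {n : ℕ} {v : ℤ × ℤ × ℤ} (hv : v ∈ reps n) :
    normSq (vecQ s v) = ((s ^ 2 * (n : ℤ) : ℤ) : ℚ) := by
  rw [normSq_def']
  have h : (v.1 : ℚ) ^ 2 + (v.2.1 : ℚ) ^ 2 + (v.2.2 : ℚ) ^ 2 = (n : ℚ) := by
    exact_mod_cast mem_reps.1 hv
  simp only [vecQ, lip]
  push_cast
  linear_combination (s : ℚ) ^ 2 * h

theorem bezout_triple {a b c : ℤ} (h : Int.gcd (Int.gcd a b) c = 1) :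
    ∃ i j l : ℤ, a * i + b * j + c * l = 1 := by
  obtain ⟨s, t, e⟩ : ∃ s t : ℤ, (Int.gcd a b : ℤ) * s + c * t = 1 :=
    ⟨_, _, (Int.gcd_eq_gcd_ab _ _).symm.trans (by rw [h, Nat.cast_one])⟩
  rw [Int.gcd_eq_gcd_ab] at e
  exact ⟨Int.gcdA a b * s, Int.gcdB a b * s, t, by linear_combination e⟩

theorem prim_parity {n : ℕ} {x y z : ℤ} (h : x ^ 2 + y ^ 2 + z ^ 2 = (n : ℤ))
    (hn : n % 4 = 1 ∨ n % 4 = 2) (d : ℤ) :
    ¬ ((2 : ℤ) ∣ x - d ∧ (2 : ℤ) ∣ y - d ∧ (2 : ℤ) ∣ z - d) := by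
  rintro ⟨⟨a, ha⟩, ⟨b, hb⟩, ⟨c, hc⟩⟩
  obtain ⟨rfl, rfl, rfl⟩ : x = d + 2 * a ∧ y = d + 2 * b ∧ z = d + 2 * c :=
    ⟨by linarith, by linarith, by linarith⟩
  obtain ⟨w, rfl | rfl⟩ := Int.even_or_odd' d
  · have : (n : ℤ) = 4 * ((w + a) ^ 2 + (w + b) ^ 2 + (w + c) ^ 2) := by linear_combination -h
    omega
  · have : (n : ℤ) = 4 * ((w + a) ^ 2 + (w + a) + (w + b) ^ 2 + (w + b) + (w + c) ^ 2 + (w + c)) +
        3 := by linear_combination -h
    omega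

theorem all_odd {n : ℕ} {x y z : ℤ} (h : x ^ 2 + y ^ 2 + z ^ 2 = (n : ℤ)) (hn : n % 8 = 3) :
    x % 2 = 1 ∧ y % 2 = 1 ∧ z % 2 = 1 := by
  have key : ∀ a b c : ℤ, a ^ 2 + b ^ 2 + c ^ 2 = (n : ℤ) → a % 2 = 1 := fun a b c e => by
    by_contra ha
    obtain ⟨a', rfl⟩ : (2 : ℤ) ∣ a := Int.dvd_of_emod_eq_zero (by omega)
    have hsq : ∀ t : ℤ, t ^ 2 % 4 = 0 ∨ t ^ 2 % 4 = 1 := fun t => by
      obtain ⟨w, rfl | rfl⟩ := Int.even_or_odd' t
      · exact Or.inl (by ring_nf; omega)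
      · exact Or.inr (by ring_nf; omega)
    have := hsq b
    have := hsq c
    have h2 : (2 * a') ^ 2 = 4 * a' ^ 2 := by ring
    rw [h2] at e
    omega
  exact ⟨key x y z h, key y z x (by linarith), key z x y (by linarith)⟩

/-- `n ≡ 1, 2 (mod 4)`: an embedding of discriminant `-4 n`. -/
theorem emb_two {n : ℕ} {v : ℤ × ℤ × ℤ} (hv : v ∈ primReps n) (hn : n % 4 = 1 ∨ n % 4 = 2) :
    Emb (4 * n) (vecQ 2 v) := by
  obtain ⟨hv, hg⟩ := Finset.mem_filter.1 hv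
  obtain ⟨x, y, z⟩ := v
  refine ⟨by simp [vecQ, lip], ?_, ?_, fun p q h => ?_⟩
  · rw [vecQ_norm 2 hv]
    norm_num
  · rw [show el (vecQ 2 (x, y, z)) (((4 * n : ℕ) : ℚ) / 2) (1 / 2) = lip (2 * n) x y z by
      ext <;> simp [el, vecQ, lip]; ring]
    exact lip_mem _ _ _ _
  obtain ⟨⟨a, b, c, d⟩, he⟩ := h
  simp only [el, vecQ, lip, ofCoords, Quaternion.ext_iff] at he
  simp at he
  obtain ⟨e0, ex, ey, ez⟩ := he
  obtain ⟨i, j, l, hbz⟩ := bezout_triple hg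
  have hbz' : (x : ℚ) * i + y * j + z * l = 1 := by exact_mod_cast hbz
  set k₀ : ℤ := (2 * a + d) * i + (2 * b + d) * j + (2 * c + d) * l with hk₀
  have hq : 4 * q = (k₀ : ℚ) := by
    rw [hk₀]
    push_cast
    linear_combination -(4 * q) * hbz' - 2 * (i : ℚ) * ex - 2 * (j : ℚ) * ey - 2 * (l : ℚ) * ez
  have hx : k₀ * x = 2 * a + d := by
    have : ((k₀ * x : ℤ) : ℚ) = ((2 * a + d : ℤ) : ℚ) := by
      push_cast; rw [← hq]; linear_combination -2 * ex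
    exact_mod_cast this
  have hy : k₀ * y = 2 * b + d := by
    have : ((k₀ * y : ℤ) : ℚ) = ((2 * b + d : ℤ) : ℚ) := by
      push_cast; rw [← hq]; linear_combination -2 * ey
    exact_mod_cast this
  have hz : k₀ * z = 2 * c + d := by
    have : ((k₀ * z : ℤ) : ℚ) = ((2 * c + d : ℤ) : ℚ) := by
      push_cast; rw [← hq]; linear_combination -2 * ez
    exact_mod_cast this
  rcases Int.even_or_odd' k₀ with ⟨k, hk | hk⟩
  · refine ⟨d, k, by linarith, ?_, ⟨k * x - a - 2 * k * n, ?_⟩⟩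
    · rw [hk] at hq
      push_cast at hq
      linarith
    · rw [hk] at hx
      push_cast
      linarith
  · exfalso
    rw [hk] at hx hy hz
    exact prim_parity (x := x) (y := y) (z := z) (mem_reps.1 hv) hn d
      ⟨⟨a - k * x, by linarith⟩, ⟨b - k * y, by linarith⟩, ⟨c - k * z, by linarith⟩⟩

/-- `n ≡ 3 (mod 8)`: an embedding of discriminant `-n`. -/
theorem emb_one {n : ℕ} {v : ℤ × ℤ × ℤ} (hv : v ∈ primReps n) (hn : n % 8 = 3) :
    Emb n (vecQ 1 v) := by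
  obtain ⟨hv, hg⟩ := Finset.mem_filter.1 hv
  obtain ⟨x, y, z⟩ := v
  obtain ⟨hx2, hy2, hz2⟩ := all_odd (mem_reps.1 hv) hn
  simp only at hx2 hy2 hz2
  refine ⟨by simp [vecQ, lip], ?_, ?_, fun p q h => ?_⟩
  · rw [vecQ_norm 1 hv]
    norm_num
  · obtain ⟨a, ha⟩ : (2 : ℤ) ∣ x - n := by omega
    obtain ⟨b, hb⟩ : (2 : ℤ) ∣ y - n := by omega
    obtain ⟨c, hc⟩ : (2 : ℤ) ∣ z - n := by omega
    have qa : (x : ℚ) - n = 2 * a := by exact_mod_cast ha
    have qb : (y : ℚ) - n = 2 * b := by exact_mod_cast hb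
    have qc : (z : ℚ) - n = 2 * c := by exact_mod_cast hc
    refine ⟨(a, b, c, n), ?_⟩
    ext <;> simp [el, vecQ, lip, ofCoords] <;> linarith
  obtain ⟨⟨a, b, c, d⟩, he⟩ := h
  simp only [el, vecQ, lip, ofCoords, Quaternion.ext_iff] at he
  simp at he
  obtain ⟨e0, ex, ey, ez⟩ := he
  obtain ⟨i, j, l, hbz⟩ := bezout_triple hg
  have hbz' : (x : ℚ) * i + y * j + z * l = 1 := by exact_mod_cast hbz
  set k : ℤ := (2 * a + d) * i + (2 * b + d) * j + (2 * c + d) * l with hk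
  have hq : 2 * q = (k : ℚ) := by
    rw [hk]
    push_cast
    linear_combination -(2 * q) * hbz' - 2 * (i : ℚ) * ex - 2 * (j : ℚ) * ey - 2 * (l : ℚ) * ez
  refine ⟨d, k, by linarith, by linarith, ?_⟩
  have hkx : k * x = 2 * a + d := by
    have : ((k * x : ℤ) : ℚ) = ((2 * a + d : ℤ) : ℚ) := by
      push_cast; rw [← hq]; linear_combination -2 * ex
    exact_mod_cast this
  have hn2 : (n : ℤ) % 2 = 1 := by omega
  have h1 : k * (n : ℤ) % 2 = k * x % 2 := by rw [Int.mul_emod, hn2, Int.mul_emod k x, hx2]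
  rw [Int.dvd_iff_emod_eq_zero]
  omega

/-- Every embedding comes from a representation. -/
theorem exists_vecQ {N n : ℕ} {s : ℤ} (hs : (s = 2 ∧ N = 4 * n) ∨ (s = 1 ∧ N = n ∧ n % 2 = 1))
    {u : ℍ[ℚ]} (hu : Emb N u) : ∃ v ∈ primReps n, vecQ s v = u := by
  obtain ⟨X, Y, Z, e, hXYZ, -⟩ := hu.exists_coords
  obtain ⟨x, y, z, rfl, rfl, rfl⟩ : ∃ x y z : ℤ, X = s * x ∧ Y = s * y ∧ Z = s * z := by
    rcases hs with ⟨rfl, rfl⟩ | ⟨rfl, -, -⟩
    swap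
    · exact ⟨X, Y, Z, (one_mul X).symm, (one_mul Y).symm, (one_mul Z).symm⟩
    have hsq : ∀ t : ℤ, ((2 : ℤ) ∣ t ∧ t ^ 2 % 4 = 0) ∨ t ^ 2 % 4 = 1 := fun t => by
      obtain ⟨w, rfl | rfl⟩ := Int.even_or_odd' t
      · exact Or.inl ⟨dvd_mul_right 2 w, by ring_nf; omega⟩
      · exact Or.inr (by ring_nf; omega)
    push_cast at hXYZ
    have := hsq X; have := hsq Y; have := hsq Z
    obtain ⟨⟨x, hx⟩, ⟨y, hy⟩, ⟨z, hz⟩⟩ : (2 : ℤ) ∣ X ∧ (2 : ℤ) ∣ Y ∧ (2 : ℤ) ∣ Z := by omega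
    exact ⟨x, y, z, hx, hy, hz⟩
  have hs0 : s ≠ 0 := by omega
  refine ⟨(x, y, z), Finset.mem_filter.2 ⟨mem_reps.2 ?_, ?_⟩, e.symm⟩
  · have h : s ^ 2 * (x ^ 2 + y ^ 2 + z ^ 2) = s ^ 2 * (n : ℤ) := by
      rcases hs with ⟨rfl, rfl⟩ | ⟨rfl, rfl, -⟩ <;> push_cast at hXYZ <;> linarith
    exact mul_left_cancel₀ (pow_ne_zero 2 hs0) h
  set d := Int.gcd (Int.gcd x y) z
  have h12 : (d : ℤ) ∣ (Int.gcd x y : ℤ) := Int.gcd_dvd_left _ _
  obtain ⟨x', hx'⟩ : (d : ℤ) ∣ x := h12.trans (Int.gcd_dvd_left _ _)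
  obtain ⟨y', hy'⟩ : (d : ℤ) ∣ y := h12.trans (Int.gcd_dvd_right _ _)
  obtain ⟨z', hz'⟩ : (d : ℤ) ∣ z := Int.gcd_dvd_right _ _
  have hd0 : (d : ℚ) ≠ 0 := fun h0 => by
    have hd : (d : ℤ) = 0 := by exact_mod_cast h0
    rw [hx', hy', hz', hd] at hXYZ
    simp at hXYZ
    rcases hs with ⟨rfl, rfl⟩ | ⟨rfl, rfl, hn⟩
    · obtain rfl : n = 0 := by push_cast at hXYZ; omega
      have h1 := hu.opt 0 (1 / 3) ⟨0, by
        rw [e, hx', hy', hz', hd]
        ext <;> simp [el, lip, ofCoords]⟩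
      obtain ⟨-, k, -, hk, -⟩ := h1
      field_simp at hk
      have : (2 : ℤ) = 3 * k := by exact_mod_cast (by linarith : (2 : ℚ) = 3 * (k : ℚ))
      omega
    · omega
  have hsq : (s : ℚ) ≠ 0 := Int.cast_ne_zero.2 hs0
  obtain ⟨m, k, hm, hk, hpar⟩ := hu.opt 0 (1 / ((s : ℚ) * d)) (by
    rw [show el u 0 (1 / ((s : ℚ) * d)) = lip 0 x' y' z' by
      rw [e, hx', hy', hz']
      ext <;> simp [el, lip] <;> field_simp]
    exact lip_mem _ _ _ _)
  field_simp at hk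
  have hk' : (2 : ℤ) = s * d * k := by
    exact_mod_cast (by linarith : (2 : ℚ) = (s : ℚ) * d * k)
  obtain ⟨k', hk''⟩ : ∃ k' : ℤ, (1 : ℤ) = d * k' := by
    rcases hs with ⟨rfl, rfl⟩ | ⟨rfl, rfl, hn⟩
    · exact ⟨k, by linarith⟩
    · obtain ⟨w, hw⟩ : (2 : ℤ) ∣ k := by
        obtain ⟨c, hc⟩ := hpar
        have hm0 : m = 0 := by
          have : (m : ℚ) = 0 := by linarith
          exact_mod_cast this
        rw [hm0] at hc
        have : (2 : ℤ) ∣ k * (N : ℤ) := ⟨-c, by linarith⟩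
        rcases Int.prime_two.dvd_or_dvd this with h | h
        · exact h
        · omega
      exact ⟨w, by rw [hw] at hk'; linarith⟩
  have h1 := Int.eq_one_of_dvd_one (Int.natCast_nonneg d) ⟨k', hk''⟩
  exact_mod_cast h1

theorem card_primReps_eq {N n : ℕ} {s : ℤ}
    (hs : (s = 2 ∧ N = 4 * n) ∨ (s = 1 ∧ N = n ∧ n % 2 = 1))
    (hemb : ∀ v ∈ primReps n, Emb N (vecQ s v)) :
    Nat.card {x : ℍ[ℚ] | Emb N x} = (primReps n).card := by
  rw [← Nat.card_eq_finsetCard]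
  refine (Nat.card_eq_of_bijective
    (fun v : primReps n => (⟨vecQ s v.1, hemb v.1 v.2⟩ : {x : ℍ[ℚ] | Emb N x})) ⟨?_, ?_⟩).symm
  · intro v w h
    exact Subtype.ext (vecQ_injective (by omega) (congrArg Subtype.val h))
  · rintro ⟨x, hx⟩
    obtain ⟨v, hv, he⟩ := exists_vecQ hs hx
    exact ⟨⟨v, hv⟩, Subtype.ext he⟩

/-- **Primitive representations**, `n ≡ 1, 2 (mod 4)`. -/
theorem card_primReps_two {n : ℕ} (hn : n % 4 = 1 ∨ n % 4 = 2) :
    ((primReps n).card : ℚ) = 12 * primClassNumber (4 * n) := by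
  obtain ⟨x, y, z, e, hg⟩ :
      ∃ x y z : ℤ, (n : ℤ) = x ^ 2 + y ^ 2 + z ^ 2 ∧ Int.gcd (Int.gcd x y) z = 1 := by
    rcases hn with h | h
    · exact FA.Forms3.exists_prim_of_odd (by omega)
    · exact FA.Forms3.exists_prim_of_two_mod_four h
  have hu := emb_two (v := (x, y, z)) (Finset.mem_filter.2 ⟨mem_reps.2 e.symm, hg⟩) hn
  rw [← card_primReps_eq (Or.inl ⟨rfl, rfl⟩) (fun v hv => emb_two hv hn),
    card_emb hu (by omega) {false} (fun b _ => by omega) (Finset.mem_singleton_self _) (by simp)]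
  simp

/-- **Primitive representations**, `n ≡ 3 (mod 8)`. -/
theorem card_primReps_one {n : ℕ} (hn : n % 8 = 3) :
    ((primReps n).card : ℚ) = 24 * primClassNumber n := by
  obtain ⟨x, y, z, e, hg⟩ := FA.Forms3.exists_prim_of_odd (n := n) (by omega)
  have hu := emb_one (v := (x, y, z)) (Finset.mem_filter.2 ⟨mem_reps.2 e.symm, hg⟩) hn
  rw [← card_primReps_eq (Or.inr ⟨rfl, rfl, by omega⟩) (fun v hv => emb_one hv hn),
    card_emb hu (by omega) Finset.univ (fun b hb => absurd (Finset.mem_univ b) hb)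
      (Finset.mem_univ _) (fun _ => hn)]
  simp
  ring

/-- The representations, sorted by the common divisor. -/
theorem card_reps {m : ℕ} (hm : m ≠ 0) :
    (reps m).card = ∑ f ∈ sqDiv m, (primReps (m / (f * f))).card := by
  rw [Finset.card_eq_sum_card_fiberwise (f := fun v => Int.gcd (Int.gcd v.1 v.2.1) v.2.2)
    (t := sqDiv m)]
  · refine Finset.sum_congr rfl fun f hf => ?_
    have hdvd := (mem_sqDiv hm).1 hf
    have hf0 : f ≠ 0 := fun e => hm (by rw [e] at hdvd; simpa using hdvd)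
    have hf0' : (f : ℤ) ≠ 0 := Int.natCast_ne_zero.2 hf0
    have hmf : (m : ℤ) = (f : ℤ) ^ 2 * ((m / (f * f) : ℕ) : ℤ) := by
      rw [pow_two, ← Nat.cast_mul, ← Nat.cast_mul, Nat.mul_div_cancel' hdvd]
    refine (Finset.card_nbij'
      (fun v : ℤ × ℤ × ℤ => (((f : ℤ) * v.1, (f : ℤ) * v.2.1, (f : ℤ) * v.2.2) : ℤ × ℤ × ℤ))
      (fun v => (v.1 / f, v.2.1 / f, v.2.2 / f)) ?_ ?_ ?_ ?_).symm
    all_goals intro v hv
    · simp only [primReps, Finset.mem_coe, Finset.mem_filter, mem_reps] at hv ⊢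
      refine ⟨by rw [hmf, ← hv.1]; ring, ?_⟩
      rw [Int.gcd_mul_left, Int.natAbs_natCast, Nat.cast_mul, Int.gcd_mul_left,
        Int.natAbs_natCast, hv.2, mul_one]
    · simp only [primReps, Finset.mem_coe, Finset.mem_filter, mem_reps] at hv ⊢
      obtain ⟨hv, hg⟩ := hv
      have h12 : (f : ℤ) ∣ (Int.gcd v.1 v.2.1 : ℤ) := hg ▸ Int.gcd_dvd_left _ _
      obtain ⟨a, ha⟩ := h12.trans (Int.gcd_dvd_left _ _)
      obtain ⟨b, hb⟩ := h12.trans (Int.gcd_dvd_right _ _)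
      obtain ⟨c, hc⟩ : (f : ℤ) ∣ v.2.2 := hg ▸ Int.gcd_dvd_right _ _
      simp only [ha, hb, hc, Int.mul_ediv_cancel_left _ hf0'] at hv hg ⊢
      refine ⟨mul_left_cancel₀ (pow_ne_zero 2 hf0') (by rw [← hmf, ← hv]; ring), ?_⟩
      rw [Int.gcd_mul_left, Int.natAbs_natCast, Nat.cast_mul, Int.gcd_mul_left,
        Int.natAbs_natCast] at hg
      exact (Nat.mul_eq_left hf0).1 hg
    · simp [Int.mul_ediv_cancel_left _ hf0']
    · simp only [Finset.mem_coe, Finset.mem_filter] at hv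
      have h12 : (f : ℤ) ∣ (Int.gcd v.1 v.2.1 : ℤ) := hv.2 ▸ Int.gcd_dvd_left _ _
      have h1 := h12.trans (Int.gcd_dvd_left _ _)
      have h2 := h12.trans (Int.gcd_dvd_right _ _)
      have h3 : (f : ℤ) ∣ v.2.2 := hv.2 ▸ Int.gcd_dvd_right _ _
      simp [Int.mul_ediv_cancel' h1, Int.mul_ediv_cancel' h2, Int.mul_ediv_cancel' h3]
  · intro v hv
    rw [Finset.mem_coe, mem_reps] at hv
    rw [Finset.mem_coe, mem_sqDiv hm]
    set g := Int.gcd (Int.gcd v.1 v.2.1) v.2.2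
    have h12 : (g : ℤ) ∣ (Int.gcd v.1 v.2.1 : ℤ) := Int.gcd_dvd_left _ _
    have h : ((g * g : ℕ) : ℤ) ∣ (m : ℤ) := by
      rw [← hv, Nat.cast_mul, ← pow_two]
      exact dvd_add (dvd_add (pow_dvd_pow_of_dvd (h12.trans (Int.gcd_dvd_left _ _)) 2)
        (pow_dvd_pow_of_dvd (h12.trans (Int.gcd_dvd_right _ _)) 2))
        (pow_dvd_pow_of_dvd (Int.gcd_dvd_right _ _) 2)
    exact Int.natCast_dvd_natCast.1 h

/-- The reduced forms, sorted by the content. -/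
theorem classNumberH_eq_sum {N : ℕ} (hN : N ≠ 0) (S : Finset ℕ) (hS : ∀ k ∈ S, k * k ∣ N)
    (hmaps : ∀ k : ℕ, k * k ∣ N → N / (k * k) % 4 = 0 ∨ N / (k * k) % 4 = 3 → k ∈ S) :
    classNumberH N = ∑ k ∈ S, primClassNumber (N / (k * k)) := by
  rw [classNumberH, ← Finset.sum_fiberwise_of_maps_to
    (g := fun f => Int.gcd (Int.gcd f.1 f.2.1) f.2.2) (t := S) (fun f hf => ?_) weight]
  · refine Finset.sum_congr rfl fun k hk => ?_
    have hdvd := hS k hk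
    have hk0 : k ≠ 0 := fun e => hN (by rw [e] at hdvd; simpa using hdvd)
    have hk0' : (k : ℤ) ≠ 0 := Int.natCast_ne_zero.2 hk0
    have hkpos : (0 : ℤ) < k := Int.natCast_pos.2 (Nat.pos_of_ne_zero hk0)
    have hNk : (N : ℤ) = (k : ℤ) ^ 2 * ((N / (k * k) : ℕ) : ℤ) := by
      rw [pow_two, ← Nat.cast_mul, ← Nat.cast_mul, Nat.mul_div_cancel' hdvd]
    refine Finset.sum_nbij' (fun f => (f.1 / k, f.2.1 / k, f.2.2 / k))
      (fun f => smulForm k f) ?_ ?_ ?_ ?_ ?_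
    all_goals intro f hf
    all_goals
      try
        have hgk : Int.gcd (Int.gcd f.1 f.2.1) f.2.2 = k := (Finset.mem_filter.1 hf).2
        have h12 : (k : ℤ) ∣ (Int.gcd f.1 f.2.1 : ℤ) := hgk ▸ Int.gcd_dvd_left _ _
        obtain ⟨a, ha⟩ := h12.trans (Int.gcd_dvd_left _ _)
        obtain ⟨b, hb⟩ := h12.trans (Int.gcd_dvd_right _ _)
        obtain ⟨c, hc⟩ : (k : ℤ) ∣ f.2.2 := hgk ▸ Int.gcd_dvd_right _ _
    · obtain ⟨hd, hpos, habs, hac, hbd⟩ := mem_redForms.1 (Finset.mem_filter.1 hf).1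
      rw [mem_primForms]
      simp only [ha, hb, hc, Int.mul_ediv_cancel_left _ hk0'] at hd hpos habs hac hbd hgk ⊢
      rw [Int.gcd_mul_left, Int.natAbs_natCast, Nat.cast_mul, Int.gcd_mul_left,
        Int.natAbs_natCast] at hgk
      rw [abs_mul, abs_of_pos hkpos] at habs hbd
      refine ⟨mul_left_cancel₀ (pow_ne_zero 2 hk0') ?_, (Nat.mul_eq_left hk0).1 hgk,
        pos_of_mul_pos_right hpos hkpos.le, le_of_mul_le_mul_left habs hkpos,
        le_of_mul_le_mul_left hac hkpos, fun h => nonneg_of_mul_nonneg_right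
          (hbd (h.imp (congrArg ((k : ℤ) * ·)) (congrArg ((k : ℤ) * ·)))) hkpos⟩
      rw [mul_neg, ← hNk, ← hd]
      ring
    · have hf' := mem_primForms.1 hf
      obtain ⟨hd, hg, hpos, habs, hac, hbd⟩ := hf'
      refine Finset.mem_filter.2 ⟨mem_redForms.2 ?_, ?_⟩ <;> simp only [smulForm]
      · refine ⟨by rw [hNk]; linear_combination (k : ℤ) ^ 2 * hd, mul_pos hkpos hpos, ?_,
          mul_le_mul_of_nonneg_left hac hkpos.le, ?_⟩
        · rw [abs_mul, abs_of_pos hkpos]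
          exact mul_le_mul_of_nonneg_left habs hkpos.le
        · rw [abs_mul, abs_of_pos hkpos]
          exact fun h => mul_nonneg hkpos.le
            (hbd (h.imp (mul_left_cancel₀ hk0') (mul_left_cancel₀ hk0')))
      · rw [Int.gcd_mul_left, Int.natAbs_natCast, Nat.cast_mul, Int.gcd_mul_left,
          Int.natAbs_natCast, hg, mul_one]
    · simp [smulForm, ha, hb, hc, Int.mul_ediv_cancel_left _ hk0', Prod.ext_iff]
    · simp [smulForm, Int.mul_ediv_cancel_left _ hk0']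
    · rw [show f = smulForm k (a, b, c) by simp [smulForm, Prod.ext_iff, ha, hb, hc]]
      simp only [smulForm, Int.mul_ediv_cancel_left _ hk0']
      exact (weight_smulForm hk0' (a, b, c))
  · obtain ⟨hd, hpos, -⟩ := mem_redForms.1 hf
    set g := Int.gcd (Int.gcd f.1 f.2.1) f.2.2
    have h12 : (g : ℤ) ∣ (Int.gcd f.1 f.2.1 : ℤ) := Int.gcd_dvd_left _ _
    obtain ⟨a, ha⟩ := h12.trans (Int.gcd_dvd_left _ _)
    obtain ⟨b, hb⟩ := h12.trans (Int.gcd_dvd_right _ _)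
    obtain ⟨c, hc⟩ : (g : ℤ) ∣ f.2.2 := Int.gcd_dvd_right _ _
    have hg0 : g ≠ 0 := fun e => by rw [ha, e] at hpos; simp at hpos
    have e : (N : ℤ) = ((g * g : ℕ) : ℤ) * (4 * a * c - b ^ 2) := by
      rw [ha, hb, hc] at hd
      push_cast
      linear_combination hd
    have hdvd : g * g ∣ N := Int.natCast_dvd_natCast.1 ⟨_, e⟩
    refine hmaps g hdvd ?_
    have e2 : ((N / (g * g) : ℕ) : ℤ) = 4 * a * c - b ^ 2 := by
      have h := congrArg (fun t : ℕ => (t : ℤ)) (Nat.mul_div_cancel' hdvd)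
      simp only [Nat.cast_mul] at h e
      exact mul_left_cancel₀ (mul_ne_zero (Int.natCast_ne_zero.2 hg0) (Int.natCast_ne_zero.2 hg0))
        (h.trans e)
    obtain ⟨w, rfl | rfl⟩ := Int.even_or_odd' b
    · left
      have : ((N / (g * g) : ℕ) : ℤ) = 4 * (a * c - w ^ 2) := by rw [e2]; ring
      omega
    · right
      have : ((N / (g * g) : ℕ) : ℤ) = 4 * (a * c - w ^ 2 - w) - 1 := by rw [e2]; ring
      omega

theorem odd_of_sq_dvd {m f : ℕ} (hm : m % 4 ≠ 0) (h : f * f ∣ m) : f % 2 = 1 := by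
  by_contra hf
  obtain ⟨w, rfl⟩ : 2 ∣ f := Nat.dvd_of_mod_eq_zero (by omega)
  exact hm (Nat.mod_eq_zero_of_dvd ((Dvd.intro (w * w) (by ring)).trans h))

theorem cofactor_mod_eight {m f : ℕ} (hm : m % 4 ≠ 0) (h : f * f ∣ m) :
    m / (f * f) % 8 = m % 8 := by
  obtain ⟨w, hw⟩ := Nat.odd_iff.2 (odd_of_sq_dvd hm h)
  obtain ⟨v, hv⟩ := Nat.even_mul_succ_self w
  have e : f * f = 8 * v + 1 := by rw [hw]; nlinarith
  conv_rhs => rw [← Nat.mul_div_cancel' h, e, add_mul, one_mul, mul_assoc, Nat.mul_add_mod]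
  rw [e]

/-- **`r₃(m) = 12 H(4 m)`** for `m ≡ 1, 2 (mod 4)`. -/
theorem card_reps_two {m : ℕ} (hm : m % 4 = 1 ∨ m % 4 = 2) :
    ((reps m).card : ℚ) = 12 * classNumberH (4 * m) := by
  have hm0 : m ≠ 0 := by omega
  rw [card_reps hm0, classNumberH_eq_sum (by omega) (sqDiv m)
    (fun k hk => ((mem_sqDiv hm0).1 hk).mul_left 4) (fun k hk hmod => ?_),
    Nat.cast_sum, Finset.mul_sum]
  · refine Finset.sum_congr rfl fun f hf => ?_
    have hf' := (mem_sqDiv hm0).1 hf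
    have h8 := cofactor_mod_eight (by omega) hf'
    rw [card_primReps_two (by omega), ← Nat.mul_div_assoc 4 hf']
  · rw [mem_sqDiv hm0]
    rcases Nat.mod_two_eq_zero_or_one k with h | h
    · exfalso
      obtain ⟨j, rfl⟩ : 2 ∣ k := Nat.dvd_of_mod_eq_zero h
      have hj : j * j ∣ m := by
        rw [show 2 * j * (2 * j) = 4 * (j * j) by ring] at hk
        exact Nat.dvd_of_mul_dvd_mul_left (by norm_num) hk
      have h8 := cofactor_mod_eight (by omega) hj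
      rw [show 2 * j * (2 * j) = 4 * (j * j) by ring,
        Nat.mul_div_mul_left _ _ (by norm_num)] at hmod
      omega
    · have hodd : Odd (k * k) := (Nat.odd_iff.2 h).mul (Nat.odd_iff.2 h)
      exact (Nat.Coprime.pow_right 2 (Nat.coprime_two_right.2 hodd)).dvd_of_dvd_mul_left
        (by simpa using hk)

/-- **`r₃(m) = 24 H(m)`** for `m ≡ 3 (mod 8)`. -/
theorem card_reps_one {m : ℕ} (hm : m % 8 = 3) :
    ((reps m).card : ℚ) = 24 * classNumberH m := by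
  have hm0 : m ≠ 0 := by omega
  rw [card_reps hm0, classNumberH_eq_sum hm0 (sqDiv m) (fun k hk => (mem_sqDiv hm0).1 hk)
    (fun k hk _ => (mem_sqDiv hm0).2 hk), Nat.cast_sum, Finset.mul_sum]
  refine Finset.sum_congr rfl fun f hf => card_primReps_one ?_
  have h8 := cofactor_mod_eight (by omega) ((mem_sqDiv hm0).1 hf)
  omega

/-- **`r₃(4 m) = r₃(m)`**. -/
theorem card_reps_four (m : ℕ) : (reps (4 * m)).card = (reps m).card := by
  have hsq : ∀ t : ℤ, ((2 : ℤ) ∣ t ∧ t ^ 2 % 4 = 0) ∨ t ^ 2 % 4 = 1 := fun t => by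
    obtain ⟨w, rfl | rfl⟩ := Int.even_or_odd' t
    · exact Or.inl ⟨dvd_mul_right 2 w, by ring_nf; omega⟩
    · exact Or.inr (by ring_nf; omega)
  have heven : ∀ v ∈ reps (4 * m), (2 : ℤ) ∣ v.1 ∧ (2 : ℤ) ∣ v.2.1 ∧ (2 : ℤ) ∣ v.2.2 :=
      fun v hv => by
    rw [mem_reps] at hv
    push_cast at hv
    have := hsq v.1; have := hsq v.2.1; have := hsq v.2.2
    omega
  refine Finset.card_nbij' (fun v => (v.1 / 2, v.2.1 / 2, v.2.2 / 2))
    (fun v => (2 * v.1, 2 * v.2.1, 2 * v.2.2)) ?_ ?_ ?_ ?_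
  all_goals intro v hv
  · obtain ⟨⟨a, ha⟩, ⟨b, hb⟩, ⟨c, hc⟩⟩ := heven v hv
    simp only [Finset.mem_coe, mem_reps, ha, hb, hc] at hv ⊢
    push_cast at hv
    simp only [Int.mul_ediv_cancel_left _ two_ne_zero]
    linarith
  · simp only [Finset.mem_coe, mem_reps] at hv ⊢
    push_cast
    linear_combination 4 * hv
  · obtain ⟨⟨a, ha⟩, ⟨b, hb⟩, ⟨c, hc⟩⟩ := heven v hv
    simp [Prod.ext_iff, ha, hb, hc]
  · simp

/-- **Nothing is represented in the class `7 (mod 8)`.** -/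
theorem card_reps_seven {m : ℕ} (hm : m % 8 = 7) : (reps m).card = 0 := by
  rw [Finset.card_eq_zero, Finset.eq_empty_iff_forall_notMem]
  intro v hv
  rw [mem_reps] at hv
  have h := congrArg (fun t : ℤ => (t : ZMod 8)) hv
  push_cast at h
  rw [show (m : ZMod 8) = 7 by rw [← ZMod.natCast_mod, hm]; rfl] at h
  have key : ∀ a b c : ZMod 8, a ^ 2 + b ^ 2 + c ^ 2 ≠ 7 := by decide
  exact key _ _ _ h

end FA.HurwitzQ

end
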